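import Fermat.Agent.S26A.Bd0

/-!
# The bound for the dimension of a space of functions, abstract form
-/

set_option autoImplicit false

universe u v

namespace Fermat.Agent.S26A

open Module

/-- abstract levels: fields with generic points and translations -/
structure BLev (K F : Type u) [Field K] [Field F] [Algebra K F] (C : Type v)
    (P : C → Type v) where
  /-- levels -/
  Lv : Type (u + 1)
  /-- the field of a level -/
  fld : Lv → Type u
  [fFld : ∀ L, Field (fld L)]
  [fAlg : ∀ L, Algebra K (fld L)]
  /-- generic points -/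
  G : Lv → Type u
  ev : ∀ {L}, G L → F → fld L
  /-- translation by a rational point of a curve -/
  tr : ∀ {L} (c : C), P c → G L → G L
  /-- the next level -/
  nxt : C → Lv → Lv
  emb : ∀ c L, fld L →+* fld (nxt c L)
  nx : ∀ (c : C) {L}, G L → G (nxt c L)
  nx_tr : ∀ (c c' : C) (p : P c') {L} (w : G L), nx c (tr c' p w) = tr c' p (nx c w)

attribute [instance] BLev.fFld BLev.fAlg

namespace BLev

variable {K F : Type u} [Field K] [Field F] [Algebra K F] {C : Type v} {P : C → Type v}
  (X : BLev K F C P)

/-- the result of adding generic points of the curves of a list -/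
inductive Op (L : X.Lv) : List C → (L' : X.Lv) → (X.fld L →+* X.fld L') → (X.G L → X.G L') → Prop
  | nil : Op L [] L (RingHom.id _) id
  | cons (c : C) {Cs : List C} {L' : X.Lv} {φ : X.fld L →+* X.fld L'} {T : X.G L → X.G L'}
      (h : Op L Cs L' φ T) :
      Op L (c :: Cs) (X.nxt c L') ((X.emb c L').comp φ) (fun w => X.nx c (T w))

theorem exists_op (L : X.Lv) (Cs : List C) : ∃ L' φ T, X.Op L Cs L' φ T := by
  induction Cs with
  | nil => exact ⟨_, _, _, Op.nil⟩
  | cons c Cs ih =>
    obtain ⟨L', φ, T, h⟩ := ih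
    exact ⟨_, _, _, Op.cons c h⟩

variable {X}

theorem Op.tr {L L' : X.Lv} {Cs : List C} {φ : X.fld L →+* X.fld L'} {T : X.G L → X.G L'}
    (h : X.Op L Cs L' φ T) (c : C) (p : P c) (w : X.G L) : T (X.tr c p w) = X.tr c p (T w) := by
  induction h with
  | nil => rfl
  | cons c' _ ih =>
    change X.nx c' _ = X.tr c p (X.nx c' _)
    rw [ih, X.nx_tr]

variable (X) in
/-- the zero test: a combination of the functions `f` vanishing at more points than the number of
the poles is zero -/
def ZeroTest {ν : Type*} [Fintype ν] (f : ν → F) (c : C) (e : ℕ) : Prop :=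
  ∀ {L : X.Lv} (w : X.G L) (p : Fin (e + 1) → P c), Function.Injective p →
    ∀ a : ν → X.fld L, (∀ k, ∑ i, a i * X.ev (X.tr c (p k) w) (f i) = 0) →
      ∑ i, X.emb c L (a i) * X.ev (X.nx c w) (f i) = 0

variable {ν : Type*} [Fintype ν] (f : ν → F)

/-- relations over a smaller field -/
def relF {L M : Type*} [Field L] [Field M] (φ : L →+* M) (b : ν → M) : Submodule L (ν → L) where
  carrier := {a | ∑ i, φ (a i) * b i = 0}
  zero_mem' := by simp
  add_mem' {x y} hx hy := by
    change ∑ i, φ (x i) * b i = 0 at hx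
    change ∑ i, φ (y i) * b i = 0 at hy
    change ∑ i, φ ((x + y) i) * b i = 0
    simp only [Pi.add_apply, map_add, add_mul, Finset.sum_add_distrib, hx, hy, add_zero]
  smul_mem' c x hx := by
    change ∑ i, φ (x i) * b i = 0 at hx
    change ∑ i, φ ((c • x) i) * b i = 0
    simp only [Pi.smul_apply, smul_eq_mul, map_mul, mul_assoc, ← Finset.mul_sum, hx, mul_zero]

theorem mem_relF {L M : Type*} [Field L] [Field M] {φ : L →+* M} {b : ν → M} {a : ν → L} :
    a ∈ relF φ b ↔ ∑ i, φ (a i) * b i = 0 := Iff.rfl

/-- **the bound for the codimension of the relations** -/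
theorem Op.codim {e : C → ℕ} (hP : ∀ c, Infinite (P c)) {L L' : X.Lv} {Cs : List C}
    (hz : ∀ c ∈ Cs, X.ZeroTest f c (e c))
    {φ : X.fld L →+* X.fld L'} {T : X.G L → X.G L'} (h : X.Op L Cs L' φ T) (w : X.G L) :
    finrank (X.fld L) ((ν → X.fld L) ⧸ relF φ (fun i => X.ev (T w) (f i))) ≤
      (Cs.map fun c => e c + 1).prod := by
  induction h generalizing w with
  | nil =>
    rw [List.map_nil, List.prod_nil]
    let ψ : (ν → X.fld L) →ₗ[X.fld L] X.fld L :=
      ∑ i, (X.ev w (f i)) • LinearMap.proj i
    have h1 : LinearMap.ker ψ ≤ relF (RingHom.id _) (fun i => X.ev (id w) (f i)) := by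
      intro a ha
      rw [LinearMap.mem_ker] at ha
      rw [mem_relF]
      simp only [ψ, LinearMap.sum_apply, LinearMap.smul_apply, LinearMap.proj_apply,
        smul_eq_mul] at ha
      rw [← ha]
      exact Finset.sum_congr rfl fun i _ => mul_comm _ _
    exact (LinearMap.finrank_le_finrank_of_surjective (f := Submodule.factor h1)
      (Submodule.factor_surjective h1)).trans (finrank_quot_ker_le_one ψ)
  | @cons c Cs L' φ T h ih =>
    rw [List.map_cons, List.prod_cons]
    obtain ⟨p⟩ : Nonempty (Fin (e c + 1) ↪ P c) := by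
      have := hP c
      exact ⟨(Fin.valEmbedding).trans (Infinite.natEmbedding (P c))⟩
    have h1 : ⨅ k, relF φ (fun i => X.ev (T (X.tr c (p k) w)) (f i)) ≤
        relF ((X.emb c L').comp φ) (fun i => X.ev (X.nx c (T w)) (f i)) := by
      intro a ha
      rw [Submodule.mem_iInf] at ha
      rw [mem_relF]
      refine hz c List.mem_cons_self (T w) p p.injective (fun i => φ (a i)) fun k => ?_
      have h2 := ha k
      rw [mem_relF] at h2
      rw [h.tr] at h2
      exact h2
    have h3 := finrank_quot_le_mul _ _ h1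
      (fun k => ih (fun c hc => hz c (List.mem_cons_of_mem _ hc)) (X.tr c (p k) w))
    rwa [Fintype.card_fin] at h3

/-- **the bound for the number of independent functions** -/
theorem Op.card_le {e : C → ℕ} (hP : ∀ c, Infinite (P c)) {L L' : X.Lv} {Cs : List C}
    (hz : ∀ c ∈ Cs, X.ZeroTest f c (e c))
    {φ : X.fld L →+* X.fld L'} {T : X.G L → X.G L'} (h : X.Op L Cs L' φ T) (w : X.G L)
    (hind : ∀ a : ν → X.fld L, ∑ i, φ (a i) * X.ev (T w) (f i) = 0 → a = 0) :
    Fintype.card ν ≤ (Cs.map fun c => e c + 1).prod := by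
  refine le_trans ?_ (h.codim f hP hz w)
  have h1 : relF φ (fun i => X.ev (T w) (f i)) = ⊥ := by
    rw [eq_bot_iff]
    intro a ha
    exact hind a ha
  rw [h1, LinearEquiv.finrank_eq (Submodule.quotEquivOfEqBot _ rfl), finrank_pi]

end BLev

end Fermat.Agent.S26A
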