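import Fermat.Agent.S26A.Gr2

/-!
# The upper bound
-/

set_option autoImplicit false
set_option linter.style.haveILetI false
set_option linter.unusedSectionVars false

noncomputable section

namespace Fermat.Agent.S26A

universe u

open IntermediateField

/-- the statement of `AVar.bound` -/
def BoundSt {K : Type u} [Field K] {g : ℕ} (A : AVar K g) (T : ∀ j, CT K (A.FC j)) : Prop :=
  ∀ {ν : Type} [Fintype ν] (f : ν → A.F), LinearIndependent K f → ∀ e : Fin g → ℕ,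
    (∀ j (c : ν → K), ∑ i, c i • f i ≠ 0 → ∀ {L : Type u} [Field L] [Algebra K L] [IsAlgClosed L]
      (w : A.P L), A.Gen w → AVar.dg (AVar.Zd (T j) w 1 (∑ i, c i • f i)) ≤ e j) →
    Fintype.card ν ≤ ∏ j, (e j + 1)

/-- the data of the eigenfunctions -/
structure Eig {K F : Type u} [Field K] [Field F] [Algebra K F] {H : Type u} [AddCommGroup H]
    (τ : H → F →ₐ[K] F) (ι : Type) [Fintype ι] where
  χ : ι → H → K
  u : ι → F
  p : ι → F →ₗ[K] F
  card : Fintype.card ι = Nat.card H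
  u_ne : ∀ i, u i ≠ 0
  χ_ne : ∀ i a, χ i a ≠ 0
  tau_u : ∀ i a, τ a (u i) = algebraMap K F (χ i a) * u i
  ind : ∀ r : ι → F, (∀ i a, τ a (r i) = r i) → ∑ i, r i * u i = 0 → r = 0
  sum_p : ∀ f, ∑ i, p i f = f
  tau_p : ∀ i a f, τ a (p i f) = algebraMap K F (χ i a) * p i f
  p_eq : ∀ i f, ∃ c : H → K, p i f = ∑ᶠ a, algebraMap K F (c a) * τ a f

namespace AVar

variable {K : Type u} [Field K] [IsAlgClosed K] {g : ℕ} (A : AVar K g)
  (T : ∀ j, CT K (A.FC j))

theorem exists_c {j : Fin g} (T : CT K (A.FC j)) {f : A.F} (hf : f ≠ 0) : ∃ c : ℕ, ∀ n : ℕ, 0 < n →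
    ∀ {L : Type u} [Field L] [Algebra K L] [IsAlgClosed L] {w : A.P L}, A.Gen w →
      dg (Zd T w n f) ≤ c * n ^ 2 := by
  obtain ⟨α, β, h⟩ := degree_quadratic T hf
  obtain ⟨c, hc⟩ := exists_nat_ge (|α| + |β|)
  refine ⟨c, fun n hn L _ _ _ w hw => ?_⟩
  have h1 := h hw n
  have h2 : (dg (Zd T w n f) : ℚ) ≤ ((c * n ^ 2 : ℕ) : ℚ) := by
    rw [h1]
    push_cast
    have hn1 : (1 : ℚ) ≤ n := by exact_mod_cast hn
    have h3 : α * (n : ℚ) ^ 2 ≤ |α| * (n : ℚ) ^ 2 :=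
      mul_le_mul_of_nonneg_right (le_abs_self α) (by positivity)
    have h4 : β * (n : ℚ) ≤ |β| * (n : ℚ) ^ 2 := by
      have h5 : β * (n : ℚ) ≤ |β| * (n : ℚ) := mul_le_mul_of_nonneg_right (le_abs_self β) (by positivity)
      have h6 : |β| * (n : ℚ) ≤ |β| * (n : ℚ) ^ 2 :=
        mul_le_mul_of_nonneg_left (by nlinarith) (abs_nonneg β)
      linarith
    have h7 : (|α| + |β|) * (n : ℚ) ^ 2 ≤ c * (n : ℚ) ^ 2 :=
      mul_le_mul_of_nonneg_right hc (by positivity)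
    linarith
  exact_mod_cast h2

theorem exists_tb : ∃ x : Fin g → A.F, AlgebraicIndependent K x := by
  have h : (g : ℕ∞) ≤ rkS K (Set.univ : Set A.F) := by rw [A.rk_univ]
  obtain ⟨v, -, hv⟩ := le_rkS_iff.1 h
  exact ⟨v, hv⟩

/-- the inequality for a given `k` -/
theorem upper_aux (hB : BoundSt A T) {x : Fin g → A.F} (hx : AlgebraicIndependent K x)
    {n : ℕ} (hn : (n : K) ≠ 0) (H : AddSubgroup (A.P K)) (hH : ∀ a ∈ H, n • a = 0)
    {ι : Type} [Fintype ι] (E : Eig (fun a : H => A.tau (a : A.P K)) ι) (c B : Fin g → ℕ)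
    (hc : ∀ j, ∀ {L : Type u} [Field L] [Algebra K L] [IsAlgClosed L] {w : A.P L}, A.Gen w →
      ∑ i, dg (Zd (T j) w n (x i)) ≤ c j)
    (hBj : ∀ j, ∀ {L : Type u} [Field L] [Algebra K L] [IsAlgClosed L] {w : A.P L}, A.Gen w →
      ∑ i, dg (Zd (T j) w 1 (E.u i)) ≤ B j) (k : ℕ) :
    Fintype.card ι * (k + 1) ^ g ≤ ∏ j, (B j + k * c j + 1) := by
  classical
  let f : ι × (Fin g → Fin (k + 1)) → A.F := fun s =>
    E.u s.1 * A.nu n hn (∏ i, x i ^ (s.2 i : ℕ))
  have hτ : ∀ (a : H) (y : A.F), A.tau (a : A.P K) (A.nu n hn y) = A.nu n hn y :=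
    fun a y => A.tau_nu n hn (hH a a.2) y
  have hf : LinearIndependent K f := by
    rw [Fintype.linearIndependent_iff]
    intro d hd
    have h1 : ∀ s : ι, A.nu n hn (∑ α : Fin g → Fin (k + 1), d (s, α) • ∏ i, x i ^ (α i : ℕ)) = 0 := by
      have h2 := E.ind (fun s => A.nu n hn (∑ α : Fin g → Fin (k + 1),
        d (s, α) • ∏ i, x i ^ (α i : ℕ))) (fun i a => hτ a _) ?_
      · intro s
        exact congrFun h2 s
      · rw [← hd, Fintype.sum_prod_type]
        refine Finset.sum_congr rfl fun s _ => ?_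
        rw [map_sum, Finset.sum_mul]
        refine Finset.sum_congr rfl fun α _ => ?_
        rw [map_smul, smul_mul_assoc, mul_comm]
    have h3 : ∀ s : ι, ∑ α : Fin g → Fin (k + 1), d (s, α) • ∏ i, x i ^ (α i : ℕ) = 0 :=
      fun s => (A.nu n hn).injective (by rw [map_zero]; exact h1 s)
    rintro ⟨s, α⟩
    let mon : (Fin g → Fin (k + 1)) → (Fin g →₀ ℕ) := fun α =>
      Finsupp.equivFunOnFinite.symm fun i => (α i : ℕ)
    have hmon : Function.Injective mon := by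
      intro α β h
      have h4 := Finsupp.equivFunOnFinite.symm.injective h
      funext i
      exact Fin.ext (congrFun h4 i)
    let P : MvPolynomial (Fin g) K := ∑ α : Fin g → Fin (k + 1),
      MvPolynomial.monomial (mon α) (d (s, α))
    have hP : MvPolynomial.aeval x P = 0 := by
      rw [← h3 s, map_sum]
      refine Finset.sum_congr rfl fun α _ => ?_
      rw [MvPolynomial.aeval_monomial, Algebra.smul_def]
      congr 1
      rw [Finsupp.prod_fintype _ _ (fun i => pow_zero _)]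
      rfl
    have hP0 : P = 0 := (algebraicIndependent_iff.1 hx) P hP
    have h5 : P.coeff (mon α) = d (s, α) := by
      rw [MvPolynomial.coeff_sum, Finset.sum_eq_single α]
      · rw [MvPolynomial.coeff_monomial, if_pos rfl]
      · intro β _ hβ
        rw [MvPolynomial.coeff_monomial, if_neg (fun h => hβ (hmon h))]
      · intro h
        exact absurd (Finset.mem_univ _) h
    rw [← h5, hP0, MvPolynomial.coeff_zero]
  have h1 := hB f hf (fun j => B j + k * c j) ?_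
  · rw [Fintype.card_prod, Fintype.card_fun, Fintype.card_fin, Fintype.card_fin] at h1
    exact h1
  intro j d hd L _ _ _ w hw
  let D : Pl K (A.FC j) L →₀ ℤ := ∑ i, Pd (T j) w 1 (E.u i) + k • ∑ i, Pd (T j) w 1 (A.nu n hn (x i))
  have hD0 : 0 ≤ D := add_nonneg (Finset.sum_nonneg fun i _ => Pd_nonneg _ _ _)
    (nsmul_nonneg (Finset.sum_nonneg fun i _ => Pd_nonneg _ _ _) _)
  have hG := gen_wc (T j) hw 1
  have hb : Bdd (T j) D (A.val (wc (T j) w 1) hG (∑ i, d i • f i)) := by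
    rw [map_sum]
    refine bdd_sum _ fun s _ => ?_
    rw [map_smul, Algebra.smul_def]
    have h2 : Bdd (T j) D (A.val (wc (T j) w 1) hG (f s)) := by
      change Bdd (T j) D (A.val _ hG (E.u s.1 * A.nu n hn (∏ i, x i ^ (s.2 i : ℕ))))
      rw [map_mul]
      have h3 : Bdd (T j) (∑ i, (s.2 i : ℕ) • Pd (T j) w 1 (A.nu n hn (x i)))
          (A.val _ hG (A.nu n hn (∏ i, x i ^ (s.2 i : ℕ)))) := by
        rw [map_prod, map_prod]
        refine bdd_prod _ fun i _ => ?_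
        rw [map_pow, map_pow]
        exact (bdd_Pd hG _).pow _
      refine ((bdd_Pd hG (E.u s.1)).mul h3).mono (add_le_add ?_ ?_)
      · exact Finset.single_le_sum (f := fun i => Pd (T j) w 1 (E.u i))
          (fun i _ => Pd_nonneg _ _ _) (Finset.mem_univ s.1)
      · rw [Finset.smul_sum]
        refine Finset.sum_le_sum fun i _ => ?_
        exact nsmul_le_nsmul_left (Pd_nonneg _ _ _) (by have := (s.2 i).2; omega)
    have h4 := (bdd_alg (T := T j) (L := L) (D := 0) le_rfl (d s)).mul h2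
    rwa [zero_add] at h4
  have h5 := dg_Zd_le hG hd hD0 hb
  refine h5.trans ?_
  have h6 : dg D = ∑ i, dg (Zd (T j) w 1 (E.u i)) + k * ∑ i, dg (Zd (T j) (n • w) n (x i)) := by
    rw [dg_add7, dg_sum, dg_nsmul, dg_sum]
    have e1 : ∑ i, dg (Pd (T j) w 1 (E.u i)) = ∑ i, dg (Zd (T j) w 1 (E.u i)) :=
      Finset.sum_congr rfl fun i _ => dg_Pd hG _
    have e2 : ∑ i, dg (Pd (T j) w 1 (A.nu n hn (x i))) = ∑ i, dg (Zd (T j) (n • w) n (x i)) := by
      refine Finset.sum_congr rfl fun i _ => ?_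
      rw [dg_Pd hG, Zd_nu n hn hw, mul_one]
    rw [e1, e2]
  rw [h6]
  push_cast
  have h7 := hBj j hw
  have h8 := hc j (A.gen_nsmul n hn hw)
  have h9 : (k : ℤ) * ∑ i, dg (Zd (T j) (n • w) n (x i)) ≤ k * c j :=
    mul_le_mul_of_nonneg_left h8 (by positivity)
  linarith

theorem dg_Zd_nonneg {j : Fin g} (T : CT K (A.FC j)) {L : Type u} [Field L] [Algebra K L]
    [IsAlgClosed L] (w : A.P L) (m : ℤ) (f : A.F) : 0 ≤ dg (Zd T w m f) := by
  refine dg_nonneg ?_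
  rw [Zd]
  split_ifs
  · exact le_sup_right
  · exact le_rfl

/-- **the upper bound** -/
theorem upper (hB : BoundSt A T)
    (hE : ∀ (n : ℕ), (n : K) ≠ 0 → ∀ (H : AddSubgroup (A.P K)) [Finite H], (∀ a ∈ H, n • a = 0) →
      ∃ (ι : Type) (_ : Fintype ι), Nonempty (Eig (fun a : H => A.tau (a : A.P K)) ι)) :
    ∃ C : ℕ, ∀ n : ℕ, 0 < n → (n : K) ≠ 0 → ∀ (H : AddSubgroup (A.P K)) [Finite H],
      (∀ a ∈ H, n • a = 0) → Nat.card H ≤ C * n ^ (2 * g) := by
  classical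
  obtain ⟨x, hx⟩ := A.exists_tb
  have hx0 : ∀ i, x i ≠ 0 := fun i => hx.ne_zero i
  choose c hc using fun (j : Fin g) (i : Fin g) => A.exists_c (T j) (hx0 i)
  refine ⟨∏ j, (1 + ∑ i, c j i), fun n hn0 hn H _ hH => ?_⟩
  obtain ⟨ι, _, ⟨E⟩⟩ := hE n hn H hH
  let B : Fin g → ℕ := fun j => (∑ i, qd (T j) (E.u i) 1).toNat
  have hBj : ∀ j, ∀ {L : Type u} [Field L] [Algebra K L] [IsAlgClosed L] {w : A.P L}, A.Gen w →
      ∑ i, dg (Zd (T j) w 1 (E.u i)) ≤ B j := by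
    intro j L _ _ _ w hw
    have h1 : ∑ i, dg (Zd (T j) w 1 (E.u i)) = ∑ i, qd (T j) (E.u i) 1 :=
      Finset.sum_congr rfl fun i _ => dg_eq_qd (T j) hw 1 (E.u_ne i)
    rw [h1]
    exact Int.self_le_toNat _
  have hcj : ∀ j, ∀ {L : Type u} [Field L] [Algebra K L] [IsAlgClosed L] {w : A.P L}, A.Gen w →
      ∑ i, dg (Zd (T j) w n (x i)) ≤ ((n ^ 2 * ∑ i, c j i : ℕ) : ℤ) := by
    intro j L _ _ _ w hw
    push_cast
    rw [Finset.mul_sum]
    refine Finset.sum_le_sum fun i _ => ?_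
    rw [mul_comm]
    exact hc j i n hn0 hw
  obtain ⟨k, hk⟩ : ∃ k : ℕ, ∀ j, B j ≤ k :=
    ⟨∑ j, B j, fun j => Finset.single_le_sum (fun _ _ => Nat.zero_le _) (Finset.mem_univ j)⟩
  have h2 := A.upper_aux T hB hx hn H hH E (fun j => n ^ 2 * ∑ i, c j i) B hcj hBj k
  have h3 : ∏ j, (B j + k * (n ^ 2 * ∑ i, c j i) + 1) ≤
      ∏ j : Fin g, ((k + 1) * ((1 + ∑ i, c j i) * n ^ 2)) := by
    refine Finset.prod_le_prod' fun j _ => ?_
    have h4 := hk j
    have h5 : 1 ≤ n ^ 2 := Nat.one_le_pow _ _ hn0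
    have h6 : k + 1 ≤ (k + 1) * n ^ 2 := Nat.le_mul_of_pos_right _ (by omega)
    calc B j + k * (n ^ 2 * ∑ i, c j i) + 1 ≤ (k + 1) * n ^ 2 + (k + 1) * (n ^ 2 * ∑ i, c j i) := by
          have : k * (n ^ 2 * ∑ i, c j i) ≤ (k + 1) * (n ^ 2 * ∑ i, c j i) :=
            Nat.mul_le_mul_right _ (Nat.le_succ k)
          omega
      _ = (k + 1) * ((1 + ∑ i, c j i) * n ^ 2) := by ring
  rw [Finset.prod_mul_distrib, Finset.prod_const, Finset.card_univ, Fintype.card_fin,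
    Finset.prod_mul_distrib, Finset.prod_const, Finset.card_univ, Fintype.card_fin, ← pow_mul] at h3
  have h7 : Fintype.card ι * (k + 1) ^ g ≤ ((∏ j, (1 + ∑ i, c j i)) * n ^ (2 * g)) * (k + 1) ^ g := by
    rw [mul_comm ((∏ j, (1 + ∑ i, c j i)) * n ^ (2 * g))]
    exact h2.trans h3
  have h8 := Nat.le_of_mul_le_mul_right h7 (pow_pos (Nat.succ_pos k) g)
  rw [← E.card]
  exact h8

end AVar

end Fermat.Agent.S26A
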