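import Fermat.Agent.S26A.Ld

/-!
# Functions at a point generic over `L` are linearly disjoint from `L`
-/

set_option autoImplicit false
set_option linter.style.haveILetI false
set_option linter.unusedSectionVars false

noncomputable section

namespace Fermat.Agent.S26A

universe u

open AlgebraicIndependent

section rank

variable {K L M : Type u} [Field K] [Field L] [Field M] [Algebra K L] [Algebra K M]

theorem exists_basis7 {n : ℕ} {S : Set L} (h : rkS K S = n) :
    ∃ b : Fin n → L, (∀ i, b i ∈ S) ∧ AlgebraicIndependent K b ∧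
      ∀ x ∈ S, IsAlgebraic (Algebra.adjoin K (Set.range b)) x := by
  obtain ⟨I, hI⟩ := (matroid K L).exists_isBasis S (by rw [matroid_e]; exact Set.subset_univ _)
  have hc : I.encard = n := by rw [← hI.eRk_eq_encard]; exact h
  have hf : I.Finite := Set.finite_of_encard_eq_coe hc
  have hn : Nat.card I = n := by
    have h1 := hf.encard_eq_coe_toFinset_card
    rw [h1] at hc
    have h2 : hf.toFinset.card = n := by exact_mod_cast hc
    rw [← h2, Nat.card_coe_set_eq, Set.ncard_eq_toFinset_card I hf]
  haveI := hf.to_subtype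
  let e : Fin n ≃ I := (Finite.equivFinOfCardEq hn).symm
  obtain ⟨h1, h2, h3⟩ := matroid_isBasis_iff.1 hI
  refine ⟨fun i => e i, fun i => h2 (e i).2, h1.comp _ e.injective, fun x hx => ?_⟩
  have h4 : Set.range (fun i => ((e i : I) : L)) = I := by
    ext a
    constructor
    · rintro ⟨i, rfl⟩
      exact (e i).2
    · intro ha
      exact ⟨e.symm ⟨a, ha⟩, by simp⟩
  rw [h4]
  exact h3 x hx

theorem indep7 {ι : Type*} [Fintype ι] (c : ι → L)
    (h : (Fintype.card ι : ℕ∞) ≤ rkS K (Set.range c)) : AlgebraicIndependent K c := by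
  have hu : (Set.univ : Set ι).encard = Fintype.card ι := by
    rw [Set.encard_univ]; simp
  have h1 : (Set.range c).encard ≤ Fintype.card ι := by
    rw [← Set.image_univ, ← hu]
    exact Set.encard_image_le c Set.univ
  have h2 : rkS K (Set.range c) ≤ (Set.range c).encard := Matroid.eRk_le_encard _ _
  have h3 : (Set.range c).encard = Fintype.card ι := le_antisymm h1 (h.trans h2)
  have h4 : rkS K (Set.range c) = (Set.range c).encard := le_antisymm h2 (h3.le.trans h)
  have hI : (matroid K L).Indep (Set.range c) :=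
    (Matroid.indep_iff_eRk_eq_encard_of_finite (Set.finite_range c)).2 h4
  have hinj : Function.Injective c := by
    rw [← Set.injOn_univ]
    refine Set.Finite.injOn_of_encard_image_eq (Set.toFinite _) ?_
    rw [Set.image_univ, h3, hu]
  rw [matroid_indep_iff] at hI
  have h5 : Function.Injective (Set.rangeFactorization c) := fun a b hab =>
    hinj (congrArg Subtype.val hab)
  have h6 : AlgebraicIndependent K (fun x : Set.range c => (x : L)) := hI
  have h7 : AlgebraicIndependent K
      ((fun x : Set.range c => (x : L)) ∘ Set.rangeFactorization c) := h6.comp _ h5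
  exact h7

theorem alg_image7 (σ : L →ₐ[K] M) {B : Set L} {l : L} (h : IsAlgebraic (Algebra.adjoin K B) l)
    {T : Set M} (hT : ∀ x ∈ B, σ x ∈ T) : IsAlgebraic (Algebra.adjoin K T) (σ l) := by
  have h1 : ∀ x : Algebra.adjoin K B, σ (x : L) ∈ Algebra.adjoin K T := by
    intro x
    have h2 : Algebra.adjoin K B ≤ (Algebra.adjoin K T).comap σ :=
      Algebra.adjoin_le fun b hb => Algebra.subset_adjoin (hT b hb)
    exact h2 x.2
  let j : Algebra.adjoin K B →ₐ[K] Algebra.adjoin K T :=
    (σ.comp (Algebra.adjoin K B).val).codRestrict _ h1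
  refine h.ringHom_of_comp_eq j.toRingHom σ.toRingHom ?_ ?_
  · intro x x' hx
    have : σ (x : L) = σ (x' : L) := congrArg Subtype.val hx
    exact Subtype.ext (σ.toRingHom.injective this)
  · rfl

end rank

namespace AVar

variable {K : Type u} [Field K] [IsAlgClosed K] {g : ℕ} (A : AVar K g)
  {L L' : Type u} [Field L] [Algebra K L] [Field L'] [Algebra K L']

theorem vals_zero7 (E : IntermediateField K L) : A.vals (0 : A.P L) ⊆ E := by
  have h := A.vals_inc_subset E 0
  rwa [map_zero] at h

theorem vals_sum7 {ι : Type*} (s : Finset ι) {x : ι → A.P L} {E : IntermediateField K L}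
    (h : ∀ i ∈ s, A.vals (x i) ⊆ E) : A.vals (∑ i ∈ s, x i) ⊆ E := by
  classical
  induction s using Finset.induction_on with
  | empty =>
    rw [Finset.sum_empty]
    exact A.vals_zero7 E
  | insert i s hi ih =>
    rw [Finset.sum_insert hi]
    exact A.vals_add (h i (Finset.mem_insert_self i s))
      (ih fun k hk => h k (Finset.mem_insert_of_mem hk))

theorem exists_t7 (j : Fin g) : ∃ b : Fin 1 → A.FC j,
    ∀ x : A.FC j, IsAlgebraic (Algebra.adjoin K (Set.range b)) x := by
  have h1 : rkS K (Set.univ : Set (A.FC j)) = (1 : ℕ) := by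
    refine le_antisymm rk_curve_univ ?_
    obtain ⟨t, ht, -⟩ := (A.ffC j).out
    exact le_rkS_iff.2 ⟨fun _ => t, fun _ => Set.mem_univ _,
      (algebraicIndependent_unique_type_iff (ι := Fin 1)).2 ht⟩
  obtain ⟨b, -, -, hb⟩ := exists_basis7 h1
  exact ⟨b, fun x => hb x (Set.mem_univ _)⟩

/-- **functions at `w + Σ ι_j(z_j)` are linearly disjoint from `L ∋ w`** -/
theorem hind (φ : L →ₐ[K] L') {r : ℕ} (hL : rkS K (Set.univ : Set L) = r) (w : A.P L)
    (z : ∀ j, A.FC j →ₐ[K] L')
    (hz : ((r + g : ℕ) : ℕ∞) ≤ rkS K (Set.range φ ∪ ⋃ j, Set.range (z j))) {x : A.P L'}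
    (hx : x = A.inc φ w + ∑ j, A.pl (Pl.ofHom (z j)) (A.ι j)) (hg : A.Gen x) {ν : Type*}
    [Fintype ν] (f : ν → A.F) (hf : LinearIndependent K f) (a : ν → L)
    (h : ∑ i, φ (a i) * A.val x hg (f i) = 0) : a = 0 := by
  classical
  obtain ⟨b, -, hb, hb'⟩ := exists_basis7 hL
  choose b1 hb1 using fun j => A.exists_t7 j
  let t : ∀ j, A.FC j := fun j => b1 j 0
  have ht : ∀ (j : Fin g) (l : A.FC j), IsAlgebraic (Algebra.adjoin K (Set.range (b1 j))) l :=
    fun j l => hb1 j l
  have ht' : ∀ (j : Fin g) (l : A.FC j), l ∈ Set.range (b1 j) → l = t j := by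
    rintro j _ ⟨i, rfl⟩
    rw [Subsingleton.elim i 0]
  set Z' : Set L' := ⋃ j, Set.range (z j) with hZ'
  -- independence of the generic points
  have h1 : AlgebraicIndependent K (Sum.elim (φ ∘ b) (fun j => z j (t j))) := by
    refine indep7 _ ?_
    rw [Fintype.card_sum, Fintype.card_fin, Fintype.card_fin]
    refine hz.trans (rkS_eq_of_subset_closure ?_)
    rintro y (⟨l, rfl⟩ | hy)
    · refine alg_image7 φ (hb' l (Set.mem_univ _)) ?_
      rintro _ ⟨i, rfl⟩
      exact ⟨Sum.inl i, rfl⟩
    · rw [hZ', Set.mem_iUnion] at hy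
      obtain ⟨j, l, rfl⟩ := hy
      refine alg_image7 (z j) (ht j l) ?_
      intro l' hl'
      rw [ht' j l' hl']
      exact ⟨Sum.inr j, rfl⟩
  have h2 : AlgebraicIndependent K (fun j => z j (t j)) := by
    have := h1.comp Sum.inr Sum.inr_injective
    exact this
  set Y : A.P L' := ∑ j, A.pl (Pl.ofHom (z j)) (A.ι j) with hY
  have hgY : A.Gen Y := A.sum_gen z t h2
  -- ranks
  have h3 : A.vals Y ⊆ IntermediateField.adjoin K Z' := by
    refine A.vals_sum7 _ fun j _ => ?_
    refine (vals_pt _).trans ?_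
    rintro _ ⟨c, hc⟩
    rw [hc.uniq (Pl.ofHom_at (z j) c)]
    exact IntermediateField.subset_adjoin K _ (Set.mem_iUnion.2 ⟨j, c, rfl⟩)
  have h4 : rkS K Z' ≤ g := by
    have h5 : rkS K Z' ≤ rkS K (Set.range fun j => z j (t j)) := by
      refine rkS_eq_of_subset_closure ?_
      intro y hy
      rw [hZ', Set.mem_iUnion] at hy
      obtain ⟨j, l, rfl⟩ := hy
      refine alg_image7 (z j) (ht j l) ?_
      intro l' hl'
      rw [ht' j l' hl']
      exact ⟨j, rfl⟩
    refine h5.trans ((Matroid.eRk_le_encard _ _).trans ?_)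
    rw [← Set.image_univ]
    refine (Set.encard_image_le _ _).trans ?_
    rw [Set.encard_univ]; simp
  have h5 : rkS K (A.vals Y ∪ Z') ≤ rkS K (A.vals Y) := by
    rw [A.rk_of_gen hgY]
    refine (rkS_le_of_subset_adjoin ?_).trans h4
    exact Set.union_subset h3 (IntermediateField.subset_adjoin K _)
  have h6 : (matroid K L').closure (A.vals Y) = (matroid K L').closure (A.vals Y ∪ Z') := by
    refine Matroid.IsRkFinite.closure_eq_closure_of_subset_of_eRk_ge_eRk ?_
      Set.subset_union_left h5
    rw [← Matroid.eRk_lt_top_iff]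
    have := A.rk_of_gen hgY
    rw [rkS] at this
    rw [this]
    exact ENat.natCast_lt_top g
  have h7 : ((r + g : ℕ) : ℕ∞) ≤ rkS K (Set.range φ ∪ A.vals Y) := by
    have h8 := Matroid.closure_union_congr_right (M := matroid K L') (X := Set.range φ) h6
    rw [rkS, ← Matroid.eRk_closure_eq, h8, Matroid.eRk_closure_eq]
    exact hz.trans (rkS_mono (Set.union_subset_union_right _ Set.subset_union_right))
  have h8 : ((r + g : ℕ) : ℕ∞) ≤ rkS K (Set.range φ ∪ A.vals x) := by
    refine h7.trans (rkS_le_of_subset_adjoin (Set.union_subset ?_ ?_))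
    · exact Set.subset_union_left.trans (IntermediateField.subset_adjoin K _)
    · have h9 : Y = x - A.inc φ w := by rw [hx, add_sub_cancel_left]
      rw [h9]
      refine A.vals_sub ?_ ?_
      · exact Set.subset_union_right.trans (IntermediateField.subset_adjoin K _)
      · rw [A.vals_inc]
        refine Set.Subset.trans ?_ (Set.subset_union_left.trans (IntermediateField.subset_adjoin K _))
        rintro _ ⟨c, -, rfl⟩
        exact ⟨c, rfl⟩
  obtain ⟨y, -, -, hy⟩ := exists_basis7 A.rk_univ
  have h9 : AlgebraicIndependent K (Sum.elim (φ ∘ b) (A.val x hg ∘ y)) := by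
    refine indep7 _ ?_
    rw [Fintype.card_sum, Fintype.card_fin, Fintype.card_fin]
    refine h8.trans (rkS_eq_of_subset_closure ?_)
    rintro v (⟨l, rfl⟩ | hv)
    · refine alg_image7 φ (hb' l (Set.mem_univ _)) ?_
      rintro _ ⟨i, rfl⟩
      exact ⟨Sum.inl i, rfl⟩
    · rw [A.vals_of_gen hg] at hv
      obtain ⟨l, rfl⟩ := hv
      refine alg_image7 (A.val x hg) (hy l (Set.mem_univ _)) ?_
      rintro _ ⟨i, rfl⟩
      exact ⟨Sum.inr i, rfl⟩
  exact linDisj φ (A.val x hg) b y (fun l => hb' l (Set.mem_univ _)) (fun l => hy l (Set.mem_univ _))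
    h9 f hf a h

end AVar

end Fermat.Agent.S26A
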