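import Fermat.Agent.S26A.Zt
import Fermat.Agent.S26A.Ld2
import Fermat.Agent.S26A.Bd1
import Fermat.Agent.S26A.Gr5

/-!
# The bound
-/

set_option autoImplicit false
set_option linter.style.haveILetI false
set_option linter.unusedSectionVars false

noncomputable section

namespace Fermat.Agent.S26A

universe u

namespace AVar

open BLev (relF mem_relF)

variable {K : Type u} [Field K] [IsAlgClosed K] {g : ℕ} {A : AVar K g}

/-- a curve has infinitely many points -/
theorem infinite_pts7 (j : Fin g) : Infinite (Pl K (A.FC j) K) := by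
  classical
  haveI : Infinite K := IsAlgClosed.instInfinite
  obtain ⟨t, ht, -⟩ := (A.ffC j).out
  have hinj : Function.Injective (Polynomial.aeval t : Polynomial K →ₐ[K] A.FC j) :=
    transcendental_iff_injective.1 ht
  let e0 : Polynomial K ≃ₐ[K] (Polynomial.aeval t : Polynomial K →ₐ[K] A.FC j).range :=
    AlgEquiv.ofInjective _ hinj
  have key : ∀ c : K, ∃ s : Pl K (A.FC j) K, s.At t c := by
    intro c
    let e : (Polynomial.aeval t : Polynomial K →ₐ[K] A.FC j).range →ₐ[K] K :=
      (Polynomial.aeval c).comp e0.symm.toAlgHom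
    obtain ⟨s, hs⟩ := exists_pl _ e
    refine ⟨s, ?_⟩
    have h2 := hs (e0 Polynomial.X)
    have h3 : e (e0 Polynomial.X) = c := by
      change Polynomial.aeval c (e0.symm (e0 Polynomial.X)) = c
      rw [AlgEquiv.symm_apply_apply, Polynomial.aeval_X]
    rw [h3] at h2
    have h4 : ((e0 Polynomial.X : (Polynomial.aeval t : Polynomial K →ₐ[K] A.FC j).range) :
        A.FC j) = t := by
      change Polynomial.aeval t Polynomial.X = t
      rw [Polynomial.aeval_X]
    rw [h4] at h2
    exact h2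
  choose s hs using key
  refine Infinite.of_injective s fun c c' h => ?_
  have h1 := hs c
  rw [h] at h1
  exact h1.uniq (hs c')

theorem vals_ofHom7 {L M : Type u} [Field L] [Algebra K L] [Field M] [Algebra K M]
    (σ : L →ₐ[K] M) : (Pl.ofHom σ).vals = Set.range σ := by
  ext b
  constructor
  · rintro ⟨a, ha⟩
    exact ⟨a, (ha.uniq (Pl.ofHom_at σ a)).symm⟩
  · rintro ⟨a, rfl⟩
    exact ⟨a, Pl.ofHom_at σ a⟩

theorem vals_comp7 {L M N : Type u} [Field L] [Algebra K L] [Field M] [Algebra K M] [Field N]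
    [Algebra K N] (σ : M →ₐ[K] N) (φ : Pl K L M) : ((Pl.ofHom σ).comp φ).vals = σ '' φ.vals := by
  ext b
  constructor
  · rintro ⟨a, ha⟩
    obtain ⟨c, hc, hc'⟩ := Pl.comp_at_iff.1 ha
    exact ⟨c, ⟨a, hc⟩, ((hc'.uniq (Pl.ofHom_at σ c))).symm⟩
  · rintro ⟨c, ⟨a, ha⟩, rfl⟩
    exact ⟨a, Pl.comp_at ha (Pl.ofHom_at σ c)⟩

variable (T : ∀ j, CT K (A.FC j))

/-- the tower -/
theorem exists_tower7 {ν : Type} [Fintype ν] (f : ν → A.F) (hf : LinearIndependent K f)
    (e : Fin g → ℕ)
    (he : ∀ j (c : ν → K), ∑ i, c i • f i ≠ 0 → ∀ {L : Type u} [Field L] [Algebra K L]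
      [IsAlgClosed L] (w : A.P L), A.Gen w → AVar.dg (AVar.Zd (T j) w 1 (∑ i, c i • f i)) ≤ e j)
    (L : Type u) [Field L] [Algebra K L] [IsAlgClosed L] (Cs : Finset (Fin g)) :
    ∃ (L' : Type u) (_ : Field L') (_ : Algebra K L') (_ : IsAlgClosed L') (φ : L →ₐ[K] L')
      (y : ∀ j, Pl K (A.FC j) L'), (∀ j ∈ Cs, ∃ σ, y j = Pl.ofHom σ) ∧
      (∀ S : Set L, rkS K S + (Cs.card : ℕ) ≤ rkS K (φ '' S ∪ ⋃ j ∈ Cs, (y j).vals)) ∧
      ∀ w : A.P L, A.Gen w → ∃ hT : A.Gen (A.inc φ w + ∑ j ∈ Cs, A.pl (y j) (A.ι j)),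
        Module.finrank L ((ν → L) ⧸ relF φ.toRingHom (fun i => A.val _ hT (f i))) ≤
          ∏ j ∈ Cs, (e j + 1) := by
  classical
  induction Cs using Finset.induction_on with
  | empty =>
    refine ⟨L, inferInstance, inferInstance, inferInstance, AlgHom.id K L, fun j => (Pl.ofHom (Algebra.ofId K L)).comp (A.o j),
      fun j hj => absurd hj (Finset.notMem_empty j), fun S => ?_, fun w hw => ?_⟩
    · simp
    · have h1 : A.inc (AlgHom.id K L) w + ∑ j ∈ (∅ : Finset (Fin g)), A.pl ((Pl.ofHom (Algebra.ofId K L)).comp (A.o j)) (A.ι j) = w := by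
        rw [Finset.sum_empty, add_zero]
        exact A.pl_id L w
      have hT : A.Gen (A.inc (AlgHom.id K L) w +
          ∑ j ∈ (∅ : Finset (Fin g)), A.pl ((Pl.ofHom (Algebra.ofId K L)).comp (A.o j)) (A.ι j)) := by rw [h1]; exact hw
      refine ⟨hT, ?_⟩
      rw [Finset.prod_empty]
      let ψ : (ν → L) →ₗ[L] L := ∑ i, (A.val _ hT (f i)) • LinearMap.proj i
      have h1 : LinearMap.ker ψ ≤ relF (AlgHom.id K L).toRingHom (fun i => A.val _ hT (f i)) := by
        intro a ha
        rw [LinearMap.mem_ker] at ha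
        rw [mem_relF]
        simp only [ψ, LinearMap.sum_apply, LinearMap.smul_apply, LinearMap.proj_apply,
          smul_eq_mul] at ha
        rw [← ha]
        exact Finset.sum_congr rfl fun i _ => mul_comm _ _
      exact (LinearMap.finrank_le_finrank_of_surjective (f := Submodule.factor h1)
        (Submodule.factor_surjective h1)).trans (finrank_quot_ker_le_one ψ)
  | insert j0 Cs hj0 ih =>
    obtain ⟨L', _, _, _, φ, y, hy, hrk, hcod⟩ := ih
    let em : (T j0).cur L' →ₐ[K] AlgebraicClosure ((T j0).cur L') :=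
      IsScalarTower.toAlgHom K ((T j0).cur L') (AlgebraicClosure ((T j0).cur L'))
    let ψ : L' →ₐ[K] AlgebraicClosure ((T j0).cur L') := em.comp ((T j0).iL L')
    let y' : ∀ j, Pl K (A.FC j) (AlgebraicClosure ((T j0).cur L')) :=
      Function.update (fun j => (Pl.ofHom ψ).comp (y j)) j0 (Pl.ofHom (em.comp ((T j0).iC L')))
    have hy0 : y' j0 = Pl.ofHom (em.comp ((T j0).iC L')) := Function.update_self _ _ _
    have hy1 : ∀ j ∈ Cs, y' j = (Pl.ofHom ψ).comp (y j) := by
      intro j hj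
      have hne : j ≠ j0 := by
        rintro rfl
        exact hj0 hj
      exact Function.update_of_ne hne _ _
    have hT' : ∀ w : A.P L, A.inc (ψ.comp φ) w + ∑ j ∈ insert j0 Cs, A.pl (y' j) (A.ι j) =
        A.inc em (wc (T j0) (A.inc φ w + ∑ j ∈ Cs, A.pl (y j) (A.ι j)) 1) := by
      intro w
      rw [Finset.sum_insert hj0, wc, one_smul, map_add, map_add, map_add, hy0, A.inc_comp ψ φ]
      have h1 : ∀ v, A.inc em (A.inc ((T j0).iL L') v) = A.inc ψ v := fun v =>
        (A.inc_comp em ((T j0).iL L') v).symm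
      have h2 : A.pl (Pl.ofHom (em.comp ((T j0).iC L'))) (A.ι j0) =
          A.inc em (A.inc ((T j0).iC L') (A.ι j0)) := A.inc_comp em ((T j0).iC L') (A.ι j0)
      have h3 : ∑ j ∈ Cs, A.pl (y' j) (A.ι j) = A.inc ψ (∑ j ∈ Cs, A.pl (y j) (A.ι j)) := by
        rw [map_sum]
        refine Finset.sum_congr rfl fun j hj => ?_
        rw [hy1 j hj, A.pl_comp]
        rfl
      rw [h1, h1, h2, h3]
      abel
    refine ⟨AlgebraicClosure ((T j0).cur L'), inferInstance, inferInstance, inferInstance,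
      ψ.comp φ, y', ?_, ?_, ?_⟩
    · intro j hj
      rcases Finset.mem_insert.1 hj with rfl | hj
      · exact ⟨_, hy0⟩
      · obtain ⟨σ, hσ⟩ := hy j hj
        exact ⟨ψ.comp σ, by rw [hy1 j hj, hσ, Pl.ofHom_comp]⟩
    · intro S
      rw [Finset.card_insert_of_notMem hj0]
      have h1 := rk_cur (T j0) (φ '' S ∪ ⋃ j ∈ Cs, (y j).vals)
      rw [← rkS_image em] at h1
      have h2 : rkS K S + ((Cs.card + 1 : ℕ) : ℕ∞) ≤
          rkS K (φ '' S ∪ ⋃ j ∈ Cs, (y j).vals) + 1 := by
        rw [Nat.cast_add, Nat.cast_one, ← add_assoc]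
        exact add_le_add_left (hrk S) 1
      refine h2.trans (h1.trans (rkS_mono ?_))
      rintro _ ⟨_, ⟨_, (⟨s, hs, rfl⟩ | hs), rfl⟩ | ⟨c, rfl⟩, rfl⟩
      · exact .inl ⟨s, hs, rfl⟩
      · right
        rw [Set.mem_iUnion₂] at hs ⊢
        obtain ⟨j, hj, hs⟩ := hs
        refine ⟨j, Finset.mem_insert_of_mem hj, ?_⟩
        rw [hy1 j hj, vals_comp7]
        exact ⟨_, hs, rfl⟩
      · right
        rw [Set.mem_iUnion₂]
        refine ⟨j0, Finset.mem_insert_self _ _, ?_⟩
        rw [hy0, vals_ofHom7]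
        exact ⟨c, rfl⟩
    · intro w hw
      obtain ⟨hTw, -⟩ := hcod w hw
      have hgw : A.Gen (wc (T j0) (A.inc φ w + ∑ j ∈ Cs, A.pl (y j) (A.ι j)) 1) :=
        gen_wc (T j0) hTw 1
      have hT : A.Gen (A.inc (ψ.comp φ) w + ∑ j ∈ insert j0 Cs, A.pl (y' j) (A.ι j)) := by
        rw [hT']
        exact A.gen_inc em hgw
      refine ⟨hT, ?_⟩
      have := infinite_pts7 (A := A) j0
      let p : Fin (e j0 + 1) → Pl K (A.FC j0) K := fun k =>
        Infinite.natEmbedding (Pl K (A.FC j0) K) k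
      have hp : Function.Injective p := fun a b hab =>
        Fin.ext ((Infinite.natEmbedding (Pl K (A.FC j0) K)).injective hab)
      let wk : Fin (e j0 + 1) → A.P L := fun k => w + A.kst L (A.pl (p k) (A.ι j0))
      have hwk : ∀ k, A.Gen (wk k) := fun k => A.gen_add_kst hw _
      have hwk' : ∀ k, A.inc φ (wk k) + ∑ j ∈ Cs, A.pl (y j) (A.ι j) =
          (A.inc φ w + ∑ j ∈ Cs, A.pl (y j) (A.ι j)) + A.kst L' (A.pl (p k) (A.ι j0)) := by
        intro k
        rw [map_add, A.inc_kst]
        abel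
      choose hTk hck using fun k => hcod (wk k) (hwk k)
      rw [Finset.prod_insert hj0]
      have h1 : ⨅ k, relF φ.toRingHom (fun i => A.val _ (hTk k) (f i)) ≤
          relF (ψ.comp φ).toRingHom (fun i => A.val _ hT (f i)) := by
        intro a ha
        rw [Submodule.mem_iInf] at ha
        rw [mem_relF]
        have h2 := zero_test (T := T j0) hTw f hf (e j0) (fun c hc => he j0 c hc _ hTw) p hp
          (fun k => A.gen_add_kst hTw _) (fun i => φ (a i)) (fun k => by
            have h3 := ha k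
            rw [mem_relF] at h3
            rw [← h3]
            refine Finset.sum_congr rfl fun i _ => ?_
            rw [A.val_congr (hwk' k) (hTk k) (A.gen_add_kst hTw _)]
            rfl)
        have h4 := congrArg em h2
        rw [map_sum, map_zero] at h4
        rw [← h4]
        refine Finset.sum_congr rfl fun i _ => ?_
        rw [map_mul, A.val_congr (hT' w) hT (A.gen_inc em hgw), A.val_inc em hgw]
        rfl
      have h3 := finrank_quot_le_mul _ _ h1 hck
      rwa [Fintype.card_fin] at h3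

/-- **the bound** -/
theorem bound7 : BoundSt A T := by
  classical
  intro ν _ f hf e he
  obtain ⟨L', _, _, _, φ, y, hy, hrk, hcod⟩ :=
    exists_tower7 T f hf e he (AlgebraicClosure A.F) Finset.univ
  choose z hz using fun j => hy j (Finset.mem_univ j)
  let ιF : A.F →ₐ[K] AlgebraicClosure A.F :=
    IsScalarTower.toAlgHom K A.F (AlgebraicClosure A.F)
  let w : A.P (AlgebraicClosure A.F) := A.inc ιF A.gen
  have hw : A.Gen w := A.gen_inc ιF A.gen_gen
  have hL : rkS K (Set.univ : Set (AlgebraicClosure A.F)) = g := by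
    refine le_antisymm ?_ ?_
    · have h1 : rkS K (Set.range ιF) = g := by
        rw [← Set.image_univ, rkS_image, A.rk_univ]
      rw [← h1]
      refine rkS_eq_of_subset_closure fun x _ => ?_
      have h2 : IsAlgebraic A.F x := Algebra.IsAlgebraic.isAlgebraic x
      let j : A.F →ₐ[K] Algebra.adjoin K (Set.range ιF) :=
        ιF.codRestrict _ fun a => Algebra.subset_adjoin ⟨a, rfl⟩
      exact h2.ringHom_of_comp_eq j.toRingHom (RingHom.id _) j.toRingHom.injective rfl
    · rw [← A.rk_univ, ← rkS_image ιF]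
      exact rkS_mono (Set.subset_univ _)
  obtain ⟨hT, hfr⟩ := hcod w hw
  have hr : ((g + g : ℕ) : ℕ∞) ≤ rkS K (Set.range φ ∪ ⋃ j, Set.range (z j)) := by
    have h1 := hrk Set.univ
    rw [hL, Finset.card_univ, Fintype.card_fin, Set.image_univ] at h1
    rw [Nat.cast_add]
    refine h1.trans (rkS_mono ?_)
    refine Set.union_subset_union_right _ ?_
    intro a ha
    rw [Set.mem_iUnion₂] at ha
    obtain ⟨j, -, ha⟩ := ha
    rw [hz, vals_ofHom7] at ha
    exact Set.mem_iUnion.2 ⟨j, ha⟩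
  have hx : A.inc φ w + ∑ j, A.pl (y j) (A.ι j) =
      A.inc φ w + ∑ j, A.pl (Pl.ofHom (z j)) (A.ι j) := by
    congr 1
    exact Finset.sum_congr rfl fun j _ => by rw [hz]
  have h1 : relF φ.toRingHom (fun i => A.val _ hT (f i)) = ⊥ := by
    rw [eq_bot_iff]
    intro a ha
    rw [mem_relF] at ha
    exact A.hind φ hL w z hr hx hT f hf a ha
  rw [h1, LinearEquiv.finrank_eq (Submodule.quotEquivOfEqBot _ rfl), Module.finrank_pi] at hfr
  exact hfr

end AVar

end Fermat.Agent.S26A
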