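import Fermat.Agent.S26A.CT1g
import Fermat.Agent.RR.Riemann

/-!
# The affine part of a curve: the fields `defd` and `reg`
-/

set_option autoImplicit false
set_option linter.style.haveILetI false

noncomputable section

namespace Fermat.Agent.S26A

universe u

open AlgebraicCurve Fermat.Agent.RR Fermat.Agent.Curve Fermat.Agent.Nod

variable {K C L : Type u} [Field K] [IsAlgClosed K] [Field C] [Algebra K C] [FunField K C]
  [Field L] [Algebra K L]

omit [IsAlgClosed K] [FunField K C] in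
/-- elements of value zero have no inverse in the valuation ring -/
theorem Pl.At.zero_inv {t : Pl K C L} {a : C} (ha : a ≠ 0) (h : t.At a 0) : a⁻¹ ∉ t.V := by
  intro hi
  have h1 : t.At (a * a⁻¹) (0 * t.ρ ⟨a⁻¹, hi⟩) := h.mul ⟨hi, rfl⟩
  rw [mul_inv_cancel₀ ha, zero_mul] at h1
  exact zero_ne_one (h1.uniq t.at_one)

/-- a nontrivial place is a point over `K` -/
theorem exists_point (t : Pl K C L) (ht : t.V ≠ ⊤) :
    ∃ v : Place K C, v.toValuationSubring = t.V ∧
      t = (Pl.ofHom (Algebra.ofId K L)).comp (v.toPl26 K) := by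
  obtain ⟨v, hv⟩ := place_of_valuationSubring t.V t.mem' ht
  refine ⟨v, hv, ?_⟩
  symm
  refine Pl.eq_of_at fun a c h => ?_
  obtain ⟨b, hb, h1⟩ := Pl.comp_at_iff.1 h
  have h2 : c = algebraMap K L b := h1.uniq (Pl.ofHom_at _ b)
  rw [toPl26_at] at hb
  rw [h2]
  have h3 : a - algebraMap K C b ∈ t.V := by
    rw [← hv]
    exact (hb.mono (by norm_num)).mem
  have h4 : t.At (a - algebraMap K C b) 0 := by
    refine ⟨h3, ?_⟩
    by_contra h5
    have h6 : (a - algebraMap K C b)⁻¹ ∈ t.V := t.inv' ⟨_, h3⟩ h5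
    rw [← hv] at h6
    have h7 : a - algebraMap K C b ≠ 0 := by
      intro h0
      apply h5
      have : (⟨a - algebraMap K C b, h3⟩ : t.V) = 0 := Subtype.ext h0
      rw [this, map_zero]
    have h8 := ord_nonneg_of_mem v h6
    have h9 := hb.le_ord h7
    have h10 : v.ord ((a - algebraMap K C b)⁻¹) = -v.ord (a - algebraMap K C b) := v.ord_inv _
    have h11 : 0 ≤ v.ord ((a - algebraMap K C b)⁻¹) := h8
    omega
  have h5 := h4.add (t.at_alg b)
  rwa [sub_add_cancel, zero_add] at h5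

/-- points over `K` are places -/
theorem exists_place (s : Pl K C K) : ∃ v : Place K C, v.toValuationSubring = s.V ∧
    s = v.toPl26 K := by
  have hs : s.V ≠ ⊤ := by
    intro htop
    obtain ⟨f, hf, -⟩ := (inferInstance : FunField K C)
    have hfs : f ∈ s.V := htop ▸ ValuationSubring.mem_top f
    let a := s.ρ ⟨f, hfs⟩
    have h1 : s.At (f - algebraMap K C a) 0 := by
      have h2 : s.At f a := ⟨hfs, rfl⟩
      have h3 := h2.add ((s.at_alg a).neg)
      rwa [← sub_eq_add_neg, ← sub_eq_add_neg, Algebra.algebraMap_self_apply, sub_self] at h3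
    have h0 : f - algebraMap K C a ≠ 0 := by
      intro h0
      apply hf
      rw [sub_eq_zero.1 h0]
      exact isAlgebraic_algebraMap a
    exact h1.zero_inv h0 (htop ▸ ValuationSubring.mem_top _)
  obtain ⟨v, hv, h⟩ := exists_point s hs
  refine ⟨v, hv, ?_⟩
  have h1 : (Pl.ofHom (Algebra.ofId K K) : Pl K K K) = Pl.id K K := by
    rw [Pl.id]
    congr 1
  rw [h1, Pl.id_comp] at h
  exact h

/-- regular functions outside a point -/
theorem exists_mul_regular (v₀ : Place K C) (c : C) : ∃ b : C, b ≠ 0 ∧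
    ∀ v : Place K C, v ≠ v₀ → b ∈ v.toValuationSubring ∧ b * c ∈ v.toValuationSubring := by
  classical
  obtain ⟨n, hn⟩ : ∃ n : ℕ, Divisor.degree (poleDiv K c) + rrGenus K C ≤ (n : ℤ) :=
    ⟨_, Int.self_le_toNat _⟩
  let D : Divisor K C := Finsupp.single v₀ (n : ℤ) - poleDiv K c
  have hD : 0 < (ell D : ℤ) := by
    have h1 := riemann D
    have h2 : Divisor.degree D = n - Divisor.degree (poleDiv K c) := by
      rw [map_sub, degree_single']
    linarith
  obtain ⟨b, hb0, hb⟩ := exists_ne_zero_of_ell_pos hD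
  refine ⟨b, hb0, fun v hv => ?_⟩
  have h1 : Ge v (poleDiv K c v) b := by
    have h2 := (mem_L.1 hb) v
    have h3 : D v = -poleDiv K c v := by
      rw [Finsupp.sub_apply, Finsupp.single_eq_of_ne hv, zero_sub]
    rwa [h3, neg_neg] at h2
  have h2 : 0 ≤ poleDiv K c v := by
    rw [poleDiv_apply]; exact le_max_right _ _
  refine ⟨(h1.mono h2).mem, ?_⟩
  have h3 : Ge v (-poleDiv K c v) c := by
    right
    rw [poleDiv_apply]
    have := le_max_left (-v.ord c) 0
    linarith
  have h4 := h1.mul h3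
  rw [add_neg_cancel] at h4
  exact h4.mem

/-- **regular functions are finite outside `p₀`** -/
theorem reg_CT (p₀ : Pl K C K) (t : Pl K C L) (h : C) (hh : ∀ s : Pl K C K, s ≠ p₀ → h ∈ s.V)
    (ht : t ≠ (Pl.ofHom (Algebra.ofId K L)).comp p₀) : h ∈ t.V := by
  by_cases htop : t.V = ⊤
  · rw [htop]; exact ValuationSubring.mem_top h
  obtain ⟨v, hv, h1⟩ := exists_point t htop
  rw [← hv]
  have h2 : v.toPl26 K ≠ p₀ := by
    intro h3
    exact ht (h3 ▸ h1)
  exact hh _ h2

/-- **points where the regular functions have values in a smaller field** -/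
theorem defd_CT (p₀ : Pl K C K) {L₀ : Type u} [Field L₀] [Algebra K L₀] (σ : L₀ →ₐ[K] L)
    (t : Pl K C L)
    (h : ∀ h : C, (∀ s : Pl K C K, s ≠ p₀ → h ∈ s.V) → ∃ a : L₀, t.At h (σ a)) :
    ∃ t₀ : Pl K C L₀, (Pl.ofHom σ).comp t₀ = t := by
  by_cases htop : t.V = ⊤
  · have hmem : ∀ a : C, a ∈ t.V := fun a => htop ▸ ValuationSubring.mem_top a
    let τ : C →ₐ[K] L :=
      { toFun := fun a => t.ρ ⟨a, hmem a⟩
        map_one' := map_one t.ρ
        map_mul' := fun a b => map_mul t.ρ ⟨a, hmem a⟩ ⟨b, hmem b⟩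
        map_zero' := map_zero t.ρ
        map_add' := fun a b => map_add t.ρ ⟨a, hmem a⟩ ⟨b, hmem b⟩
        commutes' := fun c => t.alg' c }
    have hτ : ∀ a, t.At a (τ a) := fun a => ⟨hmem a, rfl⟩
    obtain ⟨v₀, hv₀, hp₀⟩ := exists_place p₀
    have hreg : ∀ b : C, (∀ v : Place K C, v ≠ v₀ → b ∈ v.toValuationSubring) →
        ∃ a : L₀, τ b = σ a := by
      intro b hb
      obtain ⟨a, ha⟩ := h b fun s hs => by
        obtain ⟨v, hv, rfl⟩ := exists_place s
        apply hb
        rintro rfl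
        exact hs hp₀.symm
      exact ⟨a, (hτ b).uniq ha⟩
    have hran : ∀ c : C, τ c ∈ σ.range := by
      intro c
      obtain ⟨b, hb0, hb⟩ := exists_mul_regular v₀ c
      obtain ⟨a₁, h1⟩ := hreg b fun v hv => (hb v hv).1
      obtain ⟨a₂, h2⟩ := hreg (b * c) fun v hv => (hb v hv).2
      refine ⟨a₂ / a₁, ?_⟩
      have h3 : τ b ≠ 0 := (map_ne_zero τ).2 hb0
      have h4 : σ (a₂ / a₁) = τ c := by
        rw [map_div₀, ← h1, ← h2, map_mul, mul_div_cancel_left₀ _ h3]
      exact h4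
    let τ₀ : C →ₐ[K] L₀ :=
      ((AlgEquiv.ofInjective σ σ.injective).symm : σ.range →ₐ[K] L₀).comp (τ.codRestrict σ.range hran)
    have hτ₀ : ∀ c, σ (τ₀ c) = τ c := by
      intro c
      have := congrArg Subtype.val ((AlgEquiv.ofInjective σ σ.injective).apply_symm_apply
        (τ.codRestrict σ.range hran c))
      exact this
    refine ⟨Pl.ofHom τ₀, ?_⟩
    rw [Pl.ofHom_comp]
    refine Pl.eq_of_at fun a c hc => ?_
    have h1 : c = σ (τ₀ a) := hc.uniq (Pl.ofHom_at _ a)
    rw [h1, hτ₀]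
    exact hτ a
  · obtain ⟨v, hv, h1⟩ := exists_point t htop
    refine ⟨(Pl.ofHom (Algebra.ofId K L₀)).comp (v.toPl26 K), ?_⟩
    rw [h1, ← Pl.comp_assoc, Pl.ofHom_comp]
    congr 2
    exact Subsingleton.elim _ _

end Fermat.Agent.S26A
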