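import Fermat.Agent.S26A.Pl
import Fermat.Agent.RR.Homog2
import Fermat.Agent.Nod.Val

/-!
# Valuation rings of function fields
-/

set_option autoImplicit false
set_option linter.style.haveILetI false

noncomputable section

namespace Fermat.Agent.S26A

open AlgebraicCurve Fermat.Agent.RR Fermat.Agent.Curve Polynomial Fermat.Agent.Nod

section

variable {K F : Type*} [Field K] [IsAlgClosed K] [Field F] [Algebra K F] [FunField K F]

omit [FunField K F] in
/-- a generic combination -/
theorem exists_combo (M : Submodule K F) (S : Finset (Place K F)) (g : Place K F → F)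
    (hg : ∀ v ∈ S, g v ∈ M ∧ ¬ Ge v 1 (g v)) : ∃ h ∈ M, ∀ v ∈ S, ¬ Ge v 1 h := by
  classical
  induction S using Finset.induction_on with
  | empty => exact ⟨0, M.zero_mem, fun v hv => absurd hv (Finset.notMem_empty v)⟩
  | insert v S hvS ih =>
    obtain ⟨h, hM, hh⟩ := ih fun w hw => hg w (Finset.mem_insert_of_mem hw)
    obtain ⟨hgM, hgv⟩ := hg v (Finset.mem_insert_self v S)
    -- bad constants
    have hbad : ∀ w ∈ insert v S, {c : K | Ge w 1 (h + c • g v)}.Subsingleton := by
      intro w hw c hc c' hc'
      by_contra hne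
      have h1 : Ge w 1 ((c - c') • g v) := by
        have := Ge.sub hc hc'
        convert this using 1
        rw [sub_smul]
        abel
      have h2 : Ge w 1 (g v) := by
        have := h1.smul (c - c')⁻¹
        rwa [smul_smul, inv_mul_cancel₀ (sub_ne_zero.2 hne), one_smul] at this
      have h3 : Ge w 1 h := by
        have := Ge.sub hc (h2.smul c)
        rwa [add_sub_cancel_right] at this
      rcases Finset.mem_insert.1 hw with rfl | hw
      · exact hgv h2
      · exact hh w hw h3
    have hfin : (⋃ w ∈ insert v S, {c : K | Ge w 1 (h + c • g v)}).Finite :=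
      Set.Finite.biUnion (Finset.finite_toSet _) fun w hw => (hbad w hw).finite
    haveI : Infinite K := IsAlgClosed.instInfinite
    obtain ⟨c, hc⟩ := hfin.infinite_compl.nonempty
    refine ⟨h + c • g v, M.add_mem hM (M.smul_mem c hgM), fun w hw hge => hc ?_⟩
    exact Set.mem_biUnion (Finset.mem_coe.2 hw) hge

/-- functions which are regular where `x` is are integral over `K[x]` -/
theorem mem_of_regFin {x : F} (hx : Transcendental K x) (V : ValuationSubring F)
    (hK : ∀ a : K, algebraMap K F a ∈ V) (hxV : x ∈ V) {y : F} (hy : RegFin K x y) : y ∈ V := by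
  classical
  obtain ⟨B⟩ := exists_homogBasis (K := K) hx
  letI : Algebra K[X] F := (aeval x : K[X] →ₐ[K] F).toRingHom.toAlgebra
  have hsm : ∀ (p : K[X]) (f : F), p • f = aeval x p * f := fun p f => Algebra.smul_def p f
  let S : Subalgebra K[X] F :=
    { carrier := {f | RegFin K x f}
      mul_mem' := fun ha hb => regFin_mul ha hb
      add_mem' := fun {a b} ha hb v hv => (ha v hv).add (hb v hv)
      algebraMap_mem' := fun p => regFin_aeval x p }
  have hS : S.toSubmodule.FG := by
    refine ⟨Finset.univ.image B.y, ?_⟩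
    apply le_antisymm
    · rw [Submodule.span_le]
      intro f hf
      rw [Finset.coe_image] at hf
      obtain ⟨i, -, rfl⟩ := hf
      exact Lm_regFin (B.mem i)
    · intro f hf
      obtain ⟨p, hp⟩ := B.exists_repr hx (f := f) hf
      rw [hp]
      refine Submodule.sum_mem _ fun i _ => ?_
      rw [← hsm]
      refine Submodule.smul_mem _ _ (Submodule.subset_span ?_)
      rw [Finset.coe_image]
      exact ⟨i, Finset.mem_coe.2 (Finset.mem_univ i), rfl⟩
  have hint : IsIntegral K[X] y := IsIntegral.of_mem_of_fg S hS y hy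
  -- integral over `V`
  have haev : ∀ p : K[X], aeval x p ∈ V := by
    intro p
    rw [aeval_eq_sum_range]
    refine sum_mem fun i _ => ?_
    rw [Algebra.smul_def]
    exact mul_mem (hK _) (pow_mem hxV _)
  let j : K[X] →+* V := (aeval x : K[X] →ₐ[K] F).toRingHom.codRestrict V.toSubring haev
  have hint' : IsIntegral V y := by
    obtain ⟨p, hp, hpy⟩ := hint
    refine ⟨p.map j, hp.map j, ?_⟩
    rw [eval₂_map]
    exact hpy
  obtain ⟨z, hz⟩ := (IsIntegrallyClosed.isIntegral_iff (R := V) (K := F)).1 hint'
  rw [← hz]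
  exact z.2

/-- functions without poles at the zeros of `x` are in `V` -/
theorem mem_of_zeros {x : F} (hx : Transcendental K x) (V : ValuationSubring F)
    (hK : ∀ a : K, algebraMap K F a ∈ V) (hxV : x ∈ V) (hxi : x⁻¹ ∉ V) {y : F}
    (hy : ∀ v : Place K F, 0 < v.ord x → Ge v 0 y) : y ∈ V := by
  have hx0 : x ≠ 0 := by
    rintro rfl
    exact hx (isAlgebraic_zero)
  obtain ⟨q, hq0, hq⟩ := exists_aeval_mul_regFin hx y
  -- strip the factors `X`
  obtain ⟨k, q', hq', rfl⟩ : ∃ (k : ℕ) (q' : K[X]), q'.eval 0 ≠ 0 ∧ X ^ k * q' = q := by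
    have h1 := Polynomial.exists_eq_pow_rootMultiplicity_mul_and_not_dvd q hq0 0
    obtain ⟨q', h2, h3⟩ := h1
    refine ⟨rootMultiplicity 0 q, q', fun h => h3 (dvd_iff_isRoot.2 h), ?_⟩
    conv_rhs => rw [h2]
    rw [C_0, sub_zero]
  have h1 : RegFin K x (aeval x q' * y) := by
    intro v hv
    rcases eq_or_lt_of_le hv with h | h
    · have h2 := hq v hv
      rw [map_mul, map_pow, aeval_X, mul_assoc] at h2
      have h3 : Ge v 0 (x⁻¹ ^ k) := by
        right
        rw [ord_pow, v.ord_inv, ← h]
        simp
      have h4 := h3.mul h2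
      rwa [← mul_assoc, ← mul_pow, inv_mul_cancel₀ hx0, one_pow, one_mul, add_zero] at h4
    · have := (regFin_aeval (K := K) x q' v hv).mul (hy v h)
      rwa [add_zero] at this
  have h2 := mem_of_regFin hx V hK hxV h1
  -- `q'(x)` is a unit
  have h3 : (aeval x q')⁻¹ ∈ V := by
    by_contra hcon
    obtain ⟨r, hr⟩ : ∃ r : K[X], q' = C (q'.eval 0) + X * r := by
      obtain ⟨r, hr⟩ := X_dvd_sub_C (p := q')
      refine ⟨r, ?_⟩
      rw [← hr, ← coeff_zero_eq_eval_zero]
      ring
    have hrV : aeval x r ∈ V := by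
      rw [aeval_eq_sum_range]
      refine sum_mem fun i _ => ?_
      rw [Algebra.smul_def]
      exact mul_mem (hK _) (pow_mem hxV _)
    have e1 : aeval x q' = algebraMap K F (q'.eval 0) + x * aeval x r := by
      conv_lhs => rw [hr]
      rw [map_add, aeval_C, map_mul, aeval_X]
    have hne : aeval x q' ≠ 0 := by
      intro h0
      exact hcon (by rw [h0, inv_zero]; exact V.zero_mem)
    -- valuations
    have hv1 : V.valuation x < 1 := by
      rw [← not_le]
      intro h
      apply hxi
      rw [← V.valuation_le_one_iff, map_inv₀]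
      exact inv_le_one_of_one_le₀ h
    have hv2 : V.valuation (x * aeval x r) < 1 := by
      rw [map_mul]
      have := (V.valuation_le_one_iff _).2 hrV
      exact mul_lt_one_of_lt_of_le hv1 this
    have hv3 : V.valuation (algebraMap K F (q'.eval 0)) = 1 := by
      apply le_antisymm ((V.valuation_le_one_iff _).2 (hK _))
      have h5 := (V.valuation_le_one_iff _).2 (hK (q'.eval 0)⁻¹)
      rw [map_inv₀, map_inv₀] at h5
      have h6 : V.valuation (algebraMap K F (q'.eval 0)) ≠ 0 := by
        rw [ne_eq, map_eq_zero, map_eq_zero]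
        exact hq'
      exact (inv_le_one₀ (zero_lt_iff.2 h6)).1 h5
    have hv4 : V.valuation (aeval x q') = 1 := by
      rw [e1, Valuation.map_add_eq_of_lt_left _ (by rw [hv3]; exact hv2), hv3]
    apply hcon
    rw [← V.valuation_le_one_iff, map_inv₀, hv4, inv_one]
  have h4 := mul_mem h3 h2
  have hne : aeval x q' ≠ 0 := by
    intro h0
    have h5 : q'.eval 0 = 0 := by
      have h6 := (transcendental_iff.1 hx) q' h0
      rw [h6, eval_zero]
    exact hq' h5
  rwa [inv_mul_cancel_left₀ hne] at h4

/-- **valuation rings of function fields are places** -/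
theorem place_of_valuationSubring (V : ValuationSubring F) (hK : ∀ a : K, algebraMap K F a ∈ V)
    (hV : V ≠ ⊤) : ∃ v : Place K F, v.toValuationSubring = V := by
  classical
  obtain ⟨f, hf⟩ : ∃ f : F, f ∉ V := by
    by_contra h
    push Not at h
    exact hV (eq_top_iff.2 fun f _ => h f)
  have hf0 : f ≠ 0 := by
    rintro rfl
    exact hf V.zero_mem
  have hxV : f⁻¹ ∈ V := (V.mem_or_inv_mem f).resolve_left hf
  have hxi : (f⁻¹)⁻¹ ∉ V := by rwa [inv_inv]
  have hx : Transcendental K f⁻¹ := by
    intro h
    obtain ⟨a, ha⟩ := mem_range_of_isAlgebraic h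
    apply hf
    rw [← inv_inv f, ← ha, ← map_inv₀]
    exact hK _
  generalize f⁻¹ = x at hxV hxi hx
  have hx0 : x ≠ 0 := by
    rintro rfl
    exact hx isAlgebraic_zero
  by_contra hcon
  push Not at hcon
  have h1 : ∀ v : Place K F, ∃ f : F, f ∈ v.toValuationSubring ∧ f ∉ V := by
    intro v
    by_contra h
    push Not at h
    apply hcon v
    apply le_antisymm (fun f hf => h f hf)
    by_contra hle
    obtain ⟨a, haV, hav⟩ := SetLike.not_le_iff_exists.1 hle
    have ha : v.ord a < 0 := by
      by_contra h2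
      push Not at h2
      exact hav (mem_of_ord_nonneg v h2)
    have ha0 : a ≠ 0 := by
      rintro rfl
      exact hav (zero_mem _)
    apply hV
    rw [eq_top_iff]
    intro f _
    by_cases hf0 : f = 0
    · rw [hf0]; exact V.zero_mem
    have h3 : f = f * (a⁻¹) ^ (v.ord f).natAbs * a ^ (v.ord f).natAbs := by
      rw [mul_assoc, ← mul_pow, inv_mul_cancel₀ ha0, one_pow, mul_one]
    rw [h3]
    refine mul_mem (h _ (mem_of_ord_nonneg v ?_)) (pow_mem haV _)
    rw [v.ord_mul hf0 (pow_ne_zero _ (inv_ne_zero ha0)), ord_pow, v.ord_inv]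
    have h4 : (1 : ℤ) ≤ -v.ord a := by omega
    have h5 : ((v.ord f).natAbs : ℤ) ≤ (v.ord f).natAbs * -v.ord a := by
      have h6 : (0 : ℤ) ≤ (v.ord f).natAbs := by positivity
      nlinarith
    omega
  choose g hg hg' using h1
  let M : Submodule K F :=
    { carrier := {f | V.valuation f < 1}
      add_mem' := fun {a b} ha hb => lt_of_le_of_lt (V.valuation.map_add a b) (max_lt ha hb)
      zero_mem' := by
        change V.valuation 0 < 1
        rw [map_zero]
        exact zero_lt_one
      smul_mem' := by
        intro c f hf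
        change V.valuation (c • f) < 1
        rw [Algebra.smul_def, map_mul, mul_comm]
        exact mul_lt_one_of_lt_of_le hf ((V.valuation_le_one_iff _).2 (hK c)) }
  have hMV : ∀ f : F, f ∉ V → f⁻¹ ∈ M := by
    intro f hf
    change V.valuation f⁻¹ < 1
    rw [map_inv₀]
    have h2 : 1 < V.valuation f := by
      rw [← not_le, V.valuation_le_one_iff]
      exact hf
    exact inv_lt_one_of_one_lt₀ h2
  let S := (finite_pos (K := K) hx0).toFinset
  obtain ⟨h, hhM, hh⟩ := exists_combo M S (fun v => (g v)⁻¹) (fun v _ => by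
    refine ⟨hMV _ (hg' v), ?_⟩
    have hg0 : g v ≠ 0 := by
      intro h0
      exact hg' v (by rw [h0]; exact V.zero_mem)
    intro hge
    have h2 := hge.le_ord (inv_ne_zero hg0)
    rw [v.ord_inv] at h2
    have h3 := ord_nonneg_of_mem v (hg v)
    omega)
  obtain ⟨v₀, hv₀⟩ := exists_zero' (K := K) hx
  have hv₀S : v₀ ∈ S := (Set.Finite.mem_toFinset _).2 hv₀
  have hh0 : h ≠ 0 := by
    intro h0
    exact hh v₀ hv₀S (h0 ▸ Ge.zero v₀ 1)
  have h2 : h⁻¹ ∈ V := by
    refine mem_of_zeros hx V hK hxV hxi fun v hv => ?_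
    right
    rw [v.ord_inv]
    by_contra hc
    push Not at hc
    exact hh v ((Set.Finite.mem_toFinset _).2 hv) (Ge.of_le (by omega))
  have h3 : V.valuation h < 1 := hhM
  have h4 := (V.valuation_le_one_iff _).2 h2
  rw [map_inv₀] at h4
  have h5 : V.valuation h ≠ 0 := (Valuation.ne_zero_iff _).2 hh0
  have h6 : 1 ≤ V.valuation h := (inv_le_one₀ (zero_lt_iff.2 h5)).1 h4
  exact absurd h3 (not_lt.2 h6)

end

section toPl

universe u

variable {K L E : Type u} [Field K] [Field L] [IsAlgClosed L] [Field E] [Algebra K L] [Algebra L E]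
  [Algebra K E] [IsScalarTower K L E] [FunField L E]

/-- the place with values in the constants -/
def _root_.AlgebraicCurve.Place.toPl26 (K : Type u) [Field K] [Algebra K L] [Algebra K E]
    [IsScalarTower K L E] (v : Place L E) : Pl K E L where
  V := v.toValuationSubring
  ρ :=
    { toFun := fun x => val v (x : E)
      map_one' := val_one v
      map_mul' := fun x y => val_mul (Ge.of_mem x.2) (Ge.of_mem y.2)
      map_zero' := val_zero v
      map_add' := fun x y => val_add (Ge.of_mem x.2) (Ge.of_mem y.2) }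
  mem' c := by
    rw [IsScalarTower.algebraMap_apply K L E]
    exact v.algebraMap_mem' _
  alg' c := by
    change val v (algebraMap K E c) = _
    rw [IsScalarTower.algebraMap_apply K L E, val_algebraMap]
  inv' x hx := by
    by_cases hx0 : (x : E) = 0
    · rw [hx0, inv_zero]; exact zero_mem _
    have h1 : val v (x : E) ≠ 0 := hx
    have h2 : v.ord (x : E) = 0 := by
      have h3 := (val_eq_zero_iff (Ge.of_mem x.2)).not.1 h1
      have h4 := ord_nonneg_of_mem v x.2
      by_contra hc
      exact h3 (Ge.of_le (by omega))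
    apply mem_of_ord_nonneg
    rw [v.ord_inv, h2, neg_zero]

theorem toPl26_V (v : Place L E) : (v.toPl26 K).V = v.toValuationSubring := rfl

theorem toPl26_at (v : Place L E) (h : E) (c : L) :
    (v.toPl26 K).At h c ↔ Ge v 1 (h - algebraMap L E c) := by
  constructor
  · rintro ⟨h1, h2⟩
    have h3 : val v h = c := h2
    rw [← h3]
    exact val_spec (Ge.of_mem h1)
  · intro h1
    have h2 : Ge v 0 h := by
      have := (h1.mono (by norm_num : (0 : ℤ) ≤ 1)).add (Ge.algebraMap v c)
      rwa [sub_add_cancel] at this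
    exact ⟨h2.mem, val_eq h1⟩

end toPl

end Fermat.Agent.S26A
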