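import Fermat.Agent.S26A.CT1e
import Fermat.Agent.S26A.CT1g

/-!
# Points and places
-/

set_option autoImplicit false
set_option linter.style.haveILetI false
set_option linter.unusedSectionVars false

noncomputable section

namespace Fermat.Agent.S26A

universe u

open scoped TensorProduct
open AlgebraicCurve Fermat.Agent.RR Fermat.Agent.MW Fermat.Agent.Curve Fermat.Agent.Nod

attribute [local instance] algC

variable {K C : Type u} [Field K] [IsAlgClosed K] [Field C] [Algebra K C] [FunField K C]
variable {L : Type u} [Field L] [Algebra K L] [IsAlgClosed L]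

theorem toPl26_curL (v : Place L (Cur K C L)) (a : L) : (v.toPl26 K).At (curL K C L a) a := by
  rw [toPl26_at, curL_eq, sub_self]
  exact Or.inl rfl

/-- the point of `C` in `L` below a place -/
def ptOf (v : Place L (Cur K C L)) : Pl K C L := (v.toPl26 K).comp (Pl.ofHom (curC K C L))

theorem ptOf_at (v : Place L (Cur K C L)) (c : C) (a : L) :
    (ptOf v).At c a ↔ (v.toPl26 K).At (curC K C L c) a := by
  constructor
  · intro h
    obtain ⟨b, hb, hb'⟩ := Pl.comp_at_iff.1 h
    rwa [hb.uniq (Pl.ofHom_at _ c)] at hb'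
  · intro h
    exact Pl.comp_at (Pl.ofHom_at _ c) h

theorem mem_ptOf_V (v : Place L (Cur K C L)) (c : C) :
    c ∈ (ptOf v).V ↔ curC K C L c ∈ v.toValuationSubring := by
  constructor
  · intro h
    exact ((ptOf_at v c _).1 ⟨h, rfl⟩).1
  · intro h
    exact ((ptOf_at v c _).2 ⟨h, rfl⟩).1

/-- generic points: the place is determined -/
theorem toPl26_eq_ofPair (v : Place L (Cur K C L)) (τ : C →ₐ[K] L)
    (h : ∀ c, (v.toPl26 K).At (curC K C L c) (τ c)) :
    v.toPl26 K = Pl.ofPair (toCur K C L) (evt τ) (evt_ok τ) := by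
  refine Pl.eq_ofPair _ fun x => ?_
  induction x using TensorProduct.induction_on with
  | zero => rw [map_zero, map_zero]; exact Pl.at_zero _
  | add x y hx hy => rw [map_add, map_add]; exact hx.add hy
  | tmul l c =>
    rw [toCur_tmul, evt_tmul]
    exact (toPl26_curL v l).mul (h c)

theorem toPl26_injective {v w : Place L (Cur K C L)} (h : v.toPl26 K = w.toPl26 K) : v = w := by
  apply Place.ext
  have h1 := congrArg Pl.V h
  exact h1

/-- the embedding at a generic point -/
theorem exists_hom_of_top {t : Pl K C L} (ht : t.V = ⊤) : ∃ τ : C →ₐ[K] L, t = Pl.ofHom τ := by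
  have hmem : ∀ c : C, c ∈ t.V := fun c => by rw [ht]; exact ValuationSubring.mem_top c
  refine ⟨{ toFun := fun c => t.ρ ⟨c, hmem c⟩
            map_one' := map_one t.ρ
            map_mul' := fun a b => map_mul t.ρ ⟨a, hmem a⟩ ⟨b, hmem b⟩
            map_zero' := map_zero t.ρ
            map_add' := fun a b => map_add t.ρ ⟨a, hmem a⟩ ⟨b, hmem b⟩
            commutes' := fun c => t.alg' c }, ?_⟩
  refine Pl.eq_of_at fun a b h => ?_
  obtain ⟨h1, rfl⟩ := h
  exact Pl.ofHom_at _ a

/-- a nonunit has value zero -/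
theorem Pl.at_zero_of_inv {K L M : Type u} [Field K] [Field L] [Field M] [Algebra K L]
    [Algebra K M] (φ : Pl K L M) {a : L} (h : a ∈ φ.V) (h' : a⁻¹ ∉ φ.V) : φ.At a 0 := by
  refine ⟨h, ?_⟩
  by_contra hc
  exact h' (φ.inv' ⟨a, h⟩ hc)

/-- constant points: the value is the value of the place of `C` -/
theorem at_of_place {t : Pl K C L} {P : Place K C} (hP : P.toValuationSubring = t.V) {c : C}
    (hc : c ∈ t.V) : ∃ a : K, t.At c (algebraMap K L a) ∧ Ge P 1 (c - algebraMap K C a) := by
  obtain ⟨a, ha⟩ := exists_const' P (hP ▸ hc : c ∈ P.toValuationSubring)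
  refine ⟨a, ?_, ha⟩
  have h1 : t.At (c - algebraMap K C a) 0 := by
    by_cases h0 : c - algebraMap K C a = 0
    · rw [h0]; exact t.at_zero
    · have h2 : c - algebraMap K C a ∈ t.V := sub_mem hc (t.mem' a)
      refine t.at_zero_of_inv h2 ?_
      rw [← hP]
      intro h3
      have h4 := (mem_iff_ord_nonneg P _).1 h3
      rw [P.ord_inv] at h4
      rcases ha with h5 | h5
      · exact h0 h5
      · omega
  have h2 := h1.add (t.at_alg a)
  rwa [sub_add_cancel, zero_add] at h2

theorem ptOf_injective : Function.Injective (ptOf : Place L (Cur K C L) → Pl K C L) := by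
  intro v w h
  by_cases ht : (ptOf v).V = ⊤
  · obtain ⟨τ, hτ⟩ := exists_hom_of_top ht
    apply toPl26_injective (K := K)
    rw [toPl26_eq_ofPair v τ (fun c => (ptOf_at v c _).1 (hτ ▸ Pl.ofHom_at τ c)),
      toPl26_eq_ofPair w τ (fun c => (ptOf_at w c _).1 (h ▸ hτ ▸ Pl.ofHom_at τ c))]
  · have key : ∀ v : Place L (Cur K C L), (ptOf v).V ≠ ⊤ → ∃ P : Place K C,
        v = bcP L (Cur K C L) P ∧ P.toValuationSubring = (ptOf v).V := by
      intro v hv
      rcases dichotomy (K := K) (F := C) v with ⟨P, hP⟩ | h0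
      · refine ⟨P, hP, ?_⟩
        ext c
        rw [mem_ptOf_V, mem_iff_ord_nonneg, mem_iff_ord_nonneg, hP]
        have h1 := bcP_ord (K' := L) (F' := Cur K C L) P c
        change _ ↔ 0 ≤ (bcP L (Cur K C L) P).ord (bc C (Cur K C L) c)
        rw [h1]
      · exfalso
        apply hv
        rw [eq_top_iff]
        intro c _
        rw [mem_ptOf_V, mem_iff_ord_nonneg]
        exact (h0 c).ge
    obtain ⟨P, hP, hPV⟩ := key v ht
    obtain ⟨Q, hQ, hQV⟩ := key w (h ▸ ht)
    have hPQ : P = Q := Place.ext (by rw [hPV, hQV, h])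
    rw [hP, hQ, hPQ]

theorem ptOf_surjective : Function.Surjective (ptOf : Place L (Cur K C L) → Pl K C L) := by
  intro t
  by_cases ht : t.V = ⊤
  · obtain ⟨τ, rfl⟩ := exists_hom_of_top ht
    let χ := Pl.ofPair (toCur K C L) (evt τ) (evt_ok τ)
    have hχL : ∀ l : L, χ.At (curL K C L l) l := by
      intro l
      have h := Pl.ofPair_at_e (evt_ok τ) (l ⊗ₜ[K] (1 : C))
      rw [evt_tmul, map_one, mul_one] at h
      exact h
    have hχC : ∀ c : C, χ.At (curC K C L c) (τ c) := by
      intro c
      have h := Pl.ofPair_at_e (evt_ok τ) ((1 : L) ⊗ₜ[K] c)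
      rw [evt_tmul, one_mul] at h
      exact h
    obtain ⟨s, hs, -⟩ := exists_sep (K := K) (F := C)
    have hne : χ.V ≠ ⊤ := by
      intro h
      have h1 : curC K C L s - curL K C L (τ s) ≠ 0 := by
        intro h0
        obtain ⟨b, hb⟩ := cur_tr s (τ s) (sub_eq_zero.1 h0).symm
        exact hs (hb ▸ isAlgebraic_algebraMap b)
      have h2 : χ.At (curC K C L s - curL K C L (τ s)) 0 := by
        have := (hχC s).add (hχL (τ s)).neg
        rwa [← sub_eq_add_neg, ← sub_eq_add_neg, sub_self] at this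
      have h3 : (curC K C L s - curL K C L (τ s))⁻¹ ∈ χ.V := by
        rw [h]; exact ValuationSubring.mem_top _
      have h4 : χ.At ((curC K C L s - curL K C L (τ s)) * (curC K C L s - curL K C L (τ s))⁻¹)
          (0 * χ.ρ ⟨_, h3⟩) := h2.mul ⟨h3, rfl⟩
      rw [mul_inv_cancel₀ h1, zero_mul] at h4
      exact one_ne_zero (χ.at_one.uniq h4)
    obtain ⟨v, hv⟩ := place_of_valuationSubring (K := L) χ.V
      (fun a => by rw [← curL_eq]; exact (hχL a).1) hne
    have hval : ∀ c, (v.toPl26 K).At (curC K C L c) (τ c) := by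
      intro c
      rw [toPl26_at]
      by_cases h0 : curC K C L c - algebraMap L (Cur K C L) (τ c) = 0
      · exact Or.inl h0
      · right
        have h2 : χ.At (curC K C L c - algebraMap L (Cur K C L) (τ c)) 0 := by
          have := (hχC c).add (hχL (τ c)).neg
          rwa [← sub_eq_add_neg, ← sub_eq_add_neg, sub_self, curL_eq] at this
        have h3 : (curC K C L c - algebraMap L (Cur K C L) (τ c))⁻¹ ∉ v.toValuationSubring := by
          rw [hv]
          intro h3
          have h4 := h2.mul ⟨h3, rfl⟩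
          rw [mul_inv_cancel₀ h0, zero_mul] at h4
          exact one_ne_zero (χ.at_one.uniq h4)
        rw [mem_iff_ord_nonneg, v.ord_inv] at h3
        omega
    refine ⟨v, (Pl.eq_of_at fun a b hab => ?_).symm⟩
    rw [hab.uniq (Pl.ofHom_at τ a)]
    exact (ptOf_at v a _).2 (hval a)
  · obtain ⟨P, hP⟩ := place_of_valuationSubring (K := K) t.V t.mem' ht
    refine ⟨bcP L (Cur K C L) P, (Pl.eq_of_at fun c b hcb => ?_).symm⟩
    obtain ⟨a, ha, hPa⟩ := at_of_place hP hcb.1
    rw [hcb.uniq ha, ptOf_at, toPl26_at]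
    have h1 : curC K C L c - algebraMap L (Cur K C L) (algebraMap K L a) =
        curC K C L (c - algebraMap K C a) := by
      rw [map_sub, AlgHom.commutes, ← curL_eq, AlgHom.commutes]
    rw [h1]
    rcases hPa with h2 | h2
    · left
      rw [h2, map_zero]
    · right
      have h3 := bcP_ord (K' := L) (F' := Cur K C L) P (c - algebraMap K C a)
      change 1 ≤ (bcP L (Cur K C L) P).ord (bc C (Cur K C L) (c - algebraMap K C a))
      rw [h3]
      exact h2

/-- points and places -/
def ptsC (K C L : Type u) [Field K] [IsAlgClosed K] [Field C] [Algebra K C] [FunField K C]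
    [Field L] [Algebra K L] [IsAlgClosed L] : Pl K C L ≃ Place L (Cur K C L) :=
  (Equiv.ofBijective _ ⟨ptOf_injective, ptOf_surjective⟩).symm

theorem ptsC_symm (v : Place L (Cur K C L)) : (ptsC K C L).symm v = ptOf v := rfl

theorem ptOf_ptsC (t : Pl K C L) : ptOf (ptsC K C L t) = t := (ptsC K C L).symm_apply_apply t

/-- evaluation at a point -/
def hatC (t : Pl K C L) : Pl K (Cur K C L) L := (ptsC K C L t).toPl26 K

theorem hatC_V (t : Pl K C L) : (hatC t).V = (ptsC K C L t).toValuationSubring := rfl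

theorem hatC_at_curL (t : Pl K C L) (a : L) : (hatC t).At (curL K C L a) a := toPl26_curL _ a

theorem hatC_iL (t : Pl K C L) : (hatC t).comp (Pl.ofHom (curL K C L)) = Pl.id K L := by
  symm
  refine Pl.eq_of_at fun a b h => ?_
  rw [h.uniq (Pl.ofHom_at _ a)]
  exact Pl.comp_at (Pl.ofHom_at _ a) (hatC_at_curL t a)

theorem hatC_iC (t : Pl K C L) : (hatC t).comp (Pl.ofHom (curC K C L)) = t := ptOf_ptsC t

theorem hatC_at_curC (t : Pl K C L) (c : C) (a : L) :
    (hatC t).At (curC K C L c) a ↔ t.At c a := by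
  conv_rhs => rw [← ptOf_ptsC t]
  exact (ptOf_at _ c a).symm

end Fermat.Agent.S26A
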