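import Fermat.Agent.S26A.Cs5

/-!
# Elementary properties of divisors of functions, in terms of points
-/

set_option autoImplicit false
set_option linter.unusedSectionVars false
set_option linter.style.haveILetI false

namespace Fermat.Agent.S26A

universe u

open AlgebraicCurve Fermat.Agent.RR Fermat.Agent.Curve IntermediateField Module Fermat.Agent.MW

section

variable {K C L E : Type u} [Field K] [Field C] [Field L] [Field E]
  [Algebra K C] [Algebra K L] [Algebra L E] [Algebra K E]
  [IsAlgClosed L] [FunField L E] (pL : Pl K C L ≃ Place L E)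

theorem dvL_mul {h h' : E} (hh : h ≠ 0) (hh' : h' ≠ 0) :
    dvL pL (h * h') = dvL pL h + dvL pL h' := by
  ext t
  rw [Finsupp.add_apply, dvL_apply, dvL_apply, dvL_apply, Place.ord_mul _ hh hh']

theorem dvL_const (c : L) : dvL pL (algebraMap L E c) = 0 := by
  ext t
  rw [dvL_apply, ord_algebraMap, Finsupp.zero_apply]

theorem const_of_dvL {h : E} (hn : ∀ t, 0 ≤ dvL pL h t) : ∃ c : L, h = algebraMap L E c := by
  by_contra hcon
  push Not at hcon
  have htr : Transcendental L h := by
    intro halg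
    obtain ⟨a, ha⟩ := mem_range_of_isAlgebraic halg
    exact hcon a ha.symm
  obtain ⟨v, hv⟩ := exists_zero' (K := L) (f := h⁻¹) (transcendental_inv htr)
  obtain ⟨t, rfl⟩ := pL.surjective v
  rw [Place.ord_inv] at hv
  have := hn t
  rw [dvL_apply] at this
  omega

theorem deg_dvL (h : E) : (dvL pL h).sum (fun _ n => n) = 0 := by
  unfold dvL
  rw [Finsupp.sum_mapDomain_index (fun _ => rfl) (fun _ _ _ => rfl), ← degree_eq_sum,
    degree_divisor]

variable {hat : Pl K C L → Pl K E L} (hL2 : ∀ t, (hat t).V = (pL t).toValuationSubring)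

include hL2

theorem dvL_pos (t : Pl K C L) {h : E} (hh : h ≠ 0) : 0 < dvL pL h t ↔ (hat t).At h 0 := by
  rw [dvL_apply]
  exact ⟨fun h0 => at_zero_of_ord_pos (hL2 t) h0, fun h0 => ord_pos_of_at (hL2 t) hh h0⟩

theorem dvL_nonneg (t : Pl K C L) {h : E} : 0 ≤ dvL pL h t ↔ ∃ b, (hat t).At h b := by
  rw [dvL_apply]
  exact ⟨fun h0 => exists_at_of_ord_nonneg (hL2 t) h0, fun ⟨b, h0⟩ => ord_nonneg_of_at (hL2 t) h0⟩

omit hL2 in
theorem dvL_add (t : Pl K C L) {h h' : E} (hh : h ≠ 0) (hh' : h' ≠ 0) (hs : h + h' ≠ 0) :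
    min (dvL pL h t) (dvL pL h' t) ≤ dvL pL (h + h') t := by
  rw [dvL_apply, dvL_apply, dvL_apply]
  exact le_ord_add _ hs (min_le_left _ _) (min_le_right _ _) hh hh'

end

end Fermat.Agent.S26A
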