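import Fermat.Agent.S26A.Pl
import Fermat.Agent.ThmC.Kaehler
import Fermat.Agent.RR.Degree
import Mathlib.FieldTheory.SeparablyGenerated
import Mathlib.RingTheory.Unramified.Field
import Mathlib.GroupTheory.CosetCover

/-!
# Separating elements of function fields, and functions separating points
-/

set_option autoImplicit false
set_option linter.unusedSectionVars false
set_option linter.style.haveILetI false

namespace Fermat.Agent.S26A

universe u

open AlgebraicCurve Fermat.Agent.RR Fermat.Agent.Curve IntermediateField Polynomial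

section

variable {K F : Type u} [Field K] [IsAlgClosed K] [Field F] [Algebra K F] [FunField K F]

theorem essFiniteType : Algebra.EssFiniteType K F := by
  obtain ⟨t, ht, hfin⟩ := (inferInstance : FunField K F).out
  haveI := hfin
  haveI : Algebra.EssFiniteType K K⟮t⟯ := by
    rw [IntermediateField.essFiniteType_iff]
    exact ⟨{t}, by simp⟩
  exact Algebra.EssFiniteType.comp K K⟮t⟯ F

theorem exists_sep : ∃ t : F, Transcendental K t ∧ Algebra.IsSeparable K⟮t⟯ F := by
  haveI := essFiniteType (K := K) (F := F)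
  obtain ⟨s, hs, hsep⟩ := exists_isTranscendenceBasis_and_isSeparable_of_perfectField K F
  obtain ⟨t, ht, hfin⟩ := (inferInstance : FunField K F).out
  haveI := hfin
  have hb : IsTranscendenceBasis K (fun _ : PUnit.{u + 1} => t) := by
    rw [isTranscendenceBasis_iff_algebraicIndependent_isAlgebraic]
    refine ⟨(algebraicIndependent_unique_type_iff).2 ht, ?_⟩
    have h1 : Algebra.IsAlgebraic K⟮t⟯ F := inferInstance
    have h2 : Set.range (fun _ : PUnit.{u + 1} => t) = {t} := by
      simp
    rw [h2]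
    exact (IntermediateField.isAlgebraic_adjoin_iff_top).1 h1
  have h1 := hs.cardinalMk_eq hb
  rw [Cardinal.mk_fintype, Cardinal.mk_fintype, Fintype.card_punit] at h1
  have h2 : s.card = 1 := by
    have : (Fintype.card s : Cardinal) = ((1 : ℕ) : Cardinal) := h1
    rw [Nat.cast_inj, Fintype.card_coe] at this
    exact this
  obtain ⟨x, rfl⟩ := Finset.card_eq_one.1 h2
  refine ⟨x, ?_, ?_⟩
  · have := hs.1.transcendental ⟨x, Finset.mem_singleton_self x⟩
    exact this
  · rw [Finset.coe_singleton] at hsep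
    exact hsep

/-- the elements with vanishing differential -/
noncomputable def Wd (K F : Type u) [Field K] [Field F] [Algebra K F] : Submodule K F :=
  LinearMap.ker (KaehlerDifferential.D K F).toLinearMap

theorem mem_Wd {f : F} : f ∈ Wd K F ↔ KaehlerDifferential.D K F f = 0 := Iff.rfl

theorem algebraMap_mem_Wd (c : K) : algebraMap K F c ∈ Wd K F := by
  rw [mem_Wd]
  exact Derivation.map_algebraMap _ c

theorem inv_mem_Wd {f : F} (hf : f ∈ Wd K F) : f⁻¹ ∈ Wd K F := by
  rw [mem_Wd] at hf ⊢
  rw [Derivation.leibniz_inv, hf, smul_zero]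

theorem exists_notMem_Wd : ∃ t : F, t ∉ Wd K F := by
  by_contra hcon
  push Not at hcon
  haveI := essFiniteType (K := K) (F := F)
  haveI : Subsingleton (Ω[F⁄K]) := by
    rw [← Submodule.subsingleton_iff (R := F)]
    rw [← subsingleton_iff_bot_eq_top, ← KaehlerDifferential.span_range_derivation, eq_comm,
      Submodule.span_eq_bot]
    rintro _ ⟨x, rfl⟩
    exact hcon x
  haveI : Algebra.FormallyUnramified K F := ⟨this⟩
  have h1 : Algebra.IsSeparable K F := (Algebra.FormallyUnramified.iff_isSeparable K F).1 this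
  obtain ⟨t, ht, hfin⟩ := (inferInstance : FunField K F).out
  exact ht (Algebra.IsAlgebraic.isAlgebraic t)

theorem sep_of_notMem_Wd {f : F} (hf : f ∉ Wd K F) :
    Transcendental K f ∧ Algebra.IsSeparable K⟮f⟯ F := by
  have htr : Transcendental K f := by
    intro h
    obtain ⟨a, rfl⟩ := mem_range_of_isAlgebraic h
    exact hf (algebraMap_mem_Wd a)
  refine ⟨htr, ?_⟩
  haveI : FiniteDimensional K⟮f⟯ F := fd htr
  obtain ⟨t, ht, hsep⟩ := exists_sep (K := K) (F := F)
  haveI : FiniteDimensional K⟮t⟯ F := fd ht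
  obtain ⟨g, hg⟩ := ThmC.exists_dquot (K := K) t f
  have hg0 : g ≠ 0 := by
    rintro rfl
    apply hf
    rw [mem_Wd, hg, zero_smul]
  have hdt : KaehlerDifferential.D K F t = g⁻¹ • KaehlerDifferential.D K F f := by
    rw [hg, smul_smul, inv_mul_cancel₀ hg0, one_smul]
  have hsub : Subsingleton (Ω[F⁄K⟮f⟯]) := by
    refine subsingleton_of_forall_eq 0 fun ω => ?_
    obtain ⟨ω', rfl⟩ := KaehlerDifferential.map_surjective K K⟮f⟯ F ω
    have h1 : ω' ∈ Submodule.span F {KaehlerDifferential.D K F t} := by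
      rw [ThmC.kaehler_span]; trivial
    obtain ⟨c, rfl⟩ := Submodule.mem_span_singleton.1 h1
    rw [map_smul, hdt, map_smul, KaehlerDifferential.map_D]
    have h2 : KaehlerDifferential.D K⟮f⟯ F (algebraMap F F f) = 0 := by
      have := Derivation.map_algebraMap (KaehlerDifferential.D K⟮f⟯ F) (AdjoinSimple.gen K f)
      exact this
    rw [h2, smul_zero, smul_zero]
  haveI : Algebra.FormallyUnramified K⟮f⟯ F := ⟨hsub⟩
  exact (Algebra.FormallyUnramified.iff_isSeparable K⟮f⟯ F).1 this

end

section

variable {K C M : Type u} [Field K] [IsAlgClosed K] [Field C] [Field M] [Algebra K C] [Algebra K M]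
  [FunField K C]

/-- functions regular at finitely many points -/
def Rg (S : Finset (Pl K C M)) : Submodule K C where
  carrier := {f | ∀ t ∈ S, f ∈ t.V}
  add_mem' ha hb t ht := add_mem (ha t ht) (hb t ht)
  zero_mem' t _ := zero_mem _
  smul_mem' c f hf t ht := by
    rw [Algebra.smul_def]
    exact mul_mem (t.mem' c) (hf t ht)

/-- the inverses of the translates of a function are regular -/
theorem exists_moebius (S : Finset (Pl K C M)) (f : C) :
    ∃ a : K, ∀ t ∈ S, (∃ b, t.At f b ∧ b ≠ algebraMap K M a ∧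
      t.At (f - algebraMap K C a)⁻¹ (b - algebraMap K M a)⁻¹) ∨
      (t.At f⁻¹ 0 ∧ t.At (f - algebraMap K C a)⁻¹ 0) := by
  classical
  have hinf : Infinite K := inferInstance
  obtain ⟨a, ha⟩ : ∃ a : K, ∀ t ∈ S, ¬ t.At f (algebraMap K M a) := by
    have h1 : ∀ t : Pl K C M, {a : K | t.At f (algebraMap K M a)}.Finite := by
      intro t
      apply Set.Subsingleton.finite
      intro a ha b hb
      exact (algebraMap K M).injective (ha.uniq hb)
    have h2 : (⋃ t ∈ S, {a : K | t.At f (algebraMap K M a)}).Finite :=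
      S.finite_toSet.biUnion fun t _ => h1 t
    obtain ⟨a, ha⟩ := h2.exists_notMem
    refine ⟨a, fun t ht h => ha ?_⟩
    simp only [Set.mem_iUnion]
    exact ⟨t, ht, h⟩
  refine ⟨a, fun t ht => ?_⟩
  rcases t.at_or f with ⟨b, hb⟩ | ⟨h0, h1⟩
  · left
    have hne : b ≠ algebraMap K M a := by
      rintro rfl
      exact ha t ht hb
    refine ⟨b, hb, hne, ?_⟩
    have h2 : t.At (f - algebraMap K C a) (b - algebraMap K M a) := by
      rw [sub_eq_add_neg, sub_eq_add_neg]
      exact hb.add (t.at_alg a).neg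
    exact h2.inv (sub_ne_zero.2 hne)
  · right
    refine ⟨h1, ?_⟩
    have h2 : t.At (1 - algebraMap K C a * f⁻¹) 1 := by
      have h3 := t.at_one.add ((t.at_alg a).mul h1).neg
      rw [mul_zero, neg_zero, add_zero, ← sub_eq_add_neg] at h3
      exact h3
    have h3 := h1.mul (h2.inv one_ne_zero)
    rw [zero_mul] at h3
    have h4 : f⁻¹ * (1 - algebraMap K C a * f⁻¹)⁻¹ = (f - algebraMap K C a)⁻¹ := by
      rw [← mul_inv]
      congr 1
      field_simp
    rw [h4] at h3
    exact h3

theorem exists_sub (t t' : Pl K C M) (h : t ≠ t') : ∃ f b, t.At f b ∧ ¬ t'.At f b := by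
  by_contra hcon
  push Not at hcon
  exact h (Pl.eq_of_at hcon)

/-- A separating function which separates finitely many points. -/
theorem exists_good (S : Finset (Pl K C M)) : ∃ s : C, Transcendental K s ∧
    Algebra.IsSeparable K⟮s⟯ C ∧ (∀ t ∈ S, s ∈ t.V) ∧
    ∀ t ∈ S, ∀ t' ∈ S, ∀ b, t.At s b → t'.At s b → t = t' := by
  classical
  have hinf : Infinite K := inferInstance
  let p : Option ({x // x ∈ S} × {x // x ∈ S}) → Submodule K (Rg S) := fun i =>
    match i with
    | none => (Wd K C).comap (Rg S).subtype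
    | some (t, t') => if t = t' then ⊥ else
      { carrier := {f | ∃ b, t.1.At (f : C) b ∧ t'.1.At (f : C) b}
        add_mem' := by
          rintro f g ⟨b, hb, hb'⟩ ⟨c, hc, hc'⟩
          exact ⟨b + c, hb.add hc, hb'.add hc'⟩
        zero_mem' := ⟨0, t.1.at_zero, t'.1.at_zero⟩
        smul_mem' := by
          rintro c f ⟨b, hb, hb'⟩
          refine ⟨algebraMap K M c * b, ?_, ?_⟩
          · change t.1.At (c • (f : C)) _
            rw [Algebra.smul_def]
            exact (t.1.at_alg c).mul hb
          · change t'.1.At (c • (f : C)) _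
            rw [Algebra.smul_def]
            exact (t'.1.at_alg c).mul hb' }
  have hR : ∀ (f : C), f ∉ Wd K C → ∃ g : Rg S, (g : C) ∉ Wd K C := by
    intro f hf
    obtain ⟨a, ha⟩ := exists_moebius S f
    refine ⟨⟨(f - algebraMap K C a)⁻¹, fun t ht => ?_⟩, fun h => ?_⟩
    · rcases ha t ht with ⟨b, _, _, h⟩ | ⟨_, h⟩
      · exact h.1
      · exact h.1
    · have h1 := inv_mem_Wd h
      rw [inv_inv] at h1
      apply hf
      have h2 := add_mem h1 (algebraMap_mem_Wd (F := C) a)
      rwa [sub_add_cancel] at h2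
  obtain ⟨f₀, hf₀⟩ := exists_notMem_Wd (K := K) (F := C)
  obtain ⟨g₀, hg₀⟩ := hR f₀ hf₀
  have hp : ∀ i, p i ≠ ⊤ := by
    rintro (_ | ⟨t, t'⟩) h
    · have : g₀ ∈ p none := by rw [h]; trivial
      exact hg₀ this
    · by_cases htt : t = t'
      · have h1 : p (some (t, t')) = ⊥ := if_pos htt
        rw [h1] at h
        have : g₀ ∈ (⊥ : Submodule K (Rg S)) := by rw [h]; trivial
        rw [Submodule.mem_bot] at this
        rw [this] at hg₀
        exact hg₀ (zero_mem _)
      · have hne : t.1 ≠ t'.1 := fun h => htt (Subtype.ext h)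
        obtain ⟨f, b, hb, hb'⟩ := exists_sub t.1 t'.1 hne
        obtain ⟨a, ha⟩ := exists_moebius S f
        have hg : (f - algebraMap K C a)⁻¹ ∈ Rg S := by
          intro t ht
          rcases ha t ht with ⟨b, _, _, h⟩ | ⟨_, h⟩
          · exact h.1
          · exact h.1
        have h1 : (⟨(f - algebraMap K C a)⁻¹, hg⟩ : Rg S) ∈ p (some (t, t')) := by
          rw [h]; trivial
        have h2 : p (some (t, t')) = _ := if_neg htt
        rw [h2] at h1
        obtain ⟨c, hc, hc'⟩ := h1
        rcases ha t.1 t.2 with ⟨b1, h3, h4, h5⟩ | ⟨h3, _⟩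
        · have h6 := h3.uniq hb
          subst h6
          have h7 := hc.uniq h5
          change t.1.At (f - algebraMap K C a)⁻¹ c at hc
          change t'.1.At (f - algebraMap K C a)⁻¹ c at hc'
          rw [h7] at hc'
          have h8 := hc'.inv (inv_ne_zero (sub_ne_zero.2 h4))
          rw [inv_inv, inv_inv] at h8
          have h9 := h8.add (t'.1.at_alg a)
          rw [sub_add_cancel, sub_add_cancel] at h9
          exact hb' h9
        · rcases eq_or_ne f 0 with rfl | hf0
          · apply hb'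
            rw [hb.uniq t.1.at_zero]
            exact t'.1.at_zero
          · have h4 := hb.mul h3
            rw [mul_inv_cancel₀ hf0, mul_zero] at h4
            exact zero_ne_one (h4.uniq t.1.at_one)
  have hcov : ⋃ i, (p i : Set (Rg S)) ≠ Set.univ := by
    intro h
    obtain ⟨i, hi⟩ := Subspace.exists_eq_top_of_iUnion_eq_univ h
    exact hp i hi
  obtain ⟨s, hs⟩ : ∃ s : Rg S, ∀ i, s ∉ p i := by
    by_contra hcon
    push Not at hcon
    apply hcov
    ext x
    simp only [Set.mem_iUnion, Set.mem_univ, iff_true]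
    exact hcon x
  obtain ⟨h1, h2⟩ := sep_of_notMem_Wd (f := (s : C)) (hs none)
  refine ⟨s, h1, h2, s.2, ?_⟩
  intro t ht t' ht' b hb hb'
  by_contra hne
  have hne' : (⟨t, ht⟩ : {x // x ∈ S}) ≠ ⟨t', ht'⟩ := fun h => hne (congrArg Subtype.val h)
  apply hs (some (⟨t, ht⟩, ⟨t', ht'⟩))
  have h3 : p (some (⟨t, ht⟩, ⟨t', ht'⟩)) = _ := if_neg hne'
  rw [h3]
  exact ⟨b, hb, hb'⟩

end

end Fermat.Agent.S26A
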