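import Fermat.Agent.S26A.Cs3
import Fermat.Agent.S26A.Cs4

/-!
# Specialization of divisors and of values of functions
-/

set_option autoImplicit false
set_option linter.unusedSectionVars false
set_option linter.style.haveILetI false

namespace Fermat.Agent.S26A

universe u

open AlgebraicCurve Fermat.Agent.RR Fermat.Agent.Curve IntermediateField Polynomial
open Fermat.Agent.MW Module

theorem mapDomain_apply_sum {α β : Type*} [DecidableEq β] (D : α →₀ ℤ) (f : α → β) (b : β) :
    D.mapDomain f b = ∑ a ∈ D.support with f a = b, D a := by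
  rw [Finset.sum_filter]
  unfold Finsupp.mapDomain
  rw [Finsupp.sum_apply, Finsupp.sum]
  refine Finset.sum_congr rfl fun a _ => ?_
  rw [Finsupp.single_apply]

theorem mapDomain_eq_zero' {α β : Type*} {D : α →₀ ℤ} {f : α → β} {b : β}
    (h : ∀ a, f a = b → D a = 0) : D.mapDomain f b = 0 := by
  classical
  rw [mapDomain_apply_sum]
  exact Finset.sum_eq_zero fun a ha => h a (Finset.mem_filter.1 ha).2

theorem mapDomain_pos' {α β : Type*} {D : α →₀ ℤ} {f : α → β} {b : β} {a : α} (hab : f a = b)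
    (ha : 0 < D a) (h : ∀ a, f a = b → 0 ≤ D a) : 0 < D.mapDomain f b := by
  classical
  rw [mapDomain_apply_sum]
  have h1 : a ∈ D.support.filter (fun a => f a = b) :=
    Finset.mem_filter.2 ⟨Finsupp.mem_support_iff.2 ha.ne', hab⟩
  exact lt_of_lt_of_le ha (Finset.single_le_sum (f := fun a => D a)
    (fun i hi => h i (Finset.mem_filter.1 hi).2) h1)

section Gauss

variable {K L C E M E' : Type u} [Field K] [Field L] [Field C] [Field E] [Field M] [Field E']
  [Algebra K C] [Algebra L E] [Algebra K L] [Algebra C E] [Algebra K M] [Algebra M E']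
  [Algebra C E'] [Algebra K E] [Algebra K E']
  [IsAlgClosed K] [IsAlgClosed L] [IsAlgClosed M] [FunField K C] [FunField L E] [FunField M E']
  [hC : CExt K L C E] [hC' : CExt K M C E']

/-- the value of a constant function at a point -/
theorem evp_eq_none_iff {ptsL : Pl K C L ≃ Place L E}
    (hL : ∀ t f c, t.At f c ↔ evp (bc C E f) (ptsL t) = some c) (t : Pl K C L) (f : C) :
    evp (bc C E f) (ptsL t) = none ↔ f ∉ t.V := by
  constructor
  · intro h hf
    have h1 := (hL t f _).1 ⟨hf, rfl⟩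
    rw [h] at h1
    exact absurd h1 (by simp)
  · intro h
    rcases hc : evp (bc C E f) (ptsL t) with _ | c
    · rfl
    · exact absurd ((hL t f c).2 hc).1 h

variable (φ : Pl K L M) (Φ : Pl K E E')
  (h1 : ∀ a b, φ.At a b → Φ.At (algebraMap L E a) (algebraMap M E' b))
  (h2 : ∀ f : C, Φ.At (bc C E f) (bc C E' f))
  (ptsL : Pl K C L ≃ Place L E) (ptsM : Pl K C M ≃ Place M E')
  (hL : ∀ t f c, t.At f c ↔ evp (bc C E f) (ptsL t) = some c)
  (hM : ∀ t f c, t.At f c ↔ evp (bc C E' f) (ptsM t) = some c)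

include h1 h2 hL hM

/-- **Specialization of the divisor of a function.** -/
theorem cp_div_aux {h : E} {b : E'} (hb : b ≠ 0) (hhb : Φ.At h b) (DL : Pl K C L →₀ ℤ)
    (hDL : ∀ t, DL t = (ptsL t).ord h) (DM : Pl K C M →₀ ℤ) (hDM : ∀ t, DM t = (ptsM t).ord b) :
    DM = DL.mapDomain (fun t => φ.comp t) := by
  classical
  have hDL' : divisor L h = DL.mapDomain ptsL := by
    ext w
    rw [divisor_apply]
    obtain ⟨t, rfl⟩ := ptsL.surjective w
    rw [Finsupp.mapDomain_apply ptsL.injective, hDL]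
  have hDM' : divisor M b = DM.mapDomain ptsM := by
    ext w
    rw [divisor_apply]
    obtain ⟨t, rfl⟩ := ptsM.surjective w
    rw [Finsupp.mapDomain_apply ptsM.injective, hDM]
  have key : ∀ s : C, Transcendental K s → Algebra.IsSeparable K⟮s⟯ C →
      DM.mapDomain (fun t => evp (bc C E' s) (ptsM t)) =
        (DL.mapDomain (fun t => φ.comp t)).mapDomain (fun t => evp (bc C E' s) (ptsM t)) := by
    intro s hs hsep
    have h3 := cp_dvp φ Φ h1 h2 hs hb hhb
    rw [hDL', hDM', ← Finsupp.mapDomain_comp, ← Finsupp.mapDomain_comp,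
      ← Finsupp.mapDomain_comp] at h3
    rw [← Finsupp.mapDomain_comp]
    refine h3.symm.trans ?_
    congr 1
    funext t
    change phi1 φ.V φ.ρ (evp (bc C E s) (ptsL t)) = evp (bc C E' s) (ptsM (φ.comp t))
    symm
    rcases hc : evp (bc C E s) (ptsL t) with _ | c
    · rw [phi1_none, evp_eq_none_iff hM]
      rw [evp_eq_none_iff hL] at hc
      intro h4
      obtain ⟨b, hb, _⟩ := h4
      exact hc hb.1
    · have h4 := (hL t s c).2 hc
      by_cases hcV : c ∈ φ.V
      · rw [phi1_mem _ _ hcV, ← hM]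
        exact Pl.comp_at h4 ⟨hcV, rfl⟩
      · rw [phi1_notMem _ _ hcV, evp_eq_none_iff hM]
        rintro ⟨c', hc', hc''⟩
        rw [hc'.uniq h4] at hc''
        exact hcV hc''
  set D := DM - DL.mapDomain (fun t => φ.comp t) with hD
  suffices D = 0 from sub_eq_zero.1 this
  obtain ⟨s, hs, hsep, hreg, hinj⟩ := exists_good (K := K) (C := C) D.support
  have h3 := key s hs hsep
  have h4 : D.mapDomain (fun t => evp (bc C E' s) (ptsM t)) = 0 := by
    rw [hD, sub_eq_add_neg, Finsupp.mapDomain_add, mapDomain_neg', h3, add_neg_cancel]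
  ext t
  rw [Finsupp.zero_apply]
  by_contra ht
  have ht' : t ∈ D.support := Finsupp.mem_support_iff.2 ht
  have h5 : D.mapDomain (fun t => evp (bc C E' s) (ptsM t)) (evp (bc C E' s) (ptsM t)) = D t := by
    rw [mapDomain_apply_sum]
    rw [Finset.sum_eq_single t]
    · intro t' ht1 hne
      exfalso
      rw [Finset.mem_filter] at ht1
      apply hne
      have h6 : t.At s (t.ρ ⟨s, hreg t ht'⟩) := ⟨hreg t ht', rfl⟩
      have h7 := (hM t s _).1 h6
      have h8 := ht1.2.trans h7
      exact hinj t' ht1.1 t ht' _ ((hM t' s _).2 h8) h6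
    · intro h6
      exact (h6 (Finset.mem_filter.2 ⟨ht', rfl⟩)).elim
  rw [h4, Finsupp.zero_apply] at h5
  exact ht h5.symm

end Gauss

section Hat

variable {K L C E : Type u} [Field K] [Field L] [Field C] [Field E] [Algebra K C] [Algebra L E]
  [Algebra K L] [Algebra K E]

theorem ord_pos_of_at {w : Place L E} {hat : Pl K E L} (h2 : hat.V = w.toValuationSubring) {x : E}
    (hx : x ≠ 0) (h0 : hat.At x 0) : 0 < w.ord x := by
  by_contra hcon
  have h3 : x⁻¹ ∈ hat.V := by
    rw [h2]
    apply mem_of_ord_nonneg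
    rw [Place.ord_inv]
    omega
  have h4 := h0.mul ⟨h3, rfl⟩
  rw [zero_mul, mul_inv_cancel₀ hx] at h4
  exact zero_ne_one (h4.uniq (Pl.at_one _))

theorem at_zero_of_ord_pos {w : Place L E} {hat : Pl K E L} (h2 : hat.V = w.toValuationSubring)
    {x : E} (h0 : 0 < w.ord x) : hat.At x 0 := by
  rcases eq_or_ne x 0 with rfl | hx
  · exact hat.at_zero
  have h3 : x ∈ hat.V := by
    rw [h2]
    exact mem_of_ord_nonneg w h0.le
  refine ⟨h3, ?_⟩
  by_contra hne
  have h4 : x⁻¹ ∈ hat.V := hat.inv' ⟨x, h3⟩ hne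
  rw [h2] at h4
  have h5 := ord_nonneg_of_mem w h4
  rw [Place.ord_inv] at h5
  omega

theorem exists_at_of_ord_nonneg {w : Place L E} {hat : Pl K E L}
    (h2 : hat.V = w.toValuationSubring) {x : E} (h0 : 0 ≤ w.ord x) : ∃ c, hat.At x c := by
  have h3 : x ∈ hat.V := by
    rw [h2]
    exact mem_of_ord_nonneg w h0
  exact ⟨_, h3, rfl⟩

theorem exists_at_of_ord_zero {w : Place L E} {hat : Pl K E L}
    (h2 : hat.V = w.toValuationSubring) {x : E} (hx : x ≠ 0) (h0 : w.ord x = 0) :
    ∃ c, c ≠ 0 ∧ hat.At x c := by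
  obtain ⟨c, hc⟩ := exists_at_of_ord_nonneg h2 h0.ge
  refine ⟨c, ?_, hc⟩
  rintro rfl
  have := ord_pos_of_at h2 hx hc
  omega

theorem ord_nonneg_of_at {w : Place L E} {hat : Pl K E L} (h2 : hat.V = w.toValuationSubring)
    {x : E} {c : L} (h0 : hat.At x c) : 0 ≤ w.ord x := by
  apply ord_nonneg_of_mem
  rw [← h2]
  exact h0.1

/-- the values of constant functions, from `hat` -/
theorem hL_of_hat [IsAlgClosed L] [FunField L E] [Algebra C E] {w : Place L E} {hat : Pl K E L}
    (h2 : hat.V = w.toValuationSubring) (t : Pl K C L)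
    (hL1 : ∀ c : L, hat.At (algebraMap L E c) c)
    (hL3 : ∀ f c, t.At f c → hat.At (bc C E f) c)
    (hL4 : ∀ f c, hat.At (bc C E f) c → t.At f c) (f : C) (c : L) :
    t.At f c ↔ evp (bc C E f) w = some c := by
  rw [evp_some]
  constructor
  · intro h
    have h3 := (hL3 f c h).add (hL1 c).neg
    rw [add_neg_cancel, ← sub_eq_add_neg] at h3
    rcases eq_or_ne (bc C E f - algebraMap L E c) 0 with h4 | h4
    · exact Or.inl h4
    · right
      have := ord_pos_of_at h2 h4 h3
      omega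
  · intro h
    apply hL4
    have h3 : hat.At (bc C E f - algebraMap L E c) 0 := by
      rcases h with h | h
      · rw [h]; exact hat.at_zero
      · exact at_zero_of_ord_pos h2 (by omega)
    have h4 := h3.add (hL1 c)
    rw [zero_add, sub_add_cancel] at h4
    exact h4

end Hat

section Gauss2

variable {K L C E M E' : Type u} [Field K] [Field L] [Field C] [Field E] [Field M] [Field E']
  [Algebra K C] [Algebra L E] [Algebra K L] [Algebra C E] [Algebra K M] [Algebra M E']
  [Algebra C E'] [Algebra K E] [Algebra K E']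
  [IsAlgClosed K] [IsAlgClosed L] [IsAlgClosed M] [FunField K C] [FunField L E] [FunField M E']
  [hC : CExt K L C E] [hC' : CExt K M C E']
  (φ : Pl K L M) (Φ : Pl K E E')
  (h1 : ∀ a b, φ.At a b → Φ.At (algebraMap L E a) (algebraMap M E' b))
  (h2 : ∀ f : C, Φ.At (bc C E f) (bc C E' f))
  (ptsL : Pl K C L ≃ Place L E) (ptsM : Pl K C M ≃ Place M E')
  (hL : ∀ t f c, t.At f c ↔ evp (bc C E f) (ptsL t) = some c)
  (hM : ∀ t f c, t.At f c ↔ evp (bc C E' f) (ptsM t) = some c)
  (hatL : Pl K C L → Pl K E L) (hatM : Pl K C M → Pl K E' M)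
  (hL1 : ∀ t (c : L), (hatL t).At (algebraMap L E c) c)
  (hM1 : ∀ t (c : M), (hatM t).At (algebraMap M E' c) c)
  (hL2 : ∀ t, (hatL t).V = (ptsL t).toValuationSubring)
  (hM2 : ∀ t, (hatM t).V = (ptsM t).toValuationSubring)

include h1 h2 hL hM hL1 hM1 hL2 hM2

/-- the divisor of a function as a divisor of points -/
noncomputable def dvL (ptsL : Pl K C L ≃ Place L E) (h : E) : Pl K C L →₀ ℤ :=
  (divisor L h).mapDomain ptsL.symm

omit h1 h2 hL hM hL1 hM1 hL2 hM2 in
omit [IsAlgClosed K] [FunField K C] [Algebra C E] [Algebra K E] [IsAlgClosed M] [FunField M E']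
  [Algebra K M] [Algebra M E'] [Algebra C E'] [Algebra K E'] hC hC' in
theorem dvL_apply (ptsL : Pl K C L ≃ Place L E) (h : E) (t : Pl K C L) :
    dvL ptsL h t = (ptsL t).ord h := by
  unfold dvL
  have : t = ptsL.symm (ptsL t) := (ptsL.symm_apply_apply t).symm
  conv_lhs => rw [this]
  rw [Finsupp.mapDomain_apply ptsL.symm.injective, divisor_apply]

/-- **Specialization of the value of a function.** -/
theorem cp_hat_aux {h : E} {b : E'} (hb : b ≠ 0) (hhb : Φ.At h b) (t : Pl K C L)
    (ht : ∀ s, φ.comp s = φ.comp t → (ptsL s).ord h = 0) :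
    ∃ (c : L) (c' : M), c ≠ 0 ∧ c' ≠ 0 ∧ (hatL t).At h c ∧ φ.At c c' ∧
      (hatM (φ.comp t)).At b c' := by
  have hdiv : ∀ {x : E} {y : E'}, y ≠ 0 → Φ.At x y → ∀ t' : Pl K C M,
      (ptsM t').ord y = (dvL ptsL x).mapDomain (fun t => φ.comp t) t' := by
    intro x y hy hxy t'
    rw [← cp_div_aux φ Φ h1 h2 ptsL ptsM hL hM hy hxy (dvL ptsL x) (dvL_apply ptsL x)
      (dvL ptsM y) (dvL_apply ptsM y), dvL_apply]
  have hh0 : h ≠ 0 := by
    rintro rfl
    exact hb (hhb.uniq Φ.at_zero)
  have hbt : (ptsM (φ.comp t)).ord b = 0 := by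
    rw [hdiv hb hhb]
    apply mapDomain_eq_zero'
    intro s hs
    rw [dvL_apply]
    exact ht s hs
  obtain ⟨c, hc0, hc⟩ := exists_at_of_ord_zero (hL2 t) hh0 (ht t rfl)
  obtain ⟨c', hc'0, hc'⟩ := exists_at_of_ord_zero (hM2 (φ.comp t)) hb hbt
  refine ⟨c, c', hc0, hc'0, hc, ?_, hc'⟩
  rcases φ.at_or c with ⟨c₁, hc₁⟩ | ⟨-, hci⟩
  · by_contra hne
    have hne' : c₁ ≠ c' := by
      rintro rfl
      exact hne hc₁
    have h3 : Φ.At (h - algebraMap L E c) (b - algebraMap M E' c₁) := by
      rw [sub_eq_add_neg, sub_eq_add_neg]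
      exact hhb.add (h1 _ _ hc₁).neg
    have h4 : (hatM (φ.comp t)).At (b - algebraMap M E' c₁) (c' - c₁) := by
      rw [sub_eq_add_neg, sub_eq_add_neg]
      exact hc'.add (hM1 _ c₁).neg
    have h5 : b - algebraMap M E' c₁ ≠ 0 := by
      intro h0
      rw [h0] at h4
      have := h4.uniq (Pl.at_zero _)
      rw [sub_eq_zero] at this
      exact hne' this.symm
    have h6 : h - algebraMap L E c ≠ 0 := by
      intro h0
      rw [h0] at h3
      exact h5 (h3.uniq Φ.at_zero)
    have h7 : (hatL t).At (h - algebraMap L E c) 0 := by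
      have := hc.add (hL1 t c).neg
      rwa [add_neg_cancel, ← sub_eq_add_neg] at this
    have h8 : 0 < (ptsM (φ.comp t)).ord (b - algebraMap M E' c₁) := by
      rw [hdiv h5 h3]
      refine mapDomain_pos' (a := t) rfl ?_ ?_
      · rw [dvL_apply]
        exact ord_pos_of_at (hL2 t) h6 h7
      · intro s hs
        rw [dvL_apply]
        obtain ⟨d, _, hd⟩ := exists_at_of_ord_zero (hL2 s) hh0 (ht s hs)
        have := hd.add (hL1 s c).neg
        rw [← sub_eq_add_neg] at this
        exact ord_nonneg_of_at (hL2 s) this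
    have h9 := at_zero_of_ord_pos (hM2 (φ.comp t)) h8
    have h10 := h4.uniq h9
    rw [sub_eq_zero] at h10
    exact hne' h10.symm
  · exfalso
    have h3 : Φ.At (1 - algebraMap L E c⁻¹ * h) 1 := by
      have h4 := Φ.at_one.add (((h1 _ _ hci).mul hhb).neg)
      rw [map_zero, zero_mul, neg_zero, add_zero, ← sub_eq_add_neg] at h4
      exact h4
    have h6 : 1 - algebraMap L E c⁻¹ * h ≠ 0 := by
      intro h0
      rw [h0] at h3
      exact one_ne_zero (h3.uniq Φ.at_zero)
    have h7 : (hatL t).At (1 - algebraMap L E c⁻¹ * h) 0 := by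
      have h4 := (hatL t).at_one.add (((hL1 t c⁻¹).mul hc).neg)
      rw [inv_mul_cancel₀ hc0, add_neg_cancel, ← sub_eq_add_neg] at h4
      exact h4
    have h8 : 0 < (ptsM (φ.comp t)).ord (1 : E') := by
      rw [hdiv one_ne_zero h3]
      refine mapDomain_pos' (a := t) rfl ?_ ?_
      · rw [dvL_apply]
        exact ord_pos_of_at (hL2 t) h6 h7
      · intro s hs
        rw [dvL_apply]
        obtain ⟨d, _, hd⟩ := exists_at_of_ord_zero (hL2 s) hh0 (ht s hs)
        have h4 := (hatL s).at_one.add (((hL1 s c⁻¹).mul hd).neg)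
        rw [← sub_eq_add_neg] at h4
        exact ord_nonneg_of_at (hL2 s) h4
    rw [Place.ord_one] at h8
    exact lt_irrefl _ h8

end Gauss2

end Fermat.Agent.S26A
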