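import Fermat.Agent.S26A.Gn2
import Fermat.Agent.S26A.Cs5

/-!
# Rigid divisors and Riemann-Roch in terms of points
-/

set_option autoImplicit false
set_option linter.unusedSectionVars false
set_option linter.style.haveILetI false

namespace Fermat.Agent.S26A

universe u

open AlgebraicCurve Fermat.Agent.RR Fermat.Agent.Curve IntermediateField Module Fermat.Agent.MW

section

variable {K C EK L E : Type u} [Field K] [Field C] [Field EK] [Field L] [Field E]
  [Algebra K C] [Algebra K EK] [Algebra C EK] [Algebra K L] [Algebra L E] [Algebra C E]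
  [IsAlgClosed K] [IsAlgClosed L] [FunField K C] [FunField K EK] [FunField L E]
  [hCK : CExt K K C EK] [hC : CExt K L C E]
  (pK : Pl K C K ≃ Place K EK)
  (hK : ∀ t f c, t.At f c ↔ evp (bc C EK f) (pK t) = some c)
  (pL : Pl K C L ≃ Place L E)
  (hL : ∀ t f c, t.At f c ↔ evp (bc C E f) (pL t) = some c)

/-- the point of a place -/
noncomputable def plK (v : Place K C) : Pl K C K := pK.symm (bcP K EK v)

theorem plK_injective : Function.Injective (plK (C := C) pK) :=
  pK.symm.injective.comp bcP_injective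

include hK in
theorem plK_at {v : Place K C} {g : C} (hg : 0 < v.ord g) : (plK pK v).At g 0 := by
  rw [hK]
  apply evp_of_ord_pos
  rw [map_zero, sub_zero, plK, Equiv.apply_symm_apply, bcP_ord]
  exact hg

include hK hL in
/-- base change of points and of places -/
theorem pL_comp (v : Place K C) :
    pL ((Pl.ofHom (Algebra.ofId K L)).comp (plK pK v)) = bcP L E v := by
  set t := (Pl.ofHom (Algebra.ofId K L)).comp (plK pK v) with ht
  have key : ∀ g : C, 0 < v.ord g → 0 < (pL t).ord (bc C E g) := by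
    intro g hg
    have h1 : t.At g 0 := by
      have h2 := Pl.comp_at (plK_at pK hK hg) (Pl.ofHom_at (Algebra.ofId K L) 0)
      rwa [map_zero] at h2
    rw [hL, evp_some, map_zero, sub_zero] at h1
    rcases h1 with h1 | h1
    · exfalso
      have : g = 0 := (map_eq_zero _).1 h1
      rw [this, Place.ord_zero] at hg
      exact lt_irrefl _ hg
    · omega
  obtain ⟨g₀, hg₀, hg₀1⟩ := exists_ord_eq v 1
  rcases dichotomy (K := K) (F := C) (pL t) with ⟨P, hP⟩ | h
  · rw [hP]
    congr 1
    symm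
    apply place_eq_of_le
    intro x hx
    rw [mem_iff_ord_nonneg] at hx ⊢
    rcases eq_or_ne x 0 with rfl | hx0
    · rw [Place.ord_zero]
    by_contra hcon
    -- `x⁻¹` is a zero of `P`
    have h1 : 0 < v.ord (g₀ * x ^ (P.ord g₀).toNat) := by
      rw [v.ord_mul hg₀ (pow_ne_zero _ hx0), ord_pow, hg₀1]
      positivity
    have h2 := key _ h1
    rw [hP, bcP_ord, P.ord_mul hg₀ (pow_ne_zero _ hx0), ord_pow] at h2
    have h3 : 0 < P.ord g₀ := by
      have := key g₀ (by rw [hg₀1]; exact one_pos)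
      rwa [hP, bcP_ord] at this
    have h4 : ((P.ord g₀).toNat : ℤ) = P.ord g₀ := Int.toNat_of_nonneg h3.le
    rw [h4] at h2
    have h5 : P.ord x ≤ -1 := by omega
    nlinarith
  · exfalso
    have := key g₀ (by rw [hg₀1]; exact one_pos)
    rw [h] at this
    exact lt_irrefl _ this

theorem exists_nat {α : Type*} (D : α →₀ ℤ) (h : 0 ≤ D) :
    ∃ N : α →₀ ℕ, D = N.mapRange (fun n : ℕ => (n : ℤ)) Nat.cast_zero := by
  refine ⟨D.mapRange Int.toNat rfl, ?_⟩
  ext a
  rw [Finsupp.mapRange_apply, Finsupp.mapRange_apply]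
  exact (Int.toNat_of_nonneg (h a)).symm

/-- base change of the divisors of points -/
noncomputable def bcN (L : Type u) [Field L] [Algebra K L] (N : Pl K C K →₀ ℕ) : Pl K C L →₀ ℕ :=
  N.mapDomain (fun s => (Pl.ofHom (Algebra.ofId K L)).comp s)

include hK hL in
theorem bcN_apply (N : Place K C →₀ ℕ) (t : Pl K C L) :
    (((N.mapDomain (plK pK)).mapDomain (fun s => (Pl.ofHom (Algebra.ofId K L)).comp s) t : ℕ) : ℤ) =
      bcD L E (N.mapRange (fun n : ℕ => (n : ℤ)) Nat.cast_zero) (pL t) := by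
  have h1 : (N.mapDomain (plK pK)).mapDomain (fun s => (Pl.ofHom (Algebra.ofId K L)).comp s) =
      (N.mapDomain (bcP L E)).mapDomain pL.symm := by
    rw [← Finsupp.mapDomain_comp, ← Finsupp.mapDomain_comp]
    congr 1
    funext v
    change (Pl.ofHom (Algebra.ofId K L)).comp (plK pK v) = pL.symm (bcP L E v)
    rw [← pL_comp pK hK pL hL v, Equiv.symm_apply_apply]
  rw [h1]
  have h2 : t = pL.symm (pL t) := (pL.symm_apply_apply t).symm
  conv_lhs => rw [h2]
  rw [Finsupp.mapDomain_apply pL.symm.injective]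
  have h3 : bcD L E (N.mapRange (fun n : ℕ => (n : ℤ)) Nat.cast_zero) =
      (N.mapDomain (bcP L E)).mapRange (fun n : ℕ => (n : ℤ)) Nat.cast_zero := by
    change Finsupp.mapDomain (bcP L E) _ = _
    rw [Finsupp.mapDomain_mapRange _ _ _ _ Nat.cast_add]
  rw [h3, Finsupp.mapRange_apply]

theorem rigid_aux (N : Place K C →₀ ℕ)
    (hN : ell (N.mapRange (fun n : ℕ => (n : ℤ)) Nat.cast_zero : Divisor K C) = 1)
    (hK : ∀ t f c, t.At f c ↔ evp (bc C EK f) (pK t) = some c)
    (hL : ∀ t f c, t.At f c ↔ evp (bc C E f) (pL t) = some c)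
    (D : Pl K C L →₀ ℕ) (h : E) (hh : h ≠ 0)
    (hD : ∀ t, (D t : ℤ) - ((N.mapDomain (plK pK)).mapDomain
      (fun s => (Pl.ofHom (Algebra.ofId K L)).comp s) t : ℤ) = (pL t).ord h) :
    D = (N.mapDomain (plK pK)).mapDomain (fun s => (Pl.ofHom (Algebra.ofId K L)).comp s) := by
  have hN0 : (0 : Divisor K C) ≤ N.mapRange (fun n : ℕ => (n : ℤ)) Nat.cast_zero := by
    intro v
    rw [Finsupp.mapRange_apply, Finsupp.zero_apply]
    positivity
  have h1 := eq_of_ell_one (K := L) (F := E)
    (E := bcD L E (N.mapRange (fun n : ℕ => (n : ℤ)) Nat.cast_zero))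
    (D := (D.mapRange (fun n : ℕ => (n : ℤ)) Nat.cast_zero).mapDomain pL)
    (bcD_nonneg hN0) (by rw [ell_bcD_eq', hN]) (by
      intro w
      obtain ⟨t, rfl⟩ := pL.surjective w
      rw [Finsupp.mapDomain_apply pL.injective, Finsupp.mapRange_apply, Finsupp.zero_apply]
      positivity) hh (by
      ext w
      obtain ⟨t, rfl⟩ := pL.surjective w
      rw [Finsupp.sub_apply, Finsupp.mapDomain_apply pL.injective, Finsupp.mapRange_apply,
        divisor_apply, ← hD, bcN_apply pK hK pL hL])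
  ext t
  have h2 := DFunLike.congr_fun h1 (pL t)
  rw [Finsupp.mapDomain_apply pL.injective, Finsupp.mapRange_apply,
    ← bcN_apply pK hK pL hL] at h2
  exact_mod_cast h2

theorem degree_eq_sum_pts (D : Pl K C L →₀ ℤ) :
    Divisor.degree (D.mapDomain pL : Divisor L E) = D.sum fun _ n => n := by
  rw [degree_eq_sum, Finsupp.sum_mapDomain_index (fun _ => rfl) (fun _ _ _ => rfl)]

theorem eff_aux (N : Place K C →₀ ℕ)
    (hN : Divisor.degree (N.mapRange (fun n : ℕ => (n : ℤ)) Nat.cast_zero : Divisor K C) =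
      rrGenus K C)
    (D : Pl K C L →₀ ℤ)
    (hD : D.sum (fun _ n => n) = ((N.mapDomain (plK pK)).sum (fun _ n => n) : ℕ)) :
    ∃ (G : Pl K C L →₀ ℕ) (h : E), h ≠ 0 ∧ ∀ t, (G t : ℤ) - D t = (pL t).ord h := by
  have h0 : ((N.mapDomain (plK pK)).sum (fun _ n => n) : ℕ) = N.sum (fun _ n => n) :=
    Finsupp.sum_mapDomain_index (fun _ => rfl) (fun _ _ _ => rfl)
  have h1 : ((N.sum (fun _ n => n) : ℕ) : ℤ) = rrGenus K C := by
    rw [← hN, degree_eq_sum, Finsupp.sum_mapRange_index (fun _ => rfl), Finsupp.sum,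
      Finsupp.sum, Nat.cast_sum]
  have h2 : Divisor.degree (D.mapDomain pL : Divisor L E) = rrGenus K C := by
    rw [degree_eq_sum_pts, hD, h0, h1]
  obtain ⟨G, h, hG, hh, hdiv⟩ := exists_eff' (K := L) (F := E) (D := D.mapDomain pL)
    (by rw [h2, rrGenus_bc' K L C E])
  refine ⟨(G.mapDomain pL.symm).mapRange Int.toNat rfl, h, hh, fun t => ?_⟩
  have h3 := DFunLike.congr_fun hdiv (pL t)
  rw [Finsupp.sub_apply, Finsupp.mapDomain_apply pL.injective, divisor_apply] at h3
  rw [Finsupp.mapRange_apply, ← h3]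
  congr 1
  have h4 : (G.mapDomain pL.symm) t = G (pL t) := by
    have h2 : t = pL.symm (pL t) := (pL.symm_apply_apply t).symm
    conv_lhs => rw [h2]
    rw [Finsupp.mapDomain_apply pL.symm.injective]
  rw [h4]
  exact Int.toNat_of_nonneg (hG (pL t))

end

/-- the natural number divisor of degree the genus -/
theorem exists_N {K C : Type u} [Field K] [IsAlgClosed K] [Field C] [Algebra K C] [FunField K C]
    (p : Place K C) : ∃ N : Place K C →₀ ℕ,
      Divisor.degree (N.mapRange (fun n : ℕ => (n : ℤ)) Nat.cast_zero : Divisor K C) =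
        rrGenus K C ∧
      ell (N.mapRange (fun n : ℕ => (n : ℤ)) Nat.cast_zero : Divisor K C) = 1 ∧ N p = 0 := by
  obtain ⟨E, h0, h1, h2, h3⟩ := exists_rigid p
  obtain ⟨N, rfl⟩ := exists_nat E h0
  refine ⟨N, h1, h2, ?_⟩
  rw [Finsupp.mapRange_apply] at h3
  exact_mod_cast h3

end Fermat.Agent.S26A
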