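import Fermat.Agent.S26A.CT
import Fermat.Agent.S26A.CT1h
import Fermat.Agent.S26A.CD1
import Fermat.Agent.S26A.Gn3
import Fermat.Agent.S26A.Cs6

/-!
# The specialization theory of a constant curve: construction
-/

set_option autoImplicit false
set_option linter.style.haveILetI false
set_option linter.unusedSectionVars false

noncomputable section

namespace Fermat.Agent.S26A

universe u

open AlgebraicCurve Fermat.Agent.RR Fermat.Agent.MW Fermat.Agent.Curve

section

attribute [local instance] algC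

variable {K C : Type u} [Field K] [Field C] [Algebra K C] [IsAlgClosed K] [FunField K C]
variable {L : Type u} [Field L] [Algebra K L] [IsAlgClosed L]
variable {M : Type u} [Field M] [Algebra K M] [IsAlgClosed M]

theorem ptsC_at (t : Pl K C L) (f : C) (c : L) :
    t.At f c ↔ evp (bc C (Cur K C L) f) (ptsC K C L t) = some c := by
  refine hL_of_hat (hat := hatC t) (w := ptsC K C L t) (hatC_V t) t
    (fun c => ?_) (fun f c h => (hatC_at_curC t f c).2 h) (fun f c h => (hatC_at_curC t f c).1 h) f c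
  rw [← curL_eq]
  exact hatC_at_curL t c

theorem hatC_L (t : Pl K C L) (c : L) : (hatC t).At (algebraMap L (Cur K C L) c) c := by
  rw [← curL_eq]
  exact hatC_at_curL t c

theorem cpl_L (φ : Pl K L M) (a : L) (b : M) (h : φ.At a b) :
    (cpl C φ).At (algebraMap L (Cur K C L) a) (algebraMap M (Cur K C M) b) := by
  rw [← curL_eq, ← curL_eq]
  exact cpl_curL C h

theorem cpl_C (φ : Pl K L M) (f : C) :
    (cpl C φ).At (bc C (Cur K C L) f) (bc C (Cur K C M) f) := cpl_curC C φ f

theorem cpC_div (φ : Pl K L M) (h : Cur K C L) (b : Cur K C M) (hb : b ≠ 0)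
    (hhb : (cpl C φ).At h b) :
    dvL (ptsC K C M) b = (dvL (ptsC K C L) h).mapDomain (fun t => φ.comp t) :=
  cp_div_aux φ (cpl C φ) (cpl_L φ) (cpl_C φ) (ptsC K C L) (ptsC K C M) ptsC_at ptsC_at hb hhb
    _ (dvL_apply _ h) _ (dvL_apply _ b)

theorem cpC_hat (φ : Pl K L M) (h : Cur K C L) (b : Cur K C M) (hb : b ≠ 0)
    (hhb : (cpl C φ).At h b) (t : Pl K C L)
    (ht : ∀ s, φ.comp s = φ.comp t → dvL (ptsC K C L) h s = 0) :
    ∃ (c : L) (c' : M), c ≠ 0 ∧ c' ≠ 0 ∧ (hatC t).At h c ∧ φ.At c c' ∧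
      (hatC (φ.comp t)).At b c' :=
  cp_hat_aux φ (cpl C φ) (cpl_L φ) (cpl_C φ) (ptsC K C L) (ptsC K C M) ptsC_at ptsC_at
    (hatC (K := K) (C := C) (L := L)) (hatC (K := K) (C := C) (L := M)) hatC_L hatC_L hatC_V hatC_V
    hb hhb t (fun s hs => by rw [← dvL_apply]; exact ht s hs)

variable (K C) in
/-- a place -/
def ctP : Place K C := (exists_place_avoid (K := K) (F := C) ∅).choose

variable (K C) in
/-- the rigid divisor -/
def ctN : Place K C →₀ ℕ := (exists_N (ctP K C)).choose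

theorem ctN_spec : Divisor.degree ((ctN K C).mapRange (fun n : ℕ => (n : ℤ)) Nat.cast_zero :
    Divisor K C) = rrGenus K C ∧
      ell ((ctN K C).mapRange (fun n : ℕ => (n : ℤ)) Nat.cast_zero : Divisor K C) = 1 ∧
      ctN K C (ctP K C) = 0 := (exists_N (ctP K C)).choose_spec

variable (K C) in
/-- **The specialization theory of a constant curve.** -/
def ctOf : CT K C where
  cur L _ _ _ := Cur K C L
  fcur L _ _ _ := inferInstance
  acur L _ _ _ := inferInstance
  iL L _ _ _ := curL K C L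
  iC L _ _ _ := curC K C L
  cp φ := cpl C φ
  cp_id L _ _ _ := cpl_id C L
  cp_comp ψ φ := cpl_comp C ψ φ
  cp_iL φ := cpl_iL C φ
  cp_iC φ := cpl_iC C φ
  scale φ h h0 := cpl_scale C φ h h0
  cp_hom σ := cpl_hom C σ
  hat t := hatC t
  hat_iL t := hatC_iL t
  hat_iC t := hatC_iC t
  div h := dvL (ptsC K C _) h
  div_mul h h' hh hh' := dvL_mul _ hh hh'
  div_const {L} _ _ _ c := by
    rw [curL_eq]
    exact dvL_const _ c
  const_of_div h hn := by
    obtain ⟨c, hc⟩ := const_of_dvL _ hn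
    exact ⟨c, by rw [hc, curL_eq]⟩
  deg_div h := deg_dvL _ h
  div_pos t h hh := dvL_pos _ hatC_V t hh
  div_nonneg t h _ := dvL_nonneg _ hatC_V t
  div_add t h h' hh hh' hs := dvL_add _ t hh hh' hs
  cp_div φ h b hb hhb := cpC_div φ h b hb hhb
  cp_hat φ h b hb hhb t ht := cpC_hat φ h b hb hhb t ht
  p₀ := plK (ptsC K C K) (ctP K C)
  E₀ := (ctN K C).mapDomain (plK (ptsC K C K))
  E₀_p₀ := by
    rw [Finsupp.mapDomain_apply (plK_injective _)]
    exact ctN_spec.2.2
  E₀_rigid {L} _ _ _ D h hh hD :=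
    rigid_aux (ptsC K C K) (ptsC K C L) (ctN K C) ctN_spec.2.1 ptsC_at ptsC_at D h hh
      (fun t => by rw [← dvL_apply]; exact hD t)
  exists_eff {L} _ _ _ D hD := by
    obtain ⟨G, h, hh, hG⟩ := eff_aux (ptsC K C K) (ptsC K C L) (ctN K C) ctN_spec.1 D hD
    exact ⟨G, h, hh, fun t => by rw [dvL_apply]; exact hG t⟩
  defd σ t h := defd_CT _ σ t h
  reg t h hh ht := reg_CT _ t h hh ht

theorem exists_CT (K C : Type u) [Field K] [Field C] [Algebra K C] [IsAlgClosed K]
    [FunField K C] : Nonempty (CT K C) := ⟨ctOf K C⟩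

end

end Fermat.Agent.S26A
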