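import Fermat.Agent.S26A.Sch5d

/-!
# Étale coordinates on abelian varieties
-/

set_option autoImplicit false
set_option linter.style.haveILetI false
set_option linter.unusedSectionVars false

noncomputable section

namespace Fermat.Agent.S26A

universe u

open CategoryTheory AlgebraicGeometry TopologicalSpace IsLocalRing

namespace GSch

variable {K : Type u} [Field K] (X : GSch K) [IsProper X.f] [IsIntegral X.A]

theorem ev_stt (x : X.Pt K) (s : X.A.presheaf.stalk (X.ptt x)) (a : X.O x)
    (h : toFF X.f (X.ptt x) s = a) : X.ev x a = X.stt x s := by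
  obtain ⟨a, ha⟩ := a
  obtain rfl : toFF X.f (X.ptt x) s = a := h
  exact X.ev_toFF x s ha

/-- **étale coordinates near the translates of a suitable point** -/
theorem exists_coTheta [IsAlgClosed K] (g : ℕ) [SmoothOfRelativeDimension g X.f] :
    ∃ co : Fin g → FF X.f, ∀ H : Finset (X.Pt K),
      ∃ (p : X.Pt K) (Θ : X.O p →ₐ[K] MvPowerSeries (Fin g) K),
      ∀ a ∈ H, ∃ τ : Fin g → X.O p,
        (∀ i, ∃ h : co i ∈ X.O (X.gen + X.pl (Pl.ofHom (Algebra.ofId K (FF X.f))) a),
          ((τ i : X.O p) : FF X.f) =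
            X.ev (X.gen + X.pl (Pl.ofHom (Algebra.ofId K (FF X.f))) a) ⟨co i, h⟩) ∧
        LinearIndependent K (fun i : Fin g => fun j : Fin g =>
          MvPowerSeries.coeff (Finsupp.single j 1) (Θ (τ i))) := by
  classical
  obtain ⟨co, V, hV, hco⟩ := exists_coord_sch X.f g
  have key : ∀ q : X.Pt K, X.ptt q ∈ V → _ := fun q hq =>
    hco (X.ptt q) hq (X.stt q) (inferInstanceAs (IsLocalHom (PT.st (f := X.f) q).hom))
      (X.stt_algK q)
  refine ⟨co, fun H => X.toAV0.coTheta (fun q z hz => X.nor g q z hz) co {q | X.ptt q ∈ V}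
    ?_ ?_ ?_ (fun H => X.exists_translates V hV H) H⟩
  · intro q hq i
    obtain ⟨t, ht, -⟩ := key q hq
    exact ⟨t i, ht i⟩
  · intro q hq
    obtain ⟨t, ht, -, Θ₀, h1, h2, h3⟩ := key q hq
    let e : X.A.presheaf.stalk (X.ptt q) ≃+* X.O q := eOO X.f (X.ptt q)
    have he : ∀ c : K, e.symm (algebraMap K (X.O q) c) = (algK X.f (X.ptt q)).hom c := by
      intro c
      rw [RingEquiv.symm_apply_eq]
      exact Subtype.ext (toFF_algK X.f (X.ptt q) c).symm
    let Θ : X.O q →ₐ[K] MvPowerSeries (Fin g) K :=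
      { Θ₀.comp e.symm.toRingHom with
        commutes' := fun c => by
          change Θ₀ (e.symm (algebraMap K (X.O q) c)) = _
          rw [he, h1]
          rfl }
    have hev : ∀ f : X.O q, X.ev q f = X.stt q (e.symm f) := fun f =>
      X.ev_stt q (e.symm f) f (toFF_eOO_symm X.f (X.ptt q) f)
    refine ⟨Θ, fun f => ?_, fun i h j => ?_⟩
    · change MvPowerSeries.constantCoeff (Θ₀ (e.symm f)) = X.ev q f
      rw [h3, hev]
    · have h4 : e.symm ⟨co i, h⟩ = t i := by
        rw [RingEquiv.symm_apply_eq]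
        exact Subtype.ext (ht i).symm
      change MvPowerSeries.coeff (Finsupp.single j 1) (Θ₀ (e.symm ⟨co i, h⟩)) = _
      rw [h4, h2, map_add, MvPowerSeries.coeff_X, MvPowerSeries.coeff_C, if_neg (by simp), zero_add]
      by_cases hij : i = j
      · rw [if_pos hij, if_pos (by rw [hij])]
      · rw [if_neg hij, if_neg]
        intro h5
        exact hij (Finsupp.single_left_injective one_ne_zero h5).symm
  · intro q hq f hf
    obtain ⟨t, ht, h1, -⟩ := key q hq
    let e : X.A.presheaf.stalk (X.ptt q) ≃+* X.O q := eOO X.f (X.ptt q)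
    have hev : ∀ f : X.O q, X.ev q f = X.stt q (e.symm f) := fun f =>
      X.ev_stt q (e.symm f) f (toFF_eOO_symm X.f (X.ptt q) f)
    have hf' : X.stt q (e.symm f) = 0 := by
      rw [← hev]
      exact hf
    obtain ⟨r, hr⟩ := h1 (e.symm f) hf'
    refine ⟨fun i => e (r i), fun i => ⟨t i, ht i⟩, ?_⟩
    have h2 : f = e (e.symm f) := (e.apply_symm_apply f).symm
    rw [h2, hr, map_sum]
    refine Finset.sum_congr rfl fun i _ => ?_
    rw [map_mul, mul_comm, map_sub]
    congr 2
    · exact Subtype.ext (ht i)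
    · have h3 : X.toAV0.ev q ⟨co i, ⟨t i, ht i⟩⟩ = X.stt q (t i) :=
        X.ev_stt q (t i) ⟨co i, ⟨t i, ht i⟩⟩ (ht i)
      rw [h3]
      exact Subtype.ext (toFF_algK X.f (X.ptt q) _)

end GSch

end Fermat.Agent.S26A
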