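import Fermat.Agent.S26A.Fin1
import Fermat.Agent.S26A.Sch5e

/-!
# From the group scheme to the functor on places: coordinates
-/

set_option autoImplicit false
set_option linter.style.haveILetI false

noncomputable section

namespace Fermat.Agent.S26A

open CategoryTheory CategoryTheory.Limits AlgebraicGeometry NeronModelInfra GoodReductionJacobian
open Fermat.Agent.RR

universe u

theorem GSch.exists_co {K : Type u} [Field K] [IsAlgClosed K] (X : GSch K) [IsProper X.f]
    [IsIntegral X.A] (g : ℕ) [SmoothOfRelativeDimension g X.f] : ∃ co, X.HCo g co :=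
  X.exists_coTheta g

/-- **the reduction of the counting of torsion points** -/
theorem card_of_main' {K : Type u} [Field K] [IsAlgClosed K] {A : Scheme.{u}}
    (f : A ⟶ Spec (CommRingCat.of K)) (L : RelativeGroupLaw K f) (hc : L.IsCommutative)
    (hA : AbelianSchemePropertyBundle K f) (g : ℕ) [SmoothOfRelativeDimension g f] (n : ℕ)
    (main : ∀ B : AVar K g, Nat.card {x : B.P K // n • x = 0} = n ^ (2 * g)) :
    Nat.card {x : SchemeHomOver (𝟙 (Spec (CommRingCat.of K))) f //
        L.IsTorsionPoint (𝟙 (Spec (CommRingCat.of K))) n x} = n ^ (2 * g) :=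
  card_of_main f L hc hA g n (fun X _ _ _ => X.exists_co g) main

end Fermat.Agent.S26A
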