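import Fermat.Agent.S26A.Gr1

/-!
# The count of the torsion points
-/

set_option autoImplicit false
set_option linter.style.haveILetI false
set_option linter.unusedSectionVars false

noncomputable section

namespace Fermat.Agent.S26A

universe u

theorem le_of_pow_le {a b C : ℕ} (h : ∀ m : ℕ, a ^ m ≤ C * b ^ m) : a ≤ b := by
  by_contra hab
  push Not at hab
  rcases Nat.eq_zero_or_pos b with rfl | hb
  · have := h 1
    rw [pow_one, pow_one, mul_zero] at this
    omega
  have h1 : (1 : ℚ) < (a : ℚ) / b := by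
    rw [one_lt_div (by exact_mod_cast hb)]
    exact_mod_cast hab
  obtain ⟨m, hm⟩ := pow_unbounded_of_one_lt (C : ℚ) h1
  have h2 : (a : ℚ) ^ m ≤ C * (b : ℚ) ^ m := by exact_mod_cast h m
  rw [div_pow, lt_div_iff₀ (by positivity)] at hm
  linarith

/-- the `n`-torsion subgroup -/
def torS (G : Type*) [AddCommGroup G] (n : ℕ) : AddSubgroup G where
  carrier := {a | n • a = 0}
  zero_mem' := smul_zero n
  add_mem' {a b} ha hb := by
    change n • (a + b) = 0
    rw [smul_add, show n • a = 0 from ha, show n • b = 0 from hb, add_zero]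
  neg_mem' {a} ha := by
    change n • (-a) = 0
    rw [smul_neg, show n • a = 0 from ha, neg_zero]

theorem mem_torS {G : Type*} [AddCommGroup G] {n : ℕ} {a : G} : a ∈ torS G n ↔ n • a = 0 := Iff.rfl

theorem finite_torS {G : Type*} [AddCommGroup G] {n : ℕ} (hn : 0 < n) {B : ℕ}
    (h : ∀ (H : AddSubgroup G) [Finite H], (∀ a ∈ H, n • a = 0) → Nat.card H ≤ B) :
    Finite (torS G n) := by
  classical
  by_contra hinf
  rw [not_finite_iff_infinite] at hinf
  obtain ⟨s, hs⟩ := Infinite.exists_subset_card_eq (torS G n) (B + 1)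
  let H : AddSubgroup G := AddSubgroup.closure (s.image (fun a : torS G n => (a : G)) : Set G)
  have hH : H ≤ torS G n := by
    rw [AddSubgroup.closure_le]
    intro a ha
    simp only [Finset.coe_image, Set.mem_image, Finset.mem_coe] at ha
    obtain ⟨b, _, rfl⟩ := ha
    exact b.2
  haveI hfin : Finite H := by
    haveI : AddGroup.FG H :=
      (AddGroup.fg_iff_addSubgroup_fg H).2 ⟨s.image (fun a : torS G n => (a : G)), rfl⟩
    haveI : Module.Finite ℤ H := Module.Finite.iff_addGroup_fg.2 inferInstance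
    refine AddCommGroup.finite_of_fg_isAddTorsion H ?_
    intro a
    refine isOfFinAddOrder_iff_nsmul_eq_zero.2 ⟨n, hn, ?_⟩
    exact Subtype.ext (hH a.2)
  have h1 := h H (fun a ha => hH ha)
  have h2 : B + 1 ≤ Nat.card H := by
    rw [← hs]
    have h3 : Set.MapsTo (fun a : torS G n => (a : G)) s (H : Set G) := by
      intro a ha
      refine AddSubgroup.subset_closure ?_
      simp only [Finset.coe_image, Set.mem_image, Finset.mem_coe]
      exact ⟨a, ha, rfl⟩
    haveI := Fintype.ofFinite H
    rw [Nat.card_eq_fintype_card, ← Fintype.card_coe]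
    refine Fintype.card_le_of_injective (fun a : s => (⟨(a : torS G n), h3 a.2⟩ : H)) ?_
    intro a b hab
    have : ((a : torS G n) : G) = ((b : torS G n) : G) := congrArg (fun x : H => (x : G)) hab
    exact Subtype.ext (Subtype.ext this)
  omega

theorem card_torS_pow {G : Type*} [AddCommGroup G] {n : ℕ} (hsurj : ∀ a : G, ∃ b : G, n • b = a)
    (hfin : ∀ m : ℕ, Finite (torS G (n ^ m))) (m : ℕ) :
    Nat.card (torS G (n ^ m)) = Nat.card (torS G n) ^ m := by
  induction m with
  | zero =>
    rw [pow_zero, pow_zero]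
    refine Nat.card_eq_one_iff_unique.2 ⟨⟨fun a b => ?_⟩, ⟨0⟩⟩
    have ha := a.2
    have hb := b.2
    rw [mem_torS, one_smul] at ha hb
    exact Subtype.ext (ha.trans hb.symm)
  | succ m ih =>
    let φ : torS G (n ^ (m + 1)) →+ torS G (n ^ m) :=
      { toFun := fun a => ⟨n • (a : G), by
          have h0 : n ^ m • (n • (a : G)) = 0 := by
            rw [← mul_smul, ← pow_succ]
            exact a.2
          exact h0⟩
        map_zero' := Subtype.ext (smul_zero n)
        map_add' := fun a b => Subtype.ext (smul_add n _ _) }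
    have hφ : Function.Surjective φ := by
      rintro ⟨a, ha⟩
      obtain ⟨b, hb⟩ := hsurj a
      refine ⟨⟨b, ?_⟩, Subtype.ext hb⟩
      rw [mem_torS, pow_succ, mul_smul, hb]
      exact ha
    haveI := hfin (m + 1)
    haveI := hfin m
    have h1 := AddSubgroup.card_eq_card_quotient_mul_card_addSubgroup φ.ker
    have h2 : Nat.card (torS G (n ^ (m + 1)) ⧸ φ.ker) = Nat.card (torS G (n ^ m)) :=
      Nat.card_congr (QuotientAddGroup.quotientKerEquivOfSurjective φ hφ).toEquiv
    have h3 : Nat.card φ.ker = Nat.card (torS G n) := by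
      refine Nat.card_congr
        { toFun := fun a => ⟨(a : torS G (n ^ (m + 1))), ?_⟩
          invFun := fun a => ⟨⟨(a : G), ?_⟩, ?_⟩
          left_inv := fun a => rfl
          right_inv := fun a => rfl }
      · have h5 := a.2
        rw [AddMonoidHom.mem_ker] at h5
        exact congrArg Subtype.val h5
      · have h5 : n • (a : G) = 0 := a.2
        change n ^ (m + 1) • (a : G) = 0
        rw [pow_succ, mul_smul, h5, smul_zero]
      · rw [AddMonoidHom.mem_ker]
        exact Subtype.ext a.2
    rw [h1, h2, h3, ih, pow_succ]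

namespace AVar

variable {K : Type u} [Field K] [IsAlgClosed K] {g : ℕ} (A : AVar K g)

/-- **the number of torsion points**, from the two bounds -/
theorem card_of_bounds
    (hup : ∃ C : ℕ, ∀ n : ℕ, 0 < n → (n : K) ≠ 0 → ∀ (H : AddSubgroup (A.P K)) [Finite H],
      (∀ a ∈ H, n • a = 0) → Nat.card H ≤ C * n ^ (2 * g))
    (hlo : ∃ C : ℕ, ∀ n : ℕ, (n : K) ≠ 0 → 0 < n → ∀ [Finite {a : A.P K // n • a = 0}],
      n ^ (2 * g) ≤ C * Nat.card {a : A.P K // n • a = 0})
    (n : ℕ) (hn : (n : K) ≠ 0) : Nat.card {a : A.P K // n • a = 0} = n ^ (2 * g) := by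
  obtain ⟨C, hC⟩ := hup
  obtain ⟨C', hC'⟩ := hlo
  have hn0 : 0 < n := by
    rcases Nat.eq_zero_or_pos n with rfl | h
    · simp at hn
    · exact h
  have hnm : ∀ m : ℕ, ((n ^ m : ℕ) : K) ≠ 0 := fun m => by
    push_cast
    exact pow_ne_zero _ hn
  have hfin : ∀ m : ℕ, Finite (torS (A.P K) (n ^ m)) := fun m =>
    finite_torS (pow_pos hn0 m) (B := C * (n ^ m) ^ (2 * g)) (fun H _ hH => hC _ (pow_pos hn0 m)
      (hnm m) H hH)
  have hcard := card_torS_pow (A.nsmul_surj n hn) hfin
  change Nat.card (torS (A.P K) n) = n ^ (2 * g)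
  refine le_antisymm (le_of_pow_le (C := C) fun m => ?_) (le_of_pow_le (C := C') fun m => ?_)
  · rw [← hcard, ← pow_mul, mul_comm (2 * g) m, pow_mul]
    haveI := hfin m
    exact hC _ (pow_pos hn0 m) (hnm m) _ (fun a ha => ha)
  · rw [← hcard, ← pow_mul, mul_comm (2 * g) m, pow_mul]
    haveI : Finite {a : A.P K // n ^ m • a = 0} := hfin m
    exact hC' _ (hnm m) (pow_pos hn0 m)

end AVar

end Fermat.Agent.S26A
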