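import Fermat.Agent.S26A.Gr4
import Fermat.Agent.S26A.Gr5
import Fermat.Agent.S26A.Gr7

/-!
# The count, modulo the two bounds
-/

set_option autoImplicit false
set_option linter.style.haveILetI false
set_option linter.unusedSectionVars false

noncomputable section

namespace Fermat.Agent.S26A

universe u

namespace AVar

variable {K : Type u} [Field K] [IsAlgClosed K] {g : ℕ} (A : AVar K g)

theorem exists_Eig (n : ℕ) (hn : (n : K) ≠ 0) (H : AddSubgroup (A.P K)) [Finite H]
    (hH : ∀ a ∈ H, n • a = 0) :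
    ∃ (ι : Type) (_ : Fintype ι), Nonempty (Eig (fun a : H => A.tau (a : A.P K)) ι) := by
  obtain ⟨ι, hι, χ, u, p, h1, h2, h3, h4, h5, h6, h7, h8⟩ :=
    exists_eigen (H := H) n hn (fun a => Subtype.ext (hH a a.2)) (fun a : H => A.tau (a : A.P K))
      (AlgHom.ext A.tau_zero) (fun a b f => A.tau_add a b f)
      (fun a b h => Subtype.ext (A.tau_injective' h))
  exact ⟨ι, hι, ⟨⟨χ, u, p, h1, h2, h3, h4, h5, h6, h7, h8⟩⟩⟩

/-- the statement of the lower bound -/
def LowerSt : Prop :=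
  ∃ C : ℕ, ∀ n : ℕ, (n : K) ≠ 0 → 0 < n → ∀ [Finite {a : A.P K // n • a = 0}],
    n ^ (2 * g) ≤ C * Nat.card {a : A.P K // n • a = 0}

/-- **the number of torsion points**, modulo `BoundSt` and `LowerSt` -/
theorem card_of_boundSt {T : ∀ j, CT K (A.FC j)} (hB : BoundSt A T) (hlo : A.LowerSt) (n : ℕ)
    (hn : (n : K) ≠ 0) : Nat.card {a : A.P K // n • a = 0} = n ^ (2 * g) :=
  A.card_of_bounds (A.upper T hB fun n hn H _ hH => A.exists_Eig n hn H hH) hlo n hn

end AVar

end Fermat.Agent.S26A
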