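import Fermat.Agent.S26A.Gr6b
import Fermat.Agent.S26A.Gr8

/-!
# The lower bound, final form
-/

set_option autoImplicit false

namespace Fermat.Agent.S26A

universe u

namespace AVar

variable {K : Type u} [Field K] [IsAlgClosed K] {g : ℕ} (A : AVar K g)

theorem lowerSt (T : ∀ j, CT K (A.FC j)) (hB : BoundSt A T) : A.LowerSt := by
  obtain ⟨C, hC⟩ := A.lower T hB fun n hn H _ hH => A.exists_Eig n hn H hH
  refine ⟨C, fun n hn hn0 hfin => ?_⟩
  haveI : Finite (A.Tn n) := hfin
  exact hC n hn0 hn (A.Tn n) (fun a => Iff.rfl)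

end AVar

end Fermat.Agent.S26A
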