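import Fermat.Agent.S26A.Pl
import Fermat.Agent.RR.LSpace

/-!
# Abelian varieties, as functors on fields and places
-/

set_option autoImplicit false
set_option linter.style.haveILetI false

namespace Fermat.Agent.S26A

universe u

open AlgebraicCurve

/-- The points of an abelian variety, in fields and at places. -/
structure AVar (K : Type u) [Field K] (g : ℕ) where
  F : Type u
  [fF : Field F]
  [aF : Algebra K F]
  /-- points -/
  P : (L : Type u) → [Field L] → [Algebra K L] → Type u
  [gP : ∀ (L : Type u) [Field L] [Algebra K L], AddCommGroup (P L)]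
  /-- specialization (in particular base change) -/
  pl : ∀ {L M : Type u} [Field L] [Field M] [Algebra K L] [Algebra K M], Pl K L M → (P L →+ P M)
  pl_id : ∀ (L : Type u) [Field L] [Algebra K L] (x : P L), pl (Pl.id K L) x = x
  pl_comp : ∀ {L M N : Type u} [Field L] [Field M] [Field N] [Algebra K L] [Algebra K M]
    [Algebra K N] (ψ : Pl K M N) (φ : Pl K L M) (x : P L), pl (ψ.comp φ) x = pl ψ (pl φ x)
  /-- the local ring of a point -/
  O : ∀ {L : Type u} [Field L] [Algebra K L], P L → Subalgebra K F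
  /-- the value at a point -/
  ev : ∀ {L : Type u} [Field L] [Algebra K L] (x : P L), O x →ₐ[K] L
  ev_inv : ∀ {L : Type u} [Field L] [Algebra K L] (x : P L) (f : O x), ev x f ≠ 0 → (f : F)⁻¹ ∈ O x
  /-- specialization of values -/
  pl_ev : ∀ {L M : Type u} [Field L] [Field M] [Algebra K L] [Algebra K M] (φ : Pl K L M) (x : P L)
    (f : O (pl φ x)), ∃ h : (f : F) ∈ O x, φ.At (ev x ⟨f, h⟩) (ev (pl φ x) f)
  map_O : ∀ {L M : Type u} [Field L] [Field M] [Algebra K L] [Algebra K M] (σ : L →ₐ[K] M) (x : P L),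
    O (pl (Pl.ofHom σ) x) = O x
  /-- uniqueness of specializations (implies that a point is determined by its local ring and its
  values) -/
  sp_unique : ∀ {L M : Type u} [Field L] [Field M] [Algebra K L] [Algebra K M] (φ : Pl K L M)
    (x : P L) (v : P M), (∀ f : O v, ∃ h : (f : F) ∈ O x, φ.At (ev x ⟨f, h⟩) (ev v f)) →
    pl φ x = v
  /-- the generic point -/
  gen : P F
  O_gen : O gen = ⊤
  ev_gen : ∀ f : O gen, ev gen f = f
  /-- points are defined over the field generated by the values -/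
  desc : ∀ {L : Type u} [Field L] [Algebra K L] (x : P L) (E : IntermediateField K L),
    (∀ f : O x, ev x f ∈ E) → ∃ x₀ : P E, pl (Pl.ofHom E.val) x₀ = x
  /-- `F` is finitely generated, of transcendence degree `g` -/
  fg : ∃ s : Finset F, IntermediateField.adjoin K (s : Set F) = ⊤
  tr : Algebra.trdeg K F = g
  /-- points of full dimension are generic; if `y : Fin g → O x` has algebraically independent
  values -/
  cod0 : ∀ {L : Type u} [Field L] [Algebra K L] (x : P L) (y : Fin g → O x),
    AlgebraicIndependent K (fun i => ev x (y i)) → O x = ⊤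
  /-- the local ring of a point of codimension `≤ 1` is a valuation ring -/
  cod1 : ∀ {L : Type u} [Field L] [Algebra K L] (x : P L) (y : Fin (g - 1) → O x),
    AlgebraicIndependent K (fun i => ev x (y i)) → ∀ f : F, f ∈ O x ∨ f⁻¹ ∈ O x
  /-- torsion is constant, multiplication by `n` is dominant and separable -/
  tors : ∀ n : ℕ, (n : K) ≠ 0 → ∀ {L : Type u} [Field L] [Algebra K L] (x : P L), n • x = 0 →
    ∃ a : P K, pl (Pl.ofHom (Algebra.ofId K L)) a = x
  nsm_gen : ∀ n : ℕ, (n : K) ≠ 0 → O (n • gen) = ⊤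
  nsm_sep : ∀ n : ℕ, (n : K) ≠ 0 → ∀ D : Derivation K F F,
    (∀ f : O (n • gen), D (ev (n • gen) f) = 0) → D = 0
  /-- curves -/
  FC : Fin g → Type u
  [fFC : ∀ j, Field (FC j)]
  [aFC : ∀ j, Algebra K (FC j)]
  [ffC : ∀ j, Fermat.Agent.RR.FunField K (FC j)]
  ι : ∀ j, P (FC j)
  o : ∀ j, Pl K (FC j) K
  ι_o : ∀ j, pl (o j) (ι j) = 0
  sum_gen : ∀ {L : Type u} [Field L] [Algebra K L] (z : ∀ j, FC j →ₐ[K] L) (t : ∀ j, FC j),
    AlgebraicIndependent K (fun j => z j (t j)) → O (∑ j, pl (Pl.ofHom (z j)) (ι j)) = ⊤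
  /-- coordinates -/
  co : Fin g → F
  /-- near the translates of a suitable point, the coordinates are étale -/
  coΘ : ∀ H : Finset (P K), ∃ (p : P K) (Θ : O p →ₐ[K] MvPowerSeries (Fin g) K),
    ∀ a ∈ H, ∃ τ : Fin g → O p,
      (∀ i, ∃ h : co i ∈ O (gen + pl (Pl.ofHom (Algebra.ofId K F)) a),
        ((τ i : O p) : F) = ev (gen + pl (Pl.ofHom (Algebra.ofId K F)) a) ⟨co i, h⟩) ∧
      LinearIndependent K (fun i : Fin g => fun j : Fin g =>
        MvPowerSeries.coeff (Finsupp.single j 1) (Θ (τ i)))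

attribute [instance] AVar.fF AVar.aF AVar.gP AVar.fFC AVar.aFC AVar.ffC

end Fermat.Agent.S26A
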