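import Mathlib

/-!
# Codimensions of intersections
-/

set_option autoImplicit false

namespace Fermat.Agent.S26A

open Module

variable {L E : Type*} [Field L] [AddCommGroup E] [Module L E]

/-- the codimension of an intersection is at most the sum of the codimensions -/
theorem finrank_quot_iInf_le [FiniteDimensional L E] {ι : Type*} [Fintype ι]
    (R : ι → Submodule L E) :
    finrank L (E ⧸ ⨅ k, R k) ≤ ∑ k, finrank L (E ⧸ R k) := by
  rw [← finrank_pi_fintype L (M := fun k => E ⧸ R k)]
  have hle : (⨅ k, R k) ≤ LinearMap.ker (LinearMap.pi fun k => (R k).mkQ) := by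
    intro x hx
    rw [LinearMap.mem_ker]
    funext k
    rw [LinearMap.pi_apply, Pi.zero_apply, Submodule.mkQ_apply, Submodule.Quotient.mk_eq_zero]
    exact (Submodule.mem_iInf _).1 hx k
  refine LinearMap.finrank_le_finrank_of_injective
    (f := (⨅ k, R k).liftQ (LinearMap.pi fun k => (R k).mkQ) hle) ?_
  rw [← LinearMap.ker_eq_bot, Submodule.ker_liftQ_eq_bot]
  intro x hx
  rw [LinearMap.mem_ker] at hx
  rw [Submodule.mem_iInf]
  intro k
  have := congrFun hx k
  rwa [LinearMap.pi_apply, Pi.zero_apply, Submodule.mkQ_apply, Submodule.Quotient.mk_eq_zero] at this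

/-- codimension of a submodule containing an intersection of `m` submodules of codimension at
most `b` -/
theorem finrank_quot_le_mul [FiniteDimensional L E] {ι : Type*} [Fintype ι]
    (R : ι → Submodule L E) (S : Submodule L E) (h : ⨅ k, R k ≤ S) {b : ℕ}
    (hb : ∀ k, finrank L (E ⧸ R k) ≤ b) : finrank L (E ⧸ S) ≤ Fintype.card ι * b := by
  have h1 : finrank L (E ⧸ S) ≤ finrank L (E ⧸ ⨅ k, R k) :=
    LinearMap.finrank_le_finrank_of_surjective (f := Submodule.factor h)
      (Submodule.factor_surjective h)
  refine h1.trans ((finrank_quot_iInf_le R).trans ((Finset.sum_le_sum fun k _ => hb k).trans ?_))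
  rw [Finset.sum_const, smul_eq_mul, Finset.card_univ]

/-- the kernel of a linear form has codimension at most one -/
theorem finrank_quot_ker_le_one [FiniteDimensional L E] (φ : E →ₗ[L] L) :
    finrank L (E ⧸ LinearMap.ker φ) ≤ 1 := by
  have h1 := LinearMap.quotKerEquivRange φ
  rw [LinearEquiv.finrank_eq h1]
  exact (Submodule.finrank_le _).trans (by rw [finrank_self])

end Fermat.Agent.S26A
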