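import Fermat.Agent.RR.Degree

/-!
# A function with many zeros and few poles vanishes
-/

set_option autoImplicit false

namespace Fermat.Agent.S26A

open AlgebraicCurve Fermat.Agent.RR

variable {L E : Type*} [Field L] [IsAlgClosed L] [Field E] [Algebra L E] [FunField L E]

/-- a function of `L(D)` vanishing at more than `deg D` points outside the support of `D` is
zero -/
theorem eq_zero_of_zeros {D : Divisor L E} {h : E} (hh : h ∈ riemannRochSpace D) {m : ℕ}
    (p : Fin m → Place L E) (hp : Function.Injective p) (hD : Divisor.degree D < m)
    (hv : ∀ k, D (p k) = 0) (hz : ∀ k, Ge (p k) 1 h) : h = 0 := by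
  classical
  let D' : Divisor L E := D - ∑ k, Finsupp.single (p k) 1
  have hdeg : Divisor.degree D' < 0 := by
    have h1 : Divisor.degree D' = Divisor.degree D - m := by
      rw [map_sub, map_sum]
      simp only [degree_single']
      simp
    rw [h1]
    linarith
  have hmem : h ∈ riemannRochSpace D' := by
    rw [mem_L] at hh ⊢
    intro v
    have e1 : D' v = D v - ∑ k, (Finsupp.single (p k) (1 : ℤ)) v := by
      rw [Finsupp.sub_apply, Finsupp.finsetSum_apply]
    by_cases hvp : ∃ k, p k = v
    · obtain ⟨k, rfl⟩ := hvp
      have e2 : ∑ k', (Finsupp.single (p k') (1 : ℤ)) (p k) = 1 := by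
        rw [Finset.sum_eq_single k]
        · rw [Finsupp.single_eq_same]
        · intro k' _ hk
          rw [Finsupp.single_eq_of_ne]
          intro h
          exact hk (hp h.symm)
        · intro h
          exact absurd (Finset.mem_univ k) h
      rw [e1, e2, hv k]
      exact (hz k).mono (by norm_num)
    · have e2 : ∑ k', (Finsupp.single (p k') (1 : ℤ)) v = 0 := by
        apply Finset.sum_eq_zero
        intro k _
        rw [Finsupp.single_eq_of_ne]
        intro h
        exact hvp ⟨k, h.symm⟩
      rw [e1, e2, sub_zero]
      exact hh v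
  rw [L_eq_bot hdeg] at hmem
  exact hmem

end Fermat.Agent.S26A
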