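import Fermat.Agent.S26A.AVar

/-!
# The specialization theory of a constant curve (interface)
-/

set_option autoImplicit false
set_option linter.style.haveILetI false

namespace Fermat.Agent.S26A

universe u

open AlgebraicCurve

/-- Constant extensions of a curve with function field `C`, and their specializations.
`Pl K C L` = the points of the curve in `L`. -/
structure CT (K C : Type u) [Field K] [Field C] [Algebra K C] where
  cur : (L : Type u) → [Field L] → [Algebra K L] → [IsAlgClosed L] → Type u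
  [fcur : ∀ (L : Type u) [Field L] [Algebra K L] [IsAlgClosed L], Field (cur L)]
  [acur : ∀ (L : Type u) [Field L] [Algebra K L] [IsAlgClosed L], Algebra K (cur L)]
  iL : ∀ (L : Type u) [Field L] [Algebra K L] [IsAlgClosed L], L →ₐ[K] cur L
  iC : ∀ (L : Type u) [Field L] [Algebra K L] [IsAlgClosed L], C →ₐ[K] cur L
  /-- the Gauss extension of a place -/
  cp : ∀ {L M : Type u} [Field L] [Algebra K L] [IsAlgClosed L] [Field M] [Algebra K M]
    [IsAlgClosed M], Pl K L M → Pl K (cur L) (cur M)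
  cp_id : ∀ (L : Type u) [Field L] [Algebra K L] [IsAlgClosed L], cp (Pl.id K L) = Pl.id K (cur L)
  cp_comp : ∀ {L M N : Type u} [Field L] [Algebra K L] [IsAlgClosed L] [Field M] [Algebra K M]
    [IsAlgClosed M] [Field N] [Algebra K N] [IsAlgClosed N] (ψ : Pl K M N) (φ : Pl K L M),
    cp (ψ.comp φ) = (cp ψ).comp (cp φ)
  cp_iL : ∀ {L M : Type u} [Field L] [Algebra K L] [IsAlgClosed L] [Field M] [Algebra K M]
    [IsAlgClosed M] (φ : Pl K L M),
    (cp φ).comp (Pl.ofHom (iL L)) = (Pl.ofHom (iL M)).comp φ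
  cp_iC : ∀ {L M : Type u} [Field L] [Algebra K L] [IsAlgClosed L] [Field M] [Algebra K M]
    [IsAlgClosed M] (φ : Pl K L M),
    (cp φ).comp (Pl.ofHom (iC L)) = Pl.ofHom (iC M)
  /-- Gauss normalization -/
  scale : ∀ {L M : Type u} [Field L] [Algebra K L] [IsAlgClosed L] [Field M] [Algebra K M]
    [IsAlgClosed M] (φ : Pl K L M) (h : cur L), h ≠ 0 →
    ∃ (c : L) (b : cur M), c ≠ 0 ∧ b ≠ 0 ∧ (cp φ).At (iL L c * h) b
  /-- a field homomorphism induces a field homomorphism -/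
  cp_hom : ∀ {L M : Type u} [Field L] [Algebra K L] [IsAlgClosed L] [Field M] [Algebra K M]
    [IsAlgClosed M] (σ : L →ₐ[K] M), ∃ τ : cur L →ₐ[K] cur M, cp (Pl.ofHom σ) = Pl.ofHom τ
  /-- evaluation of functions at points -/
  hat : ∀ {L : Type u} [Field L] [Algebra K L] [IsAlgClosed L], Pl K C L → Pl K (cur L) L
  hat_iL : ∀ {L : Type u} [Field L] [Algebra K L] [IsAlgClosed L] (t : Pl K C L),
    (hat t).comp (Pl.ofHom (iL L)) = Pl.id K L
  hat_iC : ∀ {L : Type u} [Field L] [Algebra K L] [IsAlgClosed L] (t : Pl K C L),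
    (hat t).comp (Pl.ofHom (iC L)) = t
  /-- the divisor of a function -/
  div : ∀ {L : Type u} [Field L] [Algebra K L] [IsAlgClosed L], cur L → (Pl K C L →₀ ℤ)
  div_mul : ∀ {L : Type u} [Field L] [Algebra K L] [IsAlgClosed L] (h h' : cur L), h ≠ 0 → h' ≠ 0 →
    div (h * h') = div h + div h'
  div_const : ∀ {L : Type u} [Field L] [Algebra K L] [IsAlgClosed L] (c : L), div (iL L c) = 0
  /-- functions without poles are constant -/
  const_of_div : ∀ {L : Type u} [Field L] [Algebra K L] [IsAlgClosed L] (h : cur L),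
    (∀ t, 0 ≤ div h t) → ∃ c : L, h = iL L c
  deg_div : ∀ {L : Type u} [Field L] [Algebra K L] [IsAlgClosed L] (h : cur L),
    (div h).sum (fun _ n => n) = 0
  div_pos : ∀ {L : Type u} [Field L] [Algebra K L] [IsAlgClosed L] (t : Pl K C L) (h : cur L),
    h ≠ 0 → (0 < div h t ↔ (hat t).At h 0)
  div_nonneg : ∀ {L : Type u} [Field L] [Algebra K L] [IsAlgClosed L] (t : Pl K C L) (h : cur L),
    h ≠ 0 → (0 ≤ div h t ↔ ∃ b, (hat t).At h b)
  div_add : ∀ {L : Type u} [Field L] [Algebra K L] [IsAlgClosed L] (t : Pl K C L) (h h' : cur L),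
    h ≠ 0 → h' ≠ 0 → h + h' ≠ 0 → min (div h t) (div h' t) ≤ div (h + h') t
  /-- specialization of divisors of functions -/
  cp_div : ∀ {L M : Type u} [Field L] [Algebra K L] [IsAlgClosed L] [Field M] [Algebra K M]
    [IsAlgClosed M] (φ : Pl K L M) (h : cur L) (b : cur M), b ≠ 0 → (cp φ).At h b →
    div b = (div h).mapDomain (fun t => φ.comp t)
  /-- specialization of values -/
  cp_hat : ∀ {L M : Type u} [Field L] [Algebra K L] [IsAlgClosed L] [Field M] [Algebra K M]
    [IsAlgClosed M] (φ : Pl K L M) (h : cur L) (b : cur M), b ≠ 0 → (cp φ).At h b →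
    ∀ t : Pl K C L, (∀ s, φ.comp s = φ.comp t → div h s = 0) →
    ∃ (c : L) (c' : M), c ≠ 0 ∧ c' ≠ 0 ∧ (hat t).At h c ∧ φ.At c c' ∧ (hat (φ.comp t)).At b c'
  /-- there is an affine part: a point `p₀`, functions regular outside `p₀` separate the places -/
  p₀ : Pl K C K
  /-- a rigid effective divisor of degree the genus -/
  E₀ : Pl K C K →₀ ℕ
  E₀_p₀ : E₀ p₀ = 0
  E₀_rigid : ∀ {L : Type u} [Field L] [Algebra K L] [IsAlgClosed L] (D : Pl K C L →₀ ℕ) (h : cur L),
    h ≠ 0 → (∀ t, (D t : ℤ) - (E₀.mapDomain (fun s => (Pl.ofHom (Algebra.ofId K L)).comp s) t : ℤ) =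
      div h t) → D = E₀.mapDomain (fun s => (Pl.ofHom (Algebra.ofId K L)).comp s)
  /-- Riemann-Roch -/
  exists_eff : ∀ {L : Type u} [Field L] [Algebra K L] [IsAlgClosed L] (D : Pl K C L →₀ ℤ),
    D.sum (fun _ n => n) = (E₀.sum (fun _ n => n) : ℕ) →
    ∃ (G : Pl K C L →₀ ℕ) (h : cur L), h ≠ 0 ∧ ∀ t, (G t : ℤ) - D t = div h t
  /-- if `L₀ ⊆ L` is algebraically closed and all functions regular outside `p₀` have values in `L₀`
  at `t`, then `t` is defined over `L₀` -/
  defd : ∀ {L₀ L : Type u} [Field L₀] [Algebra K L₀] [IsAlgClosed L₀] [Field L] [Algebra K L]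
    [IsAlgClosed L] (σ : L₀ →ₐ[K] L) (t : Pl K C L),
    (∀ h : C, (∀ s : Pl K C K, s ≠ p₀ → h ∈ s.V) → ∃ a : L₀, t.At h (σ a)) →
    ∃ t₀ : Pl K C L₀, (Pl.ofHom σ).comp t₀ = t
  /-- functions regular outside `p₀`: at a point of `L` different from `p₀` they are finite -/
  reg : ∀ {L : Type u} [Field L] [Algebra K L] [IsAlgClosed L] (t : Pl K C L) (h : C),
    (∀ s : Pl K C K, s ≠ p₀ → h ∈ s.V) → t ≠ (Pl.ofHom (Algebra.ofId K L)).comp p₀ → h ∈ t.V

attribute [instance] CT.fcur CT.acur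

end Fermat.Agent.S26A
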