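import Fermat.Agent.S26A.Pl

/-!
# Places from pairs of homomorphisms
-/

set_option autoImplicit false
set_option linter.style.haveILetI false

noncomputable section

namespace Fermat.Agent.S26A

universe u

namespace Pl

variable {K L M : Type u} [Field K] [Field L] [Field M] [Algebra K L] [Algebra K M]
  {R : Type*} [CommRing R] [Algebra K R]

/-- the place extending `f` exists -/
structure PairOK (e : R →ₐ[K] L) (f : R →ₐ[K] M) : Prop where
  inj : Function.Injective e
  ex : ∀ a : L, ∃ x y : R, e y * a = e x ∧ (f x ≠ 0 ∨ f y ≠ 0)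

variable {e : R →ₐ[K] L} {f : R →ₐ[K] M}

theorem PairOK.uniq (h : PairOK e f) {a : L} {x y x' y' : R} (h1 : e y * a = e x)
    (h2 : e y' * a = e x') (hy : f y ≠ 0) (hy' : f y' ≠ 0) : f x / f y = f x' / f y' := by
  have h3 : y' * x = y * x' := by
    apply h.inj
    rw [map_mul, map_mul, ← h1, ← h2]
    ring
  have h4 := congrArg f h3
  rw [map_mul, map_mul] at h4
  rw [div_eq_div_iff hy hy', mul_comm, h4, mul_comm]

/-- the valuation ring -/
def pairV (h : PairOK e f) : ValuationSubring L where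
  carrier := {a | ∃ x y : R, f y ≠ 0 ∧ e y * a = e x}
  mul_mem' := by
    rintro a b ⟨x, y, hy, h1⟩ ⟨x', y', hy', h2⟩
    refine ⟨x * x', y * y', ?_, ?_⟩
    · rw [map_mul]; exact mul_ne_zero hy hy'
    · rw [map_mul, map_mul, ← h1, ← h2]; ring
  one_mem' := ⟨1, 1, by rw [map_one]; exact one_ne_zero, by rw [mul_one]⟩
  add_mem' := by
    rintro a b ⟨x, y, hy, h1⟩ ⟨x', y', hy', h2⟩
    refine ⟨x * y' + x' * y, y * y', ?_, ?_⟩
    · rw [map_mul]; exact mul_ne_zero hy hy'
    · rw [map_mul, map_add, map_mul, map_mul, ← h1, ← h2]; ring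
  zero_mem' := ⟨0, 1, by rw [map_one]; exact one_ne_zero, by rw [map_zero, mul_zero]⟩
  neg_mem' := by
    rintro a ⟨x, y, hy, h1⟩
    exact ⟨-x, y, hy, by rw [map_neg, ← h1]; ring⟩
  mem_or_inv_mem' := by
    intro a
    obtain ⟨x, y, h1, h2 | h2⟩ := h.ex a
    · right
      have ha : a ≠ 0 := by
        rintro rfl
        rw [mul_zero] at h1
        apply h2
        rw [(map_eq_zero_iff e h.inj).1 h1.symm, map_zero]
      refine ⟨y, x, h2, ?_⟩
      rw [← h1, mul_assoc, mul_inv_cancel₀ ha, mul_one]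
    · exact Or.inl ⟨x, y, h2, h1⟩

theorem mem_pairV (h : PairOK e f) {a : L} :
    a ∈ pairV h ↔ ∃ x y : R, f y ≠ 0 ∧ e y * a = e x := Iff.rfl

/-- the value -/
def pairVal (h : PairOK e f) (a : pairV h) : M :=
  f a.2.choose / f a.2.choose_spec.choose

theorem pairVal_eq (h : PairOK e f) (a : pairV h) {x y : R} (hy : f y ≠ 0)
    (h1 : e y * (a : L) = e x) : pairVal h a = f x / f y :=
  h.uniq a.2.choose_spec.choose_spec.2 h1 a.2.choose_spec.choose_spec.1 hy

/-- the place extending `f` -/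
def ofPair (e : R →ₐ[K] L) (f : R →ₐ[K] M) (h : PairOK e f) : Pl K L M where
  V := pairV h
  ρ :=
    { toFun := pairVal h
      map_one' := by
        rw [pairVal_eq h 1 (x := 1) (y := 1) (by rw [map_one]; exact one_ne_zero)
          (by rw [OneMemClass.coe_one, mul_one]), map_one, div_one]
      map_mul' := by
        rintro ⟨a, x, y, hy, h1⟩ ⟨b, x', y', hy', h2⟩
        rw [pairVal_eq h ⟨a, x, y, hy, h1⟩ hy h1, pairVal_eq h ⟨b, x', y', hy', h2⟩ hy' h2,
          pairVal_eq h _ (x := x * x') (y := y * y') (by rw [map_mul]; exact mul_ne_zero hy hy')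
          (by
            change e (y * y') * (a * b) = _
            rw [map_mul, map_mul, ← h1, ← h2]; ring), map_mul, map_mul, div_mul_div_comm]
      map_zero' := by
        rw [pairVal_eq h 0 (x := 0) (y := 1) (by rw [map_one]; exact one_ne_zero)
          (by rw [ZeroMemClass.coe_zero, map_zero, mul_zero]), map_zero, zero_div]
      map_add' := by
        rintro ⟨a, x, y, hy, h1⟩ ⟨b, x', y', hy', h2⟩
        rw [pairVal_eq h ⟨a, x, y, hy, h1⟩ hy h1, pairVal_eq h ⟨b, x', y', hy', h2⟩ hy' h2,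
          pairVal_eq h _ (x := x * y' + y * x') (y := y * y')
          (by rw [map_mul]; exact mul_ne_zero hy hy')
          (by
            change e (y * y') * (a + b) = _
            rw [map_mul, map_add, map_mul, map_mul, ← h1, ← h2]; ring), map_mul, map_add, map_mul,
          map_mul, div_add_div _ _ hy hy'] }
  mem' c := ⟨algebraMap K R c, 1, by rw [map_one]; exact one_ne_zero,
    by rw [map_one, one_mul, AlgHom.commutes]⟩
  alg' c := by
    have h1 : e 1 * algebraMap K L c = e (algebraMap K R c) := by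
      rw [map_one, one_mul, AlgHom.commutes]
    have h2 : f 1 ≠ 0 := by rw [map_one]; exact one_ne_zero
    refine (pairVal_eq h _ (x := algebraMap K R c) (y := 1) h2 h1).trans ?_
    rw [map_one, div_one, AlgHom.commutes]
  inv' := by
    rintro ⟨a, x, y, hy, h1⟩ hv
    change pairVal h _ ≠ 0 at hv
    rw [pairVal_eq h ⟨a, x, y, hy, h1⟩ hy h1] at hv
    have hx : f x ≠ 0 := fun h0 => hv (by rw [h0, zero_div])
    have ha : a ≠ 0 := by
      rintro rfl
      rw [mul_zero] at h1
      apply hx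
      rw [(map_eq_zero_iff e h.inj).1 h1.symm, map_zero]
    have h3 : e x * a⁻¹ = e y := by
      rw [← h1, mul_assoc, mul_inv_cancel₀ ha, mul_one]
    exact ⟨y, x, hx, h3⟩

theorem ofPair_at (h : PairOK e f) {a : L} {b : M} :
    (ofPair e f h).At a b ↔ ∃ x y : R, f y ≠ 0 ∧ e y * a = e x ∧ f y * b = f x := by
  constructor
  · rintro ⟨⟨x, y, hy, h1⟩, h2⟩
    refine ⟨x, y, hy, h1, ?_⟩
    have h3 : pairVal h ⟨a, x, y, hy, h1⟩ = b := h2
    rw [pairVal_eq h _ hy h1] at h3
    rw [← h3, mul_div_cancel₀ _ hy]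
  · rintro ⟨x, y, hy, h1, h2⟩
    refine ⟨⟨x, y, hy, h1⟩, ?_⟩
    change pairVal h ⟨a, x, y, hy, h1⟩ = b
    rw [pairVal_eq h _ hy h1, ← h2, mul_div_cancel_left₀ _ hy]

theorem ofPair_at_e (h : PairOK e f) (x : R) : (ofPair e f h).At (e x) (f x) :=
  (ofPair_at h).2 ⟨x, 1, by rw [map_one]; exact one_ne_zero, by rw [map_one, one_mul],
    by rw [map_one, one_mul]⟩

theorem eq_ofPair (h : PairOK e f) {χ : Pl K L M} (hχ : ∀ x, χ.At (e x) (f x)) :
    χ = ofPair e f h := by
  symm
  refine eq_of_at fun a b hab => ?_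
  obtain ⟨x, y, hy, h1, h2⟩ := (ofPair_at h).1 hab
  have h3 := (hχ x).mul ((hχ y).inv hy)
  have hey : e y ≠ 0 := by
    intro h0
    apply hy
    rw [(map_eq_zero_iff e h.inj).1 h0, map_zero]
  have e1 : e x * (e y)⁻¹ = a := by
    rw [← h1, mul_comm (e y), mul_assoc, mul_inv_cancel₀ hey, mul_one]
  have e2 : f x * (f y)⁻¹ = b := by
    rw [← h2, mul_comm (f y), mul_assoc, mul_inv_cancel₀ hy, mul_one]
  rwa [e1, e2] at h3

end Pl

end Fermat.Agent.S26A
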