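import Fermat.Agent.S26A.CT1a

/-!
# Tensor products of fields over an algebraically closed field
-/

set_option autoImplicit false
set_option linter.style.haveILetI false
set_option linter.unusedSectionVars false

noncomputable section

namespace Fermat.Agent.S26A

universe u

open scoped TensorProduct

theorem exists_adjoin_hom {K L : Type*} [Field K] [IsAlgClosed K] [Field L] [Algebra K L]
    (S : Finset L) : Nonempty (Algebra.adjoin K (S : Set L) →ₐ[K] K) := by
  haveI : Algebra.FiniteType K (Algebra.adjoin K (S : Set L)) :=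
    (Subalgebra.fg_iff_finiteType _).1 (Subalgebra.fg_adjoin_finset S)
  obtain ⟨m, hm⟩ := Ideal.exists_maximal (Algebra.adjoin K (S : Set L))
  letI := Ideal.Quotient.field m
  haveI : Algebra.FiniteType K (Algebra.adjoin K (S : Set L) ⧸ m) :=
    Algebra.FiniteType.of_surjective (Ideal.Quotient.mkₐ K m) Ideal.Quotient.mk_surjective
  haveI : Module.Finite K (Algebra.adjoin K (S : Set L) ⧸ m) :=
    finite_of_finite_type_of_isJacobsonRing _ _
  have hb : Function.Bijective (algebraMap K (Algebra.adjoin K (S : Set L) ⧸ m)) :=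
    IsAlgClosed.algebraMap_bijective_of_isIntegral
  exact ⟨((AlgEquiv.ofBijective (Algebra.ofId K _) hb).symm : _ →ₐ[K] K).comp
    (Ideal.Quotient.mkₐ K m)⟩

section

variable (K : Type*) {L C : Type*} [Field K] [Field L] [Algebra K L] [Field C] [Algebra K C]

/-- a basis of `C` -/
def bC (C : Type*) [Field C] [Algebra K C] : Module.Basis (Module.Basis.ofVectorSpaceIndex K C) K C :=
  Module.Basis.ofVectorSpace K C

variable {K}

/-- coordinates of a tensor -/
def crd (x : L ⊗[K] C) : Module.Basis.ofVectorSpaceIndex K C →₀ L :=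
  (Algebra.TensorProduct.basis L (bC K C)).repr x

theorem crd_inj {x : L ⊗[K] C} (h : x ≠ 0) : ∃ i, crd x i ≠ 0 := by
  by_contra hc
  push Not at hc
  apply h
  apply (Algebra.TensorProduct.basis L (bC K C)).repr.injective
  rw [map_zero]
  exact Finsupp.ext hc

theorem sum_crd (x : L ⊗[K] C) : x = ∑ i ∈ (crd x).support, crd x i ⊗ₜ[K] bC K C i := by
  conv_lhs => rw [← (Algebra.TensorProduct.basis L (bC K C)).linearCombination_repr x]
  rw [Finsupp.linearCombination_apply, Finsupp.sum]
  refine Finset.sum_congr rfl fun i _ => ?_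
  rw [Algebra.TensorProduct.basis_apply, TensorProduct.smul_tmul', smul_eq_mul, mul_one]
  rfl

theorem sum_tmul_ne_zero {L : Type*} [Field L] [Algebra K L]
    {s : Finset (Module.Basis.ofVectorSpaceIndex K C)}
    {a : Module.Basis.ofVectorSpaceIndex K C → L} {i : Module.Basis.ofVectorSpaceIndex K C}
    (hi : i ∈ s) (ha : a i ≠ 0) : ∑ i ∈ s, a i ⊗ₜ[K] bC K C i ≠ 0 := by
  intro h
  have h1 := (Algebra.TensorProduct.basis L (bC K C)).linearIndependent
  rw [linearIndependent_iff'] at h1
  apply ha
  apply h1 s a _ i hi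
  rw [← h]
  refine Finset.sum_congr rfl fun i _ => ?_
  rw [Algebra.TensorProduct.basis_apply, TensorProduct.smul_tmul', smul_eq_mul, mul_one]

theorem isDomain_tmul [IsAlgClosed K] : IsDomain (L ⊗[K] C) := by
  classical
  haveI : Nontrivial (L ⊗[K] C) := inferInstance
  haveI : NoZeroDivisors (L ⊗[K] C) := by
    refine ⟨fun {x y} hxy => ?_⟩
    by_contra hc
    push Not at hc
    obtain ⟨i, hi⟩ := crd_inj hc.1
    obtain ⟨j, hj⟩ := crd_inj hc.2
    let S : Finset L := ((crd x).support.image (crd x) ∪ (crd y).support.image (crd y)) ∪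
      {(crd x i)⁻¹, (crd y j)⁻¹}
    obtain ⟨φ⟩ := exists_adjoin_hom (K := K) S
    have hS : ∀ l ∈ S, l ∈ Algebra.adjoin K (S : Set L) := fun l hl =>
      Algebra.subset_adjoin (Finset.mem_coe.2 hl)
    have hX : ∀ k, crd x k ∈ Algebra.adjoin K (S : Set L) := by
      intro k
      by_cases hk : crd x k = 0
      · rw [hk]; exact zero_mem _
      · exact hS _ (Finset.mem_union_left _ (Finset.mem_union_left _
          (Finset.mem_image_of_mem _ (Finsupp.mem_support_iff.2 hk))))
    have hY : ∀ k, crd y k ∈ Algebra.adjoin K (S : Set L) := by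
      intro k
      by_cases hk : crd y k = 0
      · rw [hk]; exact zero_mem _
      · exact hS _ (Finset.mem_union_left _ (Finset.mem_union_right _
          (Finset.mem_image_of_mem _ (Finsupp.mem_support_iff.2 hk))))
    have hunit : ∀ (l : L) (h : l ∈ Algebra.adjoin K (S : Set L)) (h' : l⁻¹ ∈ Algebra.adjoin K
        (S : Set L)), l ≠ 0 → φ ⟨l, h⟩ ≠ 0 := by
      intro l h h' h0 h1
      have h2 : φ (⟨l, h⟩ * ⟨l⁻¹, h'⟩) = 0 := by rw [map_mul, h1, zero_mul]
      have h3 : (⟨l, h⟩ * ⟨l⁻¹, h'⟩ : Algebra.adjoin K (S : Set L)) = 1 :=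
        Subtype.ext (mul_inv_cancel₀ h0)
      rw [h3, map_one] at h2
      exact one_ne_zero h2
    let A0 := Algebra.adjoin K (S : Set L)
    let x' : A0 ⊗[K] C := ∑ k ∈ (crd x).support, (⟨crd x k, hX k⟩ : A0) ⊗ₜ[K] bC K C k
    let y' : A0 ⊗[K] C := ∑ k ∈ (crd y).support, (⟨crd y k, hY k⟩ : A0) ⊗ₜ[K] bC K C k
    let m : A0 ⊗[K] C →ₐ[K] L ⊗[K] C := Algebra.TensorProduct.map A0.val (AlgHom.id K C)
    have hm : Function.Injective m := by
      have h1 : Function.Injective (A0.val.toLinearMap.rTensor C) :=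
        Module.Flat.rTensor_preserves_injective_linearMap _ Subtype.val_injective
      intro a b hab
      apply h1
      exact hab
    have hmx : m x' = x := by
      conv_rhs => rw [sum_crd x]
      simp only [x', m, map_sum, Algebra.TensorProduct.map_tmul]
      rfl
    have hmy : m y' = y := by
      conv_rhs => rw [sum_crd y]
      simp only [y', m, map_sum, Algebra.TensorProduct.map_tmul]
      rfl
    have hxy' : x' * y' = 0 := by
      apply hm
      rw [map_mul, hmx, hmy, hxy, map_zero]
    let r : A0 ⊗[K] C →ₐ[K] C := Algebra.TensorProduct.lift ((Algebra.ofId K C).comp φ)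
      (AlgHom.id K C) (fun _ _ => Commute.all _ _)
    have hr := congrArg r hxy'
    rw [map_mul, map_zero] at hr
    have key : ∀ (s : Finset (Module.Basis.ofVectorSpaceIndex K C)) (a :
        Module.Basis.ofVectorSpaceIndex K C → A0) (i : _), i ∈ s → φ (a i) ≠ 0 →
        r (∑ k ∈ s, a k ⊗ₜ[K] bC K C k) ≠ 0 := by
      intro s a i hi ha h0
      have h1 : ∑ k ∈ s, φ (a k) • bC K C k = 0 := by
        rw [← h0, map_sum]
        refine Finset.sum_congr rfl fun k _ => ?_
        rw [Algebra.TensorProduct.lift_tmul, Algebra.smul_def]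
        rfl
      exact ha (linearIndependent_iff'.1 (bC K C).linearIndependent s _ h1 i hi)
    rcases mul_eq_zero.1 hr with h | h
    · refine key _ _ i (Finsupp.mem_support_iff.2 hi) (hunit _ _ (hS _ ?_) hi) h
      exact Finset.mem_union_right _ (Finset.mem_insert_self _ _)
    · refine key _ _ j (Finsupp.mem_support_iff.2 hj) (hunit _ _ (hS _ ?_) hj) h
      exact Finset.mem_union_right _ (Finset.mem_insert_of_mem (Finset.mem_singleton_self _))
  exact NoZeroDivisors.to_isDomain _

end

end Fermat.Agent.S26A
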