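import Fermat.Agent.S26A.CT1b

/-!
# Constant extensions of a function field and the Gauss places
-/

set_option autoImplicit false
set_option linter.style.haveILetI false
set_option linter.unusedSectionVars false

noncomputable section

namespace Fermat.Agent.S26A

universe u

open scoped TensorProduct

section cur

variable (K C : Type u) [Field K] [IsAlgClosed K] [Field C] [Algebra K C]

instance isDomain_tens (L : Type u) [Field L] [Algebra K L] : IsDomain (L ⊗[K] C) := isDomain_tmul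

/-- the function field over `L` -/
def Cur (L : Type u) [Field L] [Algebra K L] : Type u := FractionRing (L ⊗[K] C)

variable (L : Type u) [Field L] [Algebra K L]

instance : Field (Cur K C L) := inferInstanceAs (Field (FractionRing (L ⊗[K] C)))
instance : Algebra (L ⊗[K] C) (Cur K C L) :=
  inferInstanceAs (Algebra (L ⊗[K] C) (FractionRing (L ⊗[K] C)))
instance : IsFractionRing (L ⊗[K] C) (Cur K C L) :=
  inferInstanceAs (IsFractionRing (L ⊗[K] C) (FractionRing (L ⊗[K] C)))
instance : Algebra K (Cur K C L) := inferInstanceAs (Algebra K (FractionRing (L ⊗[K] C)))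
instance : Algebra L (Cur K C L) := inferInstanceAs (Algebra L (FractionRing (L ⊗[K] C)))
instance : IsScalarTower K (L ⊗[K] C) (Cur K C L) :=
  inferInstanceAs (IsScalarTower K (L ⊗[K] C) (FractionRing (L ⊗[K] C)))
instance : IsScalarTower L (L ⊗[K] C) (Cur K C L) :=
  inferInstanceAs (IsScalarTower L (L ⊗[K] C) (FractionRing (L ⊗[K] C)))
instance : IsScalarTower K L (Cur K C L) := by
  refine IsScalarTower.of_algebraMap_eq fun x => ?_
  rw [IsScalarTower.algebraMap_apply K (L ⊗[K] C) (Cur K C L),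
    IsScalarTower.algebraMap_apply L (L ⊗[K] C) (Cur K C L),
    IsScalarTower.algebraMap_apply K L (L ⊗[K] C)]

/-- the tensor product in the function field -/
def toCur : L ⊗[K] C →ₐ[K] Cur K C L := IsScalarTower.toAlgHom K (L ⊗[K] C) (Cur K C L)

theorem toCur_injective : Function.Injective (toCur K C L) :=
  IsFractionRing.injective (L ⊗[K] C) (Cur K C L)

/-- constants -/
def curL : L →ₐ[K] Cur K C L := (toCur K C L).comp Algebra.TensorProduct.includeLeft

/-- functions of `C` -/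
def curC : C →ₐ[K] Cur K C L := (toCur K C L).comp Algebra.TensorProduct.includeRight

theorem curL_eq (l : L) : curL K C L l = algebraMap L (Cur K C L) l := by
  rw [IsScalarTower.algebraMap_apply L (L ⊗[K] C) (Cur K C L)]
  rfl

theorem toCur_tmul (l : L) (c : C) : toCur K C L (l ⊗ₜ c) = curL K C L l * curC K C L c := by
  change _ = toCur K C L (l ⊗ₜ 1) * toCur K C L (1 ⊗ₜ c)
  rw [← map_mul, Algebra.TensorProduct.tmul_mul_tmul, mul_one, one_mul]

variable {K C L} in
theorem cur_eq_div (a : Cur K C L) : ∃ x y : L ⊗[K] C, y ≠ 0 ∧ toCur K C L y * a = toCur K C L x := by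
  obtain ⟨x, y, hy, h⟩ := IsFractionRing.div_surjective (A := L ⊗[K] C) a
  refine ⟨x, y, nonZeroDivisors.ne_zero hy, ?_⟩
  rw [← h]
  change algebraMap _ _ y * (algebraMap _ _ x / algebraMap _ _ y) = algebraMap _ _ x
  rw [mul_div_cancel₀]
  exact IsFractionRing.to_map_ne_zero_of_mem_nonZeroDivisors hy

end cur

section gauss

variable {K L M : Type u} [Field K] [Field L] [Field M] [Algebra K L] [Algebra K M]

instance (φ : Pl K L M) : Algebra K φ.V :=
  ((algebraMap K L).codRestrict φ.V.toSubring φ.mem').toAlgebra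

theorem coe_algebraMap_V (φ : Pl K L M) (c : K) : (algebraMap K φ.V c : L) = algebraMap K L c := rfl

/-- the inclusion of the valuation ring -/
def Pl.incV (φ : Pl K L M) : φ.V →ₐ[K] L := { φ.V.subtype with commutes' := fun _ => rfl }

/-- the place on its valuation ring -/
def Pl.resV (φ : Pl K L M) : φ.V →ₐ[K] M := { φ.ρ with commutes' := fun c => φ.alg' c }

theorem Pl.at_res (φ : Pl K L M) (v : φ.V) : φ.At (φ.incV v) (φ.resV v) := ⟨v.2, rfl⟩

/-- normalization of finite families -/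
theorem exists_scale (V : ValuationSubring L) {ι : Type*} (s : Finset ι) (a : ι → L)
    (h : ∃ i ∈ s, a i ≠ 0) : ∃ c : L, c ≠ 0 ∧ (∀ i ∈ s, c * a i ∈ V) ∧ ∃ i ∈ s, c * a i = 1 := by
  obtain ⟨i₀, hi₀, h₀⟩ := h
  obtain ⟨j, hj, hmax⟩ := s.exists_max_image (fun i => V.valuation (a i)) ⟨i₀, hi₀⟩
  have hj0 : a j ≠ 0 := by
    intro h1
    have h2 := hmax i₀ hi₀
    rw [h1, map_zero, le_zero_iff, map_eq_zero] at h2
    exact h₀ h2
  refine ⟨(a j)⁻¹, inv_ne_zero hj0, fun i hi => ?_, j, hj, inv_mul_cancel₀ hj0⟩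
  rw [← V.valuation_le_one_iff, map_mul, map_inv₀]
  have h1 : V.valuation (a j) ≠ 0 := (map_ne_zero _).2 hj0
  calc (V.valuation (a j))⁻¹ * V.valuation (a i) ≤ (V.valuation (a j))⁻¹ * V.valuation (a j) :=
        mul_le_mul_right (hmax i hi) _
    _ = 1 := inv_mul_cancel₀ h1

variable (C : Type u) [Field C] [Algebra K C]

/-- the inclusion of the Gauss ring -/
def gInc (φ : Pl K L M) : φ.V ⊗[K] C →ₐ[K] L ⊗[K] C :=
  Algebra.TensorProduct.map φ.incV (AlgHom.id K C)

/-- the reduction of the Gauss ring -/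
def gRed (φ : Pl K L M) : φ.V ⊗[K] C →ₐ[K] M ⊗[K] C :=
  Algebra.TensorProduct.map φ.resV (AlgHom.id K C)

theorem gInc_injective (φ : Pl K L M) : Function.Injective (gInc C φ) := by
  have h1 : Function.Injective (φ.incV.toLinearMap.rTensor C) :=
    Module.Flat.rTensor_preserves_injective_linearMap _ Subtype.val_injective
  intro a b hab
  apply h1
  exact hab

/-- lifting a tensor with integral coordinates -/
theorem exists_gLift (φ : Pl K L M) (x : L ⊗[K] C) (c : L) (h : ∀ i, c * crd x i ∈ φ.V) :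
    ∃ X : φ.V ⊗[K] C, gInc C φ X = c • x ∧ ((∃ i, c * crd x i = 1) → gRed C φ X ≠ 0) := by
  refine ⟨∑ i ∈ (crd x).support, (⟨c * crd x i, h i⟩ : φ.V) ⊗ₜ[K] bC K C i, ?_, ?_⟩
  · conv_rhs => rw [sum_crd x]
    rw [map_sum, Finset.smul_sum]
    refine Finset.sum_congr rfl fun i _ => ?_
    rw [gInc, Algebra.TensorProduct.map_tmul, TensorProduct.smul_tmul']
    rfl
  · rintro ⟨i, hi⟩
    have hi' : i ∈ (crd x).support := by
      rw [Finsupp.mem_support_iff]
      intro h0
      rw [h0, mul_zero] at hi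
      exact zero_ne_one hi
    rw [map_sum]
    have h1 := sum_tmul_ne_zero (K := K) (C := C) (L := M) (s := (crd x).support)
      (a := fun i => φ.ρ ⟨c * crd x i, h i⟩) hi' (by
        have h2 : (⟨c * crd x i, h i⟩ : φ.V) = 1 := Subtype.ext hi
        change φ.ρ ⟨c * crd x i, h i⟩ ≠ 0
        rw [h2, map_one]
        exact one_ne_zero)
    convert h1 using 1
    refine Finset.sum_congr rfl fun j _ => ?_
    rw [gRed, Algebra.TensorProduct.map_tmul]
    rfl

variable [IsAlgClosed K]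

/-- the ring defining the Gauss place, in the function field -/
def gE (φ : Pl K L M) : φ.V ⊗[K] C →ₐ[K] Cur K C L := (toCur K C L).comp (gInc C φ)

/-- the reduction, in the function field -/
def gF (φ : Pl K L M) : φ.V ⊗[K] C →ₐ[K] Cur K C M := (toCur K C M).comp (gRed C φ)

theorem gF_ne_zero {φ : Pl K L M} {X : φ.V ⊗[K] C} (h : gRed C φ X ≠ 0) : gF C φ X ≠ 0 := by
  intro h1
  apply h
  exact toCur_injective K C M (h1.trans (map_zero _).symm)

/-- normalization -/
theorem exists_scale_tens (φ : Pl K L M) (x y : L ⊗[K] C) (hy : y ≠ 0) :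
    ∃ (c : L) (X Y : φ.V ⊗[K] C), c ≠ 0 ∧ gInc C φ X = c • x ∧ gInc C φ Y = c • y ∧
      (gRed C φ X ≠ 0 ∨ gRed C φ Y ≠ 0) := by
  classical
  obtain ⟨j, hj⟩ := crd_inj hy
  obtain ⟨c, hc, h1, h2⟩ := exists_scale φ.V
    (((crd x).support.disjSum (crd y).support)) (Sum.elim (crd x) (crd y))
    ⟨Sum.inr j, by simpa using hj, hj⟩
  have hx : ∀ i, c * crd x i ∈ φ.V := by
    intro i
    by_cases hi : crd x i = 0
    · rw [hi, mul_zero]; exact zero_mem _
    · exact h1 (Sum.inl i) (by simpa using hi)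
  have hy' : ∀ i, c * crd y i ∈ φ.V := by
    intro i
    by_cases hi : crd y i = 0
    · rw [hi, mul_zero]; exact zero_mem _
    · exact h1 (Sum.inr i) (by simpa using hi)
  obtain ⟨X, hX, hX'⟩ := exists_gLift C φ x c hx
  obtain ⟨Y, hY, hY'⟩ := exists_gLift C φ y c hy'
  refine ⟨c, X, Y, hc, hX, hY, ?_⟩
  obtain ⟨i | i, -, hi⟩ := h2
  · exact Or.inl (hX' ⟨i, hi⟩)
  · exact Or.inr (hY' ⟨i, hi⟩)

theorem toCur_smul (c : L) (x : L ⊗[K] C) : toCur K C L (c • x) = curL K C L c * toCur K C L x := by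
  rw [Algebra.smul_def, map_mul]
  rfl

theorem gauss_ok (φ : Pl K L M) : Pl.PairOK (gE C φ) (gF C φ) where
  inj := (toCur_injective K C L).comp (gInc_injective C φ)
  ex := by
    intro a
    obtain ⟨x, y, hy, h⟩ := cur_eq_div a
    obtain ⟨c, X, Y, hc, hX, hY, h1⟩ := exists_scale_tens C φ x y hy
    refine ⟨X, Y, ?_, h1.imp (gF_ne_zero C) (gF_ne_zero C)⟩
    change toCur K C L (gInc C φ Y) * a = toCur K C L (gInc C φ X)
    rw [hX, hY, toCur_smul, toCur_smul, ← h, mul_assoc]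

/-- the Gauss place -/
def cpl (φ : Pl K L M) : Pl K (Cur K C L) (Cur K C M) := Pl.ofPair (gE C φ) (gF C φ) (gauss_ok C φ)

theorem cpl_at_e (φ : Pl K L M) (x : φ.V ⊗[K] C) : (cpl C φ).At (gE C φ x) (gF C φ x) :=
  Pl.ofPair_at_e _ x

theorem cpl_curL {φ : Pl K L M} {a : L} {b : M} (h : φ.At a b) :
    (cpl C φ).At (curL K C L a) (curL K C M b) := by
  obtain ⟨h1, rfl⟩ := h
  exact cpl_at_e C φ ((⟨a, h1⟩ : φ.V) ⊗ₜ 1)

theorem cpl_curC (φ : Pl K L M) (c : C) :
    (cpl C φ).At (curC K C L c) (curC K C M c) := by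
  have h := cpl_at_e C φ (1 ⊗ₜ c)
  have h1 : gE C φ (1 ⊗ₜ c) = curC K C L c := by
    change toCur K C L (φ.incV 1 ⊗ₜ c) = toCur K C L (1 ⊗ₜ c)
    rw [map_one]
  have h2 : gF C φ (1 ⊗ₜ c) = curC K C M c := by
    change toCur K C M (φ.resV 1 ⊗ₜ c) = toCur K C M (1 ⊗ₜ c)
    rw [map_one]
  rwa [h1, h2] at h

/-- characterization of the Gauss place -/
theorem eq_cpl {φ : Pl K L M} {χ : Pl K (Cur K C L) (Cur K C M)}
    (hL : ∀ a b, φ.At a b → χ.At (curL K C L a) (curL K C M b))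
    (hC : ∀ c, χ.At (curC K C L c) (curC K C M c)) : χ = cpl C φ := by
  refine Pl.eq_ofPair _ fun x => ?_
  induction x using TensorProduct.induction_on with
  | zero => rw [map_zero, map_zero]; exact χ.at_zero
  | add x y hx hy => rw [map_add, map_add]; exact hx.add hy
  | tmul v c =>
    have h := (hL _ _ (φ.at_res v)).mul (hC c)
    rw [← toCur_tmul, ← toCur_tmul] at h
    exact h

theorem cpl_comp {N : Type u} [Field N] [Algebra K N] (ψ : Pl K M N) (φ : Pl K L M) :
    cpl C (ψ.comp φ) = (cpl C ψ).comp (cpl C φ) := by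
  symm
  refine eq_cpl C (fun a c h => ?_) (fun c => Pl.comp_at (cpl_curC C φ c) (cpl_curC C ψ c))
  obtain ⟨b, hb, hb'⟩ := Pl.comp_at_iff.1 h
  exact Pl.comp_at (cpl_curL C hb) (cpl_curL C hb')

theorem cpl_id (L : Type u) [Field L] [Algebra K L] : cpl C (Pl.id K L) = Pl.id K (Cur K C L) := by
  symm
  refine eq_cpl C (fun a b h => ?_) (fun c => Pl.ofHom_at _ _)
  rw [h.uniq (Pl.ofHom_at _ a)]
  exact Pl.ofHom_at _ _

theorem cpl_iL (φ : Pl K L M) :
    (cpl C φ).comp (Pl.ofHom (curL K C L)) = (Pl.ofHom (curL K C M)).comp φ := by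
  symm
  refine Pl.eq_of_at fun a b h => ?_
  obtain ⟨c, hc, hc'⟩ := Pl.comp_at_iff.1 h
  rw [hc'.uniq (Pl.ofHom_at _ c)]
  exact Pl.comp_at (Pl.ofHom_at _ a) (cpl_curL C hc)

theorem cpl_iC (φ : Pl K L M) :
    (cpl C φ).comp (Pl.ofHom (curC K C L)) = Pl.ofHom (curC K C M) := by
  symm
  refine Pl.eq_of_at fun a b h => ?_
  rw [h.uniq (Pl.ofHom_at _ a)]
  exact Pl.comp_at (Pl.ofHom_at _ a) (cpl_curC C φ a)

theorem exists_scale_one (φ : Pl K L M) (x : L ⊗[K] C) (hx : x ≠ 0) :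
    ∃ (c : L) (X : φ.V ⊗[K] C), c ≠ 0 ∧ gInc C φ X = c • x ∧ gRed C φ X ≠ 0 := by
  obtain ⟨c, X, Y, hc, hX, hY, h⟩ := exists_scale_tens C φ x x hx
  have h1 := gInc_injective C φ (hX.trans hY.symm)
  subst h1
  exact ⟨c, X, hc, hX, h.elim id id⟩

theorem cpl_scale (φ : Pl K L M) (h : Cur K C L) (h0 : h ≠ 0) :
    ∃ (c : L) (b : Cur K C M), c ≠ 0 ∧ b ≠ 0 ∧ (cpl C φ).At (curL K C L c * h) b := by
  obtain ⟨x, y, hy, hxy⟩ := cur_eq_div h
  have hx : x ≠ 0 := by
    rintro rfl
    rw [map_zero] at hxy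
    rcases mul_eq_zero.1 hxy with h1 | h1
    · exact hy (toCur_injective K C L (h1.trans (map_zero _).symm))
    · exact h0 h1
  obtain ⟨c, X, hc, hX, h1⟩ := exists_scale_one C φ x hx
  obtain ⟨c', Y, hc', hY, h2⟩ := exists_scale_one C φ y hy
  have h3 := gF_ne_zero C h1
  have h4 := gF_ne_zero C h2
  refine ⟨c / c', gF C φ X / gF C φ Y, div_ne_zero hc hc', div_ne_zero h3 h4, ?_⟩
  refine (Pl.ofPair_at (gauss_ok C φ)).2 ⟨X, Y, h4, ?_, mul_div_cancel₀ _ h4⟩
  change toCur K C L (gInc C φ Y) * _ = toCur K C L (gInc C φ X)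
  have h5 : curL K C L c' ≠ 0 := (map_ne_zero _).2 hc'
  rw [hX, hY, toCur_smul, toCur_smul, ← hxy, map_div₀]
  field_simp

/-- the map induced by a homomorphism of the constants -/
theorem cpl_hom (σ : L →ₐ[K] M) :
    ∃ τ : Cur K C L →ₐ[K] Cur K C M, cpl C (Pl.ofHom σ) = Pl.ofHom τ := by
  have hinj : Function.Injective ((toCur K C M).comp (Algebra.TensorProduct.map σ
      (AlgHom.id K C))) := by
    refine (toCur_injective K C M).comp ?_
    have h1 : Function.Injective (σ.toLinearMap.rTensor C) :=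
      Module.Flat.rTensor_preserves_injective_linearMap _ σ.injective
    intro a b hab
    apply h1
    exact hab
  let τ : Cur K C L →ₐ[K] Cur K C M := IsFractionRing.liftAlgHom (A := L ⊗[K] C) hinj
  have hτ : ∀ x, τ (toCur K C L x) = toCur K C M (Algebra.TensorProduct.map σ
      (AlgHom.id K C) x) := by
    intro x
    exact IsFractionRing.lift_algebraMap hinj x
  refine ⟨τ, (eq_cpl C (fun a b h => ?_) (fun c => ?_)).symm⟩
  · rw [h.uniq (Pl.ofHom_at _ a)]
    have h1 : τ (curL K C L a) = curL K C M (σ a) := by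
      refine (hτ _).trans ?_
      change toCur K C M (σ a ⊗ₜ 1) = _
      rfl
    rw [← h1]
    exact Pl.ofHom_at _ _
  · have h1 : τ (curC K C L c) = curC K C M c := by
      refine (hτ _).trans ?_
      change toCur K C M (σ 1 ⊗ₜ c) = toCur K C M (1 ⊗ₜ c)
      rw [map_one]
    rw [← h1]
    exact Pl.ofHom_at _ _

end gauss

end Fermat.Agent.S26A
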