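import Fermat.Agent.S26A.CT1c
import Fermat.Agent.MW.BC

/-!
# Constant extensions: the function field over `L`
-/

set_option autoImplicit false
set_option linter.style.haveILetI false
set_option linter.unusedSectionVars false

noncomputable section

namespace Fermat.Agent.S26A

universe u

open scoped TensorProduct
open AlgebraicCurve Fermat.Agent.RR Fermat.Agent.MW Fermat.Agent.Curve

section

variable {K C : Type u} [Field K] [Field C] [Algebra K C]
variable {L : Type u} [Field L] [Algebra K L]

theorem linInd_one_tmul {ι : Type*} {v : ι → C} (hv : LinearIndependent K v) :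
    LinearIndependent L (fun i => (1 : L) ⊗ₜ[K] v i) := by
  let b := Module.Basis.extend hv.linearIndepOn_id
  have h1 := (Algebra.TensorProduct.basis L b).linearIndependent
  let g : ι → (hv.linearIndepOn_id.extend (Set.subset_univ _)) := fun i =>
    ⟨v i, hv.linearIndepOn_id.subset_extend (Set.subset_univ _) (Set.mem_range_self i)⟩
  have hg : Function.Injective g := fun i j h => hv.injective (congrArg Subtype.val h)
  have h2 := h1.comp g hg
  convert h2 using 1
  funext i
  rw [Function.comp_apply, Algebra.TensorProduct.basis_apply, Module.Basis.extend_apply_self]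

variable [IsAlgClosed K]

/-- functions of `C` which are linearly independent over `K` are linearly independent over `L` -/
theorem linInd_curC {ι : Type*} {v : ι → C} (hv : LinearIndependent K v) :
    LinearIndependent L (fun i => curC K C L (v i)) := by
  have h := (linInd_one_tmul (L := L) hv).map' (IsScalarTower.toAlgHom L (L ⊗[K] C)
    (Cur K C L)).toLinearMap (LinearMap.ker_eq_bot.2 (toCur_injective K C L))
  exact h

theorem linInd_curL {ι : Type*} {v : ι → L} (hv : LinearIndependent K v) (s : Finset ι) (a : ι → C)
    (h : ∑ i ∈ s, curL K C L (v i) * curC K C L (a i) = 0) : ∀ i ∈ s, a i = 0 := by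
  have h0 : ∑ i ∈ s, v i ⊗ₜ[K] a i = 0 := by
    apply toCur_injective K C L
    rw [map_sum, map_zero, ← h]
    exact Finset.sum_congr rfl fun i _ => toCur_tmul K C L _ _
  have h1 := linInd_one_tmul (L := C) hv
  rw [linearIndependent_iff'] at h1
  refine h1 s a ?_
  have h2 := congrArg (Algebra.TensorProduct.comm K L C) h0
  rw [map_sum, map_zero] at h2
  rw [← h2]
  refine Finset.sum_congr rfl fun i _ => ?_
  rw [Algebra.TensorProduct.comm_tmul, TensorProduct.smul_tmul', smul_eq_mul, mul_one]

/-- functions of `C` in the function field over `L` -/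
@[reducible] def algC (K C L : Type u) [Field K] [IsAlgClosed K] [Field C] [Algebra K C] [Field L]
    [Algebra K L] : Algebra C (Cur K C L) := (curC K C L).toRingHom.toAlgebra

attribute [local instance] algC

/-- if a field contains the constants and the functions of `C`, it is everything -/
theorem cur_gen (E : IntermediateField L (Cur K C L)) (hE : ∀ f : C, curC K C L f ∈ E) : E = ⊤ := by
  rw [eq_top_iff]
  intro a _
  obtain ⟨x, y, hy, h⟩ := cur_eq_div a
  have h1 : ∀ x : L ⊗[K] C, toCur K C L x ∈ E := by
    intro x
    induction x using TensorProduct.induction_on with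
    | zero => rw [map_zero]; exact zero_mem _
    | add x y hx hy => rw [map_add]; exact add_mem hx hy
    | tmul l c =>
      rw [toCur_tmul, curL_eq]
      exact mul_mem (E.algebraMap_mem l) (hE c)
  have h2 : toCur K C L y ≠ 0 := fun h0 => hy (toCur_injective K C L (h0.trans (map_zero _).symm))
  have h3 : a = toCur K C L x / toCur K C L y := by
    rw [← h, mul_div_cancel_left₀ _ h2]
  rw [h3]
  exact div_mem (h1 x) (h1 y)

theorem cur_tr (f : C) (a : L) (h : curL K C L a = curC K C L f) :
    ∃ b : K, algebraMap K C b = f := by
  by_contra hc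
  push Not at hc
  have hv : LinearIndependent K ![1, f] := by
    rw [LinearIndependent.pair_iff]
    intro s t hst
    by_cases ht : t = 0
    · rw [ht, zero_smul, add_zero, Algebra.smul_def, mul_one] at hst
      exact ⟨(map_eq_zero _).1 hst, ht⟩
    · exfalso
      apply hc (-s / t)
      have h1 : algebraMap K C t ≠ 0 := (map_ne_zero _).2 ht
      rw [Algebra.smul_def, Algebra.smul_def, mul_one] at hst
      rw [map_div₀, map_neg, div_eq_iff h1, neg_eq_iff_add_eq_zero, mul_comm]
      exact hst
  have h1 := linInd_curC (L := L) hv
  have h2 : LinearIndependent L ![curC K C L 1, curC K C L f] := by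
    convert h1 using 1
    funext i
    fin_cases i <;> rfl
  rw [LinearIndependent.pair_iff] at h2
  have h3 := (h2 a (-1) (by
    rw [map_one, Algebra.smul_def, mul_one, ← curL_eq, h, neg_smul, one_smul, add_neg_cancel])).2
  exact one_ne_zero (neg_eq_zero.1 h3)

instance cExt_cur : CExt K L C (Cur K C L) where
  comm a := by
    change curC K C L (algebraMap K C a) = _
    rw [AlgHom.commutes, ← curL_eq, AlgHom.commutes]
  gen E hE := cur_gen E hE
  tr f := by
    rintro ⟨a, ha⟩
    rw [← curL_eq] at ha
    exact cur_tr f a ha

instance funField_cur [FunField K C] [IsAlgClosed L] : FunField L (Cur K C L) := by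
  obtain ⟨t, ht, hfin⟩ := (inferInstance : FunField K C)
  haveI := hfin
  haveI := (finrank_bc_le (K := K) (K' := L) (F' := Cur K C L) t).1
  refine FunField.of (t := bc C (Cur K C L) t) ?_
  intro h
  obtain ⟨a, ha⟩ := mem_range_of_isAlgebraic h
  obtain ⟨b, hb⟩ := (cExt_cur (K := K) (C := C) (L := L)).tr t ⟨a, ha⟩
  exact ht (hb ▸ isAlgebraic_algebraMap b)

end

end Fermat.Agent.S26A
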