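import Fermat.Agent.S26A.CT1d
import Fermat.Agent.S26A.Cs4

/-!
# The local ring of a generic point of a curve
-/

set_option autoImplicit false
set_option linter.style.haveILetI false
set_option linter.unusedSectionVars false

noncomputable section

namespace Fermat.Agent.S26A

universe u

open scoped TensorProduct IntermediateField
open Polynomial

/-- two homomorphisms of a field to a local ring which are congruent agree on separable
elements over the field where they agree -/
theorem eq_of_separable {Φ C R : Type*} [Field Φ] [Field C] [Algebra Φ C] [CommRing R]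
    [IsLocalRing R] (α β : C →+* R) (h : ∀ a : Φ, α (algebraMap Φ C a) = β (algebraMap Φ C a))
    (hm : ∀ c, α c - β c ∈ IsLocalRing.maximalIdeal R) (c : C) (hc : IsSeparable Φ c) :
    α c = β c := by
  let p := minpoly Φ c
  let P : R[X] := p.map (α.comp (algebraMap Φ C))
  have e1 : α.comp (algebraMap Φ C) = β.comp (algebraMap Φ C) := RingHom.ext h
  have h0 : aeval c p = 0 := minpoly.aeval Φ c
  have h1 : P.eval (α c) = 0 := by
    rw [eval_map, ← hom_eval₂, ← aeval_def, h0, map_zero]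
  have h2 : P.eval (β c) = 0 := by
    change (p.map (α.comp (algebraMap Φ C))).eval (β c) = 0
    rw [e1, eval_map, ← hom_eval₂, ← aeval_def, h0, map_zero]
  have h3 : IsUnit (P.derivative.eval (β c)) := by
    change IsUnit ((p.map (α.comp (algebraMap Φ C))).derivative.eval (β c))
    rw [derivative_map, e1, eval_map, ← hom_eval₂, ← aeval_def]
    apply RingHom.isUnit_map
    rw [isUnit_iff_ne_zero]
    exact hc.aeval_derivative_ne_zero h0
  obtain ⟨k, hk⟩ := binomExpansion P (β c) (α c - β c)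
  have h4 : (P.derivative.eval (β c) + k * (α c - β c)) * (α c - β c) = 0 := by
    have h5 : β c + (α c - β c) = α c := by ring
    rw [h5, h1, h2] at hk
    rw [add_mul]
    linear_combination -hk
  have h5 : IsUnit (P.derivative.eval (β c) + k * (α c - β c)) := by
    by_contra hn
    have h6 : P.derivative.eval (β c) + k * (α c - β c) ∈ IsLocalRing.maximalIdeal R := hn
    have h7 : P.derivative.eval (β c) ∈ IsLocalRing.maximalIdeal R := by
      have h8 := Ideal.sub_mem _ h6 (Ideal.mul_mem_left _ k (hm c))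
      rwa [add_sub_cancel_right] at h8
    exact h7 h3
  have h6 := (h5.mul_right_eq_zero).1 h4
  exact sub_eq_zero.1 h6

section

variable {K C : Type u} [Field K] [IsAlgClosed K] [Field C] [Algebra K C]
variable {L : Type u} [Field L] [Algebra K L]

/-- evaluation at a point of `C` in `L` -/
def evt (τ : C →ₐ[K] L) : L ⊗[K] C →ₐ[K] L :=
  Algebra.TensorProduct.lift (AlgHom.id K L) τ (fun _ _ => Commute.all _ _)

theorem evt_tmul (τ : C →ₐ[K] L) (l : L) (c : C) : evt τ (l ⊗ₜ c) = l * τ c := rfl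

theorem evt_surjective (τ : C →ₐ[K] L) : Function.Surjective (evt τ) := fun l =>
  ⟨l ⊗ₜ 1, by rw [evt_tmul, map_one, mul_one]⟩

/-- the ideal of a point -/
def mt (τ : C →ₐ[K] L) : Ideal (L ⊗[K] C) := RingHom.ker (evt τ)

instance (τ : C →ₐ[K] L) : (mt τ).IsPrime := RingHom.ker_isPrime _

theorem mem_mt (τ : C →ₐ[K] L) {x : L ⊗[K] C} : x ∈ mt τ ↔ evt τ x = 0 := Iff.rfl

/-- the local ring of a point -/
abbrev Rt (τ : C →ₐ[K] L) : Type u := Localization.AtPrime (mt τ)

/-- the functions of `C` -/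
def αt (τ : C →ₐ[K] L) : C →+* Rt τ :=
  (algebraMap (L ⊗[K] C) (Rt τ)).comp
    (Algebra.TensorProduct.includeRight : C →ₐ[K] L ⊗[K] C).toRingHom

/-- the values -/
def βt (τ : C →ₐ[K] L) : C →+* Rt τ :=
  (algebraMap (L ⊗[K] C) (Rt τ)).comp
    ((Algebra.TensorProduct.includeLeft : L →ₐ[K] L ⊗[K] C).toRingHom.comp τ.toRingHom)

theorem αt_sub_βt (τ : C →ₐ[K] L) (c : C) :
    αt τ c - βt τ c = algebraMap (L ⊗[K] C) (Rt τ) (1 ⊗ₜ c - τ c ⊗ₜ 1) := by
  rw [map_sub]
  rfl

theorem evt_sub (τ : C →ₐ[K] L) (c : C) : evt τ (1 ⊗ₜ c - τ c ⊗ₜ 1) = 0 := by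
  rw [map_sub, evt_tmul, evt_tmul, map_one, one_mul, mul_one, sub_self]

theorem αt_sub_βt_mem (τ : C →ₐ[K] L) (c : C) :
    αt τ c - βt τ c ∈ IsLocalRing.maximalIdeal (Rt τ) := by
  rw [αt_sub_βt, ← Localization.AtPrime.map_eq_maximalIdeal]
  exact Ideal.mem_map_of_mem _ (evt_sub τ c)

theorem max_eq (τ : C →ₐ[K] L) {s : C} [hsep : Algebra.IsSeparable K⟮s⟯ C] :
    IsLocalRing.maximalIdeal (Rt τ) = Ideal.span {αt τ s - βt τ s} := by
  set I : Ideal (Rt τ) := Ideal.span {αt τ s - βt τ s} with hI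
  have hle : I ≤ IsLocalRing.maximalIdeal (Rt τ) := by
    rw [hI, Ideal.span_singleton_le_iff_mem]
    exact αt_sub_βt_mem τ s
  have hne : I ≠ ⊤ := fun h => (IsLocalRing.maximalIdeal.isMaximal (Rt τ)).ne_top
    (top_le_iff.1 (h ▸ hle))
  haveI : Nontrivial (Rt τ ⧸ I) := Ideal.Quotient.nontrivial_iff.2 hne
  haveI : IsLocalRing (Rt τ ⧸ I) :=
    IsLocalRing.of_surjective' (Ideal.Quotient.mk I) Ideal.Quotient.mk_surjective
  let A : C →+* Rt τ ⧸ I := (Ideal.Quotient.mk I).comp (αt τ)
  let B : C →+* Rt τ ⧸ I := (Ideal.Quotient.mk I).comp (βt τ)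
  have h1 : ∀ a : K⟮s⟯, A (algebraMap K⟮s⟯ C a) = B (algebraMap K⟮s⟯ C a) := by
    rintro ⟨a, ha⟩
    change A a = B a
    induction ha using IntermediateField.adjoin_induction with
    | mem x hx =>
      rw [Set.mem_singleton_iff] at hx
      rw [hx]
      exact Ideal.Quotient.eq.2 (Ideal.subset_span rfl)
    | algebraMap a =>
      have h2 : (1 : L) ⊗ₜ[K] algebraMap K C a = τ (algebraMap K C a) ⊗ₜ[K] (1 : C) := by
        rw [AlgHom.commutes, Algebra.algebraMap_eq_smul_one, Algebra.algebraMap_eq_smul_one,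
          TensorProduct.tmul_smul, TensorProduct.smul_tmul']
      have h3 : αt τ (algebraMap K C a) - βt τ (algebraMap K C a) = 0 := by
        rw [αt_sub_βt, h2, sub_self, map_zero]
      exact Ideal.Quotient.eq.2 (h3 ▸ zero_mem _)
    | add x y _ _ hx hy => rw [map_add, map_add, hx, hy]
    | inv x _ hx =>
      by_cases h0 : x = 0
      · rw [h0, inv_zero, map_zero, map_zero]
      · have e1 : A x⁻¹ * A x = 1 := by rw [← map_mul, inv_mul_cancel₀ h0, map_one]
        have e2 : B x * B x⁻¹ = 1 := by rw [← map_mul, mul_inv_cancel₀ h0, map_one]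
        calc A x⁻¹ = A x⁻¹ * (B x * B x⁻¹) := by rw [e2, mul_one]
          _ = (A x⁻¹ * A x) * B x⁻¹ := by rw [hx, mul_assoc]
          _ = B x⁻¹ := by rw [e1, one_mul]
    | mul x y _ _ hx hy => rw [map_mul, map_mul, hx, hy]
  have hm : ∀ c, A c - B c ∈ IsLocalRing.maximalIdeal (Rt τ ⧸ I) := by
    intro c
    rw [IsLocalRing.mem_maximalIdeal, mem_nonunits_iff]
    intro hu
    obtain ⟨y, hy⟩ := hu.exists_right_inv
    obtain ⟨y, rfl⟩ := Ideal.Quotient.mk_surjective y
    have h2 : (αt τ c - βt τ c) * y - 1 ∈ I := by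
      rw [← Ideal.Quotient.eq, map_mul, map_sub, map_one]
      exact hy
    have h3 := Ideal.mul_mem_right y _ (αt_sub_βt_mem τ c)
    have h4 := Ideal.sub_mem _ h3 (hle h2)
    rw [sub_sub_cancel] at h4
    exact (IsLocalRing.maximalIdeal.isMaximal (Rt τ)).ne_top ((Ideal.eq_top_iff_one _).2 h4)
  have h2 : ∀ c, αt τ c - βt τ c ∈ I := by
    intro c
    have hsc : IsSeparable K⟮s⟯ c := Algebra.IsSeparable.isSeparable K⟮s⟯ c
    have h4 : A c = B c :=
      eq_of_separable (Φ := K⟮s⟯) (C := C) (R := Rt τ ⧸ I) A B h1 hm c hsc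
    exact Ideal.Quotient.eq.1 h4
  have h3 : ∀ x : L ⊗[K] C, algebraMap (L ⊗[K] C) (Rt τ) (x - evt τ x ⊗ₜ 1) ∈ I := by
    intro x
    induction x using TensorProduct.induction_on with
    | zero => rw [map_zero, TensorProduct.zero_tmul, sub_zero, map_zero]; exact zero_mem _
    | add x y hx hy =>
      have e : x + y - evt τ (x + y) ⊗ₜ (1 : C) =
          (x - evt τ x ⊗ₜ 1) + (y - evt τ y ⊗ₜ 1) := by
        rw [map_add, TensorProduct.add_tmul]; ring
      rw [e, map_add]
      exact add_mem hx hy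
    | tmul l c =>
      have e : l ⊗ₜ[K] c - evt τ (l ⊗ₜ c) ⊗ₜ (1 : C) = (l ⊗ₜ 1) * (1 ⊗ₜ c - τ c ⊗ₜ 1) := by
        rw [evt_tmul, mul_sub, Algebra.TensorProduct.tmul_mul_tmul,
          Algebra.TensorProduct.tmul_mul_tmul, mul_one, one_mul, mul_one]
      rw [e, map_mul, ← αt_sub_βt]
      exact Ideal.mul_mem_left _ _ (h2 c)
  refine le_antisymm ?_ hle
  rw [← Localization.AtPrime.map_eq_maximalIdeal, Ideal.map_le_iff_le_comap]
  intro x hx
  have h4 := h3 x
  rw [(mem_mt τ).1 hx, TensorProduct.zero_tmul, sub_zero] at h4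
  exact h4

variable [Fermat.Agent.RR.FunField K C]

theorem isDVR_Rt (τ : C →ₐ[K] L) : IsDiscreteValuationRing (Rt τ) := by
  haveI : Algebra.EssFiniteType K C := essFiniteType
  haveI : IsNoetherianRing (L ⊗[K] C) := Algebra.EssFiniteType.isNoetherianRing L _
  haveI : IsNoetherianRing (Rt τ) := IsLocalization.isNoetherianRing (mt τ).primeCompl _ inferInstance
  haveI : IsDomain (Rt τ) := inferInstance
  obtain ⟨s, hs, hsep⟩ := exists_sep (K := K) (F := C)
  have hmax := max_eq τ (s := s)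
  have hπ : αt τ s - βt τ s ≠ 0 := by
    rw [αt_sub_βt]
    intro h
    have h1 : (1 : L) ⊗ₜ[K] s - τ s ⊗ₜ 1 = 0 := by
      have hinj : Function.Injective (algebraMap (L ⊗[K] C) (Rt τ)) :=
        IsLocalization.injective _ (mt τ).primeCompl_le_nonZeroDivisors
      exact hinj (h.trans (map_zero _).symm)
    have h2 : curL K C L (τ s) = curC K C L s := by
      change toCur K C L (τ s ⊗ₜ 1) = toCur K C L (1 ⊗ₜ s)
      rw [sub_eq_zero.1 h1]
    obtain ⟨b, hb⟩ := cur_tr s _ h2
    exact hs (hb ▸ isAlgebraic_algebraMap b)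
  have hnf : ¬ IsField (Rt τ) := by
    intro hf
    rw [IsLocalRing.isField_iff_maximalIdeal_eq] at hf
    apply hπ
    have h1 : αt τ s - βt τ s ∈ IsLocalRing.maximalIdeal (Rt τ) := αt_sub_βt_mem τ s
    rwa [hf, Ideal.mem_bot] at h1
  have hp : Submodule.IsPrincipal (IsLocalRing.maximalIdeal (Rt τ)) := ⟨⟨_, hmax⟩⟩
  have h5 := (IsDiscreteValuationRing.TFAE (Rt τ) hnf).out 0 4
  exact h5.2 hp

/-- the place of a generic point exists -/
theorem evt_ok (τ : C →ₐ[K] L) : Pl.PairOK (toCur K C L) (evt τ) where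
  inj := toCur_injective K C L
  ex := by
    intro a
    haveI := isDVR_Rt τ
    have hinj : Function.Injective (algebraMap (L ⊗[K] C) (Rt τ)) :=
      IsLocalization.injective _ (mt τ).primeCompl_le_nonZeroDivisors
    obtain ⟨x, y, hy, h⟩ := cur_eq_div a
    by_cases hx : x = 0
    · subst hx
      rw [map_zero] at h
      refine ⟨0, 1, ?_, Or.inr ?_⟩
      · have h0 : toCur K C L y ≠ 0 := fun h0 =>
          hy (toCur_injective K C L (h0.trans (map_zero _).symm))
        rw [(mul_eq_zero.1 h).resolve_left h0, mul_zero, map_zero]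
      · rw [map_one]; exact one_ne_zero
    have hx' : toCur K C L x ≠ 0 := fun h0 =>
      hx (toCur_injective K C L (h0.trans (map_zero _).symm))
    have hy' : toCur K C L y ≠ 0 := fun h0 =>
      hy (toCur_injective K C L (h0.trans (map_zero _).symm))
    rcases ValuationRing.dvd_total (algebraMap (L ⊗[K] C) (Rt τ) x)
      (algebraMap (L ⊗[K] C) (Rt τ) y) with ⟨r, hr⟩ | ⟨r, hr⟩
    · obtain ⟨u, w, rfl⟩ := IsLocalization.exists_mk'_eq (mt τ).primeCompl r
      have h1 : w * y = x * u := by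
        apply hinj
        rw [map_mul, hr, map_mul, mul_left_comm, mul_comm (algebraMap _ _ (w : L ⊗[K] C)),
          IsLocalization.mk'_spec]
      refine ⟨w, u, ?_, Or.inl fun h0 => w.2 h0⟩
      apply mul_left_cancel₀ hx'
      rw [← mul_assoc, ← map_mul, ← h1, map_mul, mul_assoc, h, mul_comm]
    · obtain ⟨u, w, rfl⟩ := IsLocalization.exists_mk'_eq (mt τ).primeCompl r
      have h1 : w * x = y * u := by
        apply hinj
        rw [map_mul, hr, map_mul, mul_left_comm, mul_comm (algebraMap _ _ (w : L ⊗[K] C)),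
          IsLocalization.mk'_spec]
      refine ⟨u, w, ?_, Or.inr fun h0 => w.2 h0⟩
      apply mul_left_cancel₀ hy'
      rw [mul_left_comm, h, ← map_mul, ← map_mul, h1]

end

end Fermat.Agent.S26A
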