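import Fermat.Agent.S26A.Ext1

/-!
# Conjugacy of the extensions of a place (E2)
-/

set_option autoImplicit false
set_option linter.style.haveILetI false
set_option linter.unusedSectionVars false

noncomputable section

namespace Fermat.Agent.S26A

open Polynomial

section Frac

variable {F F' : Type*} [Field F] [Field F'] [Algebra F F'] (V : ValuationSubring F)

/-- integrality by valuation rings -/
theorem isIntegral_of_forall {x : F'}
    (h : ∀ W : ValuationSubring F', (∀ v : V, algebraMap F F' v ∈ W) → x ∈ W) : IsIntegral V x := by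
  by_contra hx
  let R : Subring F' := (integralClosure V F').toSubring
  haveI : IsIntegrallyClosedIn R F' := inferInstanceAs (IsIntegrallyClosedIn (integralClosure V F') F')
  obtain ⟨W, hW, hxW⟩ := Subring.exists_le_valuationSubring_of_isIntegrallyClosedIn (R := R)
    (x := x) hx
  exact hxW (h W fun v => hW ((integralClosure V F').algebraMap_mem v))

/-- normalised equations -/
theorem exists_eqn {x : F'} (hx : IsAlgebraic F x) : ∃ (P : F[X]) (j : ℕ), aeval x P = 0 ∧
    (∀ i, P.coeff i ∈ V) ∧ P.coeff j = 1 := by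
  classical
  obtain ⟨Q, hQ, hQx⟩ := hx
  obtain ⟨j, hj, hmax⟩ := Finset.exists_max_image Q.support (fun i => V.valuation (Q.coeff i))
    (support_nonempty.2 hQ)
  have hj0 : Q.coeff j ≠ 0 := mem_support_iff.1 hj
  refine ⟨C (Q.coeff j)⁻¹ * Q, j, ?_, ?_, ?_⟩
  · rw [map_mul, hQx, mul_zero]
  · intro i
    rw [coeff_C_mul]
    by_cases hi : Q.coeff i = 0
    · rw [hi, mul_zero]; exact zero_mem _
    · have h1 := hmax i (mem_support_iff.2 hi)
      rw [← ValuationSubring.valuation_le_one_iff, map_mul, map_inv₀]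
      have h2 : V.valuation (Q.coeff j) ≠ 0 := (Valuation.ne_zero_iff _).2 hj0
      rw [inv_mul_le_one₀ (zero_lt_iff.2 h2)]
      exact h1
  · rw [coeff_C_mul, inv_mul_cancel₀ hj0]

/-- the partial sums -/
def hs (P : F[X]) (x : F') (j : ℕ) : F' :=
  ∑ i ∈ Finset.range (P.natDegree + 1 - j), algebraMap F F' (P.coeff (i + j)) * x ^ i

theorem hs_succ (P : F[X]) (x : F') (j : ℕ) :
    hs P x j = algebraMap F F' (P.coeff j) + x * hs P x (j + 1) := by
  rw [hs, hs]
  by_cases h : j ≤ P.natDegree
  · obtain ⟨m, hm⟩ : ∃ m, P.natDegree + 1 - j = m + 1 := ⟨P.natDegree - j, by omega⟩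
    rw [hm, Finset.sum_range_succ', show P.natDegree + 1 - (j + 1) = m by omega, Finset.mul_sum,
      pow_zero, mul_one, zero_add, add_comm]
    congr 1
    refine Finset.sum_congr rfl fun i _ => ?_
    rw [show i + 1 + j = i + (j + 1) by omega, pow_succ]
    ring
  · rw [show P.natDegree + 1 - j = 0 by omega, show P.natDegree + 1 - (j + 1) = 0 by omega,
      coeff_eq_zero_of_natDegree_lt (by omega)]
    simp

theorem hs_zero {P : F[X]} {x : F'} (hx : aeval x P = 0) : hs P x 0 = 0 := by
  rw [hs, Nat.sub_zero, ← hx, aeval_eq_sum_range]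
  refine Finset.sum_congr rfl fun i _ => ?_
  rw [Algebra.smul_def, add_zero]

theorem hs_integral {P : F[X]} (hP : ∀ i, P.coeff i ∈ V) {x : F'} (hx : aeval x P = 0) (j : ℕ) :
    IsIntegral V (hs P x j) := by
  apply isIntegral_of_forall
  intro W hW
  by_cases hxW : x ∈ W
  · exact sum_mem fun i _ => mul_mem (hW ⟨_, hP _⟩) (pow_mem hxW _)
  · have hx0 : x ≠ 0 := by
      rintro rfl
      exact hxW (zero_mem _)
    have hxi : x⁻¹ ∈ W := (W.mem_or_inv_mem x).resolve_left hxW
    induction j with
    | zero => rw [hs_zero hx]; exact zero_mem _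
    | succ j ih =>
      have h1 : hs P x (j + 1) = x⁻¹ * (hs P x j - algebraMap F F' (P.coeff j)) := by
        rw [hs_succ P x j, add_sub_cancel_left, inv_mul_cancel_left₀ hx0]
      rw [h1]
      exact mul_mem hxi (sub_mem ih (hW ⟨_, hP _⟩))

/-- integral elements lie in the valuation rings above -/
theorem int_mem {W : ValuationSubring F'} (hW : ∀ v ∈ V, algebraMap F F' v ∈ W) {b : F'}
    (hb : IsIntegral V b) : b ∈ W := by
  obtain ⟨p, hp, hp0⟩ := hb
  let j : V →+* W := ((algebraMap F F').comp V.subtype).codRestrict W.toSubring (fun v => hW v v.2)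
  have h1 : IsIntegral W b := by
    refine ⟨p.map j, hp.map j, ?_⟩
    rw [eval₂_map]
    exact hp0
  obtain ⟨y, hy⟩ := IsIntegrallyClosed.isIntegral_iff.1 h1
  rw [← hy]
  exact y.2

/-- elements of the valuation ring above as quotients of integral elements -/
theorem exists_frac {M : Type*} [Field M] {W : ValuationSubring F'}
    (hW : ∀ v ∈ V, algebraMap F F' v ∈ W) (ρ : W →+* M) {x : F'} (hx : x ∈ W)
    (halg : IsAlgebraic F x) : ∃ (c s : F') (hs : s ∈ W), IsIntegral V c ∧ IsIntegral V s ∧
      ρ ⟨s, hs⟩ ≠ 0 ∧ x * s = c := by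
  obtain ⟨P, j, hPx, hP, hj⟩ := exists_eqn V halg
  have hI := hs_integral V hP hPx
  have hI' : ∀ i, IsIntegral V (x * hs P x (i + 1)) := by
    intro i
    have h1 : x * hs P x (i + 1) = hs P x i - algebraMap F F' (P.coeff i) := by
      rw [hs_succ P x i, add_sub_cancel_left]
    rw [h1]
    exact (hI i).sub (isIntegral_algebraMap (R := V) (x := ⟨P.coeff i, hP i⟩))
  by_cases h : ρ ⟨hs P x (j + 1), int_mem V hW (hI _)⟩ = 0
  · rcases j with _ | j
    · exfalso
      have h1 := hs_succ P x 0
      rw [hs_zero hPx, hj, map_one] at h1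
      have h2 : (0 : W) = 1 + ⟨x, hx⟩ * ⟨hs P x (0 + 1), int_mem V hW (hI _)⟩ := Subtype.ext h1
      have h3 := congrArg ρ h2
      rw [map_zero, map_add, map_mul, h, mul_zero, map_one, add_zero] at h3
      exact zero_ne_one h3
    · refine ⟨x * hs P x (j + 1), hs P x (j + 1), int_mem V hW (hI _), hI' j, hI _, ?_, rfl⟩
      intro h0
      have h1 := hs_succ P x (j + 1)
      rw [hj, map_one] at h1
      have h2 : (⟨hs P x (j + 1), int_mem V hW (hI _)⟩ : W) =
          1 + ⟨x, hx⟩ * ⟨hs P x (j + 1 + 1), int_mem V hW (hI _)⟩ := Subtype.ext h1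
      have h3 := congrArg ρ h2
      rw [map_add, map_mul, h, mul_zero, map_one, add_zero, h0] at h3
      exact zero_ne_one h3
  · exact ⟨x * hs P x (j + 1), hs P x (j + 1), int_mem V hW (hI _), hI' j, hI _, h, rfl⟩

end Frac

section Fix

variable {F F' : Type*} [Field F] [Field F'] [Algebra F F'] [Normal F F']

/-- elements fixed by all automorphisms -/
theorem exists_pow_mem {x : F'} (hx : ∀ σ : F' ≃ₐ[F] F', σ x = x) :
    ∃ n : ℕ, x ^ (ringExpChar F) ^ n ∈ Set.range (algebraMap F F') := by
  classical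
  have halg : IsAlgebraic F x := Algebra.IsAlgebraic.isAlgebraic x
  have h1 : (minpoly F x).natSepDegree = 1 := by
    rw [natSepDegree_eq_of_splits _ (Normal.splits inferInstance x)]
    rw [Finset.card_eq_one]
    refine ⟨x, ?_⟩
    ext y
    rw [Multiset.mem_toFinset, Finset.mem_singleton, mem_aroots]
    constructor
    · rintro ⟨-, hy⟩
      obtain ⟨σ, hσ⟩ := minpoly.exists_algEquiv_of_root' halg hy
      rw [← hσ, hx]
    · rintro rfl
      exact ⟨minpoly.ne_zero halg.isIntegral, minpoly.aeval _ _⟩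
  have h2 := mem_perfectClosure_iff_natSepDegree_eq_one.2 h1
  exact mem_perfectClosure_iff.1 h2

end Fix

end Fermat.Agent.S26A
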