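import Fermat.Agent.S26A.Conj

/-!
# Conjugacy of the extensions of a place: finite levels
-/

set_option autoImplicit false
set_option linter.style.haveILetI false
set_option linter.unusedSectionVars false

noncomputable section

namespace Fermat.Agent.S26A

open Polynomial

section AbsC

/-- transitivity on homomorphisms, abstractly -/
theorem abs_conj {B M G : Type*} [CommRing B] [Field M] (s : G → (B →+* B))
    (hinj : ∀ g, Function.Injective (s g)) (hmul : ∀ g h, ∃ k, ∀ x, s k x = s g (s h x))
    (hone : ∃ e, ∀ x, s e x = x) (f₁ f₂ : B →+* M)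
    (hfix : ∀ b, (∀ g, s g b = b) → f₁ b = f₂ b) {m : ℕ} (b : Fin m → B)
    (hfin : {r : Fin m → B | ∃ g, r = fun k => s g (b k)}.Finite) :
    ∃ g, ∀ k, f₂ (b k) = f₁ (s g (b k)) := by
  classical
  let R : Finset (Fin m → B) := hfin.toFinset
  have hR : ∀ r, r ∈ R ↔ ∃ g, r = fun k => s g (b k) := fun r => hfin.mem_toFinset
  let β : (Fin m → B) → B[X] := fun r => ∑ k : Fin m, C (r k) * X ^ (k : ℕ)
  let Q : B[X][X] := ∏ r ∈ R, (X - C (β r))
  have hβ : ∀ (f : B →+* M) (r : Fin m → B),
      (β r).map f = ∑ k : Fin m, C (f (r k)) * X ^ (k : ℕ) := by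
    intro f r
    simp only [β, Polynomial.map_sum, Polynomial.map_mul, Polynomial.map_pow, map_C, map_X]
  have hβ' : ∀ (f : B →+* B) (r : Fin m → B), (β r).map f = β (fun k => f (r k)) := by
    intro f r
    simp only [β, Polynomial.map_sum, Polynomial.map_mul, Polynomial.map_pow, map_C, map_X]
  have hinv : ∀ g, Q.map (mapRingHom (s g)) = Q := by
    intro g
    have h1 : Q.map (mapRingHom (s g)) = ∏ r ∈ R, (X - C (β (fun k => s g (r k)))) := by
      simp only [Q, Polynomial.map_prod, Polynomial.map_sub, map_X, map_C, coe_mapRingHom]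
      refine Finset.prod_congr rfl fun r _ => ?_
      rw [hβ']
    rw [h1]
    have hinj' : Function.Injective (fun (r : Fin m → B) k => s g (r k)) := by
      intro r r' h
      funext k
      exact hinj g (congrFun h k)
    have hmaps : ∀ r ∈ R, (fun k => s g (r k)) ∈ R := by
      intro r hr
      obtain ⟨h, rfl⟩ := (hR r).1 hr
      obtain ⟨k, hk⟩ := hmul g h
      exact (hR _).2 ⟨k, funext fun i => (hk _).symm⟩
    have himg : R.image (fun (r : Fin m → B) k => s g (r k)) = R :=
      Finset.eq_of_subset_of_card_le (Finset.image_subset_iff.2 hmaps)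
        (by rw [Finset.card_image_of_injective _ hinj'])
    conv_rhs => rw [show Q = ∏ r ∈ R, (X - C (β r)) from rfl, ← himg]
    rw [Finset.prod_image (fun r _ r' _ h => hinj' h)]
  have hmap : Q.map (mapRingHom f₁) = Q.map (mapRingHom f₂) := by
    ext i j
    rw [coeff_map, coeff_map, coe_mapRingHom, coe_mapRingHom, coeff_map, coeff_map]
    apply hfix
    intro g
    have h1 := congrArg (fun q : B[X][X] => (q.coeff i).coeff j) (hinv g)
    simp only [coeff_map, coe_mapRingHom] at h1
    exact h1
  have hb : b ∈ R := by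
    obtain ⟨e, he⟩ := hone
    exact (hR b).2 ⟨e, funext fun k => (he _).symm⟩
  have h0 : (Q.map (mapRingHom f₂)).eval ((β b).map f₂) = 0 := by
    simp only [Q, Polynomial.map_prod, Polynomial.map_sub, map_X, map_C, coe_mapRingHom,
      eval_prod, eval_sub, eval_X, eval_C]
    exact Finset.prod_eq_zero hb (sub_self _)
  rw [← hmap] at h0
  simp only [Q, Polynomial.map_prod, Polynomial.map_sub, map_X, map_C, coe_mapRingHom,
      eval_prod, eval_sub, eval_X, eval_C] at h0
  obtain ⟨r, hr, hr0⟩ := Finset.prod_eq_zero_iff.1 h0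
  obtain ⟨g, rfl⟩ := (hR r).1 hr
  refine ⟨g, fun k => ?_⟩
  have h1 := sub_eq_zero.1 hr0
  rw [hβ, hβ] at h1
  have h2 := congrArg (fun p => Polynomial.coeff p (k : ℕ)) h1
  simp only [finset_sum_coeff, coeff_C_mul, coeff_X_pow, mul_ite, mul_one, mul_zero] at h2
  rw [Finset.sum_eq_single k, Finset.sum_eq_single k] at h2
  · simpa using h2
  · intro l _ hl
    rw [if_neg]
    intro h; exact hl (Fin.ext h.symm)
  · intro h; exact absurd (Finset.mem_univ _) h
  · intro l _ hl
    rw [if_neg]
    intro h; exact hl (Fin.ext h.symm)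
  · intro h; exact absurd (Finset.mem_univ _) h

end AbsC

section Fin

variable {F F' M : Type*} [Field F] [Field F'] [Algebra F F'] [Field M]
  (V : ValuationSubring F)

/-- the integral closure -/
abbrev BB (V : ValuationSubring F) (F' : Type*) [Field F'] [Algebra F F'] : Subalgebra V F' :=
  integralClosure V F'

/-- automorphisms on the integral closure -/
def sB (σ : F' →ₐ[F] F') : BB V F' →+* BB V F' where
  toFun b := ⟨σ b, by
    have h : IsIntegral V (b : F') := b.2
    exact h.map (σ.restrictScalars V)⟩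
  map_one' := Subtype.ext (map_one σ)
  map_zero' := Subtype.ext (map_zero σ)
  map_mul' a b := Subtype.ext (map_mul σ _ _)
  map_add' a b := Subtype.ext (map_add σ _ _)

theorem coe_sB (σ : F' →ₐ[F] F') (b : BB V F') : ((sB V σ b : BB V F') : F') = σ b := rfl

variable {V}

variable {f₁ f₂ : BB V F' →+* M} (hf : ∀ v : V, f₁ (algebraMap V _ v) = f₂ (algebraMap V _ v))

include hf in
/-- homomorphisms agree on fixed elements -/
theorem agree_fixed [Normal F F'] {b : BB V F'} (hb : ∀ σ : F' ≃ₐ[F] F', σ b = b) :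
    f₁ b = f₂ b := by
  obtain ⟨n, a, ha⟩ := exists_pow_mem (F := F) (x := (b : F')) hb
  have haV : a ∈ V := by
    have h1 : IsIntegral V (algebraMap F F' a) := by
      rw [ha]
      exact (b.2 : IsIntegral V (b : F')).pow _
    have h2 : IsIntegral V a :=
      (isIntegral_algHom_iff (IsScalarTower.toAlgHom V F F') (algebraMap F F').injective).1 h1
    obtain ⟨y, hy⟩ := IsIntegrallyClosed.isIntegral_iff.1 h2
    rw [← hy]; exact y.2
  have h3 : b ^ (ringExpChar F) ^ n = algebraMap V (BB V F') ⟨a, haV⟩ := Subtype.ext ha.symm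
  have h4 : f₁ b ^ (ringExpChar F) ^ n = f₂ b ^ (ringExpChar F) ^ n := by
    rw [← map_pow, ← map_pow, h3, hf]
  obtain ⟨q, hq⟩ := ExpChar.exists F
  rw [ringExpChar.eq F q] at h4
  cases hq with
  | zero =>
    rw [one_pow, pow_one, pow_one] at h4
    exact h4
  | prime hp =>
    haveI : Fact q.Prime := ⟨hp⟩
    have hM : (q : M) = 0 := by
      have h5 : (q : V) = 0 := Subtype.ext (CharP.cast_eq_zero F q)
      have h6 := congrArg (fun v => f₁ (algebraMap V (BB V F') v)) h5
      simpa using h6
    haveI : CharP M q := (CharP.charP_iff_prime_eq_zero hp).2 hM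
    haveI : ExpChar M q := ExpChar.prime hp
    exact iterateFrobenius_inj M q n (by rw [iterateFrobenius_def, iterateFrobenius_def]; exact h4)

include hf in
/-- finitely many integral elements -/
theorem exists_fin_conj [Normal F F'] {m : ℕ} (b : Fin m → BB V F') :
    ∃ σ : F' ≃ₐ[F] F', ∀ k, f₂ (b k) = f₁ (sB V σ.toAlgHom (b k)) := by
  classical
  -- the orbit
  have hfin : Set.Finite {r : Fin m → BB V F' | ∃ σ : F' ≃ₐ[F] F', r = fun k => sB V σ.toAlgHom (b k)} := by
    have h1 : ∀ k : Fin m, Set.Finite {c : BB V F' | aeval (c : F') (minpoly F (b k : F')) = 0} := by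
      intro k
      have h2 : Set.Finite ((minpoly F (b k : F')).rootSet F') := rootSet_finite _ _
      refine Set.Finite.preimage (f := ((↑) : BB V F' → F')) Subtype.val_injective.injOn h2 |>.subset ?_
      intro c hc
      exact (mem_rootSet).2 ⟨minpoly.ne_zero (Algebra.IsIntegral.isIntegral _), hc⟩
    refine (Set.Finite.pi' h1).subset ?_
    rintro _ ⟨σ, rfl⟩ k
    change aeval (σ (b k : F')) (minpoly F (b k : F')) = 0
    rw [show σ (b k : F') = (σ.toAlgHom) (b k : F') from rfl, aeval_algHom_apply, minpoly.aeval,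
      map_zero]
  obtain ⟨σ, hσ⟩ := abs_conj (G := F' ≃ₐ[F] F') (fun σ => sB V σ.toAlgHom)
    (fun σ a b h => Subtype.ext (σ.injective (congrArg Subtype.val h)))
    (fun σ τ => ⟨τ.trans σ, fun x => rfl⟩) ⟨AlgEquiv.refl, fun x => rfl⟩ f₁ f₂
    (fun b hb => agree_fixed hf fun σ => congrArg Subtype.val (hb σ)) b hfin
  exact ⟨σ, hσ⟩

end Fin

end Fermat.Agent.S26A
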