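import Fermat.Agent.S26A.Conj2

/-!
# Conjugacy of the extensions of a place (E2)
-/

set_option autoImplicit false
set_option linter.style.haveILetI false
set_option linter.unusedSectionVars false

noncomputable section

namespace Fermat.Agent.S26A

open Polynomial Filter

section Lim

variable {F F' M : Type*} [Field F] [Field F'] [Algebra F F'] [Field M]
  {V : ValuationSubring F} {f₁ f₂ : BB V F' →+* M}
  (hf : ∀ v : V, f₁ (algebraMap V _ v) = f₂ (algebraMap V _ v))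

include hf in
theorem exists_conj_all [Normal F F'] :
    ∃ σ : F' ≃ₐ[F] F', ∀ b : BB V F', f₂ b = f₁ (sB V σ.toAlgHom b) := by
  classical
  have h1 : ∀ S : Finset (BB V F'), ∃ σ : F' ≃ₐ[F] F', ∀ b ∈ S, f₂ b = f₁ (sB V σ.toAlgHom b) := by
    intro S
    obtain ⟨σ, hσ⟩ := exists_fin_conj hf (fun k => (S.equivFin.symm k : BB V F'))
    refine ⟨σ, fun b hb => ?_⟩
    have := hσ (S.equivFin ⟨b, hb⟩)
    rw [Equiv.symm_apply_apply] at this
    exact this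
  choose τ hτ using h1
  let U : Ultrafilter (Finset (BB V F')) := Ultrafilter.of atTop
  have hU : (U : Filter (Finset (BB V F'))) ≤ atTop := Ultrafilter.of_le _
  have h2 : ∀ x : F', ∃ y : F', ∀ᶠ S in (U : Filter (Finset (BB V F'))), τ S x = y := by
    intro x
    have hfin : Set.Finite ((minpoly F x).rootSet F') := rootSet_finite _ _
    have h3 : ∀ᶠ S in (U : Filter (Finset (BB V F'))), ∃ y ∈ (minpoly F x).rootSet F', τ S x = y := by
      refine Eventually.of_forall fun S => ⟨_, ?_, rfl⟩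
      rw [mem_rootSet]
      refine ⟨minpoly.ne_zero (Algebra.IsIntegral.isIntegral _), ?_⟩
      rw [show τ S x = (τ S).toAlgHom x from rfl, aeval_algHom_apply, minpoly.aeval, map_zero]
    obtain ⟨y, -, hy⟩ := (Ultrafilter.eventually_exists_mem_iff hfin).1 h3
    exact ⟨y, hy⟩
  choose s hs using h2
  have huniq : ∀ x y : F', (∀ᶠ S in (U : Filter (Finset (BB V F'))), τ S x = y) → s x = y := by
    intro x y h
    obtain ⟨S, h3, h4⟩ := ((hs x).and h).exists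
    exact h3.symm.trans h4
  let σ₀ : F' →ₐ[F] F' :=
    { toFun := s
      map_one' := huniq _ _ (Eventually.of_forall fun S => map_one (τ S))
      map_zero' := huniq _ _ (Eventually.of_forall fun S => map_zero (τ S))
      map_mul' := fun x y => huniq _ _ (((hs x).and (hs y)).mono fun S h => by
        rw [map_mul, h.1, h.2])
      map_add' := fun x y => huniq _ _ (((hs x).and (hs y)).mono fun S h => by
        rw [map_add, h.1, h.2])
      commutes' := fun c => huniq _ _ (Eventually.of_forall fun S => (τ S).commutes c) }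
  let σ : F' ≃ₐ[F] F' := AlgEquiv.ofBijective σ₀ (Algebra.IsAlgebraic.algHom_bijective σ₀)
  refine ⟨σ, fun b => ?_⟩
  have h3 : ∀ᶠ S in (U : Filter (Finset (BB V F'))), b ∈ S :=
    hU ((eventually_ge_atTop {b}).mono fun S hS => hS (Finset.mem_singleton_self b))
  obtain ⟨S, h4, h5⟩ := (h3.and (hs b)).exists
  rw [hτ S b h4]
  congr 1
  exact Subtype.ext h5

end Lim

universe u

variable {K F F' M : Type u} [Field K] [Field F] [Field F'] [Field M] [Algebra K F]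
  [Algebra K F'] [Algebra F F'] [IsScalarTower K F F'] [Algebra K M]

/-- the homomorphism on the integral closure -/
def fB (ψ : Pl K F' M) (V : ValuationSubring F) (hV : ∀ v ∈ V, algebraMap F F' v ∈ ψ.V) :
    BB V F' →+* M :=
  ψ.ρ.comp ((BB V F').val.toRingHom.codRestrict ψ.V.toSubring fun b => int_mem V hV b.2)

theorem fB_at (ψ : Pl K F' M) (V : ValuationSubring F) (hV : ∀ v ∈ V, algebraMap F F' v ∈ ψ.V)
    (b : BB V F') : ψ.At b (fB ψ V hV b) := ⟨int_mem V hV b.2, rfl⟩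

/-- **(E2) conjugacy of the extensions of a place** -/
theorem conj_pl [Normal F F'] (ψ₁ ψ₂ : Pl K F' M)
    (h : ψ₁.comp (Pl.ofHom (IsScalarTower.toAlgHom K F F')) =
      ψ₂.comp (Pl.ofHom (IsScalarTower.toAlgHom K F F'))) :
    ∃ σ : F' ≃ₐ[F] F', ψ₂ = ψ₁.comp (Pl.ofHom (σ.toAlgHom.restrictScalars K)) := by
  set φ := ψ₁.comp (Pl.ofHom (IsScalarTower.toAlgHom K F F')) with hφ
  have hat₁ : ∀ a b, φ.At a b ↔ ψ₁.At (algebraMap F F' a) b := by
    intro a b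
    rw [hφ, Pl.comp_at_iff]
    constructor
    · rintro ⟨c, hc, hc'⟩
      rwa [hc.uniq (Pl.ofHom_at _ a)] at hc'
    · intro h
      exact ⟨_, Pl.ofHom_at _ a, h⟩
  have hat₂ : ∀ a b, φ.At a b ↔ ψ₂.At (algebraMap F F' a) b := by
    intro a b
    rw [h, Pl.comp_at_iff]
    constructor
    · rintro ⟨c, hc, hc'⟩
      rwa [hc.uniq (Pl.ofHom_at _ a)] at hc'
    · intro h
      exact ⟨_, Pl.ofHom_at _ a, h⟩
  have hV₁ : ∀ v ∈ φ.V, algebraMap F F' v ∈ ψ₁.V := fun v hv => ((hat₁ v _).1 ⟨hv, rfl⟩).1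
  have hV₂ : ∀ v ∈ φ.V, algebraMap F F' v ∈ ψ₂.V := fun v hv => ((hat₂ v _).1 ⟨hv, rfl⟩).1
  have hf : ∀ v : φ.V, fB ψ₁ φ.V hV₁ (algebraMap φ.V _ v) = fB ψ₂ φ.V hV₂ (algebraMap φ.V _ v) := by
    intro v
    have e1 := ((hat₁ v _).1 ⟨v.2, rfl⟩).uniq (fB_at ψ₁ φ.V hV₁ (algebraMap φ.V _ v))
    have e2 := ((hat₂ v _).1 ⟨v.2, rfl⟩).uniq (fB_at ψ₂ φ.V hV₂ (algebraMap φ.V _ v))
    exact e1.symm.trans e2
  obtain ⟨σ, hσ⟩ := exists_conj_all hf
  refine ⟨σ, Pl.eq_of_at fun a b hab => ?_⟩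
  obtain ⟨c, s, hs, hc, hsI, hs0, hx⟩ := exists_frac φ.V hV₂ ψ₂.ρ hab.1
    (Algebra.IsAlgebraic.isAlgebraic a)
  -- values at `ψ₂`
  have k1 : ψ₂.At s (fB ψ₂ φ.V hV₂ ⟨s, hsI⟩) := fB_at ψ₂ φ.V hV₂ ⟨s, hsI⟩
  have k2 : ψ₂.At c (fB ψ₂ φ.V hV₂ ⟨c, hc⟩) := fB_at ψ₂ φ.V hV₂ ⟨c, hc⟩
  have k3 : fB ψ₂ φ.V hV₂ ⟨s, hsI⟩ ≠ 0 := hs0
  have k4 : b * fB ψ₂ φ.V hV₂ ⟨s, hsI⟩ = fB ψ₂ φ.V hV₂ ⟨c, hc⟩ := by
    have := hab.mul k1
    rw [hx] at this
    exact this.uniq k2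
  -- values at `ψ₁`
  have l1 : ψ₁.At (σ s) (fB ψ₂ φ.V hV₂ ⟨s, hsI⟩) := by
    rw [hσ]
    exact fB_at ψ₁ φ.V hV₁ (sB φ.V σ.toAlgHom ⟨s, hsI⟩)
  have l2 : ψ₁.At (σ c) (fB ψ₂ φ.V hV₂ ⟨c, hc⟩) := by
    rw [hσ]
    exact fB_at ψ₁ φ.V hV₁ (sB φ.V σ.toAlgHom ⟨c, hc⟩)
  have hs00 : s ≠ 0 := by
    rintro rfl
    exact hs0 (map_zero ψ₂.ρ)
  have l3 := l2.mul (l1.inv k3)
  rw [← k4, mul_inv_cancel_right₀ k3, ← hx, map_mul,
    mul_inv_cancel_right₀ ((map_ne_zero σ).2 hs00)] at l3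
  exact Pl.comp_at (Pl.ofHom_at _ a) l3

end Fermat.Agent.S26A
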