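import Mathlib.Algebra.Polynomial.Roots
import Mathlib.RingTheory.Valuation.ValuationSubring
import Mathlib.FieldTheory.IsAlgClosed.Basic
import Mathlib.Data.Finsupp.Basic
import Mathlib.Algebra.BigOperators.Finsupp.Basic

/-!
# Reduction of divisors on the projective line along a place of the base field
-/

set_option autoImplicit false

namespace Fermat.Agent.S26A

open Polynomial

section

variable {L M : Type*} [Field L] [Field M] (V : ValuationSubring L) (ρ : V →+* M)

open Classical in
/-- reduction of the points of the projective line -/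
noncomputable def phi1 : Option L → Option M
  | none => none
  | some c => if h : c ∈ V then some (ρ ⟨c, h⟩) else none

theorem phi1_none : phi1 V ρ none = none := rfl

theorem phi1_mem {c : L} (h : c ∈ V) : phi1 V ρ (some c) = some (ρ ⟨c, h⟩) := by
  simp [phi1, h]

theorem phi1_notMem {c : L} (h : c ∉ V) : phi1 V ρ (some c) = none := by
  simp [phi1, h]

/-- the divisor on the projective line of a polynomial -/
noncomputable def dvp {L : Type*} [Field L] (p : L[X]) : Option L →₀ ℤ :=
  (p.roots.map fun c => Finsupp.single (some c) (1 : ℤ) - Finsupp.single none 1).sum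

theorem dvp_mul {L : Type*} [Field L] {p q : L[X]} (h : p * q ≠ 0) :
    dvp (p * q) = dvp p + dvp q := by
  unfold dvp
  rw [roots_mul h, Multiset.map_add, Multiset.sum_add]

theorem dvp_C {L : Type*} [Field L] (a : L) : dvp (C a) = 0 := by
  unfold dvp
  rw [roots_C]
  simp

theorem dvp_X_sub_C {L : Type*} [Field L] (a : L) :
    dvp (X - C a) = Finsupp.single (some a) (1 : ℤ) - Finsupp.single none 1 := by
  unfold dvp
  rw [roots_X_sub_C]
  simp

variable [IsLocalHom ρ]

theorem rho_eq_zero_of_inv {c : L} (hc : c ∉ V) (h : c⁻¹ ∈ V) : ρ ⟨c⁻¹, h⟩ = 0 := by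
  by_contra h0
  have h1 : IsUnit (ρ ⟨c⁻¹, h⟩) := isUnit_iff_ne_zero.2 h0
  have h2 := isUnit_of_map_unit ρ _ h1
  obtain ⟨y, hy⟩ := h2.exists_right_inv
  have h3 : c⁻¹ * (y : L) = 1 := congrArg Subtype.val hy
  have hc0 : c ≠ 0 := by
    rintro rfl
    exact hc V.zero_mem
  have h4 : (y : L) = c := by
    field_simp at h3
    exact h3
  exact hc (h4 ▸ y.2)

theorem exists_factor (s : Multiset L) : ∃ (Q : V[X]) (e : L), e ≠ 0 ∧
    Q.map V.subtype = C e * (s.map fun c => X - C c).prod ∧
    Q.map ρ = ((s.filterMap fun c => phi1 V ρ (some c)).map fun c => X - C c).prod := by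
  induction s using Multiset.induction_on with
  | empty => exact ⟨1, 1, one_ne_zero, by simp, by simp⟩
  | cons c s ih =>
    obtain ⟨Q, e, he, h1, h2⟩ := ih
    by_cases hc : c ∈ V
    · refine ⟨(X - C ⟨c, hc⟩) * Q, e, he, ?_, ?_⟩
      · rw [Polynomial.map_mul, h1, Multiset.map_cons, Multiset.prod_cons, Polynomial.map_sub,
          map_X, map_C]
        change (X - C c) * _ = _
        ring
      · rw [Multiset.filterMap_cons_some (fun c => phi1 V ρ (some c)) c s (phi1_mem V ρ hc), Multiset.map_cons,
          Multiset.prod_cons, Polynomial.map_mul, h2, Polynomial.map_sub, map_X, map_C]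
    · have hci : c⁻¹ ∈ V := (V.mem_or_inv_mem c).resolve_left hc
      have hc0 : c ≠ 0 := by
        rintro rfl
        exact hc V.zero_mem
      refine ⟨(1 - C ⟨c⁻¹, hci⟩ * X) * Q, - c⁻¹ * e, ?_, ?_, ?_⟩
      · exact mul_ne_zero (neg_ne_zero.2 (inv_ne_zero hc0)) he
      · rw [Polynomial.map_mul, h1, Multiset.map_cons, Multiset.prod_cons, Polynomial.map_sub,
          Polynomial.map_mul, map_X, map_C, Polynomial.map_one]
        change (1 - C c⁻¹ * X) * _ = _
        have h3 : (1 : L[X]) = C c⁻¹ * C c := by
          rw [← C_mul, inv_mul_cancel₀ hc0, C_1]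
        rw [C_mul, C_neg]
        nth_rewrite 1 [h3]
        ring
      · rw [Multiset.filterMap_cons_none (f := fun c => phi1 V ρ (some c)) c s (phi1_notMem V ρ hc), Polynomial.map_mul, h2,
          Polynomial.map_sub, Polynomial.map_mul, map_C, rho_eq_zero_of_inv V ρ hc hci, C_0,
          zero_mul, Polynomial.map_one, sub_zero, one_mul]

/-- The roots of the reduction are the reductions of the integral roots. -/
theorem roots_map_red [IsAlgClosed L] (P : V[X]) (hP : P.map ρ ≠ 0) :
    (P.map ρ).roots = ((P.map V.subtype).roots).filterMap fun c => phi1 V ρ (some c) := by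
  obtain ⟨Q, e, he, h1, h2⟩ := exists_factor V ρ (P.map V.subtype).roots
  have hs := (IsAlgClosed.splits (P.map V.subtype)).eq_prod_roots
  set s := (P.map V.subtype).roots with hsdef
  set b := (P.map V.subtype).leadingCoeff with hb
  have hQ : Q.map ρ ≠ 0 := by
    rw [h2]
    apply Monic.ne_zero
    exact monic_multisetProd_X_sub_C _
  have h3 : P.map V.subtype = C (b / e) * Q.map V.subtype := by
    rw [h1, ← mul_assoc, ← C_mul, div_mul_cancel₀ _ he]
    exact hs
  obtain ⟨k, hk⟩ : ∃ k, (Q.map ρ).coeff k ≠ 0 := by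
    by_contra hcon
    push Not at hcon
    exact hQ (Polynomial.ext fun n => by rw [hcon n, coeff_zero])
  rw [coeff_map] at hk
  have hku : IsUnit (Q.coeff k) := isUnit_of_map_unit ρ _ (isUnit_iff_ne_zero.2 hk)
  obtain ⟨y, hy⟩ := hku.exists_right_inv
  have hy' : ((Q.coeff k : V) : L) * (y : L) = 1 := congrArg Subtype.val hy
  have h4 : b / e = ((P.coeff k * y : V) : L) := by
    have h5 := congrArg (fun p => p.coeff k) h3
    simp only [coeff_map, coeff_C_mul] at h5
    change ((P.coeff k : V) : L) = b / e * ((Q.coeff k : V) : L) at h5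
    push_cast
    rw [h5, mul_assoc, hy', mul_one]
  have h5 : P = C (P.coeff k * y) * Q := by
    apply Polynomial.map_injective V.subtype Subtype.val_injective
    rw [h3, Polynomial.map_mul, map_C, h4]
    rfl
  have h6 : P.map ρ = C (ρ (P.coeff k * y)) * Q.map ρ := by
    conv_lhs => rw [h5]
    rw [Polynomial.map_mul, map_C]
  have h7 : ρ (P.coeff k * y) ≠ 0 := by
    intro h0
    rw [h6, h0, C_0, zero_mul] at hP
    exact hP rfl
  rw [h6, roots_C_mul _ h7, h2, roots_multiset_prod_X_sub_C]

/-- Reduction of divisors on the projective line. -/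
theorem dvp_map [IsAlgClosed L] (P : V[X]) (hP : P.map ρ ≠ 0) :
    (dvp (P.map V.subtype)).mapDomain (phi1 V ρ) = dvp (P.map ρ) := by
  unfold dvp
  rw [roots_map_red V ρ P hP]
  generalize (P.map V.subtype).roots = s
  induction s using Multiset.induction_on with
  | empty => simp
  | cons c s ih =>
    rw [Multiset.map_cons, Multiset.sum_cons, Finsupp.mapDomain_add, ih]
    rw [sub_eq_add_neg, Finsupp.mapDomain_add, ← Finsupp.single_neg, Finsupp.mapDomain_single,
      Finsupp.mapDomain_single, phi1_none]
    by_cases hc : c ∈ V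
    · rw [Multiset.filterMap_cons_some (fun c => phi1 V ρ (some c)) c s (phi1_mem V ρ hc), Multiset.map_cons,
        Multiset.sum_cons, phi1_mem V ρ hc, Finsupp.single_neg, ← sub_eq_add_neg]
    · rw [Multiset.filterMap_cons_none (f := fun c => phi1 V ρ (some c)) c s (phi1_notMem V ρ hc), phi1_notMem V ρ hc,
        Finsupp.single_neg, add_neg_cancel, zero_add]

end

end Fermat.Agent.S26A
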