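import Fermat.Agent.S26A.Cs1
import Fermat.Agent.Spec.Ext

/-!
# Values of functions at places and the push-forward of divisors to the projective line
-/

set_option autoImplicit false
set_option linter.unusedSectionVars false
set_option linter.style.haveILetI false

namespace Fermat.Agent.S26A

open AlgebraicCurve Fermat.Agent.RR Fermat.Agent.Curve IntermediateField Polynomial

section

variable {K F : Type*} [Field K] [IsAlgClosed K] [Field F] [Algebra K F] [FunField K F]

open Classical in
/-- the value of a function at a place -/
noncomputable def evp (f : F) (w : Place K F) : Option K :=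
  if h : f ∈ w.toValuationSubring then some (exists_const' w h).choose else none

theorem evp_some {f : F} {w : Place K F} {c : K} :
    evp f w = some c ↔ Ge w 1 (f - algebraMap K F c) := by
  unfold evp
  split_ifs with h
  · have h1 := (exists_const' w h).choose_spec
    set a := (exists_const' w h).choose with ha
    constructor
    · intro h2
      rw [Option.some_inj] at h2
      rw [← h2]
      exact h1
    · intro h2
      rw [Option.some_inj]
      by_contra hne
      have h3 := h1.sub h2
      have h4 : f - algebraMap K F a - (f - algebraMap K F c) = algebraMap K F (c - a) := by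
        rw [map_sub]; ring
      rw [h4] at h3
      have h5 : algebraMap K F (c - a) ≠ 0 := by
        rw [ne_eq, map_eq_zero, sub_eq_zero]
        exact fun h => hne h.symm
      have h6 := h3.le_ord h5
      rw [ord_algebraMap] at h6
      omega
  · constructor
    · intro h1
      exact absurd h1 (by simp)
    · intro h1
      exfalso
      apply h
      have h2 : Ge w 0 (f - algebraMap K F c + algebraMap K F c) :=
        (h1.mono (by norm_num)).add (Ge.algebraMap w c)
      rw [sub_add_cancel] at h2
      exact h2.mem

theorem evp_none {f : F} {w : Place K F} : evp f w = none ↔ w.ord f < 0 := by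
  unfold evp
  split_ifs with h
  · have := ord_nonneg_of_mem w h
    constructor
    · intro h1
      exact absurd h1 (by simp)
    · intro h1
      omega
  · constructor
    · intro _
      by_contra h1
      exact h (mem_of_ord_nonneg w (not_lt.1 h1))
    · intro _
      rfl

theorem evp_of_ord_pos {f : F} {w : Place K F} {c : K} (h : 0 < w.ord (f - algebraMap K F c)) :
    evp f w = some c := evp_some.2 (Ge.of_le (by omega))

theorem mapDomain_eq_single {α β : Type*} (D : α →₀ ℤ) (g : α → β) (b : β)
    (h : ∀ a ∈ D.support, g a = b) : D.mapDomain g = Finsupp.single b (D.sum fun _ x => x) := by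
  have h1 : D.mapDomain g = D.mapDomain (fun _ => b) := Finsupp.mapDomain_congr h
  rw [h1]
  clear h h1
  induction D using Finsupp.induction with
  | zero => simp
  | single_add v n D _ _ ih =>
    rw [Finsupp.mapDomain_add, Finsupp.mapDomain_single, Finsupp.sum_add_index' (fun _ => rfl)
      (fun _ _ _ => rfl), Finsupp.sum_single_index rfl, Finsupp.single_add, ih]

theorem mapDomain_neg' {α β : Type*} (D : α →₀ ℤ) (g : α → β) :
    (-D).mapDomain g = -(D.mapDomain g) := map_neg (Finsupp.mapDomain.addMonoidHom g) D

theorem degree_eq_sum (D : Divisor K F) : Divisor.degree D = D.sum fun _ x => x := by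
  classical
  induction D using Finsupp.induction with
  | zero => simp
  | single_add v n D _ _ ih =>
    rw [map_add, ih, degree_single', Finsupp.sum_add_index' (fun _ => rfl) (fun _ _ _ => rfl),
      Finsupp.sum_single_index rfl]

theorem transcendental_sub {s : F} (hs : Transcendental K s) (c : K) :
    Transcendental K (s - algebraMap K F c) := by
  intro h
  apply hs
  have := h.add (isAlgebraic_algebraMap (A := F) c)
  rwa [sub_add_cancel] at this

theorem adjoin_sub (s : F) (c : K) : K⟮s - algebraMap K F c⟯ = K⟮s⟯ := by
  apply le_antisymm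
  · rw [adjoin_simple_le_iff]
    exact sub_mem (mem_adjoin_simple_self K s) (IntermediateField.algebraMap_mem _ c)
  · rw [adjoin_simple_le_iff]
    have := add_mem (mem_adjoin_simple_self K (s - algebraMap K F c))
      (IntermediateField.algebraMap_mem K⟮s - algebraMap K F c⟯ c)
    rwa [sub_add_cancel] at this

theorem mapDomain_divisor_sub {s : F} (hs : Transcendental K s) (c : K) :
    (divisor K (s - algebraMap K F c)).mapDomain (evp s) =
      (Module.finrank K⟮s⟯ F : ℤ) • (Finsupp.single (some c) (1 : ℤ) - Finsupp.single none 1) := by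
  have hs' := transcendental_sub hs c
  have h1 : Divisor.degree (zeroDiv K (s - algebraMap K F c)) = Module.finrank K⟮s⟯ F := by
    rw [degree_zeroDiv hs', adjoin_sub]
  have h2 : Divisor.degree (poleDiv K (s - algebraMap K F c)) = Module.finrank K⟮s⟯ F := by
    rw [degree_poleDiv hs', adjoin_sub]
  rw [divisor_eq_sub, sub_eq_add_neg, Finsupp.mapDomain_add, mapDomain_neg']
  rw [mapDomain_eq_single (zeroDiv K (s - algebraMap K F c)) (evp s) (some c) ?_,
    mapDomain_eq_single (poleDiv K (s - algebraMap K F c)) (evp s) none ?_, ← degree_eq_sum,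
    ← degree_eq_sum, h1, h2, smul_sub, Finsupp.smul_single, Finsupp.smul_single, smul_eq_mul,
    mul_one, sub_eq_add_neg]
  · intro w hw
    rw [Finsupp.mem_support_iff, poleDiv_apply] at hw
    rw [evp_none]
    have h3 : w.ord (s - algebraMap K F c) < 0 := by
      by_contra h
      apply hw
      rw [max_eq_right]
      omega
    by_contra h
    have h4 : s - algebraMap K F c ∈ w.toValuationSubring :=
      sub_mem (mem_of_ord_nonneg w (not_lt.1 h)) (w.algebraMap_mem' c)
    have := ord_nonneg_of_mem w h4
    omega
  · intro w hw
    rw [Finsupp.mem_support_iff, zeroDiv_apply] at hw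
    apply evp_of_ord_pos
    by_contra h
    apply hw
    rw [max_eq_right]
    omega

theorem aeval_ne_zero_of_trans {s : F} (hs : Transcendental K s) {p : K[X]} (hp : p ≠ 0) :
    aeval s p ≠ 0 := fun h => hs ⟨p, hp, h⟩

theorem mapDomain_divisor_aeval {s : F} (hs : Transcendental K s) {p : K[X]} (hp : p ≠ 0) :
    (divisor K (aeval s p)).mapDomain (evp s) = (Module.finrank K⟮s⟯ F : ℤ) • dvp p := by
  have key : ∀ t : Multiset K, (divisor K (aeval s (t.map fun c => X - C c).prod)).mapDomain (evp s)
      = (Module.finrank K⟮s⟯ F : ℤ) • dvp (t.map fun c => X - C c).prod := by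
    intro t
    induction t using Multiset.induction_on with
    | empty =>
      rw [Multiset.map_zero, Multiset.prod_zero, map_one, ← C_1, dvp_C, smul_zero]
      have : divisor K (1 : F) = 0 := by
        ext v; simp
      rw [this, Finsupp.mapDomain_zero]
    | cons c t ih =>
      have h1 : (X - C c : K[X]) ≠ 0 := X_sub_C_ne_zero c
      have h2 : (t.map fun c => (X - C c : K[X])).prod ≠ 0 :=
        (monic_multisetProd_X_sub_C t).ne_zero
      rw [Multiset.map_cons, Multiset.prod_cons, map_mul,
        Spec.divisor_mul (aeval_ne_zero_of_trans hs h1) (aeval_ne_zero_of_trans hs h2),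
        Finsupp.mapDomain_add, ih, dvp_mul (mul_ne_zero h1 h2), smul_add, dvp_X_sub_C,
        map_sub, aeval_X, aeval_C, mapDomain_divisor_sub hs]
  have hsp := (IsAlgClosed.splits p).eq_prod_roots
  have hlc : p.leadingCoeff ≠ 0 := leadingCoeff_ne_zero.2 hp
  have h3 : (p.roots.map fun c => (X - C c : K[X])).prod ≠ 0 :=
    (monic_multisetProd_X_sub_C _).ne_zero
  rw [hsp, dvp_mul (mul_ne_zero (C_ne_zero.2 hlc) h3), dvp_C, zero_add, ← key, map_mul, aeval_C,
    ← Algebra.smul_def, Spec.divisor_smul hlc]

/-- The push-forward of the divisor of a function to the projective line is the divisor of the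
norm. -/
theorem mapDomain_divisor_norm {s : F} (hs : Transcendental K s) [Algebra.IsSeparable K⟮s⟯ F]
    {h : F} (hh : h ≠ 0) {p q : K[X]} (hp : p ≠ 0) (hq : q ≠ 0)
    (hN : (algebraMap K⟮s⟯ F (Algebra.norm K⟮s⟯ h)) * aeval s q = aeval s p) :
    (divisor K h).mapDomain (evp s) = dvp p - dvp q := by
  have : FiniteDimensional K⟮s⟯ F := fd hs
  set g : K⟮s⟯ := AdjoinSimple.gen K s with hg
  have hgs : algebraMap K⟮s⟯ F g = s := rfl
  have hgt : Transcendental K g := by
    intro h1
    apply hs
    rw [← hgs]
    exact h1.algebraMap
  have hFF : FiniteDimensional K⟮g⟯ K⟮s⟯ := by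
    apply Module.finite_of_finrank_pos
    rw [adjoin_gen_eq_top, IntermediateField.finrank_top]
    exact one_pos
  have : FunField K K⟮s⟯ := FunField.of hgt
  have : HasPrincipalDivisors K F := hasPrincipalDivisors'
  have hfin : Module.finrank K⟮g⟯ K⟮s⟯ = 1 := by
    rw [adjoin_gen_eq_top]
    exact IntermediateField.finrank_top
  have h1 : (divisor K h).mapDomain (evp s) =
      (divisor K (Algebra.norm K⟮s⟯ h)).mapDomain (evp g) := by
    rw [Spec.divisor_norm]
    have h2 : ∀ D : Divisor K F, Divisor.pushforward K⟮s⟯ D =
        D.mapDomain (fun w => w.restrict K⟮s⟯) := by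
      intro D
      induction D using Finsupp.induction with
      | zero => rw [map_zero]; exact Finsupp.mapDomain_zero.symm
      | single_add v n D _ _ ih =>
        rw [map_add, ih, Finsupp.mapDomain_add, Finsupp.mapDomain_single,
          Divisor.pushforward_single, Spec.inertiaDeg_one v, Nat.cast_one, mul_one]
    rw [h2, ← Finsupp.mapDomain_comp]
    congr 1
    funext w
    change evp s w = evp g (w.restrict K⟮s⟯)
    rcases hc : evp s w with _ | c
    · symm
      rw [evp_none] at hc ⊢
      by_contra h3
      have h4 : g ∈ (w.restrict K⟮s⟯).toValuationSubring := mem_of_ord_nonneg _ (not_lt.1 h3)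
      have h5 : s ∈ w.toValuationSubring := h4
      have := ord_nonneg_of_mem w h5
      omega
    · symm
      rw [evp_some] at hc ⊢
      rcases hc with hc | hc
      · exfalso
        rw [sub_eq_zero] at hc
        apply hs
        rw [hc]
        exact isAlgebraic_algebraMap c
      · right
        have h5 := w.ord_restrict (F := K⟮s⟯) (g - algebraMap K K⟮s⟯ c)
        rw [map_sub, hgs, ← IsScalarTower.algebraMap_apply] at h5
        rw [h5] at hc
        by_contra h6
        have h7 : (w.restrict K⟮s⟯).ord (g - algebraMap K K⟮s⟯ c) ≤ 0 := by omega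
        have h8 : (0 : ℤ) ≤ (w.ramificationIndex K⟮s⟯ : ℤ) := Int.natCast_nonneg _
        nlinarith
  have hN0 : Algebra.norm K⟮s⟯ h ≠ 0 := by
    rw [ne_eq, Algebra.norm_eq_zero_iff]
    exact hh
  have h2 : Algebra.norm K⟮s⟯ h * aeval g q = aeval g p := by
    apply (algebraMap K⟮s⟯ F).injective
    rw [map_mul, ← aeval_algebraMap_apply, ← aeval_algebraMap_apply, hgs]
    exact hN
  have h3 : (divisor K (Algebra.norm K⟮s⟯ h * aeval g q)).mapDomain (evp g) =
      (divisor K (aeval g p)).mapDomain (evp g) := by rw [h2]
  rw [Spec.divisor_mul hN0 (aeval_ne_zero_of_trans hgt hq), Finsupp.mapDomain_add,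
    mapDomain_divisor_aeval hgt hp, mapDomain_divisor_aeval hgt hq, hfin, Nat.cast_one, one_smul,
    one_smul] at h3
  rw [h1, ← h3, add_sub_cancel_right]

end

end Fermat.Agent.S26A
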