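import Mathlib

/-!
# The category of places
-/

set_option autoImplicit false
set_option linter.style.haveILetI false

namespace Fermat.Agent.S26A

universe u

/-- A `K`-place from `L` to `M`. -/
structure Pl (K L M : Type u) [Field K] [Field L] [Field M] [Algebra K L] [Algebra K M] where
  V : ValuationSubring L
  ρ : V →+* M
  mem' : ∀ c : K, algebraMap K L c ∈ V
  alg' : ∀ c : K, ρ ⟨algebraMap K L c, mem' c⟩ = algebraMap K M c
  inv' : ∀ v : V, ρ v ≠ 0 → (v : L)⁻¹ ∈ V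

namespace Pl

variable {K L M N : Type u} [Field K] [Field L] [Field M] [Field N]
  [Algebra K L] [Algebra K M] [Algebra K N]

/-- `φ a = b` (in particular `a` is finite at `φ`) -/
def At (φ : Pl K L M) (a : L) (b : M) : Prop := ∃ h : a ∈ φ.V, φ.ρ ⟨a, h⟩ = b

theorem At.uniq {φ : Pl K L M} {a : L} {b c : M} (h : φ.At a b) (h' : φ.At a c) : b = c := by
  obtain ⟨h1, rfl⟩ := h
  obtain ⟨_, rfl⟩ := h'
  rfl

theorem at_alg (φ : Pl K L M) (c : K) : φ.At (algebraMap K L c) (algebraMap K M c) :=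
  ⟨φ.mem' c, φ.alg' c⟩

theorem at_zero (φ : Pl K L M) : φ.At 0 0 := ⟨zero_mem _, map_zero φ.ρ⟩

theorem at_one (φ : Pl K L M) : φ.At 1 1 := ⟨one_mem _, map_one φ.ρ⟩

theorem At.add {φ : Pl K L M} {a a' : L} {b b' : M} (h : φ.At a b) (h' : φ.At a' b') :
    φ.At (a + a') (b + b') := by
  obtain ⟨h1, rfl⟩ := h
  obtain ⟨h2, rfl⟩ := h'
  exact ⟨add_mem h1 h2, map_add φ.ρ ⟨a, h1⟩ ⟨a', h2⟩⟩

theorem At.mul {φ : Pl K L M} {a a' : L} {b b' : M} (h : φ.At a b) (h' : φ.At a' b') :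
    φ.At (a * a') (b * b') := by
  obtain ⟨h1, rfl⟩ := h
  obtain ⟨h2, rfl⟩ := h'
  exact ⟨mul_mem h1 h2, map_mul φ.ρ ⟨a, h1⟩ ⟨a', h2⟩⟩

theorem At.neg {φ : Pl K L M} {a : L} {b : M} (h : φ.At a b) : φ.At (-a) (-b) := by
  obtain ⟨h1, rfl⟩ := h
  exact ⟨neg_mem h1, map_neg φ.ρ ⟨a, h1⟩⟩

theorem At.inv {φ : Pl K L M} {a : L} {b : M} (h : φ.At a b) (hb : b ≠ 0) : φ.At a⁻¹ b⁻¹ := by
  obtain ⟨h1, rfl⟩ := h
  have h2 := φ.inv' ⟨a, h1⟩ hb
  refine ⟨h2, ?_⟩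
  have h0 : a ≠ 0 := by
    rintro rfl
    exact hb (map_zero φ.ρ)
  refine eq_inv_of_mul_eq_one_left ?_
  rw [← map_mul, ← map_one φ.ρ]
  congr 1
  exact Subtype.ext (inv_mul_cancel₀ h0)

/-- either finite or the inverse has value `0` -/
theorem at_or (φ : Pl K L M) (a : L) : (∃ b, φ.At a b) ∨ (a ≠ 0 ∧ φ.At a⁻¹ 0) := by
  by_cases h : a ∈ φ.V
  · exact .inl ⟨_, h, rfl⟩
  · right
    have h0 : a ≠ 0 := by
      rintro rfl
      exact h (zero_mem _)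
    have h1 : a⁻¹ ∈ φ.V := (φ.V.mem_or_inv_mem a).resolve_left h
    refine ⟨h0, h1, ?_⟩
    by_contra h2
    have := φ.inv' ⟨a⁻¹, h1⟩ h2
    rw [inv_inv] at this
    exact h this


theorem eq_of_at {φ ψ : Pl K L M} (h : ∀ a b, φ.At a b → ψ.At a b) : φ = ψ := by
  have hV : φ.V = ψ.V := by
    refine SetLike.ext fun a => ⟨fun ha => (h a _ ⟨ha, rfl⟩).1, fun ha => ?_⟩
    rcases φ.at_or a with ⟨b, hb⟩ | ⟨h0, h1⟩
    · exact hb.1
    · exfalso
      obtain ⟨h2, h3⟩ := h _ _ h1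
      have h4 : ψ.At (a * a⁻¹) (ψ.ρ ⟨a, ha⟩ * 0) := At.mul ⟨ha, rfl⟩ ⟨h2, h3⟩
      rw [mul_inv_cancel₀ h0, mul_zero] at h4
      exact zero_ne_one (h4.uniq ψ.at_one)
  obtain ⟨V, ρ, h1, h2, h3⟩ := φ
  obtain ⟨V', ρ', h1', h2', h3'⟩ := ψ
  obtain rfl : V = V' := hV
  have : ρ = ρ' := by
    ext a
    exact (h a _ ⟨a.2, rfl⟩).2.symm
  subst this
  rfl

/-- a homomorphism of fields as a place -/
def ofHom (σ : L →ₐ[K] M) : Pl K L M where
  V := ⊤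
  ρ := σ.toRingHom.comp (⊤ : ValuationSubring L).subtype
  mem' _ := ValuationSubring.mem_top _
  alg' c := σ.commutes c
  inv' _ _ := ValuationSubring.mem_top _

theorem ofHom_at (σ : L →ₐ[K] M) (a : L) : (ofHom σ).At a (σ a) := ⟨ValuationSubring.mem_top _, rfl⟩

/-- composition of places -/
def comp (ψ : Pl K M N) (φ : Pl K L M) : Pl K L N where
  V :=
    { carrier := {a | ∃ b, φ.At a b ∧ b ∈ ψ.V}
      mul_mem' := by
        rintro _ _ ⟨b, h, hb⟩ ⟨b', h', hb'⟩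
        exact ⟨_, h.mul h', mul_mem hb hb'⟩
      one_mem' := ⟨1, φ.at_one, one_mem _⟩
      add_mem' := by
        rintro _ _ ⟨b, h, hb⟩ ⟨b', h', hb'⟩
        exact ⟨_, h.add h', add_mem hb hb'⟩
      zero_mem' := ⟨0, φ.at_zero, zero_mem _⟩
      neg_mem' := by
        rintro _ ⟨b, h, hb⟩
        exact ⟨_, h.neg, neg_mem hb⟩
      mem_or_inv_mem' := by
        intro a
        rcases φ.at_or a with ⟨b, hb⟩ | ⟨_, h1⟩
        · rcases ψ.V.mem_or_inv_mem b with h | h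
          · exact .inl ⟨b, hb, h⟩
          · by_cases h0 : b = 0
            · exact .inl ⟨b, hb, h0 ▸ zero_mem _⟩
            · exact .inr ⟨_, hb.inv h0, h⟩
        · exact .inr ⟨0, h1, zero_mem _⟩ }
  ρ :=
    { toFun := fun a => ψ.ρ ⟨φ.ρ ⟨a, a.2.choose_spec.1.1⟩, by
        have := a.2.choose_spec
        rw [this.1.2]
        exact this.2⟩
      map_one' := by
        rw [← map_one ψ.ρ]
        congr 1
        exact Subtype.ext (map_one φ.ρ)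
      map_mul' := by
        intro a b
        rw [← map_mul]
        congr 1
        exact Subtype.ext (map_mul φ.ρ ⟨a, a.2.choose_spec.1.1⟩ ⟨b, b.2.choose_spec.1.1⟩)
      map_zero' := by
        rw [← map_zero ψ.ρ]
        congr 1
        exact Subtype.ext (map_zero φ.ρ)
      map_add' := by
        intro a b
        rw [← map_add]
        congr 1
        exact Subtype.ext (map_add φ.ρ ⟨a, a.2.choose_spec.1.1⟩ ⟨b, b.2.choose_spec.1.1⟩) }
  mem' c := ⟨_, φ.at_alg c, ψ.mem' c⟩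
  alg' c := by
    change ψ.ρ ⟨φ.ρ _, _⟩ = _
    rw [← ψ.alg' c]
    congr 1
    exact Subtype.ext (φ.alg' c)
  inv' v hv := by
    obtain ⟨b, h, hb⟩ := v.2
    have h1 : φ.ρ ⟨v, h.1⟩ = b := h.2
    have hb0 : b ≠ 0 := by
      rintro rfl
      apply hv
      change ψ.ρ ⟨φ.ρ ⟨v, _⟩, _⟩ = 0
      rw [← map_zero ψ.ρ]
      congr 1
      exact Subtype.ext h1
    refine ⟨_, h.inv hb0, ψ.inv' ⟨b, hb⟩ ?_⟩
    intro h2
    apply hv
    change ψ.ρ ⟨φ.ρ ⟨v, _⟩, _⟩ = 0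
    rw [← h2]
    congr 1
    exact Subtype.ext h1

theorem comp_at {ψ : Pl K M N} {φ : Pl K L M} {a : L} {b : M} {c : N} (h : φ.At a b)
    (h' : ψ.At b c) : (ψ.comp φ).At a c := by
  refine ⟨⟨b, h, h'.1⟩, ?_⟩
  rw [← h'.2]
  change ψ.ρ ⟨φ.ρ ⟨a, _⟩, _⟩ = _
  congr 1
  exact Subtype.ext h.2

theorem comp_at_iff {ψ : Pl K M N} {φ : Pl K L M} {a : L} {c : N} :
    (ψ.comp φ).At a c ↔ ∃ b, φ.At a b ∧ ψ.At b c := by
  refine ⟨fun h => ?_, fun ⟨b, h, h'⟩ => comp_at h h'⟩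
  obtain ⟨b, hb, hb'⟩ := h.1
  exact ⟨b, hb, hb', ((comp_at hb ⟨hb', rfl⟩).uniq h)⟩

theorem comp_assoc {N' : Type u} [Field N'] [Algebra K N'] (χ : Pl K N N') (ψ : Pl K M N)
    (φ : Pl K L M) : (χ.comp ψ).comp φ = χ.comp (ψ.comp φ) := by
  refine eq_of_at fun a c h => ?_
  obtain ⟨b, hb, h1⟩ := comp_at_iff.1 h
  obtain ⟨b', hb', h2⟩ := comp_at_iff.1 h1
  exact comp_at (comp_at hb hb') h2

/-- the identity -/
def id (K L : Type u) [Field K] [Field L] [Algebra K L] : Pl K L L := ofHom (AlgHom.id K L)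

theorem ofHom_comp (τ : M →ₐ[K] N) (σ : L →ₐ[K] M) :
    (ofHom τ).comp (ofHom σ) = ofHom (τ.comp σ) := by
  refine eq_of_at fun a c h => ?_
  obtain ⟨b, hb, h1⟩ := comp_at_iff.1 h
  rw [hb.uniq (ofHom_at σ a)] at h1
  rw [h1.uniq (ofHom_at τ _)]
  exact ofHom_at _ a

theorem comp_id (φ : Pl K L M) : φ.comp (id K L) = φ := by
  refine eq_of_at fun a c h => ?_
  obtain ⟨b, hb, h1⟩ := comp_at_iff.1 h
  rwa [hb.uniq (ofHom_at _ a)] at h1

theorem id_comp (φ : Pl K L M) : (id K M).comp φ = φ := by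
  refine eq_of_at fun a c h => ?_
  obtain ⟨b, hb, h1⟩ := comp_at_iff.1 h
  rwa [h1.uniq (ofHom_at _ b)]

end Pl

end Fermat.Agent.S26A
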