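import Fermat.Agent.S26A.Cs2
import Fermat.Agent.S26A.Pl
import Fermat.Agent.S27A.BC2

/-!
# Norms and the Gauss extension of a place
-/

set_option autoImplicit false
set_option linter.unusedSectionVars false
set_option linter.style.haveILetI false

namespace Fermat.Agent.S26A

universe u

open AlgebraicCurve Fermat.Agent.RR Fermat.Agent.Curve IntermediateField Polynomial
open Fermat.Agent.MW Module

section CE

variable {K L C E : Type*} [Field K] [Field L] [Field C] [Field E] [Algebra K C] [Algebra L E]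
  [Algebra K L] [Algebra C E] [IsAlgClosed K] [IsAlgClosed L] [FunField K C] [FunField L E]
  [hC : CExt K L C E]

theorem linInd_adjoin {s : C} (hs : Transcendental K s) {ι : Type*} {e : ι → C}
    (he : LinearIndependent K⟮s⟯ e) :
    LinearIndependent L⟮bc C E s⟯ (fun i => bc C E (e i)) := by
  classical
  have hpow : LinearIndependent K (fun j : ℕ => (AdjoinSimple.gen K s) ^ j) := by
    have h1 : Transcendental K (AdjoinSimple.gen K s) := by
      intro h1
      exact hs h1.algebraMap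
    have h2 := (Polynomial.basisMonomials K).linearIndependent.map'
      (aeval (AdjoinSimple.gen K s)).toLinearMap
      (LinearMap.ker_eq_bot.2 (transcendental_iff_injective.1 h1))
    have h3 : (fun j : ℕ => (AdjoinSimple.gen K s) ^ j) =
        ⇑(aeval (AdjoinSimple.gen K s)).toLinearMap ∘ ⇑(Polynomial.basisMonomials K) := by
      funext j
      simp
    rw [h3]
    exact h2
  have hK := linearIndependent_smul hpow he
  have hL := S27A.linInd_bc (K' := L) (F' := E) hK
  refine RR.linearIndependent_adjoin (bc_transcendental (K' := L) (F' := E) hs) _ fun S p hp => ?_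
  obtain ⟨N, hN⟩ : ∃ N : ℕ, ∀ i ∈ S, (p i).natDegree < N :=
    ⟨(S.sup fun i => (p i).natDegree) + 1, fun i hi =>
      Nat.lt_succ_of_le (Finset.le_sup (f := fun i => (p i).natDegree) hi)⟩
  have h2 : ∑ x ∈ (Finset.range N) ×ˢ S, (p x.2).coeff x.1 •
      bc C E ((AdjoinSimple.gen K s) ^ x.1 • e x.2) = 0 := by
    rw [Finset.sum_product_right, ← hp]
    refine Finset.sum_congr rfl fun i hi => ?_
    rw [aeval_eq_sum_range' (hN i hi), Finset.sum_mul]
    refine Finset.sum_congr rfl fun j _ => ?_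
    rw [smul_mul_assoc]
    congr 1
    change bc C E (s ^ j * e i) = _
    rw [map_mul, map_pow]
  have h3 := linearIndependent_iff'.1 hL _ _ h2
  intro i hi
  ext j
  rw [coeff_zero]
  by_cases hj : j < N
  · exact h3 (j, i) (Finset.mem_product.2 ⟨Finset.mem_range.2 hj, hi⟩)
  · exact coeff_eq_zero_of_natDegree_lt (lt_of_lt_of_le (hN i hi) (not_lt.1 hj))

/-- a basis remains a basis -/
noncomputable def basisE {s : C} (hs : Transcendental K s) {ι : Type*} [Fintype ι]
    (e : Basis ι K⟮s⟯ C) : Basis ι L⟮bc C E s⟯ E :=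
  haveI := e.index_nonempty
  haveI : FiniteDimensional K⟮s⟯ C := Module.Finite.of_basis e
  haveI : FiniteDimensional L⟮bc C E s⟯ E :=
    (finrank_bc_le (K := K) (K' := L) (F' := E) s).1
  basisOfLinearIndependentOfCardEqFinrank (linInd_adjoin hs e.linearIndependent) (by
    apply le_antisymm
    · exact (linInd_adjoin (L := L) (E := E) hs e.linearIndependent).fintype_card_le_finrank
    · rw [← Module.finrank_eq_card_basis e]
      exact (finrank_bc_le (K := K) (K' := L) (F' := E) s).2)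

theorem basisE_apply {s : C} (hs : Transcendental K s) {ι : Type*} [Fintype ι]
    (e : Basis ι K⟮s⟯ C) (i : ι) : basisE (L := L) (E := E) hs e i = bc C E (e i) := by
  have := e.index_nonempty
  unfold basisE
  rw [coe_basisOfLinearIndependentOfCardEqFinrank]

theorem isSeparable_bc {s : C} [hsep : Algebra.IsSeparable K⟮s⟯ C] :
    Algebra.IsSeparable L⟮bc C E s⟯ E := by
  let j : K⟮s⟯ →+* L⟮bc C E s⟯ :=
    ((bc C E).comp (algebraMap K⟮s⟯ C)).codRestrict L⟮bc C E s⟯.toSubfield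
      (fun c => bc_mem_adjoin (K := K) (K' := L) (F' := E) c.2)
  have h1 : ∀ f : C, IsSeparable L⟮bc C E s⟯ (bc C E f) := by
    intro f
    have h2 := Algebra.IsSeparable.isSeparable K⟮s⟯ f
    have h3 : ((minpoly K⟮s⟯ f).map j).Separable := Polynomial.Separable.map h2
    refine h3.of_dvd (minpoly.dvd _ _ ?_)
    rw [aeval_def, eval₂_map]
    have h4 : (algebraMap L⟮bc C E s⟯ E).comp j = (bc C E).comp (algebraMap K⟮s⟯ C) := by
      ext x
      rfl
    rw [h4, ← hom_eval₂, ← aeval_def, minpoly.aeval, map_zero]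
  constructor
  intro x
  let S : IntermediateField L E := (separableClosure L⟮bc C E s⟯ E).restrictScalars L
  have h5 : S = ⊤ := hC.gen S (fun f => (mem_separableClosure_iff).2 (h1 f))
  have h6 : x ∈ S := by rw [h5]; trivial
  exact (mem_separableClosure_iff).1 h6

end CE

section Gauss

variable {K L C E M E' : Type u} [Field K] [Field L] [Field C] [Field E] [Field M] [Field E']
  [Algebra K C] [Algebra L E] [Algebra K L] [Algebra C E] [Algebra K M] [Algebra M E']
  [Algebra C E'] [Algebra K E] [Algebra K E']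
  [IsAlgClosed K] [IsAlgClosed L] [IsAlgClosed M] [FunField K C] [FunField L E] [FunField M E']
  [hC : CExt K L C E] [hC' : CExt K M C E']

instance (φ : Pl K L M) : IsLocalHom φ.ρ := by
  constructor
  intro a ha
  have h0 : φ.ρ a ≠ 0 := ha.ne_zero
  have h1 := φ.inv' a h0
  have ha0 : (a : L) ≠ 0 := by
    intro h
    apply h0
    have : a = 0 := Subtype.ext h
    rw [this, map_zero]
  exact IsUnit.of_mul_eq_one ⟨(a : L)⁻¹, h1⟩ (Subtype.ext (mul_inv_cancel₀ ha0))

theorem exists_prim (φ : Pl K L M) {p : L[X]} (hp : p ≠ 0) : ∃ (c : L) (Q : φ.V[X]), c ≠ 0 ∧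
    p = Polynomial.C c * Q.map φ.V.subtype ∧ Q.map φ.ρ ≠ 0 := by
  obtain ⟨Q, e, he, h1, h2⟩ := exists_factor φ.V φ.ρ p.roots
  have hs := (IsAlgClosed.splits p).eq_prod_roots
  have hlc : p.leadingCoeff ≠ 0 := leadingCoeff_ne_zero.2 hp
  refine ⟨p.leadingCoeff / e, Q, div_ne_zero hlc he, ?_, ?_⟩
  · rw [h1, ← mul_assoc, ← C_mul, div_mul_cancel₀ _ he]
    exact hs
  · rw [h2]
    exact (monic_multisetProd_X_sub_C _).ne_zero

variable (φ : Pl K L M) (Φ : Pl K E E')
  (h1 : ∀ a b, φ.At a b → Φ.At (algebraMap L E a) (algebraMap M E' b))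
  (h2 : ∀ f : C, Φ.At (bc C E f) (bc C E' f))

include h1 h2

theorem at_aeval (P : φ.V[X]) (s : C) :
    Φ.At (aeval (bc C E s) (P.map φ.V.subtype)) (aeval (bc C E' s) (P.map φ.ρ)) := by
  induction P using Polynomial.induction_on with
  | C a =>
    rw [map_C, map_C, aeval_C, aeval_C]
    exact h1 _ _ ⟨a.2, rfl⟩
  | add p q hp hq =>
    rw [Polynomial.map_add, Polynomial.map_add, map_add, map_add]
    exact hp.add hq
  | monomial n a h =>
    have hX : ∀ {R : Type u} [Field R] (f : φ.V →+* R),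
        (Polynomial.C a * X ^ (n + 1)).map f = (Polynomial.C a * X ^ n).map f * X := by
      intro R _ f
      rw [pow_succ, ← mul_assoc, Polynomial.map_mul, map_X]
    rw [hX, hX, map_mul, map_mul, aeval_X, aeval_X]
    exact h.mul (h2 s)

omit [IsAlgClosed L] [IsAlgClosed M] h2 [IsAlgClosed K] in
theorem mem_of_at {γ : L} {b : E'} (h : Φ.At (algebraMap L E γ) b) : ∃ c : M, φ.At γ c := by
  rcases φ.at_or γ with h3 | ⟨h0, h3⟩
  · exact h3
  · exfalso
    have h4 := (h1 _ _ h3).mul h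
    rw [← map_mul, inv_mul_cancel₀ h0, map_one, map_zero, zero_mul] at h4
    exact zero_ne_one (h4.uniq Φ.at_one)

theorem exists_repr {s : C} (hs : Transcendental K s) {x : E} (hx : x ∈ L⟮bc C E s⟯) {y : E'}
    (hxy : Φ.At x y) : ∃ P Q : φ.V[X], Q.map φ.ρ ≠ 0 ∧
      x * aeval (bc C E s) (Q.map φ.V.subtype) = aeval (bc C E s) (P.map φ.V.subtype) := by
  have hsL := bc_transcendental (K' := L) (F' := E) hs
  have hsM := bc_transcendental (K' := M) (F' := E') hs
  rcases eq_or_ne x 0 with rfl | hx0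
  · exact ⟨0, 1, by rw [Polynomial.map_one]; exact one_ne_zero, by simp⟩
  obtain ⟨r, q, hrq⟩ := (mem_adjoin_simple_iff L x).1 hx
  have hr : r ≠ 0 := by
    rintro rfl
    rw [map_zero, zero_div] at hrq
    exact hx0 hrq
  have hq : q ≠ 0 := by
    rintro rfl
    rw [map_zero, div_zero] at hrq
    exact hx0 hrq
  obtain ⟨c, R, hc, hcR, hR⟩ := exists_prim φ hr
  obtain ⟨d, Q, hd, hdQ, hQ⟩ := exists_prim φ hq
  have hRM : aeval (bc C E' s) (R.map φ.ρ) ≠ 0 := aeval_ne_zero_of_trans hsM hR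
  have hQM : aeval (bc C E' s) (Q.map φ.ρ) ≠ 0 := aeval_ne_zero_of_trans hsM hQ
  have hRL := at_aeval φ Φ h1 h2 R s
  have hQL := at_aeval φ Φ h1 h2 Q s
  have hQL0 : aeval (bc C E s) (Q.map φ.V.subtype) ≠ 0 := by
    intro h
    rw [h] at hQL
    exact hQM (hQL.uniq Φ.at_zero)
  have hRL0 : aeval (bc C E s) (R.map φ.V.subtype) ≠ 0 := by
    intro h
    rw [h] at hRL
    exact hRM (hRL.uniq Φ.at_zero)
  have hd' : algebraMap L E d ≠ 0 := by rwa [ne_eq, map_eq_zero]
  have hx1 : x * aeval (bc C E s) (Q.map φ.V.subtype) =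
      algebraMap L E (c / d) * aeval (bc C E s) (R.map φ.V.subtype) := by
    rw [hrq, hcR, hdQ, map_mul, map_mul, aeval_C, aeval_C, map_div₀]
    field_simp
  have h3 : Φ.At (algebraMap L E (c / d))
      (y * aeval (bc C E' s) (Q.map φ.ρ) * (aeval (bc C E' s) (R.map φ.ρ))⁻¹) := by
    have h4 := (hxy.mul hQL).mul (hRL.inv hRM)
    rw [hx1, mul_assoc, mul_inv_cancel₀ hRL0, mul_one] at h4
    exact h4
  obtain ⟨γ, hγ⟩ := mem_of_at φ Φ h1 h3
  refine ⟨Polynomial.C ⟨c / d, hγ.1⟩ * R, Q, hQ, ?_⟩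
  rw [hx1, Polynomial.map_mul, map_C, map_mul, aeval_C]
  rfl

/-- the reduction of `L(s)` is in `M(s)` -/
theorem mem_adjoin_of_at {s : C} (hs : Transcendental K s) {x : E} (hx : x ∈ L⟮bc C E s⟯) {y : E'}
    (hxy : Φ.At x y) : y ∈ M⟮bc C E' s⟯ := by
  obtain ⟨P, Q, hQ, hPQ⟩ := exists_repr φ Φ h1 h2 hs hx hxy
  have hsM := bc_transcendental (K' := M) (F' := E') hs
  have hQM : aeval (bc C E' s) (Q.map φ.ρ) ≠ 0 := aeval_ne_zero_of_trans hsM hQ
  have h3 := hxy.mul (at_aeval φ Φ h1 h2 Q s)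
  rw [hPQ] at h3
  have h4 := h3.uniq (at_aeval φ Φ h1 h2 P s)
  rw [mem_adjoin_simple_iff]
  exact ⟨_, _, (eq_div_iff hQM).2 h4⟩

omit h1 h2 in
omit [IsAlgClosed K] [IsAlgClosed L] [IsAlgClosed M] [FunField K C] [FunField L E] [FunField M E']
  [hC : CExt K L C E] [hC' : CExt K M C E'] [Algebra L E] [Algebra M E'] [Algebra K C]
  [Algebra C E] [Algebra C E'] in
theorem at_sum {ι : Type*} (S : Finset ι) {f : ι → E} {g : ι → E'} (h : ∀ i ∈ S, Φ.At (f i) (g i)) :
    Φ.At (∑ i ∈ S, f i) (∑ i ∈ S, g i) := by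
  classical
  induction S using Finset.induction_on with
  | empty => exact Φ.at_zero
  | insert a S ha ih =>
    rw [Finset.sum_insert ha, Finset.sum_insert ha]
    exact (h a (Finset.mem_insert_self a S)).add
      (ih fun i hi => h i (Finset.mem_insert_of_mem hi))

/-- coordinates of integral elements are integral -/
theorem at_repr {s : C} (hs : Transcendental K s) {ι : Type*} [Fintype ι]
    (e : Basis ι K⟮s⟯ C) (a : ι → L⟮bc C E s⟯) {y : E'}
    (hxy : Φ.At (∑ i, (a i : E) * bc C E (e i)) y) (i : ι) :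
    ∃ b : M⟮bc C E' s⟯, Φ.At (a i : E) (b : E') := by
  classical
  have key : ∀ i, (a i : E) ∈ Φ.V := by
    by_contra hcon
    push Not at hcon
    obtain ⟨j, hj⟩ := hcon
    obtain ⟨i₀, -, hi₀⟩ := Finset.exists_max_image Finset.univ
      (fun i => Φ.V.valuation (a i : E)) ⟨j, Finset.mem_univ j⟩
    have h3 : (a i₀ : E) ∉ Φ.V := by
      intro h4
      apply hj
      rw [← ValuationSubring.valuation_le_one_iff] at h4 ⊢
      exact (hi₀ j (Finset.mem_univ j)).trans h4
    have h4 : (a i₀ : E) ≠ 0 := fun h => h3 (h ▸ zero_mem _)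
    have h5 : Φ.At (a i₀ : E)⁻¹ 0 := by
      rcases Φ.at_or (a i₀ : E) with ⟨b, hb⟩ | h
      · exact absurd hb.1 h3
      · exact h.2
    have h6 : ∀ i, (a i : E) * (a i₀ : E)⁻¹ ∈ Φ.V := by
      intro i
      rw [← ValuationSubring.valuation_le_one_iff, map_mul, map_inv₀]
      have h7 := hi₀ i (Finset.mem_univ i)
      have h8 : Φ.V.valuation (a i₀ : E) ≠ 0 := (Valuation.ne_zero_iff _).2 h4
      rw [mul_inv_le_iff₀ (zero_lt_iff.2 h8), one_mul]
      exact h7
    have h7 : ∀ i, ∃ b : M⟮bc C E' s⟯, Φ.At ((a i : E) * (a i₀ : E)⁻¹) (b : E') := by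
      intro i
      have h8 : Φ.At ((a i : E) * (a i₀ : E)⁻¹) (Φ.ρ ⟨_, h6 i⟩) := ⟨h6 i, rfl⟩
      exact ⟨⟨_, mem_adjoin_of_at φ Φ h1 h2 hs (mul_mem (a i).2 (inv_mem (a i₀).2)) h8⟩, h8⟩
    choose b hb using h7
    have h8 : Φ.At ((∑ i, (a i : E) * bc C E (e i)) * (a i₀ : E)⁻¹)
        (∑ i, (b i : E') * bc C E' (e i)) := by
      rw [Finset.sum_mul]
      apply at_sum
      intro i _
      have := (hb i).mul (h2 (e i))
      rwa [mul_assoc, mul_comm ((a i₀ : E)⁻¹), ← mul_assoc] at this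
    have h9 := h8.uniq (hxy.mul h5)
    rw [mul_zero] at h9
    have h10 := Fintype.linearIndependent_iff.1 (linInd_adjoin (L := M) (E := E') hs
      e.linearIndependent) b (by
        rw [← h9]
        exact Finset.sum_congr rfl fun i _ => rfl) i₀
    have h11 : Φ.At 1 ((b i₀ : M⟮bc C E' s⟯) : E') := by
      have := hb i₀
      rwa [mul_inv_cancel₀ h4] at this
    rw [h10] at h11
    exact zero_ne_one (h11.uniq Φ.at_one)
  have h8 : Φ.At (a i : E) (Φ.ρ ⟨_, key i⟩) := ⟨key i, rfl⟩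
  exact ⟨⟨_, mem_adjoin_of_at φ Φ h1 h2 hs (a i).2 h8⟩, h8⟩

omit h1 h2 in
omit [IsAlgClosed K] [IsAlgClosed L] [IsAlgClosed M] [FunField K C] [FunField L E] [FunField M E']
  [hC : CExt K L C E] [hC' : CExt K M C E'] [Algebra L E] [Algebra M E'] [Algebra K C]
  [Algebra C E] [Algebra C E'] in
theorem at_det {ι : Type*} [Fintype ι] [DecidableEq ι] {A : Matrix ι ι E} {B : Matrix ι ι E'}
    (h : ∀ i j, Φ.At (A i j) (B i j)) : Φ.At A.det B.det := by
  let A₀ : Matrix ι ι Φ.V := fun i j => ⟨A i j, (h i j).1⟩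
  have hA : A = Φ.V.subtype.mapMatrix A₀ := rfl
  have hB : B = Φ.ρ.mapMatrix A₀ := by
    ext i j
    exact (h i j).2.symm
  rw [hA, hB, ← RingHom.map_det, ← RingHom.map_det]
  exact ⟨A₀.det.2, rfl⟩

/-- reduction of norms -/
theorem at_norm {s : C} (hs : Transcendental K s) {h : E} {b : E'} (hb : Φ.At h b) :
    Φ.At (algebraMap L⟮bc C E s⟯ E (Algebra.norm L⟮bc C E s⟯ h))
      (algebraMap M⟮bc C E' s⟯ E' (Algebra.norm M⟮bc C E' s⟯ b)) := by
  classical
  haveI : FiniteDimensional K⟮s⟯ C := fd hs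
  let e := Module.finBasis K⟮s⟯ C
  let eL := basisE (L := L) (E := E) hs e
  let eM := basisE (L := M) (E := E') hs e
  rw [Algebra.norm_eq_matrix_det eL, Algebra.norm_eq_matrix_det eM, RingHom.map_det,
    RingHom.map_det]
  apply at_det
  intro i j
  change Φ.At ((Algebra.leftMulMatrix eL h i j : L⟮bc C E s⟯) : E)
    ((Algebra.leftMulMatrix eM b i j : M⟮bc C E' s⟯) : E')
  rw [Algebra.leftMulMatrix_eq_repr_mul, Algebra.leftMulMatrix_eq_repr_mul]
  have h3 : Φ.At (h * eL j) (b * eM j) := by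
    change Φ.At (h * basisE hs e j) (b * basisE hs e j)
    rw [basisE_apply, basisE_apply]
    exact hb.mul (h2 (e j))
  have h4 : h * eL j = ∑ i, ((eL.repr (h * eL j) i : L⟮bc C E s⟯) : E) * bc C E (e i) := by
    conv_lhs => rw [← eL.sum_repr (h * eL j)]
    refine Finset.sum_congr rfl fun i _ => ?_
    have h5 : eL i = bc C E (e i) := basisE_apply hs e i
    rw [h5]
    rfl
  rw [h4] at h3
  choose c hc using fun i => at_repr φ Φ h1 h2 hs e (fun i => eL.repr (h * eL j) i) h3 i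
  have h5 : Φ.At (∑ i, ((eL.repr (h * eL j) i : L⟮bc C E s⟯) : E) * bc C E (e i))
      (∑ i, (c i : E') * bc C E' (e i)) := by
    apply at_sum
    intro i _
    exact (hc i).mul (h2 (e i))
  have h6 := h3.uniq h5
  have h7 : eM.repr (b * eM j) = c := by
    rw [h6]
    have h8 : ∑ i, (c i : E') * bc C E' (e i) = ∑ i, c i • eM i := by
      refine Finset.sum_congr rfl fun i _ => ?_
      have h9 : eM i = bc C E' (e i) := basisE_apply hs e i
      rw [h9]
      rfl
    rw [h8]
    exact eM.repr_sum_self c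
  rw [h7]
  exact hc i

/-- **Specialization of divisors of functions, after push-forward to the projective line.** -/
theorem cp_dvp {s : C} (hs : Transcendental K s) [Algebra.IsSeparable K⟮s⟯ C] {h : E} {b : E'}
    (hb : b ≠ 0) (hhb : Φ.At h b) :
    ((divisor L h).mapDomain (evp (bc C E s))).mapDomain (phi1 φ.V φ.ρ) =
      (divisor M b).mapDomain (evp (bc C E' s)) := by
  have hsL := bc_transcendental (K' := L) (F' := E) hs
  have hsM := bc_transcendental (K' := M) (F' := E') hs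
  haveI := isSeparable_bc (K := K) (L := L) (E := E) (s := s)
  haveI := isSeparable_bc (K := K) (L := M) (E := E') (s := s)
  haveI : FiniteDimensional L⟮bc C E s⟯ E := fd hsL
  haveI : FiniteDimensional M⟮bc C E' s⟯ E' := fd hsM
  have hN := at_norm φ Φ h1 h2 hs hhb
  obtain ⟨P, Q, hQ, hPQ⟩ := exists_repr φ Φ h1 h2 hs (Algebra.norm L⟮bc C E s⟯ h).2 hN
  have h3 := hN.mul (at_aeval φ Φ h1 h2 Q s)
  have hPQ' : (algebraMap L⟮bc C E s⟯ E (Algebra.norm L⟮bc C E s⟯ h)) *
      aeval (bc C E s) (Q.map φ.V.subtype) = aeval (bc C E s) (P.map φ.V.subtype) := hPQ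
  rw [hPQ'] at h3
  have h4 := h3.uniq (at_aeval φ Φ h1 h2 P s)
  have hh : h ≠ 0 := by
    rintro rfl
    exact hb (hhb.uniq Φ.at_zero)
  have hP : P.map φ.ρ ≠ 0 := by
    intro h0
    rw [h0, map_zero] at h4
    rcases mul_eq_zero.1 h4 with h5 | h5
    · rw [map_eq_zero, Algebra.norm_eq_zero_iff] at h5
      exact hb h5
    · exact aeval_ne_zero_of_trans hsM hQ h5
  have hne : ∀ {R : φ.V[X]}, R.map φ.ρ ≠ 0 → R.map φ.V.subtype ≠ 0 := by
    intro R hR h0
    apply hR
    have : R = 0 := Polynomial.map_injective _ Subtype.val_injective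
      (by rw [h0, Polynomial.map_zero])
    rw [this, Polynomial.map_zero]
  rw [mapDomain_divisor_norm hsL hh (hne hP) (hne hQ) hPQ',
    mapDomain_divisor_norm hsM hb hP hQ h4, sub_eq_add_neg, Finsupp.mapDomain_add, mapDomain_neg',
    dvp_map φ.V φ.ρ P hP, dvp_map φ.V φ.ρ Q hQ, sub_eq_add_neg]

end Gauss

end Fermat.Agent.S26A
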