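import Fermat.Agent.S26A.Dom5
import Fermat.Agent.S26A.CT1a
import Fermat.Agent.RR.LSpace

/-!
# Curves on etale algebras over polynomial rings
-/

set_option autoImplicit false
set_option linter.style.haveILetI false

noncomputable section

namespace Fermat.Agent.S26A

universe u

open MvPolynomial TensorProduct AlgebraicIndependent IsLocalRing Fermat.Agent.RR
open scoped IntermediateField IntermediateField.algebraAdjoinAdjoin

/-- etale algebras over a domain are algebraic -/
theorem isAlgebraic_of_etale {P S : Type u} [CommRing P] [IsDomain P] [CommRing S] [Algebra P S]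
    [Algebra.Etale P S] (s : S) : IsAlgebraic P s := by
  let E := FractionRing P
  haveI : Module.Finite E (E ⊗[P] S) := Algebra.FormallyUnramified.finite_of_free E _
  have h1 : IsIntegral E ((1 : E) ⊗ₜ[P] s) := Algebra.IsIntegral.isIntegral _
  have h2 : IsAlgebraic P ((1 : E) ⊗ₜ[P] s) :=
    (IsFractionRing.isAlgebraic_iff P E (E ⊗[P] S)).2 h1.isAlgebraic
  have h3 : Function.Injective (Algebra.TensorProduct.includeRight : S →ₐ[P] E ⊗[P] S) :=
    Algebra.TensorProduct.includeRight_injective (IsFractionRing.injective P E)
  exact (isAlgebraic_algHom_iff (Algebra.TensorProduct.includeRight : S →ₐ[P] E ⊗[P] S) h3).1 h2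

/-- nontrivial flat algebras over domains are faithful -/
theorem injective_of_flat {P S : Type u} [CommRing P] [IsDomain P] [CommRing S] [Nontrivial S]
    [Algebra P S] [Module.Flat P S] : Function.Injective (algebraMap P S) := by
  rw [injective_iff_map_eq_zero]
  intro a h1
  by_contra h0
  have h2 : IsSMulRegular S a :=
    Module.Flat.isSMulRegular_of_nonZeroDivisors (mem_nonZeroDivisors_of_ne_zero h0)
  have h3 : (1 : S) = 0 := h2 (by
    change a • (1 : S) = a • (0 : S)
    rw [smul_zero, Algebra.smul_def, h1, zero_mul])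
  exact one_ne_zero h3

section Line

variable {K : Type u} [Field K] {g : ℕ} (a b : Fin g → K)

/-- the line through two points -/
def lineHom : MvPolynomial (Fin g) K →ₐ[K] MvPolynomial (Fin 1) K :=
  aeval (fun i => C (a i) + C (b i - a i) * X 0)

theorem aeval_zero_line (x : MvPolynomial (Fin g) K) :
    aeval (fun _ : Fin 1 => (0 : K)) (lineHom a b x) = aeval a x := by
  have : (aeval (fun _ : Fin 1 => (0 : K))).comp (lineHom a b) = aeval a := by
    apply MvPolynomial.algHom_ext
    intro i
    simp [lineHom]
  exact DFunLike.congr_fun this x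

theorem aeval_one_line (x : MvPolynomial (Fin g) K) :
    aeval (fun _ : Fin 1 => (1 : K)) (lineHom a b x) = aeval b x := by
  have : (aeval (fun _ : Fin 1 => (1 : K))).comp (lineHom a b) = aeval b := by
    apply MvPolynomial.algHom_ext
    intro i
    simp [lineHom]
  exact DFunLike.congr_fun this x

theorem exists_line [Infinite K] (x : MvPolynomial (Fin g) K) (hx : x ≠ 0) :
    ∃ b : Fin g → K, lineHom a b x ≠ 0 := by
  by_contra h
  push Not at h
  apply hx
  apply MvPolynomial.funext
  intro b
  rw [map_zero, ← MvPolynomial.coe_aeval_eq_eval]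
  change aeval b x = 0
  rw [← aeval_one_line a b x, h b, map_zero]

end Line

section Curve

variable {K : Type u} [Field K] {R : Type u} [CommRing R] [Algebra (MvPolynomial (Fin 1) K) R]
  [Algebra.Etale (MvPolynomial (Fin 1) K) R] [Algebra K R]
  [IsScalarTower K (MvPolynomial (Fin 1) K) R] (e : R →ₐ[K] K)

/-- the function field of an etale curve at a rational point -/
theorem exists_curve : ∃ (C : Type u) (_ : Field C) (_ : Algebra K C) (_ : FunField K C)
    (χ : R →ₐ[K] C) (o : Pl K C K), (∀ r : R, o.At (χ r) (e r)) ∧
      ∀ q : MvPolynomial (Fin 1) K, q ≠ 0 → χ (algebraMap _ R q) ≠ 0 := by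
  let p : Ideal R := RingHom.ker (e : R →+* K)
  haveI : p.IsPrime := RingHom.ker_isPrime _
  let D := Localization.AtPrime p
  haveI : IsDomain D := isDomain_localization_of_etale (P := MvPolynomial (Fin 1) K) (S := R) p
  have hunit : ∀ y : p.primeCompl, IsUnit ((e : R →+* K) y) := fun y =>
    isUnit_iff_ne_zero.2 fun h => y.2 h
  let ε : D →+* K := IsLocalization.lift hunit
  have hε : ∀ r : R, ε (algebraMap R D r) = e r := fun r => IsLocalization.lift_eq hunit r
  haveI : IsLocalHom ε := by
    refine ⟨fun d hd => ?_⟩
    obtain ⟨x, y, rfl⟩ := IsLocalization.exists_mk'_eq p.primeCompl d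
    by_contra h
    have h1 : IsLocalization.mk' D x y ∈ maximalIdeal D := h
    rw [IsLocalization.AtPrime.mk'_mem_maximal_iff D p] at h1
    have h2 : e x = 0 := h1
    have h3 : ε (IsLocalization.mk' D x y) * ε (algebraMap R D y) = 0 := by
      rw [← map_mul, IsLocalization.mk'_spec, hε, h2]
    rw [hε] at h3
    exact hd.ne_zero ((mul_eq_zero.1 h3).resolve_right (hunit y).ne_zero)
  haveI : IsScalarTower K R D := inferInstance
  have hεK : ∀ c : K, ε (algebraMap R _ (algebraMap (MvPolynomial (Fin 1) K) R (C c))) =
      algebraMap K K c := by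
    intro c
    rw [hε]
    have : algebraMap (MvPolynomial (Fin 1) K) R (C c) = algebraMap K R c :=
      (IsScalarTower.algebraMap_apply K (MvPolynomial (Fin 1) K) R c).symm
    rw [this, e.commutes]
  haveI : ValuationRing D := valuationRing_loc p ε hεK (fun i : Fin (1 - 1) => i.elim0) (by
    haveI : IsEmpty (Fin (1 - 1)) := ⟨fun i => i.elim0⟩
    rw [algebraicIndependent_empty_type_iff]
    exact Function.injective_id)
  let C := FractionRing D
  haveI : IsScalarTower K D C := inferInstance
  have hεc : ∀ c : K, ε (algebraMap K D c) = algebraMap K K c := fun c => by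
    rw [IsScalarTower.algebraMap_apply K R D, hε, e.commutes]
  let εA : D →ₐ[K] K := { ε with commutes' := hεc }
  let ιD : D →ₐ[K] C := IsScalarTower.toAlgHom K D C
  have hιD : Function.Injective ιD := IsFractionRing.injective D C
  have hok : Pl.PairOK ιD εA := by
    refine ⟨hιD, fun a => ?_⟩
    rcases ValuationRing.isInteger_or_isInteger D a with ⟨x, hx⟩ | ⟨y, hy⟩
    · refine ⟨x, 1, ?_, .inr ?_⟩
      · rw [map_one, one_mul]; exact hx.symm
      · rw [map_one]; exact one_ne_zero
    · by_cases h0 : a = 0
      · refine ⟨0, 1, ?_, .inr ?_⟩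
        · rw [map_one, one_mul, map_zero, h0]
        · rw [map_one]; exact one_ne_zero
      · refine ⟨1, y, ?_, .inl ?_⟩
        · change algebraMap D C y * a = _
          rw [hy, map_one, inv_mul_cancel₀ h0]
        · rw [map_one]; exact one_ne_zero
  let χ : R →ₐ[K] C := ιD.comp (IsScalarTower.toAlgHom K R D)
  haveI : Module.Flat (MvPolynomial (Fin 1) K) D := Module.Flat.trans (MvPolynomial (Fin 1) K) R D
  have hQD : Function.Injective (algebraMap (MvPolynomial (Fin 1) K) D) := injective_of_flat
  have hQ : ∀ q : MvPolynomial (Fin 1) K, q ≠ 0 → χ (algebraMap _ R q) ≠ 0 := by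
    intro q hq h
    apply hq
    apply hQD
    rw [map_zero]
    apply hιD
    rw [map_zero, ← h, IsScalarTower.algebraMap_apply (MvPolynomial (Fin 1) K) R D]
    rfl
  have hχev : ∀ c : K, (χ : R →+* C) (algebraMap (MvPolynomial (Fin 1) K) R (MvPolynomial.C c)) =
      algebraMap K C c := by
    intro c
    have : algebraMap (MvPolynomial (Fin 1) K) R (MvPolynomial.C c) = algebraMap K R c :=
      (IsScalarTower.algebraMap_apply K (MvPolynomial (Fin 1) K) R c).symm
    rw [this]
    exact χ.commutes c
  let t : C := χ (algebraMap (MvPolynomial (Fin 1) K) R (X 0))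
  have ht : Transcendental K t := by
    let ψ : MvPolynomial (Fin 1) K →ₐ[K] C := χ.comp (IsScalarTower.toAlgHom K _ R)
    have hψ : Function.Injective ψ := by
      rw [injective_iff_map_eq_zero]
      intro q hq
      by_contra h0
      exact hQ q h0 hq
    intro h
    exact MvPolynomial.transcendental_X K (0 : Fin 1) ((isAlgebraic_algHom_iff ψ hψ).1 h)
  have hr : Set.range (tv K 1 (χ : R →+* C)) = {t} := by
    rw [Set.range_unique]
    rfl
  have halg : ∀ r : R, IsIntegral K⟮t⟯ (χ r) := by
    intro r
    have h1 := isAlgebraic_ev (χ : R →+* C) hχev r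
    rw [IsFractionRing.isAlgebraic_iff (Algebra.adjoin K (Set.range (tv K 1 (χ : R →+* C))))
      (IntermediateField.adjoin K (Set.range (tv K 1 (χ : R →+* C)))) C, hr] at h1
    exact h1.isIntegral
  haveI : FiniteDimensional K⟮t⟯ C := by
    haveI : Algebra.FiniteType K R := Algebra.FiniteType.trans (S := MvPolynomial (Fin 1) K)
      inferInstance inferInstance
    obtain ⟨s, hs⟩ := (inferInstance : Algebra.FiniteType K R).out
    let s' : Set C := χ '' (s : Set R)
    haveI : Finite s' := (s.finite_toSet.image χ).to_subtype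
    have hfd : FiniteDimensional K⟮t⟯ (IntermediateField.adjoin K⟮t⟯ s') := by
      apply IntermediateField.finiteDimensional_adjoin
      rintro _ ⟨r, -, rfl⟩
      exact halg r
    have hmem : ∀ r : R, χ r ∈ IntermediateField.adjoin K⟮t⟯ s' := by
      intro r
      have h1 : χ r ∈ Algebra.adjoin K s' := by
        rw [← AlgHom.map_adjoin, hs]
        exact ⟨r, trivial, rfl⟩
      have h2 : Algebra.adjoin K s' ≤
          (IntermediateField.adjoin K⟮t⟯ s').toSubalgebra.restrictScalars K :=
        Algebra.adjoin_le (IntermediateField.subset_adjoin K⟮t⟯ s')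
      exact h2 h1
    have htop : IntermediateField.adjoin K⟮t⟯ s' = ⊤ := by
      refine eq_top_iff.2 fun z _ => ?_
      obtain ⟨d, d', hd', rfl⟩ := IsFractionRing.div_surjective D z
      have hD : ∀ d : D, algebraMap D C d ∈ IntermediateField.adjoin K⟮t⟯ s' := by
        intro d
        obtain ⟨x, y, rfl⟩ := IsLocalization.exists_mk'_eq p.primeCompl d
        have h1 : algebraMap D C (IsLocalization.mk' D x y) * χ y = χ x := by
          change algebraMap D C _ * algebraMap D C (algebraMap R D y) =
            algebraMap D C (algebraMap R D x)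
          rw [← map_mul, IsLocalization.mk'_spec]
        have h2 : χ y ≠ 0 := by
          have h3 : IsUnit (algebraMap R D y) := IsLocalization.map_units D y
          exact (h3.map (algebraMap D C)).ne_zero
        rw [eq_div_of_mul_eq h2 h1]
        exact div_mem (hmem x) (hmem y)
      exact div_mem (hD d) (hD d')
    rw [htop] at hfd
    exact (IntermediateField.topEquiv (F := K⟮t⟯) (E := C)).toLinearEquiv.finiteDimensional
  refine ⟨C, inferInstance, inferInstance, ⟨t, ht, inferInstance⟩, χ, Pl.ofPair ιD εA hok, fun r => ?_, hQ⟩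
  have h1 := Pl.ofPair_at_e hok (algebraMap R D r)
  have h2 : εA (algebraMap R D r) = e r := hε r
  rw [h2] at h1
  exact h1

end Curve

end Fermat.Agent.S26A
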