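import Fermat.Agent.S26A.Cv1

/-!
# Curves on etale algebras over polynomial rings, through a rational point, not in a divisor
-/

set_option autoImplicit false
set_option linter.style.haveILetI false

noncomputable section

namespace Fermat.Agent.S26A

universe u

open MvPolynomial TensorProduct AlgebraicIndependent IsLocalRing Fermat.Agent.RR

theorem exists_tensor_pt {K P Q S : Type u} [Field K] [CommRing P] [CommRing Q] [CommRing S]
    [Algebra K P] [Algebra K Q] [Algebra K S] [Algebra P Q] [Algebra P S] [IsScalarTower K P Q]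
    [IsScalarTower K P S] (e1 : Q →ₐ[K] K) (e2 : S →ₐ[K] K)
    (h : ∀ p : P, e1 (algebraMap P Q p) = e2 (algebraMap P S p)) :
    ∃ e : Q ⊗[P] S →ₐ[K] K, ∀ q s, e (q ⊗ₜ s) = e1 q * e2 s := by
  letI : Algebra P K := ((e1 : Q →+* K).comp (algebraMap P Q)).toAlgebra
  haveI : IsScalarTower K P K := by
    apply IsScalarTower.of_algebraMap_eq
    intro c
    change _ = e1 (algebraMap P Q (algebraMap K P c))
    rw [← IsScalarTower.algebraMap_apply K P Q, e1.commutes]
  let e1' : Q →ₐ[P] K := { e1 with commutes' := fun _ => rfl }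
  let e2' : S →ₐ[P] K := { e2 with commutes' := fun p => (h p).symm }
  refine ⟨(Algebra.TensorProduct.lift e1' e2' fun _ _ => Commute.all _ _).restrictScalars K,
    fun q s => ?_⟩
  change Algebra.TensorProduct.lift e1' e2' (fun _ _ => Commute.all _ _) (q ⊗ₜ s) = _
  rw [Algebra.TensorProduct.lift_tmul]
  rfl

variable {K : Type u} [Field K] [Infinite K] (g : ℕ) {S : Type u} [CommRing S] [IsDomain S]
  [Algebra (MvPolynomial (Fin g) K) S] [Algebra.Etale (MvPolynomial (Fin g) K) S] [Algebra K S]
  [IsScalarTower K (MvPolynomial (Fin g) K) S] (e0 : S →ₐ[K] K)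

include g in
theorem exists_curve_S (f : S) (hf : f ≠ 0) :
    ∃ (C : Type u) (_ : Field C) (_ : Algebra K C) (_ : FunField K C)
    (χ : S →ₐ[K] C) (o : Pl K C K), (∀ s : S, o.At (χ s) (e0 s)) ∧ χ f ≠ 0 := by
  let a : Fin g → K := fun i => e0 (algebraMap (MvPolynomial (Fin g) K) S (X i))
  have ha : ∀ x : MvPolynomial (Fin g) K, e0 (algebraMap _ S x) = aeval a x := by
    intro x
    have : e0.comp (IsScalarTower.toAlgHom K (MvPolynomial (Fin g) K) S) = aeval a := by
      apply MvPolynomial.algHom_ext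
      intro i
      rw [aeval_X]
      rfl
    exact DFunLike.congr_fun this x
  obtain ⟨r, hr0, hr⟩ := (isAlgebraic_of_etale (P := MvPolynomial (Fin g) K) f).exists_nonzero_dvd
    (mem_nonZeroDivisors_of_ne_zero hf)
  obtain ⟨b, hb⟩ := exists_line a r hr0
  letI : Algebra (MvPolynomial (Fin g) K) (MvPolynomial (Fin 1) K) :=
    (lineHom a b).toRingHom.toAlgebra
  haveI : IsScalarTower K (MvPolynomial (Fin g) K) (MvPolynomial (Fin 1) K) :=
    IsScalarTower.of_algebraMap_eq' (lineHom a b).comp_algebraMap.symm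
  let R := MvPolynomial (Fin 1) K ⊗[MvPolynomial (Fin g) K] S
  obtain ⟨e, he⟩ := exists_tensor_pt (P := MvPolynomial (Fin g) K)
    (aeval (fun _ : Fin 1 => (0 : K)) : MvPolynomial (Fin 1) K →ₐ[K] K) e0
    (fun x => (aeval_zero_line a b x).trans (ha x).symm)
  haveI : IsScalarTower K (MvPolynomial (Fin 1) K) R := inferInstance
  haveI : Algebra.Etale (MvPolynomial (Fin 1) K) R := inferInstance
  obtain ⟨C', _, _, hF, χ, o, ho, hq⟩ := exists_curve (R := R) e
  let iS : S →ₐ[K] R :=
    (Algebra.TensorProduct.includeRight : S →ₐ[MvPolynomial (Fin g) K] R).restrictScalars K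
  refine ⟨C', inferInstance, inferInstance, hF, χ.comp iS, o, fun s => ?_, ?_⟩
  · have h1 := ho (iS s)
    have h2 : e (iS s) = e0 s := by
      change e (1 ⊗ₜ s) = _
      rw [he, map_one, one_mul]
    rw [h2] at h1
    exact h1
  · intro h0
    obtain ⟨s, hs⟩ := hr
    have h1 := congrArg (χ.comp iS) hs
    rw [map_mul, h0, zero_mul] at h1
    apply hq _ hb
    rw [← h1]
    change χ ((lineHom a b r) ⊗ₜ[MvPolynomial (Fin g) K] (1 : S)) =
      χ ((1 : MvPolynomial (Fin 1) K) ⊗ₜ[MvPolynomial (Fin g) K] (algebraMap _ S r))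
    congr 1
    have h2 : (lineHom a b r : MvPolynomial (Fin 1) K) = r • (1 : MvPolynomial (Fin 1) K) := by
      rw [Algebra.smul_def, mul_one]
      rfl
    rw [h2, TensorProduct.smul_tmul, Algebra.smul_def, mul_one]

end Fermat.Agent.S26A
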