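import Fermat.Agent.S26A.Dom4

/-!
# Local rings of etale algebras over polynomial rings, codimension `≤ 1`
-/

set_option autoImplicit false
set_option linter.style.haveILetI false

namespace Fermat.Agent.S26A

universe u

open MvPolynomial TensorProduct AlgebraicIndependent IsLocalRing

section Alg

variable {K : Type u} [Field K] {g : ℕ} {S L : Type u} [CommRing S]
  [Algebra (MvPolynomial (Fin g) K) S] [Algebra.Etale (MvPolynomial (Fin g) K) S]
  [Field L] [Algebra K L] (p : Ideal S) [p.IsPrime]

/-- the maximal ideal comes from below -/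
theorem map_comap_eq_maximalIdeal :
    (p.comap (algebraMap (MvPolynomial (Fin g) K) S)).map
      (algebraMap (MvPolynomial (Fin g) K) (Localization.AtPrime p)) =
      maximalIdeal (Localization.AtPrime p) := by
  let q : Ideal (MvPolynomial (Fin g) K) := p.comap (algebraMap (MvPolynomial (Fin g) K) S)
  haveI : q.IsPrime := Ideal.comap_isPrime _ _
  haveI : p.LiesOver q := ⟨rfl⟩
  letI := Localization.AtPrime.algebraOfLiesOver q p
  haveI : Algebra.IsUnramifiedAt (MvPolynomial (Fin g) K) p := by
    have : Algebra.FormallyUnramified S (Localization.AtPrime p) :=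
      Algebra.FormallyUnramified.of_isLocalization p.primeCompl
    exact Algebra.FormallyUnramified.comp _ S _
  exact ((Algebra.isUnramifiedAt_iff_map_eq (MvPolynomial (Fin g) K) q p).1 inferInstance).2

omit [Algebra (MvPolynomial (Fin g) K) S] [Algebra.Etale (MvPolynomial (Fin g) K) S] in
theorem isNoetherianRing_loc (K : Type u) [Field K] (g : ℕ) [Algebra (MvPolynomial (Fin g) K) S]
    [Algebra.Etale (MvPolynomial (Fin g) K) S] : IsNoetherianRing (Localization.AtPrime p) := by
  haveI : IsNoetherianRing S := Algebra.FiniteType.isNoetherianRing (MvPolynomial (Fin g) K) S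
  exact IsLocalization.isNoetherianRing p.primeCompl _ inferInstance

variable (ε : Localization.AtPrime p →+* L) [IsLocalHom ε]
  (hε : ∀ c : K, ε (algebraMap S _ (algebraMap (MvPolynomial (Fin g) K) S (C c))) =
    algebraMap K L c)

include hε in
omit [IsLocalHom ε] in
theorem le_eRk_loc {m : ℕ} (y : Fin m → Localization.AtPrime p)
    (hy : AlgebraicIndependent K (fun i => ε (y i))) :
    (m : ℕ∞) ≤ (matroid K L).eRk (Set.range (tv K g (ε.comp (algebraMap S _)))) := by
  refine le_eRk _ _ hy fun i => ?_
  obtain ⟨a, b, h⟩ := IsLocalization.exists_mk'_eq p.primeCompl (y i)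
  have h1 : ε (y i) * ε (algebraMap S _ b) = ε (algebraMap S _ a) := by
    rw [← map_mul, ← h, IsLocalization.mk'_spec]
  have h2 : ε (algebraMap S _ b) ≠ 0 := by
    have h3 : IsUnit (algebraMap S (Localization.AtPrime p) b) := IsLocalization.map_units _ b
    exact (h3.map ε).ne_zero
  rw [eq_div_of_mul_eq h2 h1, div_eq_mul_inv]
  exact (isAlgebraic_ev (ε.comp (algebraMap S _)) hε a).mul
    (isAlgebraic_ev (ε.comp (algebraMap S _)) hε b).inv

include hε in
omit [Algebra.Etale (MvPolynomial (Fin g) K) S] in
/-- the prime below is the kernel of evaluation -/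
theorem comap_eq_ker :
    p.comap (algebraMap (MvPolynomial (Fin g) K) S) =
      RingHom.ker (aeval (tv K g (ε.comp (algebraMap S _))) : MvPolynomial (Fin g) K →ₐ[K] L) := by
  ext x
  rw [RingHom.mem_ker, ← ev_aeval (ε.comp (algebraMap S _)) hε x, Ideal.mem_comap]
  change _ ↔ ε (algebraMap S _ _) = 0
  rw [← IsLocalization.AtPrime.to_map_mem_maximal_iff (Localization.AtPrime p) p]
  exact ⟨fun h => by
    by_contra h0
    exact h (isUnit_of_map_unit ε _ (isUnit_iff_ne_zero.2 h0)), fun h h' => by
    have := h'.map ε
    rw [h] at this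
    exact not_isUnit_zero this⟩

include hε in
theorem isField_loc (y : Fin g → Localization.AtPrime p)
    (hy : AlgebraicIndependent K (fun i => ε (y i))) : IsField (Localization.AtPrime p) := by
  have h1 := indep_of_eRk _ (le_eRk_loc p ε hε y hy)
  rw [isField_iff_maximalIdeal_eq, ← map_comap_eq_maximalIdeal (K := K) (g := g) p,
    comap_eq_ker p ε hε]
  have h2 : RingHom.ker (aeval (tv K g (ε.comp (algebraMap S _))) : MvPolynomial (Fin g) K →ₐ[K] L)
      = ⊥ := (RingHom.injective_iff_ker_eq_bot _).1 h1
  rw [h2, Ideal.map_bot]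

include hε in
theorem valuationRing_loc (y : Fin (g - 1) → Localization.AtPrime p)
    (hy : AlgebraicIndependent K (fun i => ε (y i))) [IsDomain (Localization.AtPrime p)] :
    ValuationRing (Localization.AtPrime p) := by
  haveI : IsNoetherianRing (Localization.AtPrime p) := isNoetherianRing_loc p K g
  refine ((tfae_of_isNoetherianRing_of_isLocalRing_of_isDomain (Localization.AtPrime p)).out 4 1).1 ?_
  rw [← map_comap_eq_maximalIdeal (K := K) (g := g) p, comap_eq_ker p ε hε]
  suffices h : (RingHom.ker (aeval (tv K g (ε.comp (algebraMap S _))) :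
      MvPolynomial (Fin g) K →ₐ[K] L)).IsPrincipal by
    obtain ⟨a, ha⟩ := h
    refine ⟨algebraMap _ _ a, ?_⟩
    rw [ha]
    exact Ideal.map_span _ _ |>.trans (by rw [Set.image_singleton])
  have hbot : AlgebraicIndependent K (tv K g (ε.comp (algebraMap S _))) →
      (RingHom.ker (aeval (tv K g (ε.comp (algebraMap S _))) :
      MvPolynomial (Fin g) K →ₐ[K] L)).IsPrincipal := by
    intro h
    have h2 : RingHom.ker (aeval (tv K g (ε.comp (algebraMap S _))) :
      MvPolynomial (Fin g) K →ₐ[K] L) = ⊥ := (RingHom.injective_iff_ker_eq_bot _).1 h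
    rw [h2]
    infer_instance
  have h1 := le_eRk_loc p ε hε y hy
  rcases g with _ | n
  · exact hbot (indep_of_eRk _ (by simp))
  · rcases indep_of_eRk' _ (by simpa using h1) with h | ⟨j, hj⟩
    · exact hbot h
    · refine ker_principal_mv (aeval (tv K (n + 1) (ε.comp (algebraMap S _)))) j ?_
      simpa using hj

end Alg

end Fermat.Agent.S26A
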