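import Fermat.Agent.S26A.Sch1

/-!
# The function field, local rings, values
-/

set_option autoImplicit false
noncomputable section
universe u
open CategoryTheory CategoryTheory.Limits AlgebraicGeometry NeronModelInfra GoodReductionJacobian
open IsLocalRing

namespace Fermat.Agent.S26A

variable {K : Type u} [Field K] {A : Scheme.{u}} (f : A ⟶ Spec (CommRingCat.of K))

/-- the structure map `K → 𝒪_{A, a}` -/
def algK (a : A) : CommRingCat.of K ⟶ A.presheaf.stalk a :=
  (Scheme.ΓSpecIso (CommRingCat.of K)).inv ≫ f.appTop ≫ A.presheaf.germ ⊤ a trivial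

theorem fromSpecStalk_comp (a : A) : A.fromSpecStalk a ≫ f = Spec.map (algK f a) := by
  refine ext_of_isAffine ?_
  rw [Scheme.Hom.comp_appTop, Scheme.fromSpecStalk_appTop, algK]
  rw [← cancel_epi (Scheme.ΓSpecIso (CommRingCat.of K)).inv, ← Scheme.ΓSpecIso_inv_naturality]
  simp

theorem algK_specializes {a b : A} (h : a ⤳ b) :
    algK f b ≫ A.presheaf.stalkSpecializes h = algK f a := by
  simp [algK]

/-- the function field -/
def FF (_ : A ⟶ Spec (CommRingCat.of K)) [IsIntegral A] : Type u := A.functionField

variable [IsIntegral A]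

instance : Field (FF f) := inferInstanceAs (Field A.functionField)

instance : Algebra K (FF f) := RingHom.toAlgebra (algK f (genericPoint A)).hom

theorem algebraMap_FF (c : K) : algebraMap K (FF f) c = (algK f (genericPoint A)).hom c := rfl

/-- the local ring to the function field -/
def toFF (a : A) : A.presheaf.stalk a →+* FF f :=
  (A.presheaf.stalkSpecializes ((genericPoint_spec A).specializes trivial)).hom

theorem toFF_algK (a : A) (c : K) : toFF f a ((algK f a).hom c) = algebraMap K (FF f) c := by
  have h : genericPoint A ⤳ a := (genericPoint_spec A).specializes trivial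
  have := algK_specializes f h
  rw [algebraMap_FF, ← this]
  rfl

theorem toFF_injective (a : A) : Function.Injective (toFF f a) :=
  IsFractionRing.injective (A.presheaf.stalk a) A.functionField

theorem toFF_specializes {a b : A} (h : a ⤳ b) (s : A.presheaf.stalk b) :
    toFF f a ((A.presheaf.stalkSpecializes h).hom s) = toFF f b s := by
  have h' : genericPoint A ⤳ a := (genericPoint_spec A).specializes trivial
  have := A.presheaf.stalkSpecializes_comp h' h
  exact congrArg (fun t => t.hom s) this

/-- the local ring of a point inside the function field -/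
def OO (a : A) : Subalgebra K (FF f) where
  toSubsemiring := (toFF f a).rangeS
  algebraMap_mem' c := ⟨(algK f a).hom c, toFF_algK f a c⟩

theorem mem_OO {a : A} {x : FF f} : x ∈ OO f a ↔ ∃ s, toFF f a s = x := Iff.rfl

theorem OO_le_of_specializes {a b : A} (h : a ⤳ b) : OO f b ≤ OO f a := by
  rintro _ ⟨s, rfl⟩
  exact ⟨_, toFF_specializes f h s⟩

theorem OO_genericPoint : OO f (genericPoint A) = ⊤ := by
  refine eq_top_iff.2 fun x _ => ⟨x, ?_⟩
  have := A.presheaf.stalkSpecializes_refl (genericPoint A)
  exact congrArg (fun t => t.hom x) this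

/-- the local ring is the stalk -/
def eOO (a : A) : A.presheaf.stalk a ≃+* OO f a :=
  RingEquiv.ofBijective ((toFF f a).codRestrict (OO f a) fun s => ⟨s, rfl⟩)
    ⟨fun _ _ h => toFF_injective f a (congrArg Subtype.val h), fun ⟨_, s, hs⟩ => ⟨s, Subtype.ext hs⟩⟩

@[simp] theorem eOO_coe (a : A) (s : A.presheaf.stalk a) : ((eOO f a s : OO f a) : FF f) = toFF f a s := rfl

theorem toFF_eOO_symm (a : A) (x : OO f a) : toFF f a ((eOO f a).symm x) = x := by
  rw [← eOO_coe, RingEquiv.apply_symm_apply]

variable {f}

/-- the point of `A` -/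
def PT.pt {R : Type u} [CommRing R] [IsLocalRing R] [Algebra K R] (x : PT f R) : A :=
  x.1 (closedPoint R)

/-- the map on local rings -/
def PT.st {R : Type u} [CommRing R] [IsLocalRing R] [Algebra K R] (x : PT f R) :
    A.presheaf.stalk x.pt ⟶ CommRingCat.of R :=
  Scheme.stalkClosedPointTo (R := CommRingCat.of R) x.1

end Fermat.Agent.S26A
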