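import Fermat.Agent.S26A.Dom2
import Fermat.Agent.S26A.Dom5
import Fermat.Agent.S26A.Sch1a

/-!
# Local rings of smooth schemes, codimension `≤ 1`
-/

set_option autoImplicit false
set_option linter.style.haveILetI false

noncomputable section

namespace Fermat.Agent.S26A

universe u

open CategoryTheory AlgebraicGeometry TopologicalSpace MvPolynomial

variable {K : Type u} [Field K] {A : Scheme.{u}} (f : A ⟶ Spec (CommRingCat.of K))

theorem germ_stm (V : A.Opens) (x : A) (hx : x ∈ V) (c : K) :
    (A.presheaf.germ V x hx).hom (stm f V c) = (algK f x).hom c := by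
  have h : (Scheme.ΓSpecIso (CommRingCat.of K)).inv ≫ f.appLE ⊤ V le_top ≫
      A.presheaf.germ V x hx = algK f x := by
    rw [algK, Scheme.Hom.appLE]
    simp
  rw [← h]
  rfl

section Loc

variable (g : ℕ) [SmoothOfRelativeDimension g f] (x : A) {L : Type u} [Field L] [Algebra K L]
  (ε : A.presheaf.stalk x →+* L) [IsLocalHom ε]
  (hε : ∀ c : K, ε ((algK f x).hom c) = algebraMap K L c)

include hε in
theorem isField_stalk (y : Fin g → A.presheaf.stalk x)
    (hy : AlgebraicIndependent K (fun i => ε (y i))) : IsField (A.presheaf.stalk x) := by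
  obtain ⟨V, hV, hx, φ, hφ, hC⟩ := exists_chart f g x
  algebraize [φ]
  letI := A.presheaf.algebra_section_stalk (U := V) ⟨x, hx⟩
  haveI := hV.isLocalization_stalk ⟨x, hx⟩
  let p := (hV.primeIdealOf ⟨x, hx⟩).asIdeal
  let e : Localization.AtPrime p ≃ₐ[Γ(A, V)] A.presheaf.stalk x :=
    IsLocalization.algEquiv p.primeCompl _ _
  let ε' : Localization.AtPrime p →+* L := ε.comp (e : Localization.AtPrime p →+* _)
  haveI : IsLocalHom ε' := ⟨fun a ha => by
    have h1 : IsUnit (e a) := isUnit_of_map_unit ε _ ha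
    have h2 := h1.map e.symm
    rwa [AlgEquiv.symm_apply_apply] at h2⟩
  have hε' : ∀ c : K, ε' (algebraMap Γ(A, V) _ (algebraMap (MvPolynomial (Fin g) K) Γ(A, V)
      (C c))) = algebraMap K L c := by
    intro c
    change ε (e (algebraMap Γ(A, V) _ (φ (C c)))) = _
    rw [AlgEquiv.commutes, ← hε, ← germ_stm f V x hx c, ← hC]
    rfl
  have h3 := isField_loc p ε' hε' (fun i => e.symm (y i)) (by
    have h4 : ∀ i, ε' (e.symm (y i)) = ε (y i) := fun i => congrArg ε (e.apply_symm_apply _)
    simp only [h4]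
    exact hy)
  exact e.symm.toMulEquiv.isField h3

include hε in
theorem valuationRing_stalk (y : Fin (g - 1) → A.presheaf.stalk x) [IsDomain (A.presheaf.stalk x)]
    (hy : AlgebraicIndependent K (fun i => ε (y i))) : ValuationRing (A.presheaf.stalk x) := by
  obtain ⟨V, hV, hx, φ, hφ, hC⟩ := exists_chart f g x
  algebraize [φ]
  letI := A.presheaf.algebra_section_stalk (U := V) ⟨x, hx⟩
  haveI := hV.isLocalization_stalk ⟨x, hx⟩
  let p := (hV.primeIdealOf ⟨x, hx⟩).asIdeal
  let e : Localization.AtPrime p ≃ₐ[Γ(A, V)] A.presheaf.stalk x :=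
    IsLocalization.algEquiv p.primeCompl _ _
  let ε' : Localization.AtPrime p →+* L := ε.comp (e : Localization.AtPrime p →+* _)
  haveI : IsLocalHom ε' := ⟨fun a ha => by
    have h1 : IsUnit (e a) := isUnit_of_map_unit ε _ ha
    have h2 := h1.map e.symm
    rwa [AlgEquiv.symm_apply_apply] at h2⟩
  have hε' : ∀ c : K, ε' (algebraMap Γ(A, V) _ (algebraMap (MvPolynomial (Fin g) K) Γ(A, V)
      (C c))) = algebraMap K L c := by
    intro c
    change ε (e (algebraMap Γ(A, V) _ (φ (C c)))) = _
    rw [AlgEquiv.commutes, ← hε, ← germ_stm f V x hx c, ← hC]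
    rfl
  haveI : IsDomain (Localization.AtPrime p) := e.toMulEquiv.isDomain _
  have h3 := valuationRing_loc p ε' hε' (fun i => e.symm (y i)) (by
    have h4 : ∀ i, ε' (e.symm (y i)) = ε (y i) := fun i => congrArg ε (e.apply_symm_apply _)
    simp only [h4]
    exact hy)
  exact Function.Surjective.valuationRing (e : Localization.AtPrime p →+* A.presheaf.stalk x)
    e.surjective

variable [IsIntegral A]

include hε in
/-- points of full dimension are generic -/
theorem OO_eq_top (y : Fin g → A.presheaf.stalk x)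
    (hy : AlgebraicIndependent K (fun i => ε (y i))) : OO f x = ⊤ := by
  have h1 := isField_stalk f g x ε hε y hy
  refine eq_top_iff.2 fun z _ => ?_
  obtain ⟨a, b, hb, h2⟩ := IsFractionRing.div_surjective (A.presheaf.stalk x)
    (K := A.functionField) z
  obtain ⟨c, hc⟩ := h1.mul_inv_cancel (nonZeroDivisors.ne_zero hb)
  refine ⟨a * c, ?_⟩
  have h3 : toFF f x b * toFF f x c = 1 := by rw [← map_mul, hc, map_one]
  have h4 : toFF f x b ≠ 0 := left_ne_zero_of_mul_eq_one h3
  have h5 : toFF f x a / toFF f x b = z := h2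
  rw [map_mul, ← h5, div_eq_mul_inv, eq_inv_of_mul_eq_one_right h3]

include hε in
theorem OO_valuation (y : Fin (g - 1) → A.presheaf.stalk x)
    (hy : AlgebraicIndependent K (fun i => ε (y i))) (z : FF f) :
    z ∈ OO f x ∨ z⁻¹ ∈ OO f x := by
  haveI := valuationRing_stalk f g x ε hε y hy
  exact ValuationRing.isInteger_or_isInteger (A.presheaf.stalk x) (K := A.functionField) z

end Loc

section Gen

variable (g : ℕ) [SmoothOfRelativeDimension g f] [IsIntegral A]

/-- the generic chart -/
theorem exists_gen_chart : ∃ (S : Type u) (_ : CommRing S) (_ : Algebra (MvPolynomial (Fin g) K) S)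
    (_ : Algebra.Etale (MvPolynomial (Fin g) K) S) (ev : S →+* FF f),
    Function.Injective ev ∧
    (∀ c : K, ev (algebraMap (MvPolynomial (Fin g) K) S (C c)) = algebraMap K (FF f) c) ∧
    ∀ z : FF f, ∃ a b : S, ev b ≠ 0 ∧ ev a / ev b = z := by
  obtain ⟨V, hV, hx, φ, hφ, hC⟩ := exists_chart f g (genericPoint A)
  haveI : Nonempty V := ⟨⟨_, hx⟩⟩
  haveI := functionField_isFractionRing_of_isAffineOpen A V hV
  refine ⟨Γ(A, V), inferInstance, φ.toAlgebra, hφ, (A.presheaf.germ V _ hx).hom,
    germ_injective_of_isIntegral A _ hx, ?_, ?_⟩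
  · intro c
    rw [algebraMap_FF, ← germ_stm f V _ hx c, ← hC]
    rfl
  · intro z
    obtain ⟨a, b, hb, h⟩ := IsFractionRing.div_surjective Γ(A, V) (K := A.functionField) z
    refine ⟨a, b, ?_, h⟩
    intro h0
    have h1 := germ_injective_of_isIntegral A _ hx (h0.trans (map_zero _).symm)
    exact nonZeroDivisors.ne_zero hb h1

/-- the coordinates form a transcendence basis -/
theorem exists_tb : ∃ t : Fin g → FF f, IsTranscendenceBasis K t := by
  obtain ⟨S, _, _, _, ev, hinj, hev, hfr⟩ := exists_gen_chart f g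
  refine ⟨tv K g ev, isTranscendenceBasis_iff_algebraicIndependent_isAlgebraic.2 ⟨?_, ⟨?_⟩⟩⟩
  · rw [AlgebraicIndependent, injective_iff_map_eq_zero]
    intro a ha
    rw [← ev_aeval ev hev] at ha
    have h1 : algebraMap (MvPolynomial (Fin g) K) S a = 0 := hinj (ha.trans (map_zero ev).symm)
    by_contra h0
    have h2 : IsSMulRegular S a :=
      Module.Flat.isSMulRegular_of_nonZeroDivisors (mem_nonZeroDivisors_of_ne_zero h0)
    have h3 : (1 : S) = 0 := h2 (by
      change a • (1 : S) = a • (0 : S)
      rw [smul_zero, Algebra.smul_def, h1, zero_mul])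
    have h4 := congrArg ev h3
    rw [map_one, map_zero] at h4
    exact one_ne_zero h4
  · intro z
    obtain ⟨a, b, hb, rfl⟩ := hfr z
    rw [div_eq_mul_inv]
    exact (isAlgebraic_ev ev hev a).mul (isAlgebraic_ev ev hev b).inv

/-- **the transcendence degree of the function field** -/
theorem trdeg_FF : Algebra.trdeg K (FF f) = g := by
  obtain ⟨t, ht⟩ := exists_tb f g
  have h1 := ht.lift_cardinalMk_eq_trdeg
  rw [Cardinal.mk_fin, Cardinal.lift_natCast, Cardinal.lift_uzero] at h1
  exact h1.symm

include g in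
/-- **the function field is finitely generated** -/
theorem fg_FF : ∃ s : Finset (FF f), IntermediateField.adjoin K (s : Set (FF f)) = ⊤ := by
  obtain ⟨S, _, _, _, ev, hinj, hev, hfr⟩ := exists_gen_chart f g
  letI : Algebra K S := ((algebraMap (MvPolynomial (Fin g) K) S).comp C).toAlgebra
  haveI : IsScalarTower K (MvPolynomial (Fin g) K) S := IsScalarTower.of_algebraMap_eq' rfl
  haveI : Algebra.FiniteType K S := Algebra.FiniteType.trans (S := MvPolynomial (Fin g) K)
    inferInstance inferInstance
  let evK : S →ₐ[K] FF f := { ev with commutes' := hev }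
  obtain ⟨s, hs⟩ := (inferInstance : Algebra.FiniteType K S).out
  classical
  refine ⟨s.image evK, ?_⟩
  have h1 : ∀ a : S, ev a ∈ IntermediateField.adjoin K ((s.image evK : Finset (FF f)) : Set (FF f)) := by
    intro a
    apply IntermediateField.algebra_adjoin_le_adjoin
    rw [Finset.coe_image, ← AlgHom.map_adjoin, hs]
    exact ⟨a, trivial, rfl⟩
  refine eq_top_iff.2 fun z _ => ?_
  obtain ⟨a, b, hb, rfl⟩ := hfr z
  exact div_mem (h1 a) (h1 b)

end Gen

end Fermat.Agent.S26A
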