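import Fermat.Agent.S26A.Sch1c

/-!
# Specialization of values, generic point, descent
-/

set_option autoImplicit false
set_option linter.unusedSectionVars false
noncomputable section
universe u
open CategoryTheory CategoryTheory.Limits AlgebraicGeometry NeronModelInfra GoodReductionJacobian
open IsLocalRing

namespace Fermat.Agent.S26A.GSch

variable {K : Type u} [Field K] (X : GSch K) [IsProper X.f] [IsIntegral X.A]

section
variable {L M : Type u} [Field L] [Field M] [Algebra K L] [Algebra K M]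

theorem ev_of_spec (x : X.Pt L) {a : X.A} (h : X.ptt x ⤳ a) (s : X.A.presheaf.stalk a) :
    ∃ h' : toFF X.f a s ∈ X.O x, X.ev x ⟨toFF X.f a s, h'⟩ =
      X.stt x ((X.A.presheaf.stalkSpecializes h).hom s) := by
  have h1 := toFF_specializes X.f h s
  have h' : toFF X.f a s ∈ X.O x := ⟨_, h1⟩
  refine ⟨h', ?_⟩
  rw [← X.ev_toFF x _ (by rw [h1]; exact h')]
  congr 1
  exact Subtype.ext h1.symm

theorem map_at {R : Type u} [CommRing R] [IsLocalRing R] [Algebra K R] (y : X.Pt R)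
    (φ : R →ₐ[K] L) (s : X.A.presheaf.stalk (PT.pt (f := X.f) y)) :
    ∃ h' : toFF X.f _ s ∈ X.O (X.map φ y), X.ev (X.map φ y) ⟨_, h'⟩ =
      φ ((PT.st (f := X.f) y).hom s) := by
  obtain ⟨h, h1⟩ := PT.st_map (f := X.f) φ y
  obtain ⟨h', h2⟩ := X.ev_of_spec (X.map φ y) h s
  refine ⟨h', h2.trans ?_⟩
  exact congrArg (fun t => t.hom s) h1

theorem map_O (σ : L →ₐ[K] M) (x : X.Pt L) : X.O (X.pl (Pl.ofHom σ) x) = X.O x := by
  rw [pl_ofHom]
  have : IsLocalHom (σ : L →+* M) := inferInstance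
  have h : X.ptt (X.map σ x) = X.ptt x := PT.pt_map (f := X.f) σ x
  rw [O, O, h]

theorem pl_ev_lift (φ : Pl K L M) (y : X.Pt φ.V) (a : X.O (X.map φ.res y)) :
    ∃ h : (a : FF X.f) ∈ X.O (X.map φ.sub y),
      φ.At (X.ev (X.map φ.sub y) ⟨a, h⟩) (X.ev (X.map φ.res y) a) := by
  have h : X.ptt (X.map φ.res y) = PT.pt (f := X.f) y := PT.pt_map (f := X.f) φ.res y
  obtain ⟨a, ha⟩ := a
  have ha' : a ∈ OO X.f (PT.pt (f := X.f) y) := by
    rw [← h]
    exact ha
  obtain ⟨s, rfl⟩ := ha'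
  obtain ⟨h1, h2⟩ := X.map_at y φ.res s
  obtain ⟨h3, h4⟩ := X.map_at y φ.sub s
  refine ⟨h3, ?_⟩
  rw [h4, h2]
  exact ⟨Subtype.property _, rfl⟩

theorem pl_ev (φ : Pl K L M) (x : X.Pt L) (a : X.O (X.pl φ x)) :
    ∃ h : (a : FF X.f) ∈ X.O x, φ.At (X.ev x ⟨a, h⟩) (X.ev (X.pl φ x) a) := by
  obtain ⟨y, rfl⟩ := X.exists_lift φ x
  have h : X.pl φ (X.map φ.sub y) = X.map φ.res y := X.pl_of_lift φ _ y rfl
  revert a
  rw [h]
  exact fun a => X.pl_ev_lift φ y a

theorem sp_unique (φ : Pl K L M) (x : X.Pt L) (v : X.Pt M)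
    (hv : ∀ a : X.O v, ∃ h : (a : FF X.f) ∈ X.O x, φ.At (X.ev x ⟨a, h⟩) (X.ev v a)) :
    X.pl φ x = v := by
  have hle : OO X.f (X.ptt v) ≤ OO X.f (X.ptt x) := fun a ha => (hv ⟨a, ha⟩).1
  -- the homomorphism to `L`
  let θ₀ : X.A.presheaf.stalk (X.ptt v) →+* L := (X.stt x).comp (inc X.f hle).hom
  have hθ₀ : ∀ s, ∃ h, θ₀ s = X.ev x ⟨toFF X.f (X.ptt v) s, h⟩ := fun s => by
    have h1 := toFF_inc hle s
    have h' : toFF X.f (X.ptt v) s ∈ X.O x := ⟨_, h1⟩
    refine ⟨h', ?_⟩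
    have h2 := X.ev_toFF x ((inc X.f hle).hom s) (by rw [h1]; exact h')
    refine h2.symm.trans ?_
    congr 1
    exact Subtype.ext h1
  have hat : ∀ s, φ.At (θ₀ s) (X.stt v s) := fun s => by
    obtain ⟨h1, h2⟩ := hθ₀ s
    obtain ⟨h3, h4⟩ := hv ⟨toFF X.f (X.ptt v) s, ⟨s, rfl⟩⟩
    rw [h2, ← X.ev_toFF v s ⟨s, rfl⟩]
    exact h4
  let θ₁ : X.A.presheaf.stalk (X.ptt v) →+* φ.V :=
    θ₀.codRestrict φ.V.toSubring fun s => (hat s).1
  let θ : X.A.presheaf.stalk (X.ptt v) ⟶ CommRingCat.of φ.V := CommRingCat.ofHom θ₁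
  have hK : ∀ c : K, θ₀ ((algK X.f (X.ptt v)).hom c) = algebraMap K L c := fun c => by
    obtain ⟨h1, h2⟩ := hθ₀ ((algK X.f (X.ptt v)).hom c)
    rw [h2, ← (X.ev x).commutes c]
    congr 1
    exact Subtype.ext (toFF_algK X.f _ c)
  let w : X.Pt φ.V := PT.mk (f := X.f) (X.ptt v) θ (by
    ext c
    exact hK c)
  have hw1 : X.map φ.sub w = x := by
    apply Subtype.ext
    rw [← PT.st_spec (f := X.f) x]
    change Spec.map _ ≫ Spec.map θ ≫ _ = Spec.map _ ≫ X.A.fromSpecStalk (X.ptt x)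
    rw [← inc_spec hle, ← Category.assoc, ← Category.assoc, ← Spec.map_comp, ← Spec.map_comp]
    rfl
  have hw2 : X.map φ.res w = v := by
    apply Subtype.ext
    rw [← PT.st_spec (f := X.f) v]
    change Spec.map _ ≫ Spec.map θ ≫ _ = _
    rw [← Category.assoc, ← Spec.map_comp]
    congr 2
    ext s
    exact (hat s).2
  rw [X.pl_of_lift φ x w hw1, hw2]

/-- points are defined over the field generated by their values -/
theorem desc (x : X.Pt L) (E : IntermediateField K L) (hE : ∀ a : X.O x, X.ev x a ∈ E) :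
    ∃ x₀ : X.Pt E, X.pl (Pl.ofHom E.val) x₀ = x := by
  have hs : ∀ s, X.stt x s ∈ E.toSubfield.toSubring := fun s => by
    have := hE ⟨toFF X.f (X.ptt x) s, ⟨s, rfl⟩⟩
    rw [X.ev_toFF] at this
    exact this
  let θ₁ : X.A.presheaf.stalk (X.ptt x) →+* E := (X.stt x).codRestrict E.toSubfield.toSubring hs
  let θ : X.A.presheaf.stalk (X.ptt x) ⟶ CommRingCat.of E := CommRingCat.ofHom θ₁
  let w : X.Pt E := PT.mk (f := X.f) (X.ptt x) θ (by
    ext c
    exact X.stt_algK x c)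
  refine ⟨w, ?_⟩
  rw [pl_ofHom]
  apply Subtype.ext
  rw [← PT.st_spec (f := X.f) x]
  change Spec.map _ ≫ Spec.map θ ≫ _ = _
  rw [← Category.assoc, ← Spec.map_comp]
  rfl

end

/-- the identity of the function field -/
def idFF : X.A.presheaf.stalk (genericPoint X.A) ⟶ CommRingCat.of (FF X.f) :=
  CommRingCat.ofHom (RingHom.id X.A.functionField)

instance : IsLocalHom X.idFF.hom := inferInstanceAs (IsLocalHom (RingHom.id X.A.functionField))

/-- the generic point -/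
def gen : X.Pt (FF X.f) := PT.mk (f := X.f) (genericPoint X.A) X.idFF rfl

theorem ptt_gen : X.ptt X.gen = genericPoint X.A :=
  PT.pt_mk (f := X.f) (genericPoint X.A) X.idFF rfl

theorem O_gen : X.O X.gen = ⊤ := by
  rw [O, ptt_gen, OO_genericPoint]

theorem ev_gen (a : X.O X.gen) : X.ev X.gen a = a := by
  obtain ⟨a, ha⟩ := a
  obtain ⟨h, h1⟩ := PT.st_mk (f := X.f) (genericPoint X.A) X.idFF rfl
  obtain ⟨h2, h3⟩ := X.ev_of_spec X.gen h a
  have h4 : toFF X.f (genericPoint X.A) a = a :=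
    congrArg (fun t => t.hom a) (X.A.presheaf.stalkSpecializes_refl (genericPoint X.A))
  have h5 : (⟨a, ha⟩ : X.O X.gen) = ⟨toFF X.f (genericPoint X.A) a, h2⟩ := Subtype.ext h4.symm
  rw [h5, h3]
  refine Eq.trans ?_ h4.symm
  exact congrArg (fun t => t.hom a) h1

end Fermat.Agent.S26A.GSch
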