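import Fermat.Agent.S26A.Cv2
import Fermat.Agent.S26A.Sch1d
import Fermat.Agent.S26A.Dom6

/-!
# Curves through the origin, not in a divisor
-/

set_option autoImplicit false
set_option linter.style.haveILetI false

noncomputable section

namespace Fermat.Agent.S26A.GSch

universe u

open CategoryTheory AlgebraicGeometry TopologicalSpace MvPolynomial Fermat.Agent.RR

variable {K : Type u} [Field K] [Infinite K] (X : GSch K) [IsProper X.f] [IsIntegral X.A] (g : ℕ)
  [SmoothOfRelativeDimension g X.f]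

include g in
theorem exists_curve (z : X.Pt K) (f : X.O z) (hf : f ≠ 0) :
    ∃ (C : Type u) (_ : Field C) (_ : Algebra K C) (_ : FunField K C) (x : X.Pt C) (o : Pl K C K),
      X.pl o x = z ∧ ∀ h : (f : FF X.f) ∈ X.O x, X.ev x ⟨f, h⟩ ≠ 0 := by
  obtain ⟨_, s0, rfl⟩ := f
  let a := X.ptt z
  obtain ⟨V, hV, ha, φ, hφ, hC⟩ := exists_chart X.f g a
  haveI : Nonempty V := ⟨⟨a, ha⟩⟩
  letI : Algebra (MvPolynomial (Fin g) K) Γ(X.A, V) := φ.toAlgebra
  haveI : Algebra.Etale (MvPolynomial (Fin g) K) Γ(X.A, V) := hφ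
  letI : Algebra K Γ(X.A, V) := (stm X.f V).toAlgebra
  haveI : IsScalarTower K (MvPolynomial (Fin g) K) Γ(X.A, V) :=
    IsScalarTower.of_algebraMap_eq' hC.symm
  let gm : Γ(X.A, V) →+* X.A.presheaf.stalk a := (X.A.presheaf.germ V a ha).hom
  have hgm : ∀ c : K, gm (stm X.f V c) = (algK X.f a).hom c := germ_stm X.f V a ha
  let e0 : Γ(X.A, V) →ₐ[K] K :=
    { (X.stt z).comp gm with
      commutes' := fun c => by
        change X.stt z (gm (stm X.f V c)) = _
        rw [hgm, X.stt_algK] }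
  have he0 : ∀ s, X.stt z (gm s) = e0 s := fun _ => rfl
  letI := X.A.presheaf.algebra_section_stalk (U := V) ⟨a, ha⟩
  haveI hloc := hV.isLocalization_stalk ⟨a, ha⟩
  let p := (hV.primeIdealOf ⟨a, ha⟩).asIdeal
  have hgm' : ∀ s, algebraMap Γ(X.A, V) (X.A.presheaf.stalk a) s = gm s := fun _ => rfl
  have hu : ∀ u : p.primeCompl, e0 u ≠ 0 := fun u => by
    have h1 : IsUnit (algebraMap Γ(X.A, V) (X.A.presheaf.stalk a) u) :=
      IsLocalization.map_units (X.A.presheaf.stalk a) u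
    exact (h1.map (X.stt z)).ne_zero
  obtain ⟨s, u, hsu⟩ := IsLocalization.exists_mk'_eq p.primeCompl s0
  have hs : s ≠ 0 := by
    rintro rfl
    apply hf
    apply Subtype.ext
    change toFF X.f a s0 = 0
    rw [← hsu, IsLocalization.mk'_zero, map_zero]
  obtain ⟨C', _, _, hF, χ, o, ho, hχ⟩ := exists_curve_S g e0 s hs
  have hu' : ∀ u : p.primeCompl, IsUnit ((χ : Γ(X.A, V) →+* C') u) := fun u => by
    refine isUnit_iff_ne_zero.2 fun h0 => hu u ?_
    have h1 := ho u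
    have h2 : χ u = 0 := h0
    rw [h2] at h1
    exact h1.uniq o.at_zero
  let θ₀ : X.A.presheaf.stalk a →+* C' := IsLocalization.lift hu'
  have hθ₀ : ∀ s, θ₀ (gm s) = χ s := fun s => IsLocalization.lift_eq hu' s
  have hθK : ∀ c : K, θ₀ ((algK X.f a).hom c) = algebraMap K C' c := fun c => by
    rw [← hgm, hθ₀]
    exact χ.commutes c
  let x : X.Pt C' := PT.mk (f := X.f) a (CommRingCat.ofHom θ₀) (by
    ext c
    exact hθK c)
  obtain ⟨hx, hx'⟩ := PT.st_mk (f := X.f) (R := C') a (CommRingCat.ofHom θ₀) (by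
    ext c
    exact hθK c)
  have hev : ∀ t : X.A.presheaf.stalk a, ∃ h : toFF X.f a t ∈ X.O x,
      X.ev x ⟨toFF X.f a t, h⟩ = θ₀ t := by
    intro t
    obtain ⟨h1, h2⟩ := X.ev_of_spec x hx t
    refine ⟨h1, h2.trans ?_⟩
    exact congrArg (fun r => r.hom t) hx'
  refine ⟨C', inferInstance, inferInstance, hF, x, o, ?_, ?_⟩
  · apply X.sp_unique
    rintro ⟨_, t, rfl⟩
    obtain ⟨h1, h2⟩ := hev t
    refine ⟨h1, ?_⟩
    have h3 := X.ev_toFF z t ⟨t, rfl⟩
    obtain ⟨s', u', hsu'⟩ := IsLocalization.exists_mk'_eq p.primeCompl t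
    have h4 : t * gm u' = gm s' := by rw [← hsu', ← hgm', ← hgm', IsLocalization.mk'_spec]
    have h5 : θ₀ t = χ s' / χ u' := by
      have := congrArg θ₀ h4
      rw [map_mul, hθ₀, hθ₀] at this
      exact eq_div_of_mul_eq (hu' u').ne_zero this
    have h6 : X.stt z t = e0 s' / e0 u' := by
      have := congrArg (X.stt z) h4
      rw [map_mul, he0, he0] at this
      exact eq_div_of_mul_eq (hu u') this
    have h7 : o.At (X.ev x ⟨toFF X.f a t, h1⟩) (X.ev z ⟨toFF X.f a t, ⟨t, rfl⟩⟩) := by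
      rw [h2, h3, h5, h6, div_eq_mul_inv, div_eq_mul_inv]
      exact (ho s').mul ((ho u').inv (hu u'))
    exact h7
  · intro h
    obtain ⟨h1, h2⟩ := hev s0
    intro h0
    have h3 : X.ev x ⟨toFF X.f a s0, h1⟩ = 0 := h0
    rw [h2] at h3
    have h4 : s0 * gm u = gm s := by rw [← hsu, ← hgm', ← hgm', IsLocalization.mk'_spec]
    have h5 := congrArg θ₀ h4
    rw [map_mul, h3, zero_mul, hθ₀] at h5
    exact hχ h5.symm

end Fermat.Agent.S26A.GSch
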