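import Fermat.Agent.S26A.CT

/-!
# Generic points: definitions
-/

set_option autoImplicit false
set_option linter.style.haveILetI false

noncomputable section

namespace Fermat.Agent.S26A

universe u

open AlgebraicCurve

variable {K : Type u} [Field K]

/-- the rank (transcendence degree over `K`) of a subset of a field -/
def rkS (K : Type u) {L : Type u} [Field K] [Field L] [Algebra K L] (S : Set L) : ℕ∞ :=
  (AlgebraicIndependent.matroid K L).eRk S

/-- the values of a place -/
def Pl.vals {L M : Type u} [Field L] [Field M] [Algebra K L] [Algebra K M] (φ : Pl K L M) : Set M :=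
  {b | ∃ a, φ.At a b}

namespace AVar

variable {g : ℕ} (A : AVar K g)

section

variable {L M : Type u} [Field L] [Algebra K L] [Field M] [Algebra K M]

/-- base change of points -/
def inc (σ : L →ₐ[K] M) : A.P L →+ A.P M := A.pl (Pl.ofHom σ)

/-- the values at a point -/
def vals (x : A.P L) : Set L := Set.range (A.ev x)

/-- generic points -/
def Gen (x : A.P L) : Prop := A.O x = ⊤

/-- the embedding given by a generic point -/
def val (x : A.P L) (hx : A.Gen x) : A.F →ₐ[K] L :=
  (A.ev x).comp (AlgHom.codRestrict (AlgHom.id K A.F) (A.O x)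
    (fun f => by rw [show A.O x = ⊤ from hx]; exact Algebra.mem_top))

/-- `x` is generic over the algebraic closure of `S` -/
def GenOver (S : Set L) (x : A.P L) : Prop :=
  (g : ℕ∞) + rkS K S ≤ rkS K (S ∪ A.vals x)

end

section

variable {A} {j : Fin g} (T : CT K (A.FC j)) {L : Type u} [Field L] [Algebra K L] [IsAlgClosed L]

/-- the point `w + m ι(z)` over `cur L` -/
def wc (w : A.P L) (m : ℤ) : A.P (T.cur L) := A.inc (T.iL L) w + m • A.inc (T.iC L) (A.ι j)

open Classical in
/-- the divisor of zeros of `z ↦ f (w + m ι(z))` -/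
def Zd (w : A.P L) (m : ℤ) (f : A.F) : Pl K (A.FC j) L →₀ ℤ :=
  if h : A.Gen (wc T w m) then (T.div (A.val (wc T w m) h f)) ⊔ 0 else 0

/-- linear equivalence of divisors -/
def LEq (D D' : Pl K (A.FC j) L →₀ ℤ) : Prop := ∃ h : T.cur L, h ≠ 0 ∧ D - D' = T.div h

/-- the degree of a divisor -/
def dg {X : Type*} (D : X →₀ ℤ) : ℤ := D.sum fun _ n => n

end

end AVar

end Fermat.Agent.S26A
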