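import Fermat.Agent.S26A.PlExt
import Fermat.Agent.S26A.Pl

/-!
# Extension of places (E1), (E3)
-/

set_option autoImplicit false
set_option linter.style.haveILetI false

noncomputable section

namespace Fermat.Agent.S26A

open Polynomial

universe u

variable {K L M : Type u} [Field K] [Field L] [Field M] [Algebra K L] [Algebra K M]

/-- **(E1) extension of homomorphisms to places** -/
theorem exists_pl [IsAlgClosed M] (R : Subalgebra K L) (e : R →ₐ[K] M) :
    ∃ φ : Pl K L M, ∀ f : R, φ.At f (e f) := by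
  obtain ⟨V, ρ, h1, h2, h3⟩ := exists_valuation R.toSubring (e : R →+* M)
  have h4 : ∀ c : K, algebraMap K L c ∈ V := fun c => h1 _ (R.algebraMap_mem c)
  refine ⟨⟨V, ρ, h4, ?_, h3⟩, fun f => ⟨h1 _ f.2, h2 f⟩⟩
  intro c
  have := h2 ⟨algebraMap K L c, R.algebraMap_mem c⟩
  rw [this]
  exact e.commutes c

/-- **extension of places** -/
theorem exists_pl_ext [IsAlgClosed M] {L' : Type u} [Field L'] [Algebra K L'] (i : L →ₐ[K] L')
    (φ : Pl K L M) : ∃ ψ : Pl K L' M, ψ.comp (Pl.ofHom i) = φ := by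
  let R : Subalgebra K L' := (({ φ.V.toSubring with
    algebraMap_mem' := φ.mem' } : Subalgebra K L)).map i
  have hR : ∀ x : R, ∃ y : φ.V, i y = x := by
    rintro ⟨_, y, hy, rfl⟩
    exact ⟨⟨y, hy⟩, rfl⟩
  choose g hg using hR
  have hg' : ∀ (x : R) (y : φ.V), i y = x → g x = y := fun x y h =>
    Subtype.ext (i.injective ((hg x).trans h.symm))
  let e : R →ₐ[K] M :=
    { toFun := fun x => φ.ρ (g x)
      map_one' := by
        rw [hg' 1 1 (map_one i), map_one]
      map_zero' := by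
        rw [hg' 0 0 (map_zero i), map_zero]
      map_mul' := fun x y => by
        rw [hg' (x * y) (g x * g y) (by
          change i ((g x : L) * g y) = (x : L') * y
          rw [map_mul, hg, hg]), map_mul]
      map_add' := fun x y => by
        rw [hg' (x + y) (g x + g y) (by
          change i ((g x : L) + g y) = (x : L') + y
          rw [map_add, hg, hg]), map_add]
      commutes' := fun c => by
        rw [hg' (algebraMap K R c) ⟨algebraMap K L c, φ.mem' c⟩ (i.commutes c)]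
        exact φ.alg' c }
  obtain ⟨ψ, hψ⟩ := exists_pl R e
  refine ⟨ψ, (Pl.eq_of_at fun a b hab => ?_).symm⟩
  obtain ⟨ha, rfl⟩ := hab
  have h1 := hψ ⟨i a, ⟨a, ha, rfl⟩⟩
  have h2 : e ⟨i a, ⟨a, ha, rfl⟩⟩ = φ.ρ ⟨a, ha⟩ := by
    change φ.ρ (g _) = _
    rw [hg' ⟨i a, ⟨a, ha, rfl⟩⟩ ⟨a, ha⟩ rfl]
  rw [h2] at h1
  exact Pl.comp_at (Pl.ofHom_at i a) h1

/-- restriction of the base field of a place -/
def Pl.resK {L₀ : Type u} [Field L₀] [Algebra K L₀] [Algebra L₀ L] [IsScalarTower K L₀ L]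
    [Algebra L₀ M] [IsScalarTower K L₀ M] (φ : Pl L₀ L M) : Pl K L M where
  V := φ.V
  ρ := φ.ρ
  mem' c := by
    rw [IsScalarTower.algebraMap_apply K L₀ L]
    exact φ.mem' _
  alg' c := by
    rw [IsScalarTower.algebraMap_apply K L₀ M, ← φ.alg']
    congr 1
    exact Subtype.ext (IsScalarTower.algebraMap_apply K L₀ L c)
  inv' := φ.inv'

/-- elements algebraic over an algebraically closed field -/
theorem mem_range_of_alg {L₀ : Type*} [Field L₀] [IsAlgClosed L₀] {L : Type*} [Field L]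
    [Algebra L₀ L] {x : L} (hx : IsAlgebraic L₀ x) : x ∈ Set.range (algebraMap L₀ L) := by
  have h1 : (minpoly L₀ x).degree = 1 :=
    IsAlgClosed.degree_eq_one_of_irreducible L₀ (minpoly.irreducible hx.isIntegral)
  exact minpoly.mem_range_of_degree_eq_one L₀ x h1

/-- **(E3)** -/
theorem exists_pl_pole {L₀ : Type u} [Field L₀] [IsAlgClosed L₀] [Algebra K L₀] [Algebra L₀ L]
    [IsScalarTower K L₀ L] (h : L) (hh : h ∉ Set.range (algebraMap L₀ L)) :
    ∃ φ : Pl K L L₀, φ.comp (Pl.ofHom (IsScalarTower.toAlgHom K L₀ L)) = Pl.id K L₀ ∧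
      φ.At h⁻¹ 0 := by
  have htr : Transcendental L₀ h⁻¹ := by
    intro ha
    have h1 : IsAlgebraic L₀ h := by
      have := ha.inv
      rwa [inv_inv] at this
    exact hh (mem_range_of_alg h1)
  have hinj : Function.Injective (aeval (R := L₀) h⁻¹) := transcendental_iff_injective.1 htr
  let E := AlgEquiv.ofInjective (aeval (R := L₀) h⁻¹) hinj
  obtain ⟨φ, hφ⟩ := exists_pl (K := L₀) (L := L) (M := L₀) (aeval (R := L₀) h⁻¹).range
    ((aeval (R := L₀) (0 : L₀)).comp E.symm.toAlgHom)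
  have hφ' : ∀ p : L₀[X], φ.At (aeval h⁻¹ p) (aeval (0 : L₀) p) := by
    intro p
    have h1 := hφ (E p)
    have h2 : ((aeval (R := L₀) (0 : L₀)).comp E.symm.toAlgHom) (E p) = aeval (0 : L₀) p := by
      change aeval (0 : L₀) (E.symm (E p)) = _
      rw [E.symm_apply_apply]
    rw [h2] at h1
    exact h1
  refine ⟨φ.resK, ?_, ?_⟩
  · refine (Pl.eq_of_at fun a b hab => ?_).symm
    rw [hab.uniq (Pl.ofHom_at _ a)]
    refine Pl.comp_at (Pl.ofHom_at _ a) ?_
    have h1 := φ.at_alg a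
    exact h1
  · have h1 := hφ' X
    rw [aeval_X, aeval_X] at h1
    exact h1

end Fermat.Agent.S26A
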