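import Fermat.Agent.S26A.Def
import Fermat.Agent.S26A.Ext1

/-!
# Degrees: basic facts on places and points
-/

set_option autoImplicit false
set_option linter.style.haveILetI false
set_option linter.unusedSectionVars false

noncomputable section

namespace Fermat.Agent.S26A

universe u

namespace Pl

variable {K L M : Type u} [Field K] [Field L] [Field M] [Algebra K L] [Algebra K M]

theorem At.pow7 {φ : Pl K L M} {a : L} {b : M} (h : φ.At a b) (n : ℕ) : φ.At (a ^ n) (b ^ n) := by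
  induction n with
  | zero => rw [pow_zero, pow_zero]; exact φ.at_one
  | succ n ih => rw [pow_succ, pow_succ]; exact ih.mul h

theorem At.zpow7 {φ : Pl K L M} {a : L} {b : M} (h : φ.At a b) (hb : b ≠ 0) (n : ℤ) :
    φ.At (a ^ n) (b ^ n) := by
  obtain ⟨n, rfl | rfl⟩ := n.eq_nat_or_neg
  · rw [zpow_natCast, zpow_natCast]; exact h.pow7 n
  · rw [zpow_neg, zpow_neg, zpow_natCast, zpow_natCast]
    exact (h.pow7 n).inv (pow_ne_zero n hb)

theorem At.prod7 {φ : Pl K L M} {I : Type*} (s : Finset I) {a : I → L} {b : I → M}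
    (h : ∀ i ∈ s, φ.At (a i) (b i)) : φ.At (∏ i ∈ s, a i) (∏ i ∈ s, b i) := by
  classical
  induction s using Finset.induction_on with
  | empty => rw [Finset.prod_empty, Finset.prod_empty]; exact φ.at_one
  | insert i s hi ih =>
    rw [Finset.prod_insert hi, Finset.prod_insert hi]
    exact (h i (Finset.mem_insert_self i s)).mul (ih fun j hj => h j (Finset.mem_insert_of_mem hj))

theorem ofHom_at_iff7 {σ : L →ₐ[K] M} {a : L} {b : M} : (ofHom σ).At a b ↔ b = σ a :=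
  ⟨fun h => h.uniq (ofHom_at σ a), fun h => h ▸ ofHom_at σ a⟩

theorem ofHom_comp_inj7 {C : Type u} [Field C] [Algebra K C] (σ : L →ₐ[K] M) :
    Function.Injective (fun t : Pl K C L => (ofHom σ).comp t) := by
  intro t t' h
  refine eq_of_at fun a b hab => ?_
  have h1 : ((ofHom σ).comp t).At a (σ b) := comp_at hab (ofHom_at σ b)
  have h2 : ((ofHom σ).comp t').At a (σ b) := by
    have h' : (ofHom σ).comp t = (ofHom σ).comp t' := h
    rw [← h']; exact h1
  obtain ⟨b', hb', h3⟩ := comp_at_iff.1 h2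
  rw [ofHom_at_iff7] at h3
  rw [σ.injective h3]
  exact hb'

end Pl

namespace AVar

variable {K : Type u} [Field K] {g : ℕ} (A : AVar K g)
variable {L M N : Type u} [Field L] [Algebra K L] [Field M] [Algebra K M] [Field N] [Algebra K N]

theorem pl_inc7 (φ : Pl K M N) (σ : L →ₐ[K] M) (x : A.P L) :
    A.pl φ (A.inc σ x) = A.pl (φ.comp (Pl.ofHom σ)) x := (A.pl_comp φ (Pl.ofHom σ) x).symm

theorem inc_inc7 (τ : M →ₐ[K] N) (σ : L →ₐ[K] M) (x : A.P L) :
    A.inc τ (A.inc σ x) = A.inc (τ.comp σ) x := by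
  rw [inc, pl_inc7, Pl.ofHom_comp]
  rfl

theorem inc_pl7 (σ : M →ₐ[K] N) (φ : Pl K L M) (x : A.P L) :
    A.inc σ (A.pl φ x) = A.pl ((Pl.ofHom σ).comp φ) x := (A.pl_comp (Pl.ofHom σ) φ x).symm

variable {A}

theorem gen_of_pl7 (φ : Pl K L M) {x : A.P L} (h : A.Gen (A.pl φ x)) : A.Gen x := by
  rw [Gen, eq_top_iff]
  intro f _
  have hf : f ∈ A.O (A.pl φ x) := by rw [show A.O (A.pl φ x) = ⊤ from h]; exact Algebra.mem_top
  exact (A.pl_ev φ x ⟨f, hf⟩).1

theorem gen_inc7 (σ : L →ₐ[K] M) {x : A.P L} (hx : A.Gen x) : A.Gen (A.inc σ x) := by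
  rw [Gen, inc, A.map_O]
  exact hx

theorem val_at_ev7 (φ : Pl K L M) {x : A.P L} (hx : A.Gen x) {y : A.P M} (hy : A.pl φ x = y)
    {f : A.F} (hf : f ∈ A.O y) : φ.At (A.val x hx f) (A.ev y ⟨f, hf⟩) := by
  subst hy
  exact (A.pl_ev φ x ⟨f, hf⟩).2

theorem val_at7 (φ : Pl K L M) {x : A.P L} (hx : A.Gen x) {y : A.P M} (hy : A.pl φ x = y)
    (hy' : A.Gen y) (f : A.F) : φ.At (A.val x hx f) (A.val y hy' f) :=
  val_at_ev7 φ hx hy _

theorem val_inc7 (σ : L →ₐ[K] M) {x : A.P L} (hx : A.Gen x) {y : A.P M} (hy : A.inc σ x = y)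
    (hy' : A.Gen y) (f : A.F) : A.val y hy' f = σ (A.val x hx f) :=
  Pl.ofHom_at_iff7.1 (val_at7 (Pl.ofHom σ) hx hy hy' f)

theorem val_ne7 {x : A.P L} (hx : A.Gen x) {f : A.F} (hf : f ≠ 0) : A.val x hx f ≠ 0 :=
  (map_ne_zero (A.val x hx)).2 hf

/-- a generic point comes from the tautological point -/
theorem inc_val_gen7 {x : A.P L} (hx : A.Gen x) : A.inc (A.val x hx) A.gen = x := by
  apply A.sp_unique
  intro f
  have h1 : (f : A.F) ∈ A.O A.gen := by rw [A.O_gen]; exact Algebra.mem_top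
  refine ⟨h1, ?_⟩
  rw [A.ev_gen, Pl.ofHom_at_iff7]
  rfl

end AVar

section Wc

variable {K : Type u} [Field K] {g : ℕ} {A : AVar K g} {j : Fin g} (T : CT K (A.FC j))
  {L M : Type u} [Field L] [Algebra K L] [IsAlgClosed L] [Field M] [Algebra K M] [IsAlgClosed M]

open AVar

theorem cp_wc7 (φ : Pl K L M) (w : A.P L) (m : ℤ) :
    A.pl (T.cp φ) (wc T w m) = wc T (A.pl φ w) m := by
  rw [wc, wc, map_add, map_zsmul, pl_inc7, pl_inc7, T.cp_iL, T.cp_iC, inc_pl7]
  rfl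

theorem hat_wc7 (t : Pl K (A.FC j) L) (w : A.P L) (m : ℤ) :
    A.pl (T.hat t) (wc T w m) = w + m • A.pl t (A.ι j) := by
  rw [wc, map_add, map_zsmul, pl_inc7, pl_inc7, T.hat_iL, T.hat_iC, A.pl_id]

/-- the origin -/
def oL7 (A : AVar K g) (j : Fin g) (L : Type u) [Field L] [Algebra K L] : Pl K (A.FC j) L :=
  (Pl.ofHom (Algebra.ofId K L)).comp (A.o j)

theorem pl_oL7 (L : Type u) [Field L] [Algebra K L] : A.pl (oL7 A j L) (A.ι j) = 0 := by
  rw [oL7, A.pl_comp, A.ι_o, map_zero]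

theorem gen_wc7 {w : A.P L} (hw : A.Gen w) (m : ℤ) : A.Gen (wc T w m) := by
  apply gen_of_pl7 (T.hat (oL7 A j L))
  rw [hat_wc7, pl_oL7, smul_zero, add_zero]
  exact hw

theorem Zd_eq7 {w : A.P L} {m : ℤ} (h : A.Gen (wc T w m)) (f : A.F) :
    Zd T w m f = (T.div (A.val (wc T w m) h f)) ⊔ 0 := dif_pos h

end Wc

end Fermat.Agent.S26A
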