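import Fermat.Agent.S26A.Dg0

/-!
# Degrees: independence of the generic point
-/

set_option autoImplicit false
set_option linter.style.haveILetI false
set_option linter.unusedSectionVars false

noncomputable section

namespace Fermat.Agent.S26A

universe u

open AVar

section Finsupp

variable {X Y : Type*}

theorem mapDomain_sup7 {F : X → Y} (hF : Function.Injective F) (D : X →₀ ℤ) :
    (D ⊔ 0).mapDomain F = (D.mapDomain F) ⊔ 0 := by
  classical
  ext t
  by_cases ht : t ∈ Set.range F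
  · obtain ⟨s, rfl⟩ := ht
    rw [Finsupp.mapDomain_apply hF, Finsupp.sup_apply, Finsupp.sup_apply,
      Finsupp.mapDomain_apply hF]
    rfl
  · rw [Finsupp.mapDomain_notin_range _ _ ht, Finsupp.sup_apply, Finsupp.mapDomain_notin_range _ _ ht]
    rfl

theorem dg_mapDomain7 (F : X → Y) (D : X →₀ ℤ) : dg (D.mapDomain F) = dg D := by
  classical
  rw [dg, dg, Finsupp.sum_mapDomain_index (fun _ => rfl) (fun _ _ _ => rfl)]

theorem dg_add7 (D D' : X →₀ ℤ) : dg (D + D') = dg D + dg D' := by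
  classical
  exact Finsupp.sum_add_index' (fun _ => rfl) (fun _ _ _ => rfl)

theorem dg_zero7 : dg (0 : X →₀ ℤ) = 0 := Finsupp.sum_zero_index

/-- the degree as a homomorphism -/
def dgH (X : Type*) : (X →₀ ℤ) →+ ℤ where
  toFun := dg
  map_zero' := dg_zero7
  map_add' := dg_add7

theorem dgH_apply (D : X →₀ ℤ) : dgH X D = dg D := rfl

end Finsupp

variable {K : Type u} [Field K] {g : ℕ} {A : AVar K g} {j : Fin g} (T : CT K (A.FC j))
  {L M : Type u} [Field L] [Algebra K L] [IsAlgClosed L] [Field M] [Algebra K M] [IsAlgClosed M]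

theorem div_hom7 (σ : L →ₐ[K] M) {τ : T.cur L →ₐ[K] T.cur M}
    (h : T.cp (Pl.ofHom σ) = Pl.ofHom τ) {x : T.cur L} (hx : x ≠ 0) :
    T.div (τ x) = (T.div x).mapDomain (fun t => (Pl.ofHom σ).comp t) := by
  apply T.cp_div
  · exact (map_ne_zero τ).2 hx
  · rw [h]; exact Pl.ofHom_at τ x

theorem wc_inc7 (σ : L →ₐ[K] M) {τ : T.cur L →ₐ[K] T.cur M}
    (h : T.cp (Pl.ofHom σ) = Pl.ofHom τ) (w : A.P L) (m : ℤ) :
    A.inc τ (wc T w m) = wc T (A.inc σ w) m := by
  rw [inc, ← h, cp_wc7]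
  rfl

theorem Zd_inc7 (σ : L →ₐ[K] M) {w : A.P L} {m : ℤ} (hw : A.Gen (wc T w m)) {f : A.F}
    (hf : f ≠ 0) :
    Zd T (A.inc σ w) m f = (Zd T w m f).mapDomain (fun t => (Pl.ofHom σ).comp t) := by
  obtain ⟨τ, hτ⟩ := T.cp_hom σ
  have h1 := wc_inc7 T σ hτ w m
  have h2 : A.Gen (wc T (A.inc σ w) m) := by rw [← h1]; exact gen_inc7 τ hw
  rw [Zd_eq7 T h2, Zd_eq7 T hw, mapDomain_sup7 (Pl.ofHom_comp_inj7 σ),
    ← div_hom7 T σ hτ (val_ne7 hw hf), val_inc7 τ hw h1 h2]

/-- the tautological point over the algebraic closure -/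
def xt (A : AVar K g) : A.P (AlgebraicClosure A.F) :=
  A.inc (IsScalarTower.toAlgHom K A.F (AlgebraicClosure A.F)) A.gen

theorem gen_xt : A.Gen (xt A) := gen_inc7 _ A.O_gen

theorem exists_xt {x : A.P L} (hx : A.Gen x) :
    ∃ σ : AlgebraicClosure A.F →ₐ[K] L, A.inc σ (xt A) = x := by
  letI : Algebra A.F L := (A.val x hx).toRingHom.toAlgebra
  haveI : IsScalarTower K A.F L := IsScalarTower.of_algebraMap_eq fun c =>
    ((A.val x hx).commutes c).symm
  let σ : AlgebraicClosure A.F →ₐ[A.F] L := IsAlgClosed.lift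
  refine ⟨σ.restrictScalars K, ?_⟩
  rw [xt, inc_inc7]
  have h1 : (σ.restrictScalars K).comp (IsScalarTower.toAlgHom K A.F (AlgebraicClosure A.F)) =
      A.val x hx := by
    ext f
    exact σ.commutes f
  rw [h1, inc_val_gen7]

/-- **the degree does not depend on the generic point** -/
theorem dg_xt {x : A.P L} (hx : A.Gen x) (m : ℤ) {f : A.F} (hf : f ≠ 0) :
    dg (Zd T x m f) = dg (Zd T (xt A) m f) := by
  obtain ⟨σ, rfl⟩ := exists_xt hx
  rw [Zd_inc7 T σ (gen_wc7 T gen_xt m) hf, dg_mapDomain7]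

theorem dg_indep {x : A.P L} (hx : A.Gen x) {x' : A.P M} (hx' : A.Gen x') (m : ℤ) {f : A.F}
    (hf : f ≠ 0) : dg (Zd T x m f) = dg (Zd T x' m f) := by
  rw [dg_xt T hx m hf, dg_xt T hx' m hf]

/-- the degree of `y ↦ f(x + m ι(y))` -/
def qd (f : A.F) (m : ℤ) : ℤ := dg (Zd T (xt A) m f)

theorem dg_eq_qd {x : A.P L} (hx : A.Gen x) (m : ℤ) {f : A.F} (hf : f ≠ 0) :
    dg (Zd T x m f) = qd T f m := dg_xt T hx m hf

theorem div_one7 : T.div (1 : T.cur L) = 0 := by
  have := T.div_const (L := L) 1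
  rwa [map_one] at this

theorem div_inv7 {h : T.cur L} (hh : h ≠ 0) : T.div h⁻¹ = -T.div h := by
  have h1 := T.div_mul h h⁻¹ hh (inv_ne_zero hh)
  rw [mul_inv_cancel₀ hh, div_one7] at h1
  exact eq_neg_of_add_eq_zero_right h1.symm

theorem div_pow7 {h : T.cur L} (hh : h ≠ 0) (n : ℕ) : T.div (h ^ n) = n • T.div h := by
  induction n with
  | zero => rw [pow_zero, div_one7, zero_smul]
  | succ n ih => rw [pow_succ, T.div_mul _ _ (pow_ne_zero n hh) hh, ih, add_smul, one_smul]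

theorem div_zpow7 {h : T.cur L} (hh : h ≠ 0) (n : ℤ) : T.div (h ^ n) = n • T.div h := by
  obtain ⟨n, rfl | rfl⟩ := n.eq_nat_or_neg
  · rw [zpow_natCast, div_pow7 T hh, natCast_zsmul]
  · rw [zpow_neg, zpow_natCast, div_inv7 T (pow_ne_zero n hh), div_pow7 T hh, neg_smul,
      natCast_zsmul]

theorem div_prod7 {I : Type*} (s : Finset I) {h : I → T.cur L} (hh : ∀ i, h i ≠ 0) :
    T.div (∏ i ∈ s, h i) = ∑ i ∈ s, T.div (h i) := by
  classical
  induction s using Finset.induction_on with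
  | empty => rw [Finset.prod_empty, Finset.sum_empty, div_one7]
  | insert i s hi ih =>
    rw [Finset.prod_insert hi, Finset.sum_insert hi, T.div_mul _ _ (hh i)
      (Finset.prod_ne_zero_iff.2 fun i _ => hh i), ih]

/-- a function without zero or pole at a point has a nonzero value -/
theorem exists_hat7 {h : T.cur L} (hh : h ≠ 0) {t : Pl K (A.FC j) L} (h0 : T.div h t = 0) :
    ∃ b, b ≠ 0 ∧ (T.hat t).At h b := by
  obtain ⟨b, hb⟩ := (T.div_nonneg t h hh).1 h0.ge
  refine ⟨b, ?_, hb⟩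
  rintro rfl
  have := (T.div_pos t h hh).2 hb
  omega

theorem div_eq_zero7 {h : T.cur L} {t : Pl K (A.FC j) L} {b : L} (hb : b ≠ 0)
    (h0 : (T.hat t).At h b) : T.div h t = 0 := by
  have hh : h ≠ 0 := by
    rintro rfl
    exact hb (h0.uniq (T.hat t).at_zero)
  have h1 := (T.div_nonneg t h hh).2 ⟨b, h0⟩
  have h2 : ¬ 0 < T.div h t := fun h3 => hb (h0.uniq ((T.div_pos t h hh).1 h3))
  omega

end Fermat.Agent.S26A
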