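import Fermat.Agent.S26A.Dg1

/-!
# Degrees: descent and the local computation
-/

set_option autoImplicit false
set_option linter.style.haveILetI false
set_option linter.unusedSectionVars false

noncomputable section

namespace Fermat.Agent.S26A

universe u

open AVar

/-- an element fixed by all automorphisms has a power in the base field -/
theorem exists_pow_mem7 {E : Type u} [Field E] {x : AlgebraicClosure E}
    (h : ∀ σ : AlgebraicClosure E ≃ₐ[E] AlgebraicClosure E, σ x = x) :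
    ∃ (N : ℕ) (r : E), 0 < N ∧ x ^ N = algebraMap E (AlgebraicClosure E) r := by
  classical
  have h1 : (minpoly E x).natSepDegree = 1 := by
    rw [Polynomial.natSepDegree_eq_of_isAlgClosed (E := AlgebraicClosure E), Finset.card_eq_one]
    refine ⟨x, ?_⟩
    ext y
    rw [Multiset.mem_toFinset, Finset.mem_singleton,
      Polynomial.mem_aroots]
    constructor
    · rintro ⟨-, hy⟩
      obtain ⟨σ, hσ⟩ := minpoly.exists_algEquiv_of_root (Algebra.IsAlgebraic.isAlgebraic x) hy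
      rw [← hσ]
      have := h σ.symm
      rw [← hσ, AlgEquiv.symm_apply_apply] at this
      exact this
    · rintro rfl
      exact ⟨minpoly.ne_zero (Algebra.IsAlgebraic.isAlgebraic _).isIntegral, minpoly.aeval _ _⟩
  obtain ⟨q, hq⟩ := ExpChar.exists E
  obtain ⟨n, r, hr⟩ := (minpoly.natSepDegree_eq_one_iff_pow_mem q).1 h1
  exact ⟨q ^ n, r, expChar_pow_pos E q n, hr.symm⟩

namespace Pl

variable {K L M N : Type u} [Field K] [Field L] [Field M] [Algebra K L] [Algebra K M]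
  [Field N] [Algebra K N]

/-- units at a place -/
def Un (φ : Pl K L M) (a : L) : Prop := ∃ b, b ≠ 0 ∧ φ.At a b

theorem Un.mul {φ : Pl K L M} {a b : L} (ha : φ.Un a) (hb : φ.Un b) : φ.Un (a * b) := by
  obtain ⟨a', ha', h1⟩ := ha
  obtain ⟨b', hb', h2⟩ := hb
  exact ⟨_, mul_ne_zero ha' hb', h1.mul h2⟩

theorem Un.inv {φ : Pl K L M} {a : L} (ha : φ.Un a) : φ.Un a⁻¹ := by
  obtain ⟨a', ha', h1⟩ := ha
  exact ⟨_, inv_ne_zero ha', h1.inv ha'⟩

theorem Un.pow {φ : Pl K L M} {a : L} (ha : φ.Un a) (n : ℕ) : φ.Un (a ^ n) := by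
  obtain ⟨a', ha', h1⟩ := ha
  exact ⟨_, pow_ne_zero n ha', h1.pow7 n⟩

theorem un_ofHom {φ : Pl K M N} {σ : L →ₐ[K] M} {a : L} (h : φ.Un (σ a)) :
    (φ.comp (ofHom σ)).Un a := by
  obtain ⟨b, hb, h1⟩ := h
  exact ⟨b, hb, comp_at (ofHom_at σ a) h1⟩

theorem comp_ofId7 (φ : Pl K L M) :
    φ.comp (ofHom (Algebra.ofId K L)) = ofHom (Algebra.ofId K M) := by
  refine eq_of_at fun a b h => ?_
  obtain ⟨c, hc, h1⟩ := comp_at_iff.1 h
  rw [ofHom_at_iff7] at hc ⊢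
  subst hc
  exact h1.uniq (φ.at_alg a)

end Pl

section

variable {K : Type u} [Field K] {g : ℕ} {A : AVar K g} {j : Fin g} (T : CT K (A.FC j))
  {L M : Type u} [Field L] [Algebra K L] [IsAlgClosed L] [Field M] [Algebra K M] [IsAlgClosed M]

theorem comp_oL7 (φ : Pl K L M) : φ.comp (oL7 A j L) = oL7 A j M := by
  rw [oL7, ← Pl.comp_assoc, Pl.comp_ofId7]
  rfl

/-- the generic point of the curve, over an extension of `cur L` -/
def yy (e : T.cur L →ₐ[K] M) : Pl K (A.FC j) M := Pl.ofHom (e.comp (T.iC L))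

/-- the point `x + k ι(y)` -/
def ww (e : T.cur L →ₐ[K] M) (x : A.P L) (k : ℤ) : A.P M := A.inc e (wc T x k)

theorem pl_yy (e : T.cur L →ₐ[K] M) : A.pl (yy T e) (A.ι j) = A.inc e (A.inc (T.iC L) (A.ι j)) := by
  rw [inc_inc7]
  rfl

theorem ww_eq (e : T.cur L →ₐ[K] M) (x : A.P L) (k : ℤ) :
    ww T e x k = A.inc (e.comp (T.iL L)) x + k • A.pl (yy T e) (A.ι j) := by
  rw [ww, wc, map_add, map_zsmul, pl_yy, inc_inc7]

theorem ww_add (e : T.cur L →ₐ[K] M) (x : A.P L) (k l : ℤ) :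
    ww T e x (k + l) = ww T e x k + l • A.pl (yy T e) (A.ι j) := by
  rw [ww_eq, ww_eq, add_smul, add_assoc]

theorem gen_ww (e : T.cur L →ₐ[K] M) {x : A.P L} (hx : A.Gen x) (k : ℤ) :
    A.Gen (ww T e x k) := gen_inc7 e (gen_wc7 T hx k)

section

variable {T} {e : T.cur L →ₐ[K] M} {v : Pl K (A.FC j) L} {φ : Pl K M L}
  (hφ : φ.comp (Pl.ofHom e) = T.hat v)

include hφ

theorem phi_yy : φ.comp (yy T e) = v := by
  rw [yy, ← Pl.ofHom_comp, ← Pl.comp_assoc, hφ, T.hat_iC]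

theorem phi_ww (x : A.P L) (k : ℤ) : A.pl φ (ww T e x k) = x + k • A.pl v (A.ι j) := by
  rw [ww, pl_inc7, hφ, hat_wc7]

end

/-- **the local computation** -/
theorem local7 {e : T.cur L →ₐ[K] M} {v : Pl K (A.FC j) L} {φ : Pl K M L}
    (hφ : φ.comp (Pl.ofHom e) = T.hat v) {x : A.P L} (hx : A.Gen x)
    (D1 : ∀ k : ℤ, A.Gen (wc T (x + k • A.pl v (A.ι j)) 1))
    (D2 : ∀ (k : ℤ) (f : A.F),
      f ∈ A.O (x + k • A.pl v (A.ι j)) ∨ f⁻¹ ∈ A.O (x + k • A.pl v (A.ι j)))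
    {I : Type} [Fintype I] (κ ε : I → ℤ) {f : A.F} (hf : f ≠ 0) {h : T.cur M} (hh : h ≠ 0)
    (hdiv : T.div h = ∑ i, ε i • Zd T (ww T e x (κ i)) 1 f)
    {c0 : M} (hc0 : c0 ≠ 0) {b0 : T.cur L} (hb0 : b0 ≠ 0) (hcb : (T.cp φ).At (T.iL M c0 * h) b0)
    {Q : Pl K (A.FC j) M} {δ : ℤ} (hQ : A.pl Q (A.ι j) = δ • A.pl (yy T e) (A.ι j))
    {q : M} (hq : (T.hat Q).At h q) :
    ∃ G : T.cur L, G ≠ 0 ∧ T.div G v = ∑ i, ε i * Zd T x (κ i + δ) f v ∧
      φ.Un (c0 * q * (e G)⁻¹) := by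
  classical
  -- the specialization of `Q`
  have hQ' : A.pl (φ.comp Q) (A.ι j) = δ • A.pl v (A.ι j) := by
    rw [A.pl_comp, hQ, map_zsmul, ← A.pl_comp, phi_yy hφ]
  -- the functions
  have gH : ∀ k : ℤ, A.Gen (wc T x k) := fun k => gen_wc7 T hx k
  let H : ℤ → T.cur L := fun k => A.val (wc T x k) (gH k) f
  have hH : ∀ k, H k ≠ 0 := fun k => val_ne7 (gH k) hf
  have gF : ∀ k : ℤ, A.Gen (wc T (ww T e x k) 1) := fun k => gen_wc7 T (gen_ww T e hx k) 1
  let F : ℤ → T.cur M := fun k => A.val (wc T (ww T e x k) 1) (gF k) f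
  have hF : ∀ k, F k ≠ 0 := fun k => val_ne7 (gF k) hf
  let G : I → T.cur L := fun i => if f ∈ A.O (x + (κ i + δ) • A.pl v (A.ι j)) then H (κ i + δ) else 1
  let Φ : I → T.cur M := fun i => if f ∈ A.O (x + (κ i + δ) • A.pl v (A.ι j)) then F (κ i) else 1
  have hG : ∀ i, G i ≠ 0 := by
    intro i
    by_cases hi : f ∈ A.O (x + (κ i + δ) • A.pl v (A.ι j))
    · simp only [G, if_pos hi]; exact hH _
    · simp only [G, if_neg hi]; exact one_ne_zero
  have hΦ : ∀ i, Φ i ≠ 0 := by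
    intro i
    by_cases hi : f ∈ A.O (x + (κ i + δ) • A.pl v (A.ι j))
    · simp only [Φ, if_pos hi]; exact hF _
    · simp only [Φ, if_neg hi]; exact one_ne_zero
  -- values at `Q`
  have e1 : ∀ k : ℤ, A.pl (T.hat Q) (wc T (ww T e x k) 1) = ww T e x (k + δ) := by
    intro k
    rw [hat_wc7, one_smul, hQ, ww_add]
  have e2 : ∀ k : ℤ, (T.hat Q).At (F k) (e (H (k + δ))) := by
    intro k
    have h1 := val_at7 (T.hat Q) (gF k) (e1 k) (gen_ww T e hx (k + δ)) f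
    rwa [val_inc7 e (gH (k + δ)) (y := ww T e x (k + δ)) rfl] at h1
  have e3 : ∀ i, (T.hat Q).At (Φ i) (e (G i)) := by
    intro i
    by_cases hi : f ∈ A.O (x + (κ i + δ) • A.pl v (A.ι j))
    · simp only [Φ, G, if_pos hi]; exact e2 _
    · simp only [Φ, G, if_neg hi, map_one]; exact (T.hat Q).at_one
  -- values at `cp φ`
  have e4 : ∀ k : ℤ, A.pl (T.cp φ) (wc T (ww T e x k) 1) = wc T (x + k • A.pl v (A.ι j)) 1 := by
    intro k
    rw [cp_wc7, phi_ww hφ]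
  have e5 : ∀ i, (T.cp φ).Un (Φ i) := by
    intro i
    by_cases hi : f ∈ A.O (x + (κ i + δ) • A.pl v (A.ι j))
    · simp only [Φ, if_pos hi]
      exact ⟨_, val_ne7 (D1 (κ i)) hf, val_at7 (T.cp φ) (gF _) (e4 _) (D1 (κ i)) f⟩
    · simp only [Φ, if_neg hi]; exact ⟨1, one_ne_zero, (T.cp φ).at_one⟩
  -- divisors of `Φ` near `Q`
  have e6 : ∀ i, ∀ s : Pl K (A.FC j) M, φ.comp s = φ.comp Q →
      T.div (Φ i) s = Zd T (ww T e x (κ i)) 1 f s := by
    intro i s hs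
    have h1 : A.pl φ (A.pl (T.hat s) (wc T (ww T e x (κ i)) 1)) =
        x + (κ i + δ) • A.pl v (A.ι j) := by
      rw [hat_wc7, one_smul, map_add, phi_ww hφ, ← A.pl_comp, hs, hQ', add_smul, add_assoc]
    rw [Zd_eq7 T (gF (κ i)), Finsupp.sup_apply]
    by_cases hi : f ∈ A.O (x + (κ i + δ) • A.pl v (A.ι j))
    · simp only [Φ, if_pos hi]
      have h2 : f ∈ A.O (A.pl (T.hat s) (wc T (ww T e x (κ i)) 1)) := by
        rw [← h1] at hi
        exact (A.pl_ev φ _ ⟨f, hi⟩).1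
      have h3 : 0 ≤ T.div (F (κ i)) s :=
        (T.div_nonneg s _ (hF _)).2 ⟨_, val_at_ev7 (T.hat s) (gF _) rfl h2⟩
      exact (max_eq_left h3).symm
    · simp only [Φ, if_neg hi]
      have hi' := (D2 (κ i + δ) f).resolve_left hi
      have h2 : f⁻¹ ∈ A.O (A.pl (T.hat s) (wc T (ww T e x (κ i)) 1)) := by
        rw [← h1] at hi'
        exact (A.pl_ev φ _ ⟨f⁻¹, hi'⟩).1
      have h3 : 0 ≤ T.div (F (κ i))⁻¹ s := by
        have h4 := val_at_ev7 (T.hat s) (gF (κ i)) rfl h2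
        rw [map_inv₀] at h4
        exact (T.div_nonneg s _ (inv_ne_zero (hF _))).2 ⟨_, h4⟩
      rw [div_inv7 T (hF _), Finsupp.neg_apply] at h3
      rw [div_one7]
      exact (max_eq_right (by change T.div (F (κ i)) s ≤ 0; omega)).symm
  -- divisors of `G` at `v`
  have e7 : ∀ i, T.div (G i) v = Zd T x (κ i + δ) f v := by
    intro i
    have h1 : A.pl (T.hat v) (wc T x (κ i + δ)) = x + (κ i + δ) • A.pl v (A.ι j) := hat_wc7 T v x _
    rw [Zd_eq7 T (gH (κ i + δ)), Finsupp.sup_apply]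
    by_cases hi : f ∈ A.O (x + (κ i + δ) • A.pl v (A.ι j))
    · simp only [G, if_pos hi]
      have h3 : 0 ≤ T.div (H (κ i + δ)) v :=
        (T.div_nonneg v _ (hH _)).2 ⟨_, val_at_ev7 (T.hat v) (gH _) h1 hi⟩
      exact (max_eq_left h3).symm
    · simp only [G, if_neg hi]
      have hi' := (D2 (κ i + δ) f).resolve_left hi
      have h3 : 0 ≤ T.div (H (κ i + δ))⁻¹ v := by
        have h4 := val_at_ev7 (T.hat v) (gH (κ i + δ)) h1 hi'
        rw [map_inv₀] at h4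
        exact (T.div_nonneg v _ (inv_ne_zero (hH _))).2 ⟨_, h4⟩
      rw [div_inv7 T (hH _), Finsupp.neg_apply] at h3
      rw [div_one7]
      exact (max_eq_right (by change T.div (H (κ i + δ)) v ≤ 0; omega)).symm
  -- the products
  have hG' : (∏ i, G i ^ ε i) ≠ 0 := Finset.prod_ne_zero_iff.2 fun i _ => zpow_ne_zero _ (hG i)
  have hΦ' : (∏ i, Φ i ^ ε i) ≠ 0 := Finset.prod_ne_zero_iff.2 fun i _ => zpow_ne_zero _ (hΦ i)
  refine ⟨∏ i, G i ^ ε i, hG', ?_, ?_⟩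
  · rw [div_prod7 T _ fun i => zpow_ne_zero _ (hG i), Finsupp.finsetSum_apply]
    refine Finset.sum_congr rfl fun i _ => ?_
    rw [div_zpow7 T (hG i), Finsupp.smul_apply, e7 i, smul_eq_mul]
  · have hi0 : T.iL M c0 ≠ 0 := (map_ne_zero _).2 hc0
    have h1 : T.iL M c0 * h * (∏ i, Φ i ^ ε i)⁻¹ ≠ 0 :=
      mul_ne_zero (mul_ne_zero hi0 hh) (inv_ne_zero hΦ')
    have h2 : (T.cp φ).Un (∏ i, Φ i ^ ε i) := by
      choose b hb hb' using e5
      exact ⟨∏ i, b i ^ ε i, Finset.prod_ne_zero_iff.2 fun i _ => zpow_ne_zero _ (hb i),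
        Pl.At.prod7 _ fun i _ => (hb' i).zpow7 (hb i) _⟩
    obtain ⟨b, hb, hb'⟩ := h2
    have h3 : (T.cp φ).At (T.iL M c0 * h * (∏ i, Φ i ^ ε i)⁻¹) (b0 * b⁻¹) := hcb.mul (hb'.inv hb)
    obtain ⟨c, c', hc, hc', h4, h5, -⟩ := T.cp_hat φ _ _ (mul_ne_zero hb0 (inv_ne_zero hb)) h3 Q (by
      intro s hs
      rw [T.div_mul _ _ (mul_ne_zero hi0 hh) (inv_ne_zero hΦ'), T.div_mul _ _ hi0 hh, T.div_const,
        zero_add, div_inv7 T hΦ', div_prod7 T _ fun i => zpow_ne_zero _ (hΦ i), hdiv,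
        Finsupp.add_apply, Finsupp.neg_apply, Finsupp.finsetSum_apply, Finsupp.finsetSum_apply,
        ← sub_eq_add_neg, sub_eq_zero]
      refine Finset.sum_congr rfl fun i _ => ?_
      rw [div_zpow7 T (hΦ i), Finsupp.smul_apply, Finsupp.smul_apply, e6 i s hs])
    have h6 : (T.hat Q).At (∏ i, Φ i ^ ε i) (e (∏ i, G i ^ ε i)) := by
      rw [map_prod]
      refine Pl.At.prod7 _ fun i _ => ?_
      rw [map_zpow₀]
      exact (e3 i).zpow7 ((map_ne_zero e).2 (hG i)) _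
    have h7 : (T.hat Q).At (T.iL M c0) c0 := by
      have := Pl.ofHom_at (AlgHom.id K M) c0
      have h8 : ((T.hat Q).comp (Pl.ofHom (T.iL M))).At c0 c0 := by
        rw [T.hat_iL]; exact this
      obtain ⟨b', hb', h9⟩ := Pl.comp_at_iff.1 h8
      rwa [Pl.ofHom_at_iff7.1 hb'] at h9
    have h8 := (h7.mul hq).mul (h6.inv ((map_ne_zero e).2 hG'))
    rw [h4.uniq h8] at h5
    exact ⟨c', hc', h5⟩

end

end Fermat.Agent.S26A
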