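import Fermat.Agent.S26A.Dg2

/-!
# Degrees: third differences
-/

set_option autoImplicit false
set_option linter.style.haveILetI false
set_option linter.unusedSectionVars false

noncomputable section

namespace Fermat.Agent.S26A

universe u

open AVar

variable {K : Type u} [Field K] {g : ℕ} {A : AVar K g} {j : Fin g} (T : CT K (A.FC j))
  {L M : Type u} [Field L] [Algebra K L] [IsAlgClosed L] [Field M] [Algebra K M] [IsAlgClosed M]

theorem Zd_at_gen7 {w : A.P L} (hw : A.Gen w) {Q : Pl K (A.FC j) L}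
    (hQ : A.Gen (w + A.pl Q (A.ι j))) {f : A.F} (hf : f ≠ 0) : Zd T w 1 f Q = 0 := by
  have h1 : A.pl (T.hat Q) (wc T w 1) = w + A.pl Q (A.ι j) := by rw [hat_wc7, one_smul]
  have h2 := val_at7 (T.hat Q) (gen_wc7 T hw 1) h1 hQ f
  rw [Zd_eq7 T (gen_wc7 T hw 1), Finsupp.sup_apply, div_eq_zero7 T (val_ne7 hQ hf) h2]
  rfl

theorem ww_inc7 {e : T.cur L →ₐ[K] M} {σ : M →ₐ[K] M} (hσ : σ.comp e = e) (x : A.P L) (k : ℤ) :
    A.inc σ (ww T e x k) = ww T e x k := by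
  rw [ww, inc_inc7, hσ]

/-- values are multiplied by a constant -/
theorem desc7 {e : T.cur L →ₐ[K] M} {x : A.P L} (hx : A.Gen x)
    {I : Type} [Fintype I] (κ ε : I → ℤ) {f : A.F} (hf : f ≠ 0) {h : T.cur M} (hh : h ≠ 0)
    (hdiv : T.div h = ∑ i, ε i • Zd T (ww T e x (κ i)) 1 f)
    {σ : M →ₐ[K] M} (hσ : σ.comp e = e) :
    ∃ c : M, c ≠ 0 ∧ ∀ Q : Pl K (A.FC j) M, (Pl.ofHom σ).comp Q = Q → T.div h Q = 0 →
      ∀ q, (T.hat Q).At h q → σ q = c * q := by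
  classical
  obtain ⟨τ, hτ⟩ := T.cp_hom σ
  have hτh : τ h ≠ 0 := (map_ne_zero τ).2 hh
  have h1 : T.div (τ h) = T.div h := by
    rw [div_hom7 T σ hτ hh, hdiv, Finsupp.mapDomain_finsetSum]
    refine Finset.sum_congr rfl fun i _ => ?_
    rw [Finsupp.mapDomain_smul, ← Zd_inc7 T σ (gen_wc7 T (gen_ww T e hx (κ i)) 1) hf,
      ww_inc7 T hσ]
  have h2 : T.div (τ h * h⁻¹) = 0 := by
    rw [T.div_mul _ _ hτh (inv_ne_zero hh), div_inv7 T hh, h1, add_neg_cancel]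
  obtain ⟨c, hc⟩ := T.const_of_div (τ h * h⁻¹) fun t => by rw [h2]; rfl
  have h3 : τ h = T.iL M c * h := by rw [← hc, mul_assoc, inv_mul_cancel₀ hh, mul_one]
  have hc0 : c ≠ 0 := by
    rintro rfl
    rw [map_zero, zero_mul] at h3
    exact hτh h3
  refine ⟨c, hc0, fun Q hQ h0 q hq => ?_⟩
  obtain ⟨a, a', -, -, h4, h5, h6⟩ := T.cp_hat (Pl.ofHom σ) h (τ h) hτh
    (by rw [hτ]; exact Pl.ofHom_at τ h) Q (by
      intro s hs
      rw [Pl.ofHom_comp_inj7 σ hs]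
      exact h0)
  rw [hQ] at h6
  have h7 : a' = σ a := Pl.ofHom_at_iff7.1 h5
  have h8 : a = q := h4.uniq hq
  have h9 : (T.hat Q).At (T.iL M c) c := by
    have h8 : ((T.hat Q).comp (Pl.ofHom (T.iL M))).At c c := by
      rw [T.hat_iL]; exact Pl.ofHom_at (AlgHom.id K M) c
    obtain ⟨b', hb', h9⟩ := Pl.comp_at_iff.1 h8
    rwa [Pl.ofHom_at_iff7.1 hb'] at h9
  rw [h3] at h6
  have h10 := h6.uniq (h9.mul hq)
  rw [← h8, ← h7, h10, h8]

/-- the embedding of `cur L` in its algebraic closure -/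
def e7 (L : Type u) [Field L] [Algebra K L] [IsAlgClosed L] :
    T.cur L →ₐ[K] AlgebraicClosure (T.cur L) :=
  IsScalarTower.toAlgHom K (T.cur L) (AlgebraicClosure (T.cur L))

theorem dg_smul7 {X : Type*} (n : ℤ) (D : X →₀ ℤ) : dg (n • D) = n * dg D := by
  rw [← dgH_apply, map_zsmul, dgH_apply, smul_eq_mul]

theorem dg_sub7 {X : Type*} (D D' : X →₀ ℤ) : dg (D - D') = dg D - dg D' := by
  rw [← dgH_apply, map_sub, dgH_apply, dgH_apply]

theorem dg_sum7 {X I : Type*} (s : Finset I) (D : I → X →₀ ℤ) :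
    dg (∑ i ∈ s, D i) = ∑ i ∈ s, dg (D i) := by
  rw [← dgH_apply, map_sum]
  rfl

/-- **the product formula for `h(y) / h(o)`** -/
theorem main7 {x : A.P L} (hx : A.Gen x)
    (D1 : ∀ (v : Pl K (A.FC j) L) (k : ℤ), A.Gen (wc T (x + k • A.pl v (A.ι j)) 1))
    (D2 : ∀ (v : Pl K (A.FC j) L) (k : ℤ) (f : A.F),
      f ∈ A.O (x + k • A.pl v (A.ι j)) ∨ f⁻¹ ∈ A.O (x + k • A.pl v (A.ι j)))
    {I : Type} [Fintype I] (κ ε : I → ℤ) {f : A.F} (hf : f ≠ 0)
    {h : T.cur (AlgebraicClosure (T.cur L))} (hh : h ≠ 0)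
    (hdiv : T.div h = ∑ i, ε i • Zd T (ww T (e7 T L) x (κ i)) 1 f) :
    ∑ i, ε i * (dg (Zd T x (κ i + 1) f) - dg (Zd T x (κ i) f)) = 0 := by
  classical
  -- values of `h` at `y` and `o`
  have ho : T.div h (oL7 A j _) = 0 := by
    rw [hdiv, Finsupp.finsetSum_apply]
    refine Finset.sum_eq_zero fun i _ => ?_
    rw [Finsupp.smul_apply, Zd_at_gen7 T (gen_ww T _ hx _) _ hf, smul_zero]
    rw [pl_oL7, add_zero]
    exact gen_ww T _ hx _
  have hy : T.div h (yy T (e7 T L)) = 0 := by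
    rw [hdiv, Finsupp.finsetSum_apply]
    refine Finset.sum_eq_zero fun i _ => ?_
    rw [Finsupp.smul_apply, Zd_at_gen7 T (gen_ww T _ hx _) _ hf, smul_zero]
    have := ww_add T (e7 T L) x (κ i) 1
    rw [one_smul] at this
    rw [← this]
    exact gen_ww T _ hx _
  obtain ⟨qy, hqy, hqy'⟩ := exists_hat7 T hh hy
  obtain ⟨qo, hqo, hqo'⟩ := exists_hat7 T hh ho
  -- descent
  obtain ⟨N, r, hN, hr⟩ := exists_pow_mem7 (E := T.cur L) (x := qy * qo⁻¹) (by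
    intro σ
    have hσ : (AlgHom.restrictScalars K σ.toAlgHom).comp (e7 T L) = e7 T L := by
      ext a
      exact σ.commutes a
    obtain ⟨c, hc, hc'⟩ := desc7 T hx κ ε hf hh hdiv hσ
    have h1 := hc' (yy T (e7 T L)) (by
      rw [yy, Pl.ofHom_comp, ← AlgHom.comp_assoc, hσ]) hy qy hqy'
    have h2 := hc' (oL7 A j _) (comp_oL7 _) ho qo hqo'
    have h3 : ∀ a, (AlgHom.restrictScalars K σ.toAlgHom) a = σ a := fun _ => rfl
    rw [h3] at h1 h2
    rw [map_mul, map_inv₀, h1, h2, mul_inv, mul_mul_mul_comm, mul_inv_cancel₀ hc, one_mul])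
  have hr0 : r ≠ 0 := by
    rintro rfl
    rw [map_zero] at hr
    exact pow_ne_zero N (mul_ne_zero hqy (inv_ne_zero hqo)) hr
  -- the divisor of `r`
  have key : T.div r = (N : ℤ) • ∑ i, ε i • (Zd T x (κ i + 1) f - Zd T x (κ i) f) := by
    ext v
    obtain ⟨φ, hφ⟩ := exists_pl_ext (e7 T L) (T.hat v)
    obtain ⟨c0, b0, hc0, hb0, hcb⟩ := T.scale φ h hh
    obtain ⟨Gy, hGy, hGy', hUy⟩ := local7 T hφ hx (D1 v) (D2 v) κ ε hf hh hdiv hc0 hb0 hcb
      (Q := yy T (e7 T L)) (δ := 1) (by rw [one_smul]) hqy'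
    obtain ⟨Go, hGo, hGo', hUo⟩ := local7 T hφ hx (D1 v) (D2 v) κ ε hf hh hdiv hc0 hb0 hcb
      (Q := oL7 A j _) (δ := 0) (by rw [zero_smul, pl_oL7]) hqo'
    have h1 : φ.Un ((qy * qo⁻¹) * (e7 T L (Go * Gy⁻¹))) := by
      have h2 := hUy.mul hUo.inv
      have h3 : c0 * qy * (e7 T L Gy)⁻¹ * (c0 * qo * (e7 T L Go)⁻¹)⁻¹ =
          (qy * qo⁻¹) * (e7 T L (Go * Gy⁻¹)) := by
        have h4 : e7 T L Gy ≠ 0 := (map_ne_zero _).2 hGy
        have h5 : e7 T L Go ≠ 0 := (map_ne_zero _).2 hGo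
        rw [map_mul, map_inv₀]
        field_simp
      rwa [h3] at h2
    have h2 : φ.Un (e7 T L (r * (Go * Gy⁻¹) ^ N)) := by
      have h3 := h1.pow N
      rw [mul_pow, hr, ← map_pow] at h3
      rw [map_mul]
      exact h3
    have h3 := Pl.un_ofHom h2
    rw [hφ] at h3
    obtain ⟨b, hb, hb'⟩ := h3
    have h4 := div_eq_zero7 T hb hb'
    have h5 : Go * Gy⁻¹ ≠ 0 := mul_ne_zero hGo (inv_ne_zero hGy)
    rw [T.div_mul _ _ hr0 (pow_ne_zero N h5), div_pow7 T h5, T.div_mul _ _ hGo (inv_ne_zero hGy),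
      div_inv7 T hGy, Finsupp.add_apply, Finsupp.smul_apply, Finsupp.add_apply, Finsupp.neg_apply,
      hGo', hGy', nsmul_eq_mul] at h4
    rw [Finsupp.smul_apply, Finsupp.finsetSum_apply, smul_eq_mul]
    have h6 : ∑ i, (ε i • (Zd T x (κ i + 1) f - Zd T x (κ i) f)) v =
        ∑ i, ε i * Zd T x (κ i + 1) f v - ∑ i, ε i * Zd T x (κ i + 0) f v := by
      rw [← Finset.sum_sub_distrib]
      refine Finset.sum_congr rfl fun i _ => ?_
      rw [Finsupp.smul_apply, Finsupp.sub_apply, smul_eq_mul, mul_sub, add_zero]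
    rw [h6]
    linear_combination h4
  have h1 : dg (T.div r) = 0 := T.deg_div r
  rw [key, dg_smul7, dg_sum7] at h1
  have h2 : (N : ℤ) ≠ 0 := by exact_mod_cast hN.ne'
  rw [← (mul_eq_zero.1 h1).resolve_left h2]
  refine Finset.sum_congr rfl fun i _ => ?_
  rw [dg_smul7, dg_sub7]

theorem qd_zero7 {f : A.F} : qd T f 0 = 0 := by
  have h1 : wc T (xt A) 0 = A.inc (T.iL _) (xt A) := by rw [wc, zero_smul, add_zero]
  rw [qd, Zd_eq7 T (gen_wc7 T gen_xt 0), val_inc7 (T.iL _) gen_xt h1.symm, T.div_const]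
  have : ((0 : Pl K (A.FC j) (AlgebraicClosure A.F) →₀ ℤ) ⊔ 0) = 0 := sup_idem 0
  rw [this, dg_zero7]

theorem quad7 (q : ℤ → ℤ) (h0 : q 0 = 0)
    (h3 : ∀ m, q (m + 3) - 3 * q (m + 2) + 3 * q (m + 1) - q m = 0) :
    ∃ α β : ℚ, ∀ m : ℤ, (q m : ℚ) = α * m ^ 2 + β * m := by
  refine ⟨q 2 / 2 - q 1, 2 * q 1 - q 2 / 2, ?_⟩
  set α : ℚ := q 2 / 2 - q 1 with hα
  set β : ℚ := 2 * q 1 - q 2 / 2 with hβ
  have h3' : ∀ m : ℤ, (q (m + 3) : ℚ) - 3 * q (m + 2) + 3 * q (m + 1) - q m = 0 := fun m => by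
    exact_mod_cast h3 m
  have key : ∀ m : ℤ, ((q m : ℚ) = α * m ^ 2 + β * m) ∧
      ((q (m + 1) : ℚ) = α * (m + 1) ^ 2 + β * (m + 1)) ∧
      ((q (m + 2) : ℚ) = α * (m + 2) ^ 2 + β * (m + 2)) := by
    intro m
    induction m using Int.induction_on with
    | zero =>
      refine ⟨?_, ?_, ?_⟩
      · rw [h0]; push_cast; ring
      · rw [zero_add]; push_cast; rw [hα, hβ]; ring
      · rw [zero_add]; push_cast; rw [hα, hβ]; ring
    | succ m ih =>
      obtain ⟨i1, i2, i3⟩ := ih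
      have h4 := h3' m
      refine ⟨?_, ?_, ?_⟩
      · rw [i2]; push_cast; ring
      · rw [show (m : ℤ) + 1 + 1 = m + 2 by ring, i3]; push_cast; ring
      · rw [show (m : ℤ) + 1 + 2 = m + 3 by ring]
        have : (q ((m : ℤ) + 3) : ℚ) = 3 * q ((m : ℤ) + 2) - 3 * q ((m : ℤ) + 1) + q m := by
          linear_combination h4
        rw [this, i1, i2, i3]; push_cast; ring
    | pred m ih =>
      obtain ⟨i1, i2, i3⟩ := ih
      have h4 := h3' (-(m : ℤ) - 1)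
      rw [show -(m : ℤ) - 1 + 3 = -(m : ℤ) + 2 by ring, show -(m : ℤ) - 1 + 2 = -(m : ℤ) + 1 by ring,
        show -(m : ℤ) - 1 + 1 = -(m : ℤ) by ring] at h4
      refine ⟨?_, ?_, ?_⟩
      · have : (q (-(m : ℤ) - 1) : ℚ) = q (-(m : ℤ) + 2) - 3 * q (-(m : ℤ) + 1) + 3 * q (-(m : ℤ)) := by
          linear_combination -h4
        rw [this, i1, i2, i3]; push_cast; ring
      · rw [show -(m : ℤ) - 1 + 1 = -(m : ℤ) by ring, i1]; push_cast; ring
      · rw [show -(m : ℤ) - 1 + 2 = -(m : ℤ) + 1 by ring, i2]; push_cast; ring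
  exact fun m => (key m).1

/-- **degrees are quadratic** -/
theorem degree_quadratic_of7 {f : A.F} (hf : f ≠ 0)
    (D1 : ∀ (v : Pl K (A.FC j) (AlgebraicClosure A.F)) (k : ℤ),
      A.Gen (wc T (xt A + k • A.pl v (A.ι j)) 1))
    (D2 : ∀ (v : Pl K (A.FC j) (AlgebraicClosure A.F)) (k : ℤ) (f : A.F),
      f ∈ A.O (xt A + k • A.pl v (A.ι j)) ∨ f⁻¹ ∈ A.O (xt A + k • A.pl v (A.ι j)))
    (hsq : ∀ (L : Type u) [Field L] [Algebra K L] [IsAlgClosed L] (x : A.P L)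
      (t y : Pl K (A.FC j) L), A.Gen x → A.Gen (x + A.pl t (A.ι j)) →
      A.Gen (x + A.pl y (A.ι j)) → A.Gen (x + A.pl t (A.ι j) + A.pl y (A.ι j)) →
      LEq T (Zd T (x + A.pl t (A.ι j) + A.pl y (A.ι j)) 1 f + Zd T x 1 f)
        (Zd T (x + A.pl t (A.ι j)) 1 f + Zd T (x + A.pl y (A.ι j)) 1 f)) :
    ∃ α β : ℚ, ∀ {L : Type u} [Field L] [Algebra K L] [IsAlgClosed L] {x : A.P L}, A.Gen x →
      ∀ m : ℤ, (dg (Zd T x m f) : ℚ) = α * m ^ 2 + β * m := by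
  obtain ⟨α, β, h⟩ := quad7 (qd T f) (qd_zero7 T) (by
    intro m
    let e := e7 T (AlgebraicClosure A.F)
    have gw : ∀ k : ℤ, A.Gen (ww T e (xt A) k) := fun k => gen_ww T e gen_xt k
    have e1 : ww T e (xt A) m + A.pl (yy T e) (A.ι j) = ww T e (xt A) (m + 1) := by
      rw [ww_add, one_smul]
    have e2 : ww T e (xt A) (m + 1) + A.pl (yy T e) (A.ι j) = ww T e (xt A) (m + 2) := by
      rw [show m + 2 = m + 1 + 1 by ring, ww_add T e _ (m + 1), one_smul]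
    have h1 := hsq (AlgebraicClosure (T.cur (AlgebraicClosure A.F))) (ww T e (xt A) m)
      (yy T e) (yy T e) (gw m) (by rw [e1]; exact gw _) (by rw [e1]; exact gw _)
      (by rw [e1, e2]; exact gw _)
    rw [e1, e2] at h1
    obtain ⟨h, hh, hdiv⟩ := h1
    have h2 := main7 T gen_xt D1 D2 (I := Fin 3) ![m + 2, m, m + 1] ![1, 1, -2] hf hh (by
      rw [← hdiv, Fin.sum_univ_three]
      simp only [Matrix.cons_val_zero, Matrix.cons_val_one, Matrix.cons_val_two, Matrix.head_cons,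
        Matrix.tail_cons]
      module)
    rw [Fin.sum_univ_three] at h2
    simp only [Matrix.cons_val_zero, Matrix.cons_val_one, Matrix.cons_val_two, Matrix.head_cons,
      Matrix.tail_cons] at h2
    rw [show m + 2 + 1 = m + 3 by ring, show m + 1 + 1 = m + 2 by ring] at h2
    simp only [qd]
    linear_combination h2)
  refine ⟨α, β, fun hx m => ?_⟩
  rw [dg_eq_qd T hx m hf, h m]

end Fermat.Agent.S26A
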