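import Fermat.Agent.S26A.Dim
import Fermat.Agent.S26A.Ext1

/-!
# Genericity of `x + k ι(v) + ι(z)`
-/

set_option autoImplicit false
set_option linter.style.haveILetI false
set_option linter.unusedSectionVars false

noncomputable section

namespace Fermat.Agent.S26A

universe u

open IntermediateField

namespace AVar

variable {K : Type u} [Field K] [IsAlgClosed K] {g : ℕ} {A : AVar K g} {j : Fin g}
  (T : CT K (A.FC j)) {L M : Type u} [Field L] [Algebra K L] [IsAlgClosed L]
  [Field M] [Algebra K M] [IsAlgClosed M]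

theorem iC_ne_iL {t : A.FC j} (ht : Transcendental K t) (c : L) : T.iC L t ≠ T.iL L c := by
  intro h
  have hinj : Function.Injective (Polynomial.aeval t : Polynomial K →ₐ[K] A.FC j) :=
    transcendental_iff_injective.1 ht
  let e0 : Polynomial K ≃ₐ[K] (Polynomial.aeval t : Polynomial K →ₐ[K] A.FC j).range :=
    AlgEquiv.ofInjective _ hinj
  let e : (Polynomial.aeval t : Polynomial K →ₐ[K] A.FC j).range →ₐ[K] L :=
    (Polynomial.aeval (0 : L)).comp e0.symm.toAlgHom
  obtain ⟨s, hs⟩ := exists_pl _ e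
  have h1 : s.At t 0 := by
    have h2 := hs (e0 Polynomial.X)
    have h3 : e (e0 Polynomial.X) = 0 := by
      change Polynomial.aeval (0 : L) (e0.symm (e0 Polynomial.X)) = 0
      rw [AlgEquiv.symm_apply_apply, Polynomial.aeval_X]
    rw [h3] at h2
    have h4 : ((e0 Polynomial.X : (Polynomial.aeval t : Polynomial K →ₐ[K] A.FC j).range) :
        A.FC j) = t := by
      change Polynomial.aeval t Polynomial.X = t
      rw [Polynomial.aeval_X]
    rw [h4] at h2
    exact h2
  have h5 : (T.hat s).At (T.iC L t) 0 := by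
    have h6 := T.hat_iC s
    rw [← h6] at h1
    obtain ⟨b, hb, hb'⟩ := Pl.comp_at_iff.1 h1
    rwa [hb.uniq (Pl.ofHom_at _ _)] at hb'
  have h7 : (T.hat s).At (T.iL L c) c := by
    have h8 : ((T.hat s).comp (Pl.ofHom (T.iL L))).At c c := by
      rw [T.hat_iL s]
      exact Pl.ofHom_at _ _
    obtain ⟨b, hb, hb'⟩ := Pl.comp_at_iff.1 h8
    rwa [hb.uniq (Pl.ofHom_at _ _)] at hb'
  rw [h] at h5
  have h9 : c = 0 := h7.uniq h5
  rw [h9, map_zero, ← map_zero (T.iC L)] at h
  have h10 := (T.iC L).injective h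
  rw [h10] at ht
  exact ht (isAlgebraic_zero)

/-- independence of `L` and `C` in `cur L` -/
theorem rk_cur (S : Set L) :
    rkS K S + 1 ≤ rkS K (T.iL L '' S ∪ Set.range (T.iC L)) := by
  obtain ⟨t, ht, -⟩ := (A.ffC j).out
  have h1 : rkS K S + 1 ≤ rkS K (insert (T.iC L t) (T.iL L '' S)) := by
    refine ENat.forall_natCast_le_iff_le.1 fun n hn => ?_
    rcases Nat.eq_zero_or_pos n with rfl | hn0
    · simp
    obtain ⟨n, rfl⟩ : ∃ k, n = k + 1 := ⟨n - 1, by omega⟩
    have hn' : (n : ℕ∞) ≤ rkS K S := by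
      have : (n : ℕ∞) + 1 ≤ rkS K S + 1 := by exact_mod_cast hn
      exact (ENat.add_le_add_iff_right ENat.one_ne_top).1 this
    obtain ⟨v, hv, hv'⟩ := le_rkS_iff.1 hn'
    have h2 : AlgebraicIndependent K (T.iL L ∘ v) := hv'.map' (T.iL L).injective
    have h3 : Transcendental (Algebra.adjoin K (Set.range (T.iL L ∘ v))) (T.iC L t) := by
      intro hal
      letI : Algebra L (T.cur L) := (T.iL L).toRingHom.toAlgebra
      have h4 : IsAlgebraic L (T.iC L t) := by
        obtain ⟨p, hp, hp'⟩ := hal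
        have hA : ∀ a : Algebra.adjoin K (Set.range (T.iL L ∘ v)), ∃ c : L,
            T.iL L c = (a : T.cur L) := by
          rintro ⟨a, ha⟩
          have : Algebra.adjoin K (Set.range (T.iL L ∘ v)) ≤ (T.iL L).range := by
            refine Algebra.adjoin_le ?_
            rintro _ ⟨i, rfl⟩
            exact ⟨v i, rfl⟩
          exact this ha
        have hinjL : ∀ a b : L, T.iL L a = T.iL L b → a = b := fun _ _ h => (T.iL L).injective h
        let ψ : Algebra.adjoin K (Set.range (T.iL L ∘ v)) →+* L :=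
          { toFun := fun a => (hA a).choose
            map_one' := hinjL _ _ (by rw [(hA 1).choose_spec, map_one]; rfl)
            map_mul' := fun a b => hinjL _ _ (by
              rw [(hA (a * b)).choose_spec, map_mul, (hA a).choose_spec, (hA b).choose_spec]; rfl)
            map_zero' := hinjL _ _ (by rw [(hA 0).choose_spec, map_zero]; rfl)
            map_add' := fun a b => hinjL _ _ (by
              rw [(hA (a + b)).choose_spec, map_add, (hA a).choose_spec, (hA b).choose_spec]; rfl) }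
        have hψ : ∀ a, T.iL L (ψ a) = (a : T.cur L) := fun a => (hA a).choose_spec
        have hψi : Function.Injective ψ := by
          intro a b hab
          apply Subtype.ext
          rw [← hψ a, ← hψ b, hab]
        refine ⟨p.map ψ, (Polynomial.map_ne_zero_iff hψi).2 hp, ?_⟩
        rw [Polynomial.aeval_def, Polynomial.eval₂_map]
        rw [Polynomial.aeval_def] at hp'
        rw [← hp']
        congr 1
        ext a
        exact hψ a
      obtain ⟨c, hc⟩ := mem_range_of_alg h4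
      exact iC_ne_iL T ht c hc.symm
    have h5 := (h2.option_iff_transcendental (T.iC L t)).2 h3
    let e : Fin (n + 1) ≃ Option (Fin n) := finSuccEquiv n
    refine le_rkS_iff.2 ⟨fun i => (e i).elim (T.iC L t) (T.iL L ∘ v), fun i => ?_,
      h5.comp e e.injective⟩
    change (e i).elim (T.iC L t) (T.iL L ∘ v) ∈ insert (T.iC L t) (T.iL L '' S)
    cases e i with
    | none => exact Set.mem_insert _ _
    | some k => exact Set.mem_insert_of_mem _ ⟨_, hv k, rfl⟩
  refine h1.trans (rkS_mono ?_)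
  intro a ha
  rcases Set.mem_insert_iff.1 ha with rfl | ha
  · exact .inr ⟨t, rfl⟩
  · exact .inl ha

/-- (D2) -/
theorem vr_add {x : A.P L} (hx : A.Gen x) (v : Pl K (A.FC j) L) (k : ℤ) (f : A.F) :
    f ∈ A.O (x + k • A.pl v (A.ι j)) ∨ f⁻¹ ∈ A.O (x + k • A.pl v (A.ι j)) := by
  refine A.vr_of_rk ?_ f
  rw [← A.rk_of_gen hx]
  exact (A.rk_le_rk_add x (A.pl v (A.ι j)) k).trans (add_le_add_right (rk_pt_le v) _)

theorem vals_iC : A.vals (A.inc (T.iC L) (A.ι j)) ⊆ Set.range (T.iC L) := by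
  rw [A.vals_inc]
  rintro _ ⟨a, _, rfl⟩
  exact ⟨a, rfl⟩

theorem rk_range_iC : rkS K (Set.range (T.iC L)) ≤ 1 := by
  rw [← Set.image_univ, rkS_image]
  exact rk_curve_univ

/-- `x` generic, then `x + m ι(z)` is generic -/
theorem gen_wc {x : A.P L} (hx : A.Gen x) (m : ℤ) : A.Gen (wc T x m) := by
  refine A.gen_of_rk ?_
  have h1 := rk_cur T (A.vals x)
  rw [A.rk_of_gen hx] at h1
  have h2 : T.iL L '' A.vals x ∪ Set.range (T.iC L) ⊆
      adjoin K (A.vals (wc T x m) ∪ Set.range (T.iC L)) := by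
    refine Set.union_subset ?_ (subset_adjoin_right _ _)
    rw [← A.vals_inc]
    have h3 := A.vals_sub (x := wc T x m) (y := m • A.inc (T.iC L) (A.ι j))
      (subset_adjoin_left (K := K) (A.vals (wc T x m)) (Set.range (T.iC L)))
      (A.vals_zsmul ((vals_iC T).trans (subset_adjoin_right (K := K) _ _)) m)
    rwa [wc, add_sub_cancel_right] at h3
  have h4 := (h1.trans (rkS_le_of_subset_adjoin h2)).trans (rkS_union_le _ _)
  have h5 := h4.trans (add_le_add_right (rk_range_iC T) _)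
  exact (ENat.add_le_add_iff_right ENat.one_ne_top).1 h5

/-- the points of the closed subset with generic point `w` -/
theorem exists_pl_of_le {w : A.P L} {v : A.P M} (h : A.O v ≤ A.O w)  :
    ∃ φ : Pl K L M, A.pl φ w = v := by
  let α : A.O v →ₐ[K] L := (A.ev w).comp (Subalgebra.inclusion h)
  have hker : ∀ f : A.O v, α f = 0 → A.ev v f = 0 := by
    intro f hf
    by_contra h0
    have h1 := A.ev_inv v f h0
    have h2 : A.ev w ⟨(f : A.F), h f.2⟩ * A.ev w ⟨(f : A.F)⁻¹, h h1⟩ = 1 := by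
      rw [← map_mul, ← map_one (A.ev w)]
      congr 1
      apply Subtype.ext
      refine mul_inv_cancel₀ ?_
      intro h3
      apply h0
      have : f = 0 := Subtype.ext h3
      rw [this, map_zero]
    have h3 : A.ev w ⟨(f : A.F), h f.2⟩ = 0 := hf
    rw [h3, zero_mul] at h2
    exact zero_ne_one h2
  let e : α.range →ₐ[K] M :=
    (Ideal.Quotient.liftₐ (RingHom.ker α) (A.ev v) (fun f hf => hker f hf)).comp
      (Ideal.quotientKerEquivRange α).symm.toAlgHom
  have he : ∀ f : A.O v, e ⟨α f, f, rfl⟩ = A.ev v f := by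
    intro f
    change Ideal.Quotient.liftₐ (RingHom.ker α) (A.ev v) (fun f hf => hker f hf)
      ((Ideal.quotientKerEquivRange α).symm ⟨α f, f, rfl⟩) = _
    have : (Ideal.quotientKerEquivRange α).symm ⟨α f, f, rfl⟩ =
        Ideal.Quotient.mk (RingHom.ker α) f := by
      rw [AlgEquiv.symm_apply_eq]
      rfl
    rw [this]
    rfl
  obtain ⟨φ, hφ⟩ := exists_pl α.range e
  refine ⟨φ, A.sp_unique _ _ _ fun f => ⟨h f.2, ?_⟩⟩
  have := hφ ⟨α f, f, rfl⟩
  rw [he] at this
  exact this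

theorem pl_iL (φ : Pl K L M) (y : Pl K (A.FC j) M) (w : A.P L) :
    A.pl ((T.hat y).comp (T.cp φ)) (A.inc (T.iL L) w) = A.pl φ w := by
  rw [inc, ← A.pl_comp, Pl.comp_assoc, T.cp_iL, ← Pl.comp_assoc, T.hat_iL, Pl.id_comp]

theorem pl_iC (φ : Pl K L M) (y : Pl K (A.FC j) M) :
    A.pl ((T.hat y).comp (T.cp φ)) (A.inc (T.iC L) (A.ι j)) = A.pl y (A.ι j) := by
  rw [inc, ← A.pl_comp, Pl.comp_assoc, T.cp_iC, T.hat_iC]

theorem hat_wc (y : Pl K (A.FC j) L) (w : A.P L) (m : ℤ) :
    A.pl (T.hat y) (wc T w m) = w + m • A.pl y (A.ι j) := by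
  rw [wc, map_add, map_zsmul, inc, inc, ← A.pl_comp, ← A.pl_comp, T.hat_iL, T.hat_iC, A.pl_id]

/-- the origin of the curve over `L` -/
def oL (L : Type u) [Field L] [Algebra K L] : Pl K (A.FC j) L :=
  (Pl.ofHom (Algebra.ofId K L)).comp (A.o j)

theorem pl_oL : A.pl (oL (A := A) (j := j) L) (A.ι j) = 0 := by
  rw [oL, A.pl_comp, A.ι_o, map_zero]

theorem vals_pt_adjoin (y : Pl K (A.FC j) L) (S : Set L) :
    A.vals (A.pl y (A.ι j)) ⊆ adjoin K (S ∪ y.vals) :=
  (vals_pt y).trans (subset_adjoin_right _ _)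

/-- (Dx) -/
theorem gen_of_indep {x : A.P L} {y : Pl K (A.FC j) L}
    (hxy : ((g + 1 : ℕ) : ℕ∞) ≤ rkS K (A.vals x ∪ y.vals)) (m : ℤ) :
    A.Gen (x + m • A.pl y (A.ι j)) := by
  refine A.gen_of_rk ?_
  have h2 : A.vals x ∪ y.vals ⊆ adjoin K (A.vals (x + m • A.pl y (A.ι j)) ∪ y.vals) := by
    refine Set.union_subset ?_ (subset_adjoin_right _ _)
    have h3 := A.vals_sub (x := x + m • A.pl y (A.ι j)) (y := m • A.pl y (A.ι j))
      (subset_adjoin_left (K := K) (A.vals (x + m • A.pl y (A.ι j))) y.vals)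
      (A.vals_zsmul (vals_pt_adjoin y _) m)
    rwa [add_sub_cancel_right] at h3
  have h4 := (hxy.trans (rkS_le_of_subset_adjoin h2)).trans (rkS_union_le _ _)
  have h5 := h4.trans (add_le_add_right ((rk_vals_le y).trans rk_curve_univ) _)
  push_cast at h5
  exact (ENat.add_le_add_iff_right ENat.one_ne_top).1 h5

theorem pl_at' {N N' : Type u} [Field N] [Algebra K N] [Field N'] [Algebra K N'] {φ : Pl K N N'}
    {x : A.P N} {y : A.P N'} (hxy : A.pl φ x = y) {f : A.F} (hf : f ∈ A.O y) :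
    ∃ h : f ∈ A.O x, φ.At (A.ev x ⟨f, h⟩) (A.ev y ⟨f, hf⟩) := by
  subst hxy
  exact A.pl_at φ x hf

theorem O_le_of_no_zero {N N' : Type u} [Field N] [Algebra K N] [Field N'] [Algebra K N']
    {φ : Pl K N N'} {γ : A.P N} {w : A.P N'} (hφ : A.pl φ γ = w)
    (hvr : ∀ f : A.F, f ∈ A.O w ∨ f⁻¹ ∈ A.O w)
    (hno : ∀ c ∈ A.vals γ, c ≠ 0 → ¬ φ.At c 0) : A.O γ ≤ A.O w := by
  intro f hf
  by_contra hfw
  have h1 : f⁻¹ ∈ A.O w := (hvr f).resolve_left hfw
  have h0 : A.ev w ⟨f⁻¹, h1⟩ = 0 := by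
    by_contra h2
    have := A.ev_inv w ⟨f⁻¹, h1⟩ h2
    rw [inv_inv] at this
    exact hfw this
  have hf0 : f ≠ 0 := by
    rintro rfl
    exact hfw (zero_mem _)
  obtain ⟨h7, h8⟩ := pl_at' hφ h1
  have h3 : A.ev γ ⟨f⁻¹, h7⟩ ≠ 0 := by
    intro h4
    have h5 : A.ev γ ⟨f, hf⟩ * A.ev γ ⟨f⁻¹, h7⟩ = 1 := by
      rw [← map_mul, ← map_one (A.ev γ)]
      congr 1
      exact Subtype.ext (mul_inv_cancel₀ hf0)
    rw [h4, mul_zero] at h5
    exact zero_ne_one h5
  rw [h0] at h8
  exact hno _ ⟨_, rfl⟩ h3 h8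

theorem pt_iC : A.inc (T.iC L) (A.ι j) = A.pl (Pl.ofHom (T.iC L)) (A.ι j) := rfl

theorem vals_ofHom {N N' : Type u} [Field N] [Algebra K N] [Field N'] [Algebra K N']
    (σ : N →ₐ[K] N') : (Pl.ofHom σ).vals = Set.range σ := by
  ext b
  constructor
  · rintro ⟨a, ha⟩
    exact ⟨a, (ha.uniq (Pl.ofHom_at σ a)).symm⟩
  · rintro ⟨a, rfl⟩
    exact ⟨a, Pl.ofHom_at σ a⟩

/-- (D1) -/
theorem gen_wc_add {x : A.P L} (hx : A.Gen x) (v : Pl K (A.FC j) L) (k : ℤ) :
    A.Gen (wc T (x + k • A.pl v (A.ι j)) 1) := by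
  by_contra hG
  set w : A.P L := x + k • A.pl v (A.ι j) with hw
  set β := wc T w 1 with hβ
  have hrw : (g : ℕ∞) ≤ rkS K (A.vals w) + 1 := by
    rw [← A.rk_of_gen hx]
    exact (A.rk_le_rk_add x (A.pl v (A.ι j)) k).trans (add_le_add_right (rk_pt_le v) _)
  have hrβ : rkS K (A.vals β) < g := not_le.1 fun h => hG (A.gen_of_rk h)
  have hg : 0 < g := j.pos
  obtain ⟨n, hn⟩ : ∃ n, g = n + 1 := ⟨g - 1, by omega⟩
  have hgn : (g : ℕ∞) = (n : ℕ∞) + 1 := by exact_mod_cast hn
  have hrw' : (n : ℕ∞) ≤ rkS K (A.vals w) := by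
    rw [hgn] at hrw
    exact (ENat.add_le_add_iff_right ENat.one_ne_top).1 hrw
  have hw1 : A.pl (T.hat (oL L)) β = w := by
    rw [hβ, hat_wc, pl_oL, smul_zero, add_zero]
  have hOle : A.O w ≤ A.O β := by
    rw [← hw1]
    exact A.O_pl_le _ _
  have hvrw : ∀ f : A.F, f ∈ A.O w ∨ f⁻¹ ∈ A.O w := vr_add hx v k
  have hOge : A.O β ≤ A.O w := by
    refine O_le_of_no_zero hw1 hvrw fun c hc hc0 hc' => ?_
    have h1 := rk_succ_le_of_at (φ := T.hat (oL L)) (S := A.vals β) (T := A.vals w) ?_ hc0 hc' hrw'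
    · rw [Set.insert_eq_of_mem hc] at h1
      have h2 : ((n + 1 : ℕ) : ℕ∞) = g := by rw [hn]
      rw [h2] at h1
      exact not_le.2 hrβ h1
    · rintro _ ⟨⟨f, hf⟩, rfl⟩
      obtain ⟨h, h'⟩ := pl_at' hw1 hf
      exact ⟨_, ⟨_, rfl⟩, h'⟩
  have hOeq : A.O β = A.O w := le_antisymm hOge hOle
  -- the difference
  set γ : A.P (T.cur L) := A.inc (T.iL L) w - A.inc (T.iC L) (A.ι j) with hγ
  have hOγ : A.O γ ≤ A.O w := by
    let Ω := AlgebraicClosure (T.cur L)
    letI : Algebra K Ω := inferInstance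
    let i : T.cur L →ₐ[K] Ω := IsScalarTower.toAlgHom K (T.cur L) Ω
    have h1 : A.O (A.inc i β) ≤ A.O w := by
      rw [A.O_inc]
      exact hOge
    obtain ⟨φ, hφ⟩ := exists_pl_of_le h1
    let z : Pl K (A.FC j) Ω := Pl.ofHom (i.comp (T.iC L))
    have hz : A.pl z (A.ι j) = A.inc i (A.inc (T.iC L) (A.ι j)) := by
      change A.pl (Pl.ofHom (i.comp (T.iC L))) (A.ι j) = _
      rw [← Pl.ofHom_comp, A.pl_comp]
      rfl
    have h2 : A.pl ((T.hat z).comp (T.cp φ)) γ = A.inc i (A.inc (T.iL L) w) := by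
      rw [hγ, map_sub, pl_iL, pl_iC, hφ, hz, hβ, wc, one_smul, map_add, add_sub_cancel_right]
    have h3 : ∀ f : A.F, f ∈ A.O (A.inc i (A.inc (T.iL L) w)) ∨
        f⁻¹ ∈ A.O (A.inc i (A.inc (T.iL L) w)) := by
      intro f
      rw [A.O_inc, A.O_inc]
      exact hvrw f
    have h4 : A.O γ ≤ A.O (A.inc i (A.inc (T.iL L) w)) := by
      refine O_le_of_no_zero h2 h3 fun c hc hc0 hc' => ?_
      have h5 : A.vals γ ⊆ adjoin K (A.vals (A.inc (T.iL L) w) ∪ Set.range (T.iC L)) :=
        A.vals_sub (subset_adjoin_left _ _) ((vals_iC T).trans (subset_adjoin_right _ _))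
      have h6 : ((n + 1 : ℕ) : ℕ∞) ≤ rkS K (A.vals (A.inc i β) ∪ z.vals) := by
        have h7 : i '' (A.vals (A.inc (T.iL L) w) ∪ Set.range (T.iC L)) ⊆
            adjoin K (A.vals (A.inc i β) ∪ z.vals) := by
          rw [Set.image_union]
          have h8 : i '' Set.range (T.iC L) = z.vals := by
            rw [vals_ofHom, ← Set.range_comp]
            rfl
          refine Set.union_subset ?_ ?_
          · rw [← A.vals_inc]
            have h9 := A.vals_sub (x := A.inc i β) (y := A.pl z (A.ι j))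
              (subset_adjoin_left (K := K) (A.vals (A.inc i β)) z.vals)
              (vals_pt_adjoin z _)
            have h10 : A.inc i β - A.pl z (A.ι j) = A.inc i (A.inc (T.iL L) w) := by
              rw [hz, hβ, wc, one_smul, map_add, add_sub_cancel_right]
            rwa [h10] at h9
          · rw [h8]
            exact subset_adjoin_right _ _
        refine le_trans ?_ (rkS_le_of_subset_adjoin h7)
        rw [rkS_image]
        have h11 := rk_cur T (A.vals w)
        rw [← A.vals_inc] at h11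
        refine le_trans ?_ h11
        push_cast
        exact add_le_add_left hrw' 1
      have h12 := rk_succ_le_of_at (φ := (T.hat z).comp (T.cp φ))
        (S := A.vals (A.inc (T.iL L) w) ∪ Set.range (T.iC L))
        (T := A.vals (A.inc i β) ∪ z.vals) ?_ hc0 hc' h6
      · have h13 : rkS K (insert c (A.vals (A.inc (T.iL L) w) ∪ Set.range (T.iC L))) ≤
            rkS K (A.vals (A.inc (T.iL L) w) ∪ Set.range (T.iC L)) := by
          refine rkS_le_of_subset_adjoin ?_
          intro a ha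
          rcases Set.mem_insert_iff.1 ha with rfl | ha
          · exact h5 hc
          · exact subset_adjoin K _ ha
        have h14 := (h12.trans h13).trans (rkS_union_le _ _)
        have h15 := h14.trans (add_le_add_right (rk_range_iC T) _)
        push_cast at h15
        have h16 := (ENat.add_le_add_iff_right ENat.one_ne_top).1 h15
        rw [A.rk_inc] at h16
        have h17 : rkS K (A.vals w) ≤ rkS K (A.vals β) := by
          rw [← hw1]
          exact A.rk_pl_le _ _
        rw [← hgn] at h16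
        exact not_le.2 hrβ (h16.trans h17)
      · rintro b (hb | hb)
        · obtain ⟨⟨f, hf⟩, rfl⟩ := hb
          have h18 : A.pl ((T.hat z).comp (T.cp φ)) (A.inc (T.iL L) w) = A.inc i β := by
            rw [pl_iL, hφ]
          obtain ⟨h, h'⟩ := pl_at' h18 hf
          exact ⟨_, .inl ⟨_, rfl⟩, h'⟩
        · obtain ⟨a, ha⟩ := hb
          refine ⟨T.iC L a, .inr ⟨a, rfl⟩, ?_⟩
          have h19 : (((T.hat z).comp (T.cp φ)).comp (Pl.ofHom (T.iC L))).At a b := by
            rw [Pl.comp_assoc, T.cp_iC, T.hat_iC]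
            exact ha
          obtain ⟨b', hb', hb''⟩ := Pl.comp_at_iff.1 h19
          rwa [hb'.uniq (Pl.ofHom_at _ _)] at hb''
    rw [A.O_inc, A.O_inc] at h4
    exact h4
  -- stability
  have key : ∀ (u : A.P L), A.O u ≤ A.O w → A.O (u + A.pl v (A.ι j)) ≤ A.O w ∧
      A.O (u - A.pl v (A.ι j)) ≤ A.O w := by
    intro u hu
    obtain ⟨φ, hφ⟩ := exists_pl_of_le hu
    constructor
    · have h1 : A.pl ((T.hat v).comp (T.cp φ)) β = u + A.pl v (A.ι j) := by
        rw [hβ, wc, one_smul, map_add, pl_iL, pl_iC, hφ]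
      rw [← h1]
      exact (A.O_pl_le _ _).trans hOge
    · have h1 : A.pl ((T.hat v).comp (T.cp φ)) γ = u - A.pl v (A.ι j) := by
        rw [hγ, map_sub, pl_iL, pl_iC, hφ]
      rw [← h1]
      exact (A.O_pl_le _ _).trans hOγ
  have key2 : ∀ m : ℤ, A.O (w + m • A.pl v (A.ι j)) ≤ A.O w := by
    intro m
    induction m with
    | zero => rw [zero_smul, add_zero]
    | succ m ih =>
      rw [add_smul, one_smul, ← add_assoc]
      exact (key _ ih).1
    | pred m ih =>
      rw [sub_smul, one_smul, ← add_sub_assoc]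
      exact (key _ ih).2
  have h20 := key2 (-k)
  rw [hw, neg_smul, add_neg_cancel_right, ← hw, show A.O x = ⊤ from hx, top_le_iff] at h20
  apply hG
  rw [Gen, hOeq, h20]

/-- (D3) -/
theorem indep_cur {x : A.P L} (hx : A.Gen x) {N : Type u} [Field N] [Algebra K N]
    (i : T.cur L →ₐ[K] N) : ((g + 1 : ℕ) : ℕ∞) ≤
      rkS K (A.vals (A.inc i (A.inc (T.iL L) x)) ∪ (Pl.ofHom (i.comp (T.iC L))).vals) := by
  have h1 := rk_cur T (A.vals x)
  rw [A.rk_of_gen hx, ← A.vals_inc, ← rkS_image i, Set.image_union, ← A.vals_inc,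
    ← Set.range_comp] at h1
  rw [vals_ofHom]
  push_cast
  exact h1

end AVar

end Fermat.Agent.S26A
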