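import Fermat.Agent.S26A.Sq4
import Fermat.Agent.S26A.Conj3
import Fermat.Agent.S26A.Dim2

/-!
# The theorem of the square for curves on an abelian variety
-/

set_option autoImplicit false
set_option linter.style.haveILetI false
set_option linter.unusedSectionVars false

noncomputable section

namespace Fermat.Agent.S26A

universe u

open AlgebraicCurve

variable {K : Type u} [Field K]

namespace AVar

variable {g : ℕ} {A : AVar K g} {j : Fin g} (T : CT K (A.FC j))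

theorem conj_all : Conj K A.F (AlgebraicClosure A.F) := fun _ _ _ _ ψ₁ ψ₂ h => conj_pl ψ₁ ψ₂ h

include T in
/-- a generic point of the curve -/
theorem exists_generic (L : Type u) [Field L] [Algebra K L] [IsAlgClosed L] :
    ∃ (M : Type u) (_ : Field M) (_ : Algebra K M) (_ : IsAlgClosed M) (i : L →ₐ[K] M)
      (y : Pl K (A.FC j) M), ∀ y₁ : Pl K (A.FC j) L, ∃ χ : Pl K M L,
        χ.comp (Pl.ofHom i) = Pl.id K L ∧ χ.comp y = y₁ := by
  refine ⟨AlgebraicClosure (T.cur L), inferInstance, inferInstance, inferInstance,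
    (IsScalarTower.toAlgHom K (T.cur L) (AlgebraicClosure (T.cur L))).comp (T.iL L),
    Pl.ofHom ((IsScalarTower.toAlgHom K (T.cur L) (AlgebraicClosure (T.cur L))).comp (T.iC L)),
    fun y₁ => ?_⟩
  obtain ⟨χ, hχ⟩ := exists_pl_ext
    (IsScalarTower.toAlgHom K (T.cur L) (AlgebraicClosure (T.cur L))) (T.hat y₁)
  refine ⟨χ, ?_, ?_⟩
  · rw [← Pl.ofHom_comp, ← Pl.comp_assoc, hχ, T.hat_iL]
  · rw [← Pl.ofHom_comp, ← Pl.comp_assoc, hχ, T.hat_iC]

section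

variable {L : Type u} [Field L] [Algebra K L] [IsAlgClosed L]

/-- **the theorem of the square**, under a hypothesis on codimensions -/
theorem square_gen' (x : A.P L) (hx : A.Gen x)
    (hD : ∀ (t : Pl K (A.FC j) L) (f : A.F),
      f ∈ A.O (x + A.pl t (A.ι j)) ∨ f⁻¹ ∈ A.O (x + A.pl t (A.ι j)))
    (t₁ y₁ : Pl K (A.FC j) L) (ht : A.Gen (x + A.pl t₁ (A.ι j)))
    (hy : A.Gen (x + A.pl y₁ (A.ι j)))
    (hty : A.Gen (x + A.pl t₁ (A.ι j) + A.pl y₁ (A.ι j))) (f : A.F) (hf : f ≠ 0) :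
    LEq T (Zd T (x + A.pl t₁ (A.ι j) + A.pl y₁ (A.ι j)) 1 f + Zd T x 1 f)
      (Zd T (x + A.pl t₁ (A.ι j)) 1 f + Zd T (x + A.pl y₁ (A.ι j)) 1 f) := by
  have hc : Conj K A.F (AlgebraicClosure A.F) := conj_all
  obtain ⟨M, _, _, _, i, y, hy'⟩ := exists_generic T L
  obtain ⟨N, _, _, _, i', t, ht'⟩ := exists_generic T M
  set X : A.P N := A.inc i' (A.inc i x) with hX
  set Y : A.P N := A.inc i' (A.pl y (A.ι j)) with hY
  set U : A.P N := A.pl t (A.ι j) with hU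
  -- specializations
  have sX : ∀ (φ : Pl K N M) (χ : Pl K M L), φ.comp (Pl.ofHom i') = Pl.id K M →
      χ.comp (Pl.ofHom i) = Pl.id K L → A.pl (χ.comp φ) X = x := by
    intro φ χ hφ hχ
    rw [hX, A.pl_comp, pl_inc, hφ, A.pl_id, pl_inc, hχ, A.pl_id]
  have sY : ∀ (φ : Pl K N M) (χ : Pl K M L), φ.comp (Pl.ofHom i') = Pl.id K M →
      A.pl (χ.comp φ) Y = A.pl (χ.comp y) (A.ι j) := by
    intro φ χ hφ
    rw [hY, A.pl_comp, pl_inc, hφ, A.pl_id, ← A.pl_comp]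
  have sU : ∀ (φ : Pl K N M) (χ : Pl K M L),
      A.pl (χ.comp φ) U = A.pl ((χ.comp φ).comp t) (A.ι j) := by
    intro φ χ
    rw [hU, ← A.pl_comp]
  obtain ⟨φ₀, hφ₀, hφ₀'⟩ := ht' (oS A j M)
  obtain ⟨χ₀, hχ₀, hχ₀'⟩ := hy' (oS A j L)
  have e₀ : (χ₀.comp φ₀).comp t = oS A j L := by
    rw [Pl.comp_assoc, hφ₀']
    exact comp_cst χ₀ (A.o j)
  have gX : A.Gen X := gen_incS _ (gen_incS _ hx)
  have gXU : A.Gen (X + U) := by
    refine gen_of_plS (φ := χ₀.comp φ₀) ?_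
    rw [map_add, sX φ₀ χ₀ hφ₀ hχ₀, sU, e₀, pl_oS, add_zero]
    exact hx
  have gXY : A.Gen (X + Y) := by
    refine gen_of_plS (φ := χ₀.comp φ₀) ?_
    rw [map_add, sX φ₀ χ₀ hφ₀ hχ₀, sY φ₀ χ₀ hφ₀, hχ₀', pl_oS, add_zero]
    exact hx
  have gXUY : A.Gen (X + U + Y) := by
    refine gen_of_plS (φ := χ₀.comp φ₀) ?_
    rw [map_add, map_add, sX φ₀ χ₀ hφ₀ hχ₀, sU, e₀, sY φ₀ χ₀ hφ₀, hχ₀', pl_oS, add_zero,
      add_zero]
    exact hx
  set θ : Pl K (A.FC j) N →₀ ℤ := (Zd T (X + U + Y) 1 f - Zd T (X + U) 1 f) -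
    (Zd T (X + Y) 1 f - Zd T X 1 f) with hθ
  have hdeg : dg θ = 0 := by
    rw [hθ, dg_sub, dg_sub, dg_sub, dg_Zd T _ gX f hf, dg_Zd T _ gXU f hf, dg_Zd T _ gXY f hf,
      dg_Zd T _ gXUY f hf, sub_self]
  have key : LEq T θ 0 := by
    refine rigid T i' χ₀ θ hdeg ?_ φ₀ hφ₀ ?_
    · intro φ hφ
      have h1 : (Zd T (X + U + Y) 1 f).mapDomain (fun t => (χ₀.comp φ).comp t) =
          (Zd T (X + U) 1 f).mapDomain (fun t => (χ₀.comp φ).comp t) := by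
        refine Zd_common T hc _ _ _ _ gXUY gXU
          (x + A.pl ((χ₀.comp φ).comp t) (A.ι j)) ?_ ?_ (hD _) f hf
        · rw [map_add, map_add, sX φ χ₀ hφ hχ₀, sU, sY φ χ₀ hφ, hχ₀', pl_oS, add_zero]
        · rw [map_add, sX φ χ₀ hφ hχ₀, sU]
      have h2 : (Zd T (X + Y) 1 f).mapDomain (fun t => (χ₀.comp φ).comp t) =
          (Zd T X 1 f).mapDomain (fun t => (χ₀.comp φ).comp t) := by
        refine Zd_common T hc _ _ _ _ gXY gX x ?_ ?_ (val_or_of_gen hx) f hf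
        · rw [map_add, sX φ χ₀ hφ hχ₀, sY φ χ₀ hφ, hχ₀', pl_oS, add_zero]
        · exact sX φ χ₀ hφ hχ₀
      rw [hθ, mapDomain_sub', mapDomain_sub', mapDomain_sub', h1, h2, sub_self, sub_self,
        sub_self]
      exact LEq.refl T 0
    · have sX' : A.pl φ₀ X = A.inc i x := by rw [hX, pl_inc, hφ₀, A.pl_id]
      have sY' : A.pl φ₀ Y = A.pl y (A.ι j) := by rw [hY, pl_inc, hφ₀, A.pl_id]
      have sU' : A.pl φ₀ U = 0 := by rw [hU, ← A.pl_comp, hφ₀', pl_oS]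
      have gx : A.Gen (A.inc i x) := gen_incS _ hx
      have gxy : A.Gen (A.inc i x + A.pl y (A.ι j)) := by
        refine gen_of_plS (φ := χ₀) ?_
        rw [map_add, pl_inc, hχ₀, A.pl_id, ← A.pl_comp, hχ₀', pl_oS, add_zero]
        exact hx
      have h1 : (Zd T (X + U + Y) 1 f).mapDomain (fun t => φ₀.comp t) =
          (Zd T (X + Y) 1 f).mapDomain (fun t => φ₀.comp t) := by
        refine Zd_common T hc _ _ _ _ gXUY gXY (A.inc i x + A.pl y (A.ι j)) ?_ ?_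
          (val_or_of_gen gxy) f hf
        · rw [map_add, map_add, sX', sU', sY', add_zero]
        · rw [map_add, sX', sY']
      have h2 : (Zd T (X + U) 1 f).mapDomain (fun t => φ₀.comp t) =
          (Zd T X 1 f).mapDomain (fun t => φ₀.comp t) := by
        refine Zd_common T hc _ _ _ _ gXU gX (A.inc i x) ?_ sX' (val_or_of_gen gx) f hf
        rw [map_add, sX', sU', add_zero]
      rw [hθ, mapDomain_sub', mapDomain_sub', mapDomain_sub', h1, h2, sub_self]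
      exact LEq.refl T 0
  -- specialize
  obtain ⟨φ, hφ, hφt⟩ := ht' ((Pl.ofHom i).comp t₁)
  obtain ⟨χ, hχ, hχy⟩ := hy' y₁
  have e₁ : (χ.comp φ).comp t = t₁ := by
    rw [Pl.comp_assoc, hφt, ← Pl.comp_assoc, hχ, Pl.id_comp]
  have h := key.map (χ.comp φ)
  have z0 : (0 : Pl K (A.FC j) N →₀ ℤ).mapDomain (fun t => (χ.comp φ).comp t) = 0 :=
    Finsupp.mapDomain_zero
  have s1 : (Zd T (X + U + Y) 1 f).mapDomain (fun t => (χ.comp φ).comp t) =
      Zd T (x + A.pl t₁ (A.ι j) + A.pl y₁ (A.ι j)) 1 f := by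
    refine Zd_spec T hc _ _ _ ?_ hty f hf
    rw [map_add, map_add, sX φ χ hφ hχ, sU, e₁, sY φ χ hφ, hχy]
  have s2 : (Zd T (X + U) 1 f).mapDomain (fun t => (χ.comp φ).comp t) =
      Zd T (x + A.pl t₁ (A.ι j)) 1 f := by
    refine Zd_spec T hc _ _ _ ?_ ht f hf
    rw [map_add, sX φ χ hφ hχ, sU, e₁]
  have s3 : (Zd T (X + Y) 1 f).mapDomain (fun t => (χ.comp φ).comp t) =
      Zd T (x + A.pl y₁ (A.ι j)) 1 f := by
    refine Zd_spec T hc _ _ _ ?_ hy f hf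
    rw [map_add, sX φ χ hφ hχ, sY φ χ hφ, hχy]
  have s4 : (Zd T X 1 f).mapDomain (fun t => (χ.comp φ).comp t) = Zd T x 1 f :=
    Zd_spec T hc _ _ _ (sX φ χ hφ hχ) hx f hf
  rw [z0, hθ, mapDomain_sub', mapDomain_sub', mapDomain_sub', s1, s2, s3, s4] at h
  refine leq_of_sub h ?_
  abel

variable [IsAlgClosed K]

/-- **the theorem of the square** -/
theorem square_gen (x : A.P L) (hx : A.Gen x)
    (t₁ y₁ : Pl K (A.FC j) L) (ht : A.Gen (x + A.pl t₁ (A.ι j)))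
    (hy : A.Gen (x + A.pl y₁ (A.ι j)))
    (hty : A.Gen (x + A.pl t₁ (A.ι j) + A.pl y₁ (A.ι j))) (f : A.F) (hf : f ≠ 0) :
    LEq T (Zd T (x + A.pl t₁ (A.ι j) + A.pl y₁ (A.ι j)) 1 f + Zd T x 1 f)
      (Zd T (x + A.pl t₁ (A.ι j)) 1 f + Zd T (x + A.pl y₁ (A.ι j)) 1 f) := by
  refine square_gen' T x hx (fun t f => ?_) t₁ y₁ ht hy hty f hf
  have h := vr_add hx t 1 f
  rwa [one_smul] at h

/-- **the theorem of the square** -/
theorem square (x : A.P L) (y : Pl K (A.FC j) L)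
    (hxy : ((g + 1 : ℕ) : ℕ∞) ≤ rkS K (A.vals x ∪ y.vals)) (m : ℤ) (f : A.F) (hf : f ≠ 0) :
    LEq T (Zd T (x + (m + 2) • A.pl y (A.ι j)) 1 f + Zd T (x + m • A.pl y (A.ι j)) 1 f)
      ((2 : ℤ) • Zd T (x + (m + 1) • A.pl y (A.ι j)) 1 f) := by
  have h0 := gen_of_indep hxy m
  have h1 := gen_of_indep hxy (m + 1)
  have h2 := gen_of_indep hxy (m + 2)
  have e1 : x + (m + 1) • A.pl y (A.ι j) = x + m • A.pl y (A.ι j) + A.pl y (A.ι j) := by
    rw [add_smul, one_smul, add_assoc]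
  have e2 : x + (m + 2) • A.pl y (A.ι j) =
      x + m • A.pl y (A.ι j) + A.pl y (A.ι j) + A.pl y (A.ι j) := by
    rw [add_smul, two_smul, add_assoc, add_assoc]
  rw [e1] at h1
  rw [e2] at h2
  have h := square_gen T (x + m • A.pl y (A.ι j)) h0 y y h1 h1 h2 f hf
  rw [e1, e2, two_smul]
  exact h

end

end AVar

end Fermat.Agent.S26A
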