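import Fermat.Agent.S26A.Dg3
import Fermat.Agent.S26A.Sq5

/-!
# Degrees are quadratic
-/

set_option autoImplicit false
set_option linter.style.haveILetI false
set_option linter.unusedSectionVars false

noncomputable section

namespace Fermat.Agent.S26A

universe u

open AVar

variable {K : Type u} [Field K] [IsAlgClosed K] {g : ℕ} {A : AVar K g} {j : Fin g}
  (T : CT K (A.FC j))

/-- **the degree of `z ↦ f (x + m ι(z))` is a quadratic function of `m`** -/
theorem degree_quadratic {f : A.F} (hf : f ≠ 0) :
    ∃ α β : ℚ, ∀ {L : Type u} [Field L] [Algebra K L] [IsAlgClosed L] {x : A.P L}, A.Gen x →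
      ∀ m : ℤ, (dg (Zd T x m f) : ℚ) = α * m ^ 2 + β * m :=
  degree_quadratic_of7 T hf (fun v k => gen_wc_add T gen_xt v k) (fun v k f => vr_add gen_xt v k f)
    (fun _ _ _ _ x t y hx ht hy hty => square_gen T x hx t y ht hy hty f hf)

end Fermat.Agent.S26A
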