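import Fermat.Agent.S26A.Rk

/-!
# Ranks of points
-/

set_option autoImplicit false
set_option linter.style.haveILetI false

noncomputable section

namespace Fermat.Agent.S26A

universe u

open IntermediateField

namespace AVar

variable {K : Type u} [Field K] {g : ℕ} (A : AVar K g) {L M : Type u} [Field L] [Algebra K L]
  [Field M] [Algebra K M]

theorem O_inc (σ : L →ₐ[K] M) (x : A.P L) : A.O (A.inc σ x) = A.O x := A.map_O σ x

theorem ev_inc (σ : L →ₐ[K] M) (x : A.P L) (f : A.F) (h : f ∈ A.O (A.inc σ x)) (h' : f ∈ A.O x) :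
    A.ev (A.inc σ x) ⟨f, h⟩ = σ (A.ev x ⟨f, h'⟩) := by
  obtain ⟨h1, h2⟩ := A.pl_ev (Pl.ofHom σ) x ⟨f, h⟩
  exact h2.uniq (Pl.ofHom_at σ _)

theorem vals_inc (σ : L →ₐ[K] M) (x : A.P L) : A.vals (A.inc σ x) = σ '' A.vals x := by
  ext b
  constructor
  · rintro ⟨⟨f, hf⟩, rfl⟩
    have hf' : f ∈ A.O x := by rw [← A.O_inc σ x]; exact hf
    exact ⟨_, ⟨⟨f, hf'⟩, rfl⟩, (A.ev_inc σ x f hf hf').symm⟩
  · rintro ⟨_, ⟨⟨f, hf⟩, rfl⟩, rfl⟩
    have hf' : f ∈ A.O (A.inc σ x) := by rw [A.O_inc σ x]; exact hf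
    exact ⟨⟨f, hf'⟩, A.ev_inc σ x f hf' hf⟩

theorem rk_inc (σ : L →ₐ[K] M) (x : A.P L) :
    rkS K (A.vals (A.inc σ x)) = rkS K (A.vals x) := by
  rw [vals_inc, rkS_image]

theorem exists_desc (x : A.P L) (E : IntermediateField K L) (h : A.vals x ⊆ E) :
    ∃ x₀ : A.P E, A.inc E.val x₀ = x :=
  A.desc x E fun f => h ⟨f, rfl⟩

theorem vals_inc_subset (E : IntermediateField K L) (x₀ : A.P E) :
    A.vals (A.inc E.val x₀) ⊆ E := by
  rw [vals_inc]
  rintro _ ⟨b, _, rfl⟩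
  exact b.2

theorem vals_add {x y : A.P L} {E : IntermediateField K L} (hx : A.vals x ⊆ E)
    (hy : A.vals y ⊆ E) : A.vals (x + y) ⊆ E := by
  obtain ⟨x₀, rfl⟩ := A.exists_desc x E hx
  obtain ⟨y₀, rfl⟩ := A.exists_desc y E hy
  rw [← map_add]
  exact A.vals_inc_subset E _

theorem vals_neg {x : A.P L} {E : IntermediateField K L} (hx : A.vals x ⊆ E) :
    A.vals (-x) ⊆ E := by
  obtain ⟨x₀, rfl⟩ := A.exists_desc x E hx
  rw [← map_neg]
  exact A.vals_inc_subset E _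

theorem vals_sub {x y : A.P L} {E : IntermediateField K L} (hx : A.vals x ⊆ E)
    (hy : A.vals y ⊆ E) : A.vals (x - y) ⊆ E := by
  rw [sub_eq_add_neg]
  exact A.vals_add hx (A.vals_neg hy)

theorem vals_zsmul {x : A.P L} {E : IntermediateField K L} (hx : A.vals x ⊆ E) (m : ℤ) :
    A.vals (m • x) ⊆ E := by
  obtain ⟨x₀, rfl⟩ := A.exists_desc x E hx
  rw [← map_zsmul]
  exact A.vals_inc_subset E _

theorem subset_adjoin_left (S T : Set L) : S ⊆ adjoin K (S ∪ T) :=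
  Set.subset_union_left.trans (subset_adjoin K _)

theorem subset_adjoin_right (S T : Set L) : T ⊆ adjoin K (S ∪ T) :=
  Set.subset_union_right.trans (subset_adjoin K _)

theorem rk_le_rk_add (x y : A.P L) (m : ℤ) :
    rkS K (A.vals x) ≤ rkS K (A.vals (x + m • y)) + rkS K (A.vals y) := by
  have h : A.vals x ⊆ adjoin K (A.vals (x + m • y) ∪ A.vals y) := by
    have h1 := A.vals_sub (subset_adjoin_left (K := K) (A.vals (x + m • y)) (A.vals y))
      (A.vals_zsmul (subset_adjoin_right (K := K) (A.vals (x + m • y)) (A.vals y)) m)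
    rwa [add_sub_cancel_right] at h1
  exact (rkS_le_of_subset_adjoin h).trans (rkS_union_le _ _)

theorem gen_of_rk {x : A.P L} (h : (g : ℕ∞) ≤ rkS K (A.vals x)) : A.Gen x := by
  obtain ⟨v, hv, hv'⟩ := le_rkS_iff.1 h
  choose y hy using hv
  refine A.cod0 x y ?_
  have : (fun i => A.ev x (y i)) = v := funext hy
  rwa [this]

theorem vr_of_rk {x : A.P L} (h : (g : ℕ∞) ≤ rkS K (A.vals x) + 1) (f : A.F) :
    f ∈ A.O x ∨ f⁻¹ ∈ A.O x := by
  have h' : ((g - 1 : ℕ) : ℕ∞) ≤ rkS K (A.vals x) := by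
    rcases Nat.eq_zero_or_pos g with rfl | hg
    · simp
    · have h1 : (g : ℕ∞) = ((g - 1 : ℕ) : ℕ∞) + 1 := by
        have : g = (g - 1) + 1 := by omega
        exact_mod_cast this
      rw [h1] at h
      exact (ENat.add_le_add_iff_right ENat.one_ne_top).1 h
  obtain ⟨v, hv, hv'⟩ := le_rkS_iff.1 h'
  choose y hy using hv
  refine A.cod1 x y ?_ f
  have : (fun i => A.ev x (y i)) = v := funext hy
  rwa [this]

theorem val_eq {x : A.P L} (hx : A.Gen x) (f : A.F) (h : f ∈ A.O x) :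
    A.val x hx f = A.ev x ⟨f, h⟩ := rfl

theorem vals_of_gen {x : A.P L} (hx : A.Gen x) : A.vals x = Set.range (A.val x hx) := by
  ext b
  constructor
  · rintro ⟨⟨f, hf⟩, rfl⟩
    exact ⟨f, rfl⟩
  · rintro ⟨f, rfl⟩
    exact ⟨⟨f, by rw [show A.O x = ⊤ from hx]; exact Algebra.mem_top⟩, rfl⟩

theorem rk_univ : rkS K (Set.univ : Set A.F) = g := by
  have h1 : (AlgebraicIndependent.matroid K A.F).cRank = (g : Cardinal) := by
    rw [AlgebraicIndependent.matroid_cRank_eq]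
    exact A.tr
  have h2 : (AlgebraicIndependent.matroid K A.F).eRank = g := by
    rw [← Matroid.toENat_cRank_eq, h1]
    simp
  rw [rkS, ← AlgebraicIndependent.matroid_e (R := K) (A := A.F), ← Matroid.eRank_def]
  exact h2

theorem rk_of_gen {x : A.P L} (hx : A.Gen x) : rkS K (A.vals x) = g := by
  rw [A.vals_of_gen hx, ← Set.image_univ, rkS_image, rk_univ]

theorem gen_inc (σ : L →ₐ[K] M) {x : A.P L} (hx : A.Gen x) : A.Gen (A.inc σ x) := by
  rw [Gen, O_inc]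
  exact hx

theorem gen_inc_iff (σ : L →ₐ[K] M) {x : A.P L} : A.Gen (A.inc σ x) ↔ A.Gen x := by
  rw [Gen, O_inc, Gen]

theorem pl_at (φ : Pl K L M) (x : A.P L) {f : A.F} (h : f ∈ A.O (A.pl φ x)) :
    ∃ h' : f ∈ A.O x, φ.At (A.ev x ⟨f, h'⟩) (A.ev (A.pl φ x) ⟨f, h⟩) := A.pl_ev φ x ⟨f, h⟩

theorem O_pl_le (φ : Pl K L M) (x : A.P L) : A.O (A.pl φ x) ≤ A.O x :=
  fun _ h => (A.pl_at φ x h).1

theorem rk_pl_le (φ : Pl K L M) (x : A.P L) :
    rkS K (A.vals (A.pl φ x)) ≤ rkS K (A.vals x) := by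
  refine rkS_le_of_at (φ := φ) ?_
  rintro _ ⟨⟨f, hf⟩, rfl⟩
  obtain ⟨h, h'⟩ := A.pl_at φ x hf
  exact ⟨_, ⟨_, rfl⟩, h'⟩

theorem gen_of_pl {φ : Pl K L M} {x : A.P L} (h : A.Gen (A.pl φ x)) : A.Gen x := by
  have := A.O_pl_le φ x
  rw [show A.O (A.pl φ x) = ⊤ from h] at this
  exact top_le_iff.1 this

/-- the specialization of a generic point to a generic point -/
theorem val_pl {φ : Pl K L M} {x : A.P L} (h : A.Gen (A.pl φ x)) (f : A.F) :
    φ.At (A.val x (A.gen_of_pl h) f) (A.val (A.pl φ x) h f) := by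
  obtain ⟨h1, h2⟩ := A.pl_at φ x (f := f) (by rw [show A.O (A.pl φ x) = ⊤ from h]; trivial)
  exact h2

/-- a generic point is the image of the universal one -/
theorem eq_inc_val {x : A.P L} (hx : A.Gen x) : A.inc (A.val x hx) A.gen = x := by
  refine A.sp_unique _ _ _ fun f => ?_
  have h : (f : A.F) ∈ A.O A.gen := by rw [A.O_gen]; trivial
  refine ⟨h, ?_⟩
  rw [A.ev_gen]
  exact Pl.ofHom_at (A.val x hx) f

theorem ext_pt {x y : A.P L} (h : A.O x = A.O y)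
    (h' : ∀ (f : A.F) (hx : f ∈ A.O x) (hy : f ∈ A.O y), A.ev x ⟨f, hx⟩ = A.ev y ⟨f, hy⟩) :
    x = y := by
  rw [← A.pl_id L x]
  refine A.sp_unique _ _ _ fun f => ⟨by rw [h]; exact f.2, ?_⟩
  rw [h' f _ f.2]
  exact Pl.ofHom_at _ _

section curve

variable {A} {j : Fin g}

theorem vals_pt (y : Pl K (A.FC j) L) : A.vals (A.pl y (A.ι j)) ⊆ y.vals := by
  rintro _ ⟨⟨f, hf⟩, rfl⟩
  obtain ⟨h, h'⟩ := A.pl_at y (A.ι j) hf
  exact ⟨_, h'⟩

theorem rk_vals_le (y : Pl K L M) : rkS K y.vals ≤ rkS K (Set.univ : Set L) :=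
  rkS_le_of_at (φ := y) fun b hb => by
    obtain ⟨a, ha⟩ := hb
    exact ⟨a, Set.mem_univ _, ha⟩

theorem rk_curve_univ : rkS K (Set.univ : Set (A.FC j)) ≤ 1 := by
  obtain ⟨t, ht, hfd⟩ := (A.ffC j).out
  have h1 : rkS K (Set.univ : Set (A.FC j)) ≤ rkS K ((K⟮t⟯ : IntermediateField K (A.FC j)) :
      Set (A.FC j)) := by
    refine rkS_eq_of_subset_closure fun x _ => ?_
    have h2 : IsAlgebraic K⟮t⟯ x := Algebra.IsAlgebraic.isAlgebraic x
    have h3 : Algebra.adjoin K ((K⟮t⟯ : IntermediateField K (A.FC j)) : Set (A.FC j)) =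
        K⟮t⟯.toSubalgebra := Algebra.adjoin_eq K⟮t⟯.toSubalgebra
    change IsAlgebraic _ x
    rw [h3]
    exact h2
  have h1' : rkS K ((K⟮t⟯ : IntermediateField K (A.FC j)) : Set (A.FC j)) ≤
      rkS K ({t} : Set (A.FC j)) := rkS_le_of_subset_adjoin (fun _ h => h)
  refine (h1.trans h1').trans ?_
  rw [rkS]
  exact (Matroid.eRk_le_encard _ _).trans (by simp)

theorem rk_pt_le (y : Pl K (A.FC j) L) : rkS K (A.vals (A.pl y (A.ι j))) ≤ 1 :=
  (rkS_mono (vals_pt y)).trans ((rk_vals_le y).trans rk_curve_univ)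

end curve

end AVar

end Fermat.Agent.S26A
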