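import Mathlib

/-!
# Etale algebras over normal domains: idempotents and local rings
-/

set_option autoImplicit false
set_option linter.style.haveILetI false

namespace Fermat.Agent.S26A

open TensorProduct

universe u

/-- p.p. rings have local rings that are domains -/
theorem isDomain_localization_of_pp {S : Type u} [CommRing S]
    (h : ∀ a : S, ∃ e : S, e * e = e ∧ e * a = a ∧ ∀ b, a * b = 0 → e * b = 0)
    (p : Ideal S) [hp : p.IsPrime] : IsDomain (Localization.AtPrime p) := by
  haveI : NoZeroDivisors (Localization.AtPrime p) := by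
    refine ⟨fun {x y} hxy => ?_⟩
    obtain ⟨a, s, rfl⟩ := IsLocalization.exists_mk'_eq p.primeCompl x
    obtain ⟨b, t, rfl⟩ := IsLocalization.exists_mk'_eq p.primeCompl y
    rw [← IsLocalization.mk'_mul, IsLocalization.mk'_eq_zero_iff] at hxy
    obtain ⟨c, hc⟩ := hxy
    obtain ⟨e, he, hea, heb⟩ := h a
    have h1 : e * (c * b) = 0 := heb _ (by rw [← hc]; ring)
    by_cases hep : e ∈ p
    · left
      rw [IsLocalization.mk'_eq_zero_iff]
      refine ⟨⟨1 - e, fun h2 => hp.ne_top ((Ideal.eq_top_iff_one p).2 ?_)⟩, ?_⟩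
      · have := p.add_mem h2 hep
        rwa [sub_add_cancel] at this
      · change (1 - e) * a = 0
        rw [sub_mul, one_mul, hea, sub_self]
    · right
      rw [IsLocalization.mk'_eq_zero_iff]
      refine ⟨⟨e * c, fun h2 => ?_⟩, ?_⟩
      · rcases hp.mem_or_mem h2 with h3 | h3
        · exact hep h3
        · exact c.2 h3
      · change e * c * b = 0
        rw [mul_assoc]; exact h1
  exact NoZeroDivisors.to_isDomain _

/-- elements of the generic fibre integral over an etale algebra -/
theorem mem_range_of_isIntegral {P S : Type u} [CommRing P] [IsDomain P] [IsIntegrallyClosed P]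
    [CommRing S] [Algebra P S] [Algebra.Etale P S] {x : S ⊗[P] FractionRing P}
    (hx : IsIntegral S x) : ∃ s : S, algebraMap S (S ⊗[P] FractionRing P) s = x := by
  haveI : Algebra.Smooth P S := inferInstance
  obtain ⟨z, hz⟩ := (TensorProduct.toIntegralClosure_bijective_of_smooth (R := P) (S := S)
    (B := FractionRing P)).2 ⟨x, hx⟩
  have key : ∀ z : S ⊗[P] integralClosure P (FractionRing P),
      ∃ s : S, algebraMap S (S ⊗[P] FractionRing P) s =
        (TensorProduct.toIntegralClosure P S (FractionRing P) z : S ⊗[P] FractionRing P) := by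
    intro z
    induction z with
    | zero => exact ⟨0, by rw [map_zero, map_zero]; rfl⟩
    | add x y hx hy =>
      obtain ⟨s, hs⟩ := hx
      obtain ⟨t, ht⟩ := hy
      exact ⟨s + t, by rw [map_add, hs, ht, map_add]; rfl⟩
    | tmul s c =>
      obtain ⟨c, hc⟩ := c
      obtain ⟨y, rfl⟩ := IsIntegrallyClosed.isIntegral_iff.1 hc
      refine ⟨y • s, ?_⟩
      change _ = s ⊗ₜ[P] (algebraMap P (FractionRing P) y)
      rw [Algebra.TensorProduct.algebraMap_apply, Algebra.algebraMap_self, RingHom.id_apply,
        Algebra.algebraMap_eq_smul_one, TensorProduct.tmul_smul, TensorProduct.smul_tmul']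
  obtain ⟨s, hs⟩ := key z
  exact ⟨s, by rw [hs, hz]⟩

/-- etale algebras over normal domains are p.p. rings -/
theorem pp_of_etale {P S : Type u} [CommRing P] [IsDomain P] [IsIntegrallyClosed P]
    [CommRing S] [Algebra P S] [Algebra.Etale P S] (a : S) :
    ∃ e : S, e * e = e ∧ e * a = a ∧ ∀ b, a * b = 0 → e * b = 0 := by
  classical
  have hinj : Function.Injective (algebraMap S (S ⊗[P] FractionRing P)) :=
    Algebra.TensorProduct.includeLeft_injective (S := S) (IsFractionRing.injective P (FractionRing P))
  obtain ⟨I, _, Ai, _, _, e, -⟩ := (Algebra.Etale.iff_exists_algEquiv_prod (FractionRing P)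
    (FractionRing P ⊗[P] S)).1 inferInstance
  let φ : S ⊗[P] FractionRing P ≃+* (Π i, Ai i) :=
    ((Algebra.TensorProduct.comm P S (FractionRing P)).toRingEquiv).trans e.toRingEquiv
  let ψ : S →+* (Π i, Ai i) := (φ : S ⊗[P] FractionRing P →+* _).comp (algebraMap S _)
  have hψ : Function.Injective ψ := φ.injective.comp hinj
  let E : Π i, Ai i := fun i => if ψ a i = 0 then 0 else 1
  have hE : E * E = E := by
    funext i
    change E i * E i = E i
    by_cases h : ψ a i = 0
    · simp [E, h]
    · simp [E, h]
  have hint : IsIntegral S (φ.symm E) := by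
    refine ⟨Polynomial.X ^ 2 - Polynomial.X, ?_, ?_⟩
    · exact Polynomial.monic_X_pow_sub (lt_of_le_of_lt Polynomial.degree_X_le (by norm_num))
    · rw [Polynomial.eval₂_sub, Polynomial.eval₂_pow, Polynomial.eval₂_X, sq, ← map_mul, hE,
        sub_self]
  obtain ⟨s, hs⟩ := mem_range_of_isIntegral hint
  have hs' : ψ s = E := by
    change φ (algebraMap S _ s) = E
    rw [hs, φ.apply_symm_apply]
  refine ⟨s, hψ ?_, hψ ?_, fun b hb => hψ ?_⟩
  · rw [map_mul, hs', hE]
  · rw [map_mul, hs']
    funext i
    change E i * ψ a i = ψ a i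
    by_cases h : ψ a i = 0
    · rw [h, mul_zero]
    · simp [E, h]
  · rw [map_mul, hs', map_zero]
    have h1 : ψ a * ψ b = 0 := by rw [← map_mul, hb, map_zero]
    funext i
    change E i * ψ b i = 0
    by_cases h : ψ a i = 0
    · simp [E, h]
    · have h2 : ψ a i * ψ b i = 0 := congrFun h1 i
      rw [(mul_eq_zero.1 h2).resolve_left h, mul_zero]

/-- local rings of etale algebras over normal domains are domains -/
theorem isDomain_localization_of_etale {P S : Type u} [CommRing P] [IsDomain P]
    [IsIntegrallyClosed P] [CommRing S] [Algebra P S] [Algebra.Etale P S] (p : Ideal S)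
    [p.IsPrime] : IsDomain (Localization.AtPrime p) :=
  isDomain_localization_of_pp (pp_of_etale (P := P)) p

end Fermat.Agent.S26A
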