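import Fermat.Agent.S26A.Dom1

/-!
# Smooth schemes over a field: charts, stalks, integrality
-/

set_option autoImplicit false
set_option linter.style.haveILetI false

namespace Fermat.Agent.S26A

open CategoryTheory AlgebraicGeometry TopologicalSpace

universe u

section Top

variable {X : Type*} [TopologicalSpace X]

/-- a connected locally irreducible space is irreducible -/
theorem irreducible_of_local [ConnectedSpace X]
    (h : ∀ x : X, ∃ U : Set X, IsOpen U ∧ x ∈ U ∧ IsPreirreducible U) : IrreducibleSpace X := by
  obtain ⟨x0⟩ := (inferInstance : Nonempty X)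
  set Z := irreducibleComponent x0 with hZ
  have hopen : IsOpen Z := by
    rw [isOpen_iff_forall_mem_open]
    intro y hy
    obtain ⟨U, hU, hyU, hirr⟩ := h y
    refine ⟨U, ?_, hU, hyU⟩
    have h1 : IsPreirreducible Z := isIrreducible_irreducibleComponent.isPreirreducible
    have h2 : Z ⊆ closure (Z ∩ U) := by
      intro w hw
      rw [mem_closure_iff]
      intro O hO hwO
      obtain ⟨v, hv, hvO, hvU⟩ := h1 O U hO hU ⟨w, hw, hwO⟩ ⟨y, hy, hyU⟩
      exact ⟨v, hvO, hv, hvU⟩
    have h3 : Z ⊆ closure U := h2.trans (closure_mono Set.inter_subset_right)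
    have h4 := eq_irreducibleComponent hirr.closure h3
    rw [hZ, ← h4]
    exact subset_closure
  have hclosed : IsClosed Z := isClosed_irreducibleComponent
  have huniv : Z = Set.univ := IsClopen.eq_univ ⟨hclosed, hopen⟩ ⟨x0, mem_irreducibleComponent⟩
  refine (irreducibleSpace_def X).2 ?_
  change IsIrreducible (Set.univ : Set X)
  rw [← huniv]
  exact isIrreducible_irreducibleComponent

end Top

variable {K : Type u} [Field K] {A : Scheme.{u}} (f : A ⟶ Spec (CommRingCat.of K))

/-- the structure map of sections -/
noncomputable def stm (V : A.Opens) : K →+* Γ(A, V) :=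
  ((Scheme.ΓSpecIso (CommRingCat.of K)).inv ≫ f.appLE ⊤ V le_top).hom

/-- the local structure of a smooth scheme over a field -/
theorem exists_chart (g : ℕ) [SmoothOfRelativeDimension g f] (x : A) :
    ∃ (V : A.Opens) (_ : IsAffineOpen V) (_ : x ∈ V) (φ : MvPolynomial (Fin g) K →+* Γ(A, V)),
      φ.Etale ∧ φ.comp MvPolynomial.C = stm f V := by
  obtain ⟨U, hU, V, hV, hx, e, hf⟩ :=
    SmoothOfRelativeDimension.exists_isStandardSmoothOfRelativeDimension (n := g) (f := f) x
  have hUt : U = ⊤ := by
    rw [eq_top_iff]
    rintro y -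
    have h1 : f x ∈ U := e hx
    have h2 : y = f x := Subsingleton.elim (α := PrimeSpectrum K) _ _
    rwa [h2]
  subst hUt
  have hf' : (stm f V).IsStandardSmoothOfRelativeDimension g := by
    rw [stm, CommRingCat.hom_comp]
    exact RingHom.isStandardSmoothOfRelativeDimension_respectsIso.2 _
      (Scheme.ΓSpecIso (CommRingCat.of K)).symm.commRingCatIsoToRingEquiv hf
  obtain ⟨φ, h1, h2⟩ := hf'.exists_etale_mvPolynomial
  exact ⟨V, hV, hx, φ, h2, h1⟩

/-- the stalks of a smooth scheme over a field are domains -/
theorem isDomain_stalk (g : ℕ) [SmoothOfRelativeDimension g f] (x : A) :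
    IsDomain (A.presheaf.stalk x) := by
  obtain ⟨V, hV, hx, φ, hφ, -⟩ := exists_chart f g x
  algebraize [φ]
  haveI := A.presheaf.algebra_section_stalk (U := V) ⟨x, hx⟩
  letI := A.presheaf.algebra_section_stalk (U := V) ⟨x, hx⟩
  haveI := hV.isLocalization_stalk ⟨x, hx⟩
  have h1 := isDomain_localization_of_etale (P := MvPolynomial (Fin g) K) (S := Γ(A, V))
    (hV.primeIdealOf ⟨x, hx⟩).asIdeal
  exact (IsLocalization.algEquiv (hV.primeIdealOf ⟨x, hx⟩).asIdeal.primeCompl
    (A.presheaf.stalk x) (Localization.AtPrime (hV.primeIdealOf ⟨x, hx⟩).asIdeal)).toMulEquiv.isDomain _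

/-- **a connected smooth scheme over a field is integral** -/
theorem isIntegral_of_smooth (g : ℕ) [SmoothOfRelativeDimension g f] [ConnectedSpace A] :
    IsIntegral A := by
  haveI : Smooth f := SmoothOfRelativeDimension.smooth g f
  haveI : IsLocallyNoetherian A := LocallyOfFiniteType.isLocallyNoetherian f
  haveI : ∀ x : A, IsDomain (A.presheaf.stalk x) := isDomain_stalk f g
  haveI : ∀ x : A, _root_.IsReduced (A.presheaf.stalk x) := fun x => inferInstance
  haveI : IsReduced A := isReduced_of_isReduced_stalk A
  haveI : IrreducibleSpace A := by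
    apply irreducible_of_local
    intro x
    obtain ⟨U, hx, hU, hinj⟩ := A.exists_germ_injective x
    refine ⟨U, U.2, hx, ?_⟩
    have hd : IsDomain Γ(A, U) := hinj.isDomain (A.presheaf.germ U x hx).hom
    haveI : IrreducibleSpace (Spec Γ(A, U)) := inferInstanceAs (IrreducibleSpace (PrimeSpectrum _))
    have h1 : (U : Set A) = Set.range hU.fromSpec := hU.range_fromSpec.symm
    rw [h1, ← Set.image_univ]
    exact (IrreducibleSpace.isIrreducible_univ _).isPreirreducible.image _
      hU.fromSpec.continuous.continuousOn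
  exact isIntegral_of_irreducibleSpace_of_isReduced A

end Fermat.Agent.S26A
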