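import Fermat.Agent.S26A.Dom2

/-!
# Primes of codimension at most one of polynomial rings, local rings of etale algebras
-/

set_option autoImplicit false
set_option linter.style.haveILetI false

namespace Fermat.Agent.S26A

universe u

section Poly

open Polynomial

/-- kernels of homomorphisms of `R[X]` injective on `R` are principal -/
theorem ker_principal {R L : Type u} [CommRing R] [IsDomain R] [UniqueFactorizationMonoid R]
    [Field L] (ψ : R[X] →+* L) (hψ : Function.Injective (ψ.comp C)) :
    (RingHom.ker ψ).IsPrincipal := by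
  by_cases hbot : RingHom.ker ψ = ⊥
  · rw [hbot]; exact bot_isPrincipal
  haveI : (RingHom.ker ψ).IsPrime := RingHom.ker_isPrime ψ
  obtain ⟨h, hmem, hprime⟩ := Ideal.IsPrime.exists_mem_prime_of_ne_bot
    (inferInstance : (RingHom.ker ψ).IsPrime) hbot
  have hirr := hprime.irreducible
  have hdeg : h.natDegree ≠ 0 := by
    intro h0
    rw [natDegree_eq_zero] at h0
    obtain ⟨c, rfl⟩ := h0
    have h1 : (ψ.comp C) c = (ψ.comp C) 0 := by
      rw [map_zero]; exact hmem
    have h2 := hψ h1
    rw [h2, C_0] at hprime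
    exact hprime.ne_zero rfl
  have hprim : h.IsPrimitive := hirr.isPrimitive hdeg
  let F := FractionRing R
  have hmap : Irreducible (h.map (algebraMap R F)) :=
    (hprim.irreducible_iff_irreducible_map_fraction_map (K := F)).1 hirr
  let σ : F →+* L := IsFractionRing.lift hψ
  let Ψ : F[X] →+* L := eval₂RingHom σ (ψ X)
  have hΨ : ∀ r : R[X], Ψ (r.map (algebraMap R F)) = ψ r := by
    intro r
    change eval₂ σ (ψ X) (r.map (algebraMap R F)) = ψ r
    rw [eval₂_map]
    have h1 : σ.comp (algebraMap R F) = ψ.comp C := by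
      ext c
      exact IsFractionRing.lift_algebraMap hψ c
    rw [h1]
    induction r using Polynomial.induction_on' with
    | add p q hp hq => rw [eval₂_add, hp, hq, map_add]
    | monomial n a =>
      rw [eval₂_monomial, ← C_mul_X_pow_eq_monomial, map_mul, map_pow]
      rfl
  refine ⟨⟨h, le_antisymm ?_ ?_⟩⟩
  · intro r hr
    rw [Ideal.submodule_span_eq, Ideal.mem_span_singleton]
    refine hprim.dvd_of_fraction_map_dvd_fraction_map (K := F) ?_
    by_contra hnd
    have hcop : IsCoprime (h.map (algebraMap R F)) (r.map (algebraMap R F)) :=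
      hmap.coprime_iff_not_dvd.2 hnd
    obtain ⟨a, b, hab⟩ := hcop
    have h2 := congrArg Ψ hab
    rw [map_add, map_mul, map_mul, hΨ, hΨ, map_one] at h2
    have h3 : ψ h = 0 := hmem
    have h4 : ψ r = 0 := hr
    rw [h3, h4, mul_zero, mul_zero, add_zero] at h2
    exact zero_ne_one h2
  · rw [Ideal.submodule_span_eq, Ideal.span_le, Set.singleton_subset_iff]
    exact hmem

end Poly

section MvPoly

open MvPolynomial

variable {K : Type u} [Field K]

/-- the identification of polynomials in `n + 1` variables, separating the `j`-th one -/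
noncomputable def sepEquiv (K : Type u) [Field K] (n : ℕ) (j : Fin (n + 1)) :
    MvPolynomial (Fin (n + 1)) K ≃ₐ[K] Polynomial (MvPolynomial (Fin n) K) :=
  (renameEquiv K (Equiv.swap 0 j)).trans (finSuccEquiv K n)

theorem sepEquiv_symm_C (n : ℕ) (j : Fin (n + 1)) (i : Fin n) :
    (sepEquiv K n j).symm (Polynomial.C (X i)) = X (Equiv.swap 0 j i.succ) := by
  have h : Equiv.swap 0 j (Equiv.swap 0 j i.succ) = i.succ := by
    have := (Equiv.swap 0 j).symm_apply_apply i.succ
    rwa [Equiv.symm_swap] at this
  rw [AlgEquiv.symm_apply_eq, sepEquiv, AlgEquiv.trans_apply, renameEquiv_apply, rename_X,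
    h, finSuccEquiv_X_succ]

/-- **kernels of codimension one are principal** -/
theorem ker_principal_mv {L : Type u} [Field L] [Algebra K L] {n : ℕ}
    (χ : MvPolynomial (Fin (n + 1)) K →ₐ[K] L) (j : Fin (n + 1))
    (h : AlgebraicIndependent K (fun i : Fin n => χ (X (Equiv.swap 0 j i.succ)))) :
    (RingHom.ker (χ : MvPolynomial (Fin (n + 1)) K →+* L)).IsPrincipal := by
  let e := sepEquiv K n j
  let ψ : Polynomial (MvPolynomial (Fin n) K) →+* L :=
    (χ : MvPolynomial (Fin (n + 1)) K →+* L).comp (e.symm : _ →+* MvPolynomial (Fin (n + 1)) K)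
  have hψ : Function.Injective (ψ.comp Polynomial.C) := by
    have h1 : ψ.comp Polynomial.C =
        (aeval (fun i : Fin n => χ (X (Equiv.swap 0 j i.succ))) : _ →ₐ[K] L).toRingHom := by
      apply MvPolynomial.ringHom_ext
      · intro c
        change χ (e.symm (Polynomial.C (C c))) = aeval _ (C c)
        have h2 : (Polynomial.C (C c) : Polynomial (MvPolynomial (Fin n) K)) =
            algebraMap K _ c := rfl
        rw [h2, AlgEquiv.commutes, AlgHom.commutes, aeval_C]
      · intro i
        change χ (e.symm (Polynomial.C (X i))) = aeval _ (X i)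
        rw [sepEquiv_symm_C, aeval_X]
    rw [h1]
    exact h
  obtain ⟨⟨a, ha⟩⟩ := ker_principal ψ hψ
  refine ⟨⟨e.symm a, ?_⟩⟩
  rw [Ideal.submodule_span_eq] at ha ⊢
  ext r
  rw [Ideal.mem_span_singleton]
  have h1 : r ∈ RingHom.ker (χ : MvPolynomial (Fin (n + 1)) K →+* L) ↔ e r ∈ RingHom.ker ψ := by
    rw [RingHom.mem_ker, RingHom.mem_ker]
    change χ r = 0 ↔ χ (e.symm (e r)) = 0
    rw [e.symm_apply_apply]
  rw [h1, ha, Ideal.mem_span_singleton]
  constructor
  · rintro ⟨b, hb⟩
    refine ⟨e.symm b, ?_⟩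
    rw [← map_mul, ← hb, e.symm_apply_apply]
  · rintro ⟨b, hb⟩
    exact ⟨e b, by rw [hb, map_mul, e.apply_symm_apply]⟩

end MvPoly

end Fermat.Agent.S26A
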