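import Fermat.Agent.S26A.Dom3

/-!
# Local rings of etale algebras over polynomial rings
-/

set_option autoImplicit false
set_option linter.style.haveILetI false

namespace Fermat.Agent.S26A

universe u

open MvPolynomial TensorProduct AlgebraicIndependent
open scoped IntermediateField.algebraAdjoinAdjoin

section Alg

variable {K : Type u} [Field K] {g : ℕ} {S L : Type u} [CommRing S]
  [Algebra (MvPolynomial (Fin g) K) S]
  [Field L] [Algebra K L] (ev : S →+* L)
  (hev : ∀ c : K, ev (algebraMap (MvPolynomial (Fin g) K) S (C c)) = algebraMap K L c)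

/-- the values of the coordinates -/
noncomputable def tv (K : Type u) [Field K] (g : ℕ) {S L : Type u} [CommRing S]
    [Algebra (MvPolynomial (Fin g) K) S] [Field L] (ev : S →+* L) : Fin g → L :=
  fun i => ev (algebraMap (MvPolynomial (Fin g) K) S (X i))

include hev in
theorem ev_aeval (x : MvPolynomial (Fin g) K) :
    ev (algebraMap (MvPolynomial (Fin g) K) S x) = aeval (tv K g ev) x := by
  have h : ev.comp (algebraMap (MvPolynomial (Fin g) K) S) =
      (aeval (tv K g ev) : MvPolynomial (Fin g) K →ₐ[K] L).toRingHom := by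
    apply MvPolynomial.ringHom_ext
    · intro c
      change ev (algebraMap (MvPolynomial (Fin g) K) S (C c)) = aeval (tv K g ev) (C c)
      rw [hev, aeval_C]
    · intro i
      change _ = aeval (tv K g ev) (X i)
      rw [aeval_X]
      rfl
  exact DFunLike.congr_fun h x

variable [Algebra.Etale (MvPolynomial (Fin g) K) S]

include hev in
/-- values are algebraic over the values of the coordinates -/
theorem isAlgebraic_ev (s : S) :
    IsAlgebraic (Algebra.adjoin K (Set.range (tv K g ev))) (ev s) := by
  let E := IntermediateField.adjoin K (Set.range (tv K g ev))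
  let α : MvPolynomial (Fin g) K →ₐ[K] E :=
    aeval (fun i => (⟨tv K g ev i, IntermediateField.subset_adjoin _ _ ⟨i, rfl⟩⟩ : E))
  letI : Algebra (MvPolynomial (Fin g) K) E := α.toRingHom.toAlgebra
  letI : Algebra (MvPolynomial (Fin g) K) L :=
    (ev.comp (algebraMap (MvPolynomial (Fin g) K) S)).toAlgebra
  haveI : IsScalarTower (MvPolynomial (Fin g) K) E L := by
    apply IsScalarTower.of_algebraMap_eq'
    change ev.comp (algebraMap (MvPolynomial (Fin g) K) S) = (algebraMap E L).comp α.toRingHom
    apply MvPolynomial.ringHom_ext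
    · intro c
      change ev (algebraMap (MvPolynomial (Fin g) K) S (C c)) = algebraMap E L (α (C c))
      rw [hev, aeval_C]
      rfl
    · intro i
      change ev (algebraMap (MvPolynomial (Fin g) K) S (X i)) = algebraMap E L (α (X i))
      rw [aeval_X]
      rfl
  let evA : S →ₐ[MvPolynomial (Fin g) K] L := { ev with commutes' := fun _ => rfl }
  let ψ : E ⊗[MvPolynomial (Fin g) K] S →ₐ[E] L :=
    Algebra.TensorProduct.lift (Algebra.ofId E L) evA (fun _ _ => Commute.all _ _)
  haveI : Module.Finite E (E ⊗[MvPolynomial (Fin g) K] S) :=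
    Algebra.FormallyUnramified.finite_of_free E (E ⊗[MvPolynomial (Fin g) K] S)
  have h1 : IsIntegral E ((1 : E) ⊗ₜ[MvPolynomial (Fin g) K] s) := Algebra.IsIntegral.isIntegral _
  have h2 : IsIntegral E (ψ ((1 : E) ⊗ₜ[MvPolynomial (Fin g) K] s)) := h1.map ψ
  have h3 : ψ ((1 : E) ⊗ₜ[MvPolynomial (Fin g) K] s) = ev s := by
    change Algebra.TensorProduct.lift (Algebra.ofId E L) evA _ _ = _
    rw [Algebra.TensorProduct.lift_tmul, map_one, one_mul]
    rfl
  rw [h3] at h2
  exact (IsFractionRing.isAlgebraic_iff (Algebra.adjoin K (Set.range (tv K g ev))) E L).2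
    h2.isAlgebraic

end Alg

section Rank

variable {K L : Type u} [Field K] [Field L] [Algebra K L] {g : ℕ} (t : Fin g → L)

theorem le_eRk {m : ℕ} (y : Fin m → L) (hy : AlgebraicIndependent K y)
    (hyt : ∀ i, IsAlgebraic (Algebra.adjoin K (Set.range t)) (y i)) :
    (m : ℕ∞) ≤ (matroid K L).eRk (Set.range t) := by
  have h1 : (matroid K L).Indep (Set.range y) :=
    (algebraicIndependent_subtype_range hy.injective).2 hy
  have h2 : (Set.range y).encard = m := by
    rw [← Set.image_univ, Set.InjOn.encard_image hy.injective.injOn, Set.encard_univ]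
    simp
  have h3 : Set.range y ⊆ (matroid K L).closure (Set.range t) := by
    rintro _ ⟨i, rfl⟩
    rw [matroid_closure_eq]
    exact hyt i
  rw [← h2, ← h1.eRk_eq_encard, ← Matroid.eRk_closure_eq _ (Set.range t)]
  exact (matroid K L).eRk_mono h3

omit [Field L] in
theorem encard_range_le : (Set.range t).encard ≤ g := by
  rw [← Set.image_univ]
  refine (Set.encard_image_le _ _).trans ?_
  rw [Set.encard_univ]
  simp

/-- full rank families are independent -/
theorem indep_of_eRk (h : (g : ℕ∞) ≤ (matroid K L).eRk (Set.range t)) :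
    AlgebraicIndependent K t := by
  have h1 := (matroid K L).eRk_le_encard (Set.range t)
  have h2 := encard_range_le t
  have h3 : (Set.range t).encard = g := le_antisymm h2 (h.trans h1)
  have h4 : (matroid K L).eRk (Set.range t) = (Set.range t).encard :=
    le_antisymm h1 (h3.trans_le h)
  have h5 : (matroid K L).Indep (Set.range t) :=
    (Matroid.indep_iff_eRk_eq_encard_of_finite (Set.finite_range t)).2 h4
  have hinj : Function.Injective t := by
    have h6 : (t '' Set.univ).encard = (Set.univ : Set (Fin g)).encard := by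
      rw [Set.image_univ, h3, Set.encard_univ]
      simp
    have := Set.Finite.injOn_of_encard_image_eq Set.finite_univ h6
    exact fun a b hab => this (Set.mem_univ a) (Set.mem_univ b) hab
  exact (algebraicIndependent_subtype_range hinj).1 h5

/-- families of corank one -/
theorem indep_of_eRk' {n : ℕ} (t : Fin (n + 1) → L)
    (h : (n : ℕ∞) ≤ (matroid K L).eRk (Set.range t)) :
    AlgebraicIndependent K t ∨
      ∃ j : Fin (n + 1), AlgebraicIndependent K (fun i : Fin n => t (Equiv.swap 0 j i.succ)) := by
  classical
  obtain ⟨I, hI⟩ := (matroid K L).exists_isBasis (Set.range t) (Set.subset_univ _)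
  have hIr : I ⊆ Set.range t := hI.subset
  have hcard : (n : ℕ∞) ≤ I.encard := by rw [← hI.eRk_eq_encard]; exact h
  choose! idx hidx using fun b (hb : b ∈ I) => hIr hb
  let T : Set (Fin (n + 1)) := idx '' I
  have hinj : Set.InjOn idx I := fun a ha b hb hab => by
    rw [← hidx a ha, ← hidx b hb, hab]
  have hT : (n : ℕ∞) ≤ T.encard := by rw [hinj.encard_image]; exact hcard
  have hindT : AlgebraicIndependent K (fun x : T => t x) := by
    have h1 : AlgebraicIndependent K ((↑) : I → L) := hI.indep
    have h2 : ∀ x : T, t x ∈ I := by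
      rintro ⟨_, b, hb, rfl⟩
      change t (idx b) ∈ I
      rw [hidx b hb]; exact hb
    refine h1.comp (fun x : T => (⟨t x, h2 x⟩ : I)) ?_
    rintro ⟨_, b, hb, rfl⟩ ⟨_, b', hb', rfl⟩ hab
    have h3 : t (idx b) = t (idx b') := congrArg Subtype.val hab
    rw [hidx b hb, hidx b' hb'] at h3
    subst h3
    rfl
  by_cases hTu : T = Set.univ
  · left
    refine hindT.comp (fun i : Fin (n + 1) => (⟨i, by rw [hTu]; exact Set.mem_univ i⟩ : T)) ?_
    intro a b hab
    exact congrArg Subtype.val hab
  · right
    obtain ⟨j, hj⟩ := (Set.ne_univ_iff_exists_notMem _).1 hTu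
    refine ⟨j, ?_⟩
    have hmem : ∀ i : Fin (n + 1), i ≠ j → i ∈ T := by
      intro i hij
      by_contra hi
      have h4 : T ⊆ (({i, j} : Finset (Fin (n + 1)))ᶜ : Finset (Fin (n + 1))) := by
        intro x hx
        rw [Finset.coe_compl, Set.mem_compl_iff, Finset.mem_coe, Finset.mem_insert,
          Finset.mem_singleton]
        rintro (rfl | rfl)
        · exact hi hx
        · exact hj hx
      have h5 := Set.encard_le_encard h4
      rw [Set.encard_coe_eq_coe_finsetCard, Finset.card_compl, Fintype.card_fin,
        Finset.card_pair hij] at h5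
      have h6 := hT.trans h5
      have h7 : n ≤ n + 1 - 2 := by exact_mod_cast h6
      have h8 : 2 ≤ n + 1 := by
        have := Finset.card_le_univ ({i, j} : Finset (Fin (n + 1)))
        rwa [Finset.card_pair hij, Fintype.card_fin] at this
      omega
    refine hindT.comp (fun i : Fin n => (⟨Equiv.swap 0 j i.succ, hmem _ ?_⟩ : T)) ?_
    · intro h9
      have h10 : Equiv.swap 0 j (Equiv.swap 0 j i.succ) = Equiv.swap 0 j j := by rw [h9]
      rw [Equiv.swap_apply_right] at h10
      have h11 := (Equiv.swap 0 j).symm_apply_apply i.succ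
      rw [Equiv.symm_swap] at h11
      rw [h11] at h10
      exact Fin.succ_ne_zero i h10
    · intro a b hab
      have h12 : Equiv.swap 0 j a.succ = Equiv.swap 0 j b.succ := congrArg Subtype.val hab
      exact Fin.succ_injective _ ((Equiv.swap 0 j).injective h12)

end Rank

end Fermat.Agent.S26A
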