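import Fermat.Agent.S26A.Cv1
import Fermat.Agent.S26A.Sch1d
import Fermat.Agent.S26A.Dom6

/-!
# Normality of smooth schemes
-/

set_option autoImplicit false
set_option linter.style.haveILetI false

noncomputable section

namespace Fermat.Agent.S26A

universe u

open TensorProduct

section Alg

variable {P S : Type u} [CommRing P] [IsDomain P] [CommRing S] [Algebra P S]

/-- denominators in the generic fibre -/
theorem exists_denom (w : S ⊗[P] FractionRing P) : ∃ r : P, r ≠ 0 ∧ ∃ s : S,
    w * ((1 : S) ⊗ₜ[P] algebraMap P (FractionRing P) r) = s ⊗ₜ[P] (1 : FractionRing P) := by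
  have key : ∀ (r : P) (s : S), s ⊗ₜ[P] algebraMap P (FractionRing P) r =
      (r • s) ⊗ₜ[P] (1 : FractionRing P) := by
    intro r s
    rw [Algebra.algebraMap_eq_smul_one, TensorProduct.tmul_smul, TensorProduct.smul_tmul']
  induction w using TensorProduct.induction_on with
  | zero => exact ⟨1, one_ne_zero, 0, by rw [zero_mul, TensorProduct.zero_tmul]⟩
  | tmul s q =>
    obtain ⟨⟨n, d⟩, h⟩ := IsLocalization.surj (nonZeroDivisors P) q
    refine ⟨d, nonZeroDivisors.ne_zero d.2, n • s, ?_⟩
    have h' : q * algebraMap P (FractionRing P) d = algebraMap P (FractionRing P) n := h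
    rw [Algebra.TensorProduct.tmul_mul_tmul, mul_one, h', key]
  | add w1 w2 h1 h2 =>
    obtain ⟨r1, hr1, s1, e1⟩ := h1
    obtain ⟨r2, hr2, s2, e2⟩ := h2
    refine ⟨r1 * r2, mul_ne_zero hr1 hr2, r2 • s1 + r1 • s2, ?_⟩
    have h3 : ((1 : S) ⊗ₜ[P] algebraMap P (FractionRing P) (r1 * r2)) =
        ((1 : S) ⊗ₜ[P] algebraMap P (FractionRing P) r1) *
          ((1 : S) ⊗ₜ[P] algebraMap P (FractionRing P) r2) := by
      rw [Algebra.TensorProduct.tmul_mul_tmul, mul_one, map_mul]
    rw [h3, add_mul, ← mul_assoc, e1, mul_comm ((1 : S) ⊗ₜ[P] algebraMap P (FractionRing P) r1),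
      ← mul_assoc, e2, Algebra.TensorProduct.tmul_mul_tmul, Algebra.TensorProduct.tmul_mul_tmul,
      mul_one, mul_one, one_mul, one_mul, key, key, TensorProduct.add_tmul]

/-- **etale algebras over normal domains are normal** -/
theorem isIntegrallyClosed_of_etale [IsIntegrallyClosed P] [IsDomain S] [Algebra.Etale P S] :
    IsIntegrallyClosed S := by
  have hPS : Function.Injective (algebraMap P S) := injective_of_flat
  have hPF : Function.Injective (algebraMap P (FractionRing S)) := by
    rw [IsScalarTower.algebraMap_eq P S (FractionRing S)]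
    exact (IsFractionRing.injective S (FractionRing S)).comp hPS
  let j : FractionRing P →+* FractionRing S := IsFractionRing.lift hPF
  let jA : FractionRing P →ₐ[P] FractionRing S :=
    { j with commutes' := fun r => IsFractionRing.lift_algebraMap hPF r }
  let Φ : S ⊗[P] FractionRing P →ₐ[S] FractionRing S :=
    Algebra.TensorProduct.lift (Algebra.ofId S (FractionRing S)) jA fun _ _ => Commute.all _ _
  have hΦ : ∀ (s : S) (q : FractionRing P), Φ (s ⊗ₜ q) = algebraMap S (FractionRing S) s * j q := by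
    intro s q
    change Algebra.TensorProduct.lift (Algebra.ofId S (FractionRing S)) jA
      (fun _ _ => Commute.all _ _) (s ⊗ₜ q) = _
    rw [Algebra.TensorProduct.lift_tmul]
    rfl
  have hΦi : Function.Injective Φ := by
    rw [injective_iff_map_eq_zero]
    intro w hw
    obtain ⟨r, hr, s, e⟩ := exists_denom w
    have h1 := congrArg Φ e
    rw [map_mul, hw, zero_mul, hΦ, map_one, mul_one] at h1
    have h2 : s = 0 := IsFractionRing.injective S (FractionRing S) (by rw [← h1, map_zero])
    rw [h2, TensorProduct.zero_tmul] at e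
    have h3 : algebraMap P (FractionRing P) r ≠ 0 := fun h =>
      hr (IsFractionRing.injective P (FractionRing P) (by rw [h, map_zero]))
    have h4 : w * ((1 : S) ⊗ₜ[P] algebraMap P (FractionRing P) r) *
        ((1 : S) ⊗ₜ[P] (algebraMap P (FractionRing P) r)⁻¹) = w := by
      rw [mul_assoc, Algebra.TensorProduct.tmul_mul_tmul, mul_one, mul_inv_cancel₀ h3]
      exact mul_one w
    rw [← h4, e, zero_mul]
  rw [isIntegrallyClosed_iff (FractionRing S)]
  intro z hz
  obtain ⟨a, b, hb, rfl⟩ := IsFractionRing.div_surjective S z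
  obtain ⟨r, hr, b', hb'⟩ := (isAlgebraic_of_etale (P := P) b).exists_nonzero_dvd hb
  have hjr : j (algebraMap P (FractionRing P) r)⁻¹ = (algebraMap P (FractionRing S) r)⁻¹ := by
    rw [map_inv₀]
    congr 1
    exact IsFractionRing.lift_algebraMap hPF r
  have hr0 : algebraMap P (FractionRing S) r ≠ 0 := fun h => hr (hPF (by rw [h, map_zero]))
  have hb0 : algebraMap S (FractionRing S) b ≠ 0 := fun h =>
    nonZeroDivisors.ne_zero hb (IsFractionRing.injective S (FractionRing S) (by rw [h, map_zero]))
  have hw : Φ ((a * b') ⊗ₜ (algebraMap P (FractionRing P) r)⁻¹) =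
      algebraMap S (FractionRing S) a / algebraMap S (FractionRing S) b := by
    rw [hΦ, hjr, ← div_eq_mul_inv, div_eq_div_iff hr0 hb0,
      IsScalarTower.algebraMap_apply P S (FractionRing S), ← map_mul, ← map_mul, hb']
    congr 1
    ring
  rw [← hw] at hz
  have h5 : IsIntegral S ((a * b') ⊗ₜ[P] (algebraMap P (FractionRing P) r)⁻¹) :=
    (isIntegral_algHom_iff Φ hΦi).1 hz
  obtain ⟨s, hs⟩ := mem_range_of_isIntegral h5
  refine ⟨s, ?_⟩
  rw [← hw, ← hs]
  exact (Φ.commutes s).symm

end Alg

section Sch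

open CategoryTheory AlgebraicGeometry TopologicalSpace

variable {K : Type u} [Field K] {A : Scheme.{u}} (f : A ⟶ Spec (CommRingCat.of K)) (g : ℕ)
  [SmoothOfRelativeDimension g f] [IsIntegral A] (x : A)

include f g in
/-- **smooth schemes are normal** -/
theorem isIntegrallyClosed_stalk : IsIntegrallyClosed (A.presheaf.stalk x) := by
  obtain ⟨V, hV, hx, φ, hφ, hC⟩ := exists_chart f g x
  algebraize [φ]
  letI := A.presheaf.algebra_section_stalk (U := V) ⟨x, hx⟩
  haveI := hV.isLocalization_stalk ⟨x, hx⟩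
  haveI : Nonempty V := ⟨⟨x, hx⟩⟩
  haveI : IsIntegrallyClosed Γ(A, V) :=
    isIntegrallyClosed_of_etale (P := MvPolynomial (Fin g) K)
  exact isIntegrallyClosed_of_isLocalization (R := Γ(A, V)) (A.presheaf.stalk x)
    (hV.primeIdealOf ⟨x, hx⟩).asIdeal.primeCompl
    (Ideal.primeCompl_le_nonZeroDivisors _)

include g in
theorem mem_OO_of_isIntegral (z : FF f) (hz : IsIntegral (OO f x) z) : z ∈ OO f x := by
  haveI := isIntegrallyClosed_stalk f g x
  obtain ⟨p, hp, h0⟩ := hz
  let e : OO f x →+* A.presheaf.stalk x := ((eOO f x).symm : OO f x →+* A.presheaf.stalk x)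
  have he : (toFF f x).comp e = algebraMap (OO f x) (FF f) := by
    ext a
    exact toFF_eOO_symm f x a
  have h1 : @IsIntegral (A.presheaf.stalk x) A.functionField _ _ _ z := by
    refine ⟨p.map e, hp.map e, ?_⟩
    have h2 : (algebraMap (A.presheaf.stalk x) A.functionField) = toFF f x := rfl
    rw [h2]
    have h3 : (p.map e).eval₂ (toFF f x) z = p.eval₂ ((toFF f x).comp e) z :=
      Polynomial.eval₂_map _ _ _
    exact h3.trans (by rw [he]; exact h0)
  obtain ⟨s, hs⟩ := IsIntegrallyClosed.isIntegral_iff.1 h1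
  exact ⟨s, hs⟩

theorem GSch.nor (X : GSch K) [IsProper X.f] [IsIntegral X.A] (g : ℕ)
    [SmoothOfRelativeDimension g X.f] {L : Type u} [Field L] [Algebra K L] (q : X.Pt L)
    (z : FF X.f) (hz : IsIntegral (X.O q) z) : z ∈ X.O q :=
  mem_OO_of_isIntegral X.f g (X.ptt q) z hz

end Sch

end Fermat.Agent.S26A
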