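import Fermat.Agent.S26A.Sch3d
import Fermat.Agent.S26A.Sch1d
import Fermat.Agent.S26A.Dom6

/-!
# Generating curves on group schemes
-/

set_option autoImplicit false
set_option linter.style.haveILetI false

noncomputable section

namespace Fermat.Agent.S26A

open CategoryTheory CategoryTheory.Limits AlgebraicGeometry NeronModelInfra GoodReductionJacobian
open Fermat.Agent.RR

universe u

namespace GSch

variable {K : Type u} [Field K] [IsAlgClosed K] (X : GSch K) [IsProper X.f] [IsIntegral X.A]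
  (g : ℕ)

/-- the curve hypothesis -/
def HCurve : Prop := ∀ f : X.O (0 : X.Pt K), f ≠ 0 → ∃ (C : Type u) (_ : Field C) (_ : Algebra K C)
    (_ : FunField K C) (x : X.Pt C) (o : Pl K C K), X.pl o x = 0 ∧
      ∀ h : (f : FF X.f) ∈ X.O x, X.ev x ⟨f, h⟩ ≠ 0

/-- the data for generating curves -/
def toPre (tr : Algebra.trdeg K (FF X.f) = g)
    (cod0 : ∀ {L : Type u} [Field L] [Algebra K L] (x : X.Pt L) (y : Fin g → X.O x),
      AlgebraicIndependent K (fun i => X.ev x (y i)) → X.O x = ⊤)
    (hcurve : X.HCurve) : Pre K g where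
  F := FF X.f
  P L := X.Pt L
  pl := X.pl
  pl_comp := X.pl_comp
  O := X.O
  ev := X.ev
  pl_ev := X.pl_ev
  map_O := X.map_O
  tr := tr
  cod0 := cod0
  frac a := by
    obtain ⟨b, c, hc, h⟩ := IsFractionRing.div_surjective
      (A := X.A.presheaf.stalk (X.ptt (0 : X.Pt K))) (K := X.A.functionField) a
    have hc' : toFF X.f (X.ptt (0 : X.Pt K)) c ≠ 0 := by
      rw [Ne, map_eq_zero_iff _ (toFF_injective X.f _)]
      exact nonZeroDivisors.ne_zero hc
    refine ⟨⟨toFF X.f _ b, b, rfl⟩, ⟨toFF X.f _ c, c, rfl⟩, hc', ?_⟩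
    change a * toFF X.f _ c = toFF X.f _ b
    rw [← h]
    exact div_mul_cancel₀ _ hc'
  curve := hcurve

end GSch

end Fermat.Agent.S26A
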