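import Mathlib

/-!
# Derivations and separability
-/

set_option autoImplicit false
set_option linter.style.haveILetI false

universe u

namespace Fermat.Agent.S26A

open Algebra

/-- if there are no derivations, the extension is separable (in particular algebraic) -/
theorem isSeparable_of_der {E F : Type u} [Field E] [Field F] [Algebra E F]
    [EssFiniteType E F] (h : ∀ D : Derivation E F F, D = 0) : Algebra.IsSeparable E F := by
  have h1 : Subsingleton Ω[F⁄E] := by
    refine ⟨fun a b => ?_⟩
    rw [← sub_eq_zero]
    generalize a - b = c
    rw [← Module.forall_dual_apply_eq_zero_iff F]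
    intro φ
    have h2 := h ((KaehlerDifferential.linearMapEquivDerivation E F) φ)
    have h3 : φ = 0 := by
      rw [← (KaehlerDifferential.linearMapEquivDerivation E F).map_eq_zero_iff]
      exact h2
    rw [h3]; rfl
  haveI : FormallyUnramified E F := ⟨h1⟩
  exact FormallyUnramified.isSeparable E F

/-- if derivations vanishing on a subset vanish, everything is algebraic over the field
generated by the subset -/
theorem isSeparable_adjoin_of_der {K F : Type u} [Field K] [Field F] [Algebra K F]
    [EssFiniteType K F] (S : Set F)
    (h : ∀ D : Derivation K F F, (∀ s ∈ S, D s = 0) → D = 0) :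
    Algebra.IsSeparable (IntermediateField.adjoin K S) F := by
  haveI : EssFiniteType (IntermediateField.adjoin K S) F :=
    EssFiniteType.of_comp K (IntermediateField.adjoin K S) F
  apply isSeparable_of_der
  intro D
  have h1 : D.restrictScalars K = 0 := by
    apply h
    intro s hs
    have := D.map_algebraMap (⟨s, IntermediateField.subset_adjoin K S hs⟩ :
      IntermediateField.adjoin K S)
    exact this
  ext a
  exact congrArg (fun D' : Derivation K F F => D' a) h1

/-- an algebraically closed field has no extension without derivations -/
theorem bijective_of_der {K F : Type u} [Field K] [IsAlgClosed K] [Field F] [Algebra K F]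
    [EssFiniteType K F] (h : ∀ D : Derivation K F F, D = 0) :
    Function.Bijective (algebraMap K F) := by
  haveI := isSeparable_of_der h
  exact IsAlgClosed.algebraMap_bijective_of_isIntegral

open scoped IntermediateField.algebraAdjoinAdjoin in
/-- **algebraically independent values** -/
theorem exists_algInd_of_der {K F O : Type u} [Field K] [Field F] [Algebra K F]
    [EssFiniteType K F] {g : ℕ} (htr : trdeg K F = g) [CommRing O] [Algebra K O] (ev : O →ₐ[K] F)
    (h : ∀ D : Derivation K F F, (∀ s : O, D (ev s) = 0) → D = 0) :
    ∃ y : Fin g → O, AlgebraicIndependent K fun i => ev (y i) := by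
  classical
  have hsep := isSeparable_adjoin_of_der (K := K) (Set.range ev) (fun D hD =>
    h D fun s => hD _ ⟨s, rfl⟩)
  haveI : Algebra.IsAlgebraic (Algebra.adjoin K (Set.range ev)) F := by
    have h1 : Algebra.IsAlgebraic (IntermediateField.adjoin K (Set.range ev)) F := inferInstance
    exact Algebra.IsAlgebraic.trans (Algebra.adjoin K (Set.range ev))
      (IntermediateField.adjoin K (Set.range ev)) F
  obtain ⟨t, ht, htb⟩ := exists_isTranscendenceBasis_subset (R := K) (Set.range ev)
  have hc : Cardinal.mk t = (g : Cardinal) := by
    rw [htb.cardinalMk_eq_trdeg, htr]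
  obtain ⟨e⟩ : Nonempty (Fin g ≃ t) := by
    rw [← Cardinal.lift_mk_eq', hc]
    simp
  choose y hy using fun a : t => ht a.2
  refine ⟨fun i => y (e i), ?_⟩
  have h2 : (fun i => ev (y (e i))) = (fun a : t => (a : F)) ∘ e := by
    funext i
    exact hy (e i)
  rw [h2]
  exact htb.1.comp _ e.injective

end Fermat.Agent.S26A
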