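import Fermat.Agent.S26A.Sch4c
import Fermat.Agent.S26A.Sch4d

/-!
# Torsion points are rational
-/

set_option autoImplicit false
set_option linter.style.haveILetI false

universe u

noncomputable section

namespace Fermat.Agent.S26A

open CategoryTheory CategoryTheory.Limits AlgebraicGeometry NeronModelInfra GoodReductionJacobian
open IsLocalRing

variable {K : Type u} [Field K] {A : Scheme.{u}} {f : A ⟶ Spec (CommRingCat.of K)}

/-- the local rings are essentially of finite type -/
theorem algK_ess [LocallyOfFiniteType f] (a : A) : (algK f a).hom.EssFiniteType := by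
  have h1 : algK f a = ((Scheme.ΓSpecIso (CommRingCat.of K)).inv ≫
      (Spec (CommRingCat.of K)).presheaf.germ ⊤ (f a) trivial) ≫ f.stalkMap a := by
    apply Spec.map_injective
    rw [Spec.map_comp, ← fromSpecStalk_comp, ← Scheme.SpecMap_stalkMap_fromSpecStalk]
    congr 1
    exact Spec.fromSpecStalk_eq _ _
  rw [h1, CommRingCat.hom_comp]
  refine RingHom.EssFiniteType.comp ?_ (LocallyOfFiniteType.stalkMap f a)
  have h2 := Spec.algebraMap_stalkIso_inv (R := CommRingCat.of K) (f a)
  haveI : (PrimeSpectrum.asIdeal (f a)).IsPrime := PrimeSpectrum.isPrime (f a)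
  have h3 : (CommRingCat.ofHom (algebraMap K (Localization.AtPrime
      (PrimeSpectrum.asIdeal (f a)))) ≫
        (Spec.stalkIso (CommRingCat.of K) (f a)).inv).hom.EssFiniteType := by
    rw [CommRingCat.hom_comp]
    refine RingHom.EssFiniteType.comp ?_ (RingHom.FiniteType.essFiniteType
      (RingHom.FiniteType.of_surjective _
        (Spec.stalkIso (CommRingCat.of K) (f a)).symm.commRingCatIsoToRingEquiv.surjective))
    change (algebraMap K (Localization.AtPrime (PrimeSpectrum.asIdeal (f a)))).EssFiniteType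
    rw [RingHom.essFiniteType_algebraMap]
    exact Algebra.EssFiniteType.of_isLocalization _ (PrimeSpectrum.asIdeal (f a)).primeCompl
  exact (congrArg (fun t => (CommRingCat.Hom.hom t).EssFiniteType) h2).mp h3

/-- the values generate a finitely generated field -/
theorem ess_of_surj [LocallyOfFiniteType f] {a : A} {E : Type u} [Field E] [Algebra K E]
    (q : A.presheaf.stalk a ⟶ CommRingCat.of E) (hq : Function.Surjective q.hom)
    (hc : algK f a ≫ q = CommRingCat.ofHom (algebraMap K E)) : Algebra.EssFiniteType K E := by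
  have h1 : (algebraMap K E).EssFiniteType := by
    have h2 := congrArg CommRingCat.Hom.hom hc
    change _ = algebraMap K E at h2
    rw [← h2, CommRingCat.hom_comp]
    refine RingHom.EssFiniteType.comp (algK_ess a) ?_
    exact RingHom.FiniteType.essFiniteType (RingHom.FiniteType.of_surjective q.hom hq)
  rwa [RingHom.essFiniteType_algebraMap] at h1

/-- equality of images of a point given by a local homomorphism -/
theorem PT.map_eq_of_hom {L R : Type u} [Field L] [Algebra K L] [CommRing R] [IsLocalRing R]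
    [Algebra K R] {a : A} (q : A.presheaf.stalk a ⟶ CommRingCat.of L) [hql : IsLocalHom q.hom]
    (x : PT f L) (hx : Spec.map q ≫ A.fromSpecStalk a = x.1) (φ ψ : L →ₐ[K] R)
    (h : PT.map φ x = PT.map ψ x) (s : A.presheaf.stalk a) : φ (q.hom s) = ψ (q.hom s) := by
  haveI : IsLocalRing (CommRingCat.of R) := inferInstanceAs (IsLocalRing R)
  have key : ∀ χ : L →ₐ[K] R, (PT.map χ x).1 =
      Spec.map (q ≫ CommRingCat.ofHom (χ : L →+* R)) ≫ A.fromSpecStalk a := by
    intro χ
    rw [PT.map_val, Spec.map_comp, Category.assoc, hx]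
  have hloc : ∀ χ : L →ₐ[K] R, IsLocalHom (q ≫ CommRingCat.ofHom (χ : L →+* R)).hom := by
    intro χ
    haveI h2 : IsLocalHom (CommRingCat.ofHom (χ : L →+* R)).hom := by
      refine ⟨fun a ha => ?_⟩
      rw [isUnit_iff_ne_zero]
      rintro rfl
      have h3 : IsUnit ((χ : L →+* R) 0) := ha
      rw [map_zero] at h3
      exact not_isUnit_zero h3
    rw [CommRingCat.hom_comp]
    infer_instance
  have h1 : (SpecToEquivOfLocalRing A (CommRingCat.of R)).symm
      ⟨a, q ≫ CommRingCat.ofHom (φ : L →+* R), hloc φ⟩ =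
    (SpecToEquivOfLocalRing A (CommRingCat.of R)).symm
      ⟨a, q ≫ CommRingCat.ofHom (ψ : L →+* R), hloc ψ⟩ := by
    have := congrArg Subtype.val h
    rw [key, key] at this
    exact this
  have h2 := (SpecToEquivOfLocalRing A (CommRingCat.of R)).symm.injective h1
  have h3 := eq_of_heq (Sigma.mk.inj_iff.1 h2).2
  exact congrArg (fun t => t.1.hom s) h3

/-- derivations vanish on the values at a torsion point -/
theorem der_tors (G : RelativeGroupLaw K f) (hc : G.IsCommutative)
    {L : Type u} [Field L] [Algebra K L] {a : A} (q : A.presheaf.stalk a ⟶ CommRingCat.of L)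
    [hql : IsLocalHom q.hom]
    (x : PT f L) (hx : Spec.map q ≫ A.fromSpecStalk a = x.1) {n : ℕ} (hn : (n : K) ≠ 0)
    (h : G.nsmul _ n x = G.one _) (D : Derivation K L L) (s : A.presheaf.stalk a) :
    D (q.hom s) = 0 := by
  haveI : IsLocalRing (GSch.D1 L) := isLocalRing_tsze
  have h2 : PT.map (derHom D) x = PT.map (derHom (0 : Derivation K L L)) x := by
    refine eq_of_nsmul_D1 G hc ?_ hn ?_
    · rw [PT.map_map, PT.map_map, red_derHom, red_derHom]
    · rw [← map_nsmul_grp, ← map_nsmul_grp, h]
      exact (G.one_natural _ _ _ _).trans (G.one_natural _ _ _ _).symm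
  exact (derHom_eq_iff D _).1 (PT.map_eq_of_hom q x hx _ _ h2 s)

/-- the field of values, as an intermediate field -/
theorem exists_desc {L : Type u} [Field L] [Algebra K L] (x : PT f L) :
    ∃ (E : IntermediateField K L) (a : A) (q : A.presheaf.stalk a ⟶ CommRingCat.of E)
      (x₀ : PT f E), Function.Surjective q.hom ∧ IsLocalHom q.hom ∧
      Spec.map q ≫ A.fromSpecStalk a = x₀.1 ∧ PT.map E.val x₀ = x ∧
      algK f a ≫ q = CommRingCat.ofHom (algebraMap K E) := by
  haveI : IsLocalRing (CommRingCat.of L) := inferInstanceAs (IsLocalRing L)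
  have hx : Spec.map x.st ≫ A.fromSpecStalk x.pt = x.1 :=
    Scheme.Spec_stalkClosedPointTo_fromSpecStalk (R := CommRingCat.of L) x.1
  haveI hloc : IsLocalHom x.st.hom :=
    Scheme.isLocalHom_stalkClosedPointTo (R := CommRingCat.of L) x.1
  have hK : algK f x.pt ≫ x.st = CommRingCat.ofHom (algebraMap K L) := by
    apply Spec.map_injective
    rw [Spec.map_comp, ← fromSpecStalk_comp, ← Category.assoc, hx]
    exact x.2
  have hK' : ∀ c : K, x.st.hom ((algK f x.pt).hom c) = algebraMap K L c := fun c =>
    congrArg (fun t => t.hom c) hK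
  let E : IntermediateField K L :=
    { carrier := Set.range x.st.hom
      mul_mem' := by
        rintro _ _ ⟨a, rfl⟩ ⟨b, rfl⟩
        exact ⟨a * b, map_mul _ _ _⟩
      add_mem' := by
        rintro _ _ ⟨a, rfl⟩ ⟨b, rfl⟩
        exact ⟨a + b, map_add _ _ _⟩
      algebraMap_mem' := fun c => ⟨_, hK' c⟩
      inv_mem' := by
        rintro _ ⟨a, rfl⟩
        by_cases h0 : x.st.hom a = 0
        · rw [h0, inv_zero]
          exact ⟨0, map_zero _⟩
        · have h1 : IsUnit a := isUnit_of_map_unit x.st.hom a (isUnit_iff_ne_zero.2 h0)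
          obtain ⟨u, rfl⟩ := h1
          refine ⟨(u⁻¹ : Units _), ?_⟩
          refine eq_inv_of_mul_eq_one_left ?_
          rw [← map_mul, Units.inv_mul, map_one] }
  let q' : A.presheaf.stalk x.pt →+* E := x.st.hom.codRestrict E.toSubalgebra.toSubring
    fun s => ⟨s, rfl⟩
  let q : A.presheaf.stalk x.pt ⟶ CommRingCat.of E := CommRingCat.ofHom q'
  have hqv : q ≫ CommRingCat.ofHom (E.val : E →+* L) = x.st := by
    ext s; rfl
  have hqK : algK f x.pt ≫ q = CommRingCat.ofHom (algebraMap K E) := by
    refine CommRingCat.hom_ext (RingHom.ext fun c => Subtype.ext ?_)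
    exact hK' c
  refine ⟨E, x.pt, q, ⟨Spec.map q ≫ A.fromSpecStalk x.pt, ?_⟩, ?_, ?_, rfl, ?_, hqK⟩
  · rw [Category.assoc, fromSpecStalk_comp, ← Spec.map_comp, hqK]
  · rintro ⟨_, s, rfl⟩
    exact ⟨s, rfl⟩
  · refine ⟨fun s hs => ?_⟩
    have h1 : IsUnit (x.st.hom s) := by
      have h2 : IsUnit ((E.val : E →+* L) (q.hom s)) := hs.map _
      exact h2
    exact isUnit_of_map_unit x.st.hom s h1
  · apply Subtype.ext
    rw [PT.map_val]
    change _ ≫ Spec.map q ≫ _ = _
    rw [← Category.assoc, ← Spec.map_comp, hqv, hx]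

/-- **torsion points are rational** -/
theorem tors_PT [IsAlgClosed K] [LocallyOfFiniteType f] [IsSeparated f] (G : RelativeGroupLaw K f)
    (hc : G.IsCommutative) {n : ℕ} (hn : (n : K) ≠ 0) {L : Type u} [Field L] [Algebra K L]
    (x : PT f L) (h : G.nsmul _ n x = G.one _) :
    ∃ a : PT f K, PT.map (Algebra.ofId K L) a = x := by
  obtain ⟨E, a, q, x₀, hq, hql, hx₀, hx, hqK⟩ := exists_desc x
  haveI := hql
  have h0 : G.nsmul _ n x₀ = G.one _ := by
    apply PT.map_injective (f := f) E.val E.val.injective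
    rw [map_nsmul_grp, hx, h]
    exact (G.one_natural _ _ _ _).symm
  haveI : Algebra.EssFiniteType K E := ess_of_surj q hq hqK
  have hb : Function.Bijective (algebraMap K E) := by
    apply bijective_of_der
    intro D
    ext e
    obtain ⟨s, rfl⟩ := hq e
    exact congrArg _ (der_tors G hc q x₀ hx₀ hn h0 D s)
  let e : K ≃ₐ[K] E := AlgEquiv.ofBijective (Algebra.ofId K E) hb
  refine ⟨PT.map (e.symm : E →ₐ[K] K) x₀, ?_⟩
  rw [PT.map_map]
  have : (Algebra.ofId K L).comp (e.symm : E →ₐ[K] K) = E.val := by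
    apply AlgHom.ext
    intro b
    obtain ⟨c, rfl⟩ := e.surjective b
    change algebraMap K L (e.symm (e c)) = ((e c : E) : L)
    rw [AlgEquiv.symm_apply_apply]
    rfl
  rw [this, hx]

end Fermat.Agent.S26A
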