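import Fermat.Agent.S26A.Sch1d
import Fermat.Agent.S26A.Sch4e

/-!
# Torsion and multiplication by `n`: the fields `tors`, `nsm_gen`, `nsm_sep`
-/

set_option autoImplicit false
set_option linter.unusedSectionVars false
noncomputable section
universe u
open CategoryTheory CategoryTheory.Limits AlgebraicGeometry NeronModelInfra GoodReductionJacobian
open IsLocalRing

namespace Fermat.Agent.S26A.GSch

variable {K : Type u} [Field K] (X : GSch K) [IsProper X.f]

/-- torsion points are rational -/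
theorem tors [IsAlgClosed K] (n : ℕ) (hn : (n : K) ≠ 0) {L : Type u} [Field L] [Algebra K L]
    (x : X.Pt L) (h : n • x = 0) : ∃ a : X.Pt K, X.pl (Pl.ofHom (Algebra.ofId K L)) a = x := by
  rw [X.nsmul_def] at h
  obtain ⟨a, ha⟩ := tors_PT (f := X.f) X.G X.hc hn x h
  exact ⟨a, (X.pl_ofHom (Algebra.ofId K L) (a : X.Pt K)).trans ha⟩

variable [IsIntegral X.A]

/-- multiplication by `n` is separable -/
theorem nsm_sep (n : ℕ) (hn : (n : K) ≠ 0) (D : Derivation K (FF X.f) (FF X.f))
    (hD : ∀ a : X.O (n • X.gen), D (X.ev (n • X.gen) a) = 0) : D = 0 := by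
  have h1 : ∀ s, D ((PT.st (f := X.f) (R := FF X.f) (X.G.nsmul _ n X.gen)).hom s) = 0 := by
    have h2 : ∀ y : X.Pt (FF X.f), n • X.gen = y →
        ∀ s, D ((PT.st (f := X.f) (R := FF X.f) y).hom s) = 0 := by
      rintro _ rfl s
      have hs : toFF X.f (X.ptt (n • X.gen)) s ∈ X.O (n • X.gen) := ⟨s, rfl⟩
      have h3 := hD ⟨toFF X.f (X.ptt (n • X.gen)) s, hs⟩
      rw [X.ev_toFF (n • X.gen) s hs] at h3
      exact h3
    exact h2 _ (X.nsmul_def n X.gen)
  have h4 := der_eq_zero X.G X.hc (f := X.f) (L := FF X.f) X.gen hn D h1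
  ext a
  have ha : a ∈ X.O X.gen := by rw [X.O_gen]; trivial
  obtain ⟨s, hs⟩ := (X.mem_O X.gen a).1 ha
  have ha' : toFF X.f (X.ptt X.gen) s ∈ X.O X.gen := ⟨s, rfl⟩
  have h5 : X.stt X.gen s = a := by
    rw [← X.ev_toFF X.gen s ha', X.ev_gen, ← hs]
  have h6 : D (X.stt X.gen s) = 0 := h4 s
  rw [h5] at h6
  exact h6

/-- multiplication by `n` is dominant: algebraically independent values -/
theorem nsm_ind (n : ℕ) (hn : (n : K) ≠ 0) {g : ℕ} (htr : Algebra.trdeg K (FF X.f) = g)
    (hfg : ∃ s : Finset (FF X.f), IntermediateField.adjoin K (s : Set (FF X.f)) = ⊤) :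
    ∃ y : Fin g → X.O (n • X.gen), AlgebraicIndependent K fun i => X.ev (n • X.gen) (y i) := by
  have : Algebra.EssFiniteType K (FF X.f) := by
    rw [← IntermediateField.fg_top_iff]
    exact hfg
  exact exists_algInd_of_der htr (X.ev (n • X.gen)) (fun D hD => X.nsm_sep n hn D hD)

end Fermat.Agent.S26A.GSch
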