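import Fermat.Agent.S26A.Sch1e
import Fermat.Agent.S26A.Sch4f
import Fermat.Agent.S26A.Sch3e
import Fermat.Agent.S26A.Cv3
import Fermat.Agent.S26A.Dom7

/-!
# From the group scheme to the functor on places
-/

set_option autoImplicit false
set_option linter.style.haveILetI false

noncomputable section

namespace Fermat.Agent.S26A

open CategoryTheory CategoryTheory.Limits AlgebraicGeometry NeronModelInfra GoodReductionJacobian
open Fermat.Agent.RR

universe u

section Hyp

variable {K : Type u} [Field K] {A : Scheme.{u}} {f : A ⟶ Spec (CommRingCat.of K)}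

theorem connectedSpace_of_bundle (hA : AbelianSchemePropertyBundle K f) : ConnectedSpace A := by
  have h := hA.connectedFibres (⊥ : PrimeSpectrum K)
  have h1 : (f.base ⁻¹' {(⊥ : PrimeSpectrum K)} : Set A) = Set.univ := by
    apply Set.eq_univ_of_forall
    intro x
    exact Subsingleton.elim (α := PrimeSpectrum K) _ _
  have h2 : _root_.IsConnected (Set.univ : Set A) := h1 ▸ h
  exact connectedSpace_iff_univ.2 h2

theorem card_torsion_eq (L : RelativeGroupLaw K f) (hc : L.IsCommutative) (n : ℕ) :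
    Nat.card {x : SchemeHomOver (𝟙 (Spec (CommRingCat.of K))) f //
        L.IsTorsionPoint (𝟙 (Spec (CommRingCat.of K))) n x} =
      Nat.card {x : (GSch.mk A f L hc).Pt K // n • x = 0} := by
  have key : ∀ (t : Spec (CommRingCat.of K) ⟶ Spec (CommRingCat.of K)), t = 𝟙 _ →
      Nat.card {x : SchemeHomOver (𝟙 (Spec (CommRingCat.of K))) f //
        L.IsTorsionPoint (𝟙 (Spec (CommRingCat.of K))) n x} =
      Nat.card {x : SchemeHomOver t f // L.IsTorsionPoint t n x} := by
    rintro t rfl
    rfl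
  rw [key (GSch.str K K) (by
    have : CommRingCat.ofHom (algebraMap K K) = 𝟙 (CommRingCat.of K) := rfl
    rw [GSch.str, this, Spec.map_id])]
  refine Nat.card_congr (Equiv.subtypeEquivRight fun x => ?_)
  rw [RelativeGroupLaw.isTorsionPoint_def]
  exact (GSch.nsmul_def (GSch.mk A f L hc) n x) ▸ Iff.rfl

end Hyp

namespace GSch

variable {K : Type u} [Field K] [IsAlgClosed K] (X : GSch K) [IsProper X.f] [IsIntegral X.A]
  (g : ℕ) [SmoothOfRelativeDimension g X.f]

include g in
theorem hcurve : X.HCurve := fun f hf => X.exists_curve g 0 f hf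

omit [IsAlgClosed K] in
include g in
theorem nsm_gen (n : ℕ) (hn : (n : K) ≠ 0) : X.O (n • X.gen) = ⊤ := by
  obtain ⟨y, hy⟩ := X.nsm_ind n hn (trdeg_FF X.f g) (fg_FF X.f g)
  exact X.cod0 g _ y hy

/-- the coordinate hypothesis -/
def HCo (co : Fin g → FF X.f) : Prop :=
  ∀ H : Finset (X.Pt K), ∃ (p : X.Pt K) (Θ : X.O p →ₐ[K] MvPowerSeries (Fin g) K),
      ∀ a ∈ H, ∃ τ : Fin g → X.O p,
        (∀ i, ∃ h : co i ∈ X.O (X.gen + X.pl (Pl.ofHom (Algebra.ofId K (FF X.f))) a),
          ((τ i : X.O p) : FF X.f) =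
            X.ev (X.gen + X.pl (Pl.ofHom (Algebra.ofId K (FF X.f))) a) ⟨co i, h⟩) ∧
        LinearIndependent K (fun i : Fin g => fun j : Fin g =>
          MvPowerSeries.coeff (Finsupp.single j 1) (Θ (τ i)))

/-- **the abelian variety as a functor on places** -/
theorem exists_AVar (hco : ∃ co, X.HCo g co) :
    ∃ A : AVar K g, ∀ n : ℕ, Nat.card {x : X.Pt K // n • x = 0} =
      Nat.card {x : A.P K // n • x = 0} := by
  obtain ⟨c, hc⟩ := (X.toPre g (trdeg_FF X.f g) (X.cod0 g) (X.hcurve g)).exists_gen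
  obtain ⟨co, hco⟩ := hco
  exact ⟨X.mkAVar g (fun n hn {L} _ _ x hx => X.tors n hn x hx) (X.nsm_gen g)
    (fun n hn D hD => X.nsm_sep n hn D hD) (fun j => (c j).C) (fun j => (c j).x) (fun j => (c j).o)
    (fun j => (c j).h) (fun {L} _ _ z t ht => hc z t ht) co hco, fun n => rfl⟩

end GSch

/-- **the reduction of the counting of torsion points** -/
theorem card_of_main {K : Type u} [Field K] [IsAlgClosed K] {A : Scheme.{u}}
    (f : A ⟶ Spec (CommRingCat.of K)) (L : RelativeGroupLaw K f) (hc : L.IsCommutative)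
    (hA : AbelianSchemePropertyBundle K f) (g : ℕ) [SmoothOfRelativeDimension g f] (n : ℕ)
    (hco : ∀ (X : GSch K) [IsProper X.f] [IsIntegral X.A] [SmoothOfRelativeDimension g X.f],
      ∃ co, X.HCo g co)
    (main : ∀ B : AVar K g, Nat.card {x : B.P K // n • x = 0} = n ^ (2 * g)) :
    Nat.card {x : SchemeHomOver (𝟙 (Spec (CommRingCat.of K))) f //
        L.IsTorsionPoint (𝟙 (Spec (CommRingCat.of K))) n x} = n ^ (2 * g) := by
  haveI := connectedSpace_of_bundle hA
  haveI := isIntegral_of_smooth f g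
  haveI := hA.proper
  let X : GSch K := GSch.mk A f L hc
  haveI : IsProper X.f := hA.proper
  haveI : IsIntegral X.A := isIntegral_of_smooth f g
  haveI : SmoothOfRelativeDimension g X.f := ‹SmoothOfRelativeDimension g f›
  obtain ⟨B, hB⟩ := X.exists_AVar g (hco X)
  rw [card_torsion_eq L hc n]
  exact (hB n).trans (main B)

end Fermat.Agent.S26A
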