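import Fermat.Agent.S27A.BC4

/-!
# Constant field extensions and Riemann-Roch spaces in any characteristic

Adapted from `Fermat.Agent.S27A.BC1`-`BC4`.
-/

set_option autoImplicit false
set_option linter.unusedSectionVars false
set_option linter.style.haveILetI false

noncomputable section

namespace Fermat.Agent.S26A

open AlgebraicCurve Fermat.Agent.RR Fermat.Agent.Curve IntermediateField Module Fermat.Agent.MW
open TensorProduct

section

variable (K : Type*) {L : Type*} [Field K] [Field L] [Algebra K L] [IsAlgClosed L]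

/-- a transcendental number has translates by all constants as conjugates -/
theorem exists_aut_addc (a : L) (ha : Transcendental K a) (n : K) :
    ∃ σ : L ≃ₐ[K] L, σ a = a + algebraMap K L n := by
  classical
  have hind : AlgebraicIndepOn K id ({a} : Set L) :=
    (algebraicIndependent_singleton_iff (R := K) (x := fun i : ({a} : Set L) => id (i : L))
      ⟨a, rfl⟩).mpr ha
  obtain ⟨B, haB, hB⟩ := exists_isTranscendenceBasis_superset hind
  let v : B → L := fun b => b
  let w : B → L := fun b => (b : L) + algebraMap K L n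
  have hw : IsTranscendenceBasis K w := by
    let θ : MvPolynomial B K →ₐ[K] MvPolynomial B K :=
      MvPolynomial.aeval (fun b => MvPolynomial.X b + MvPolynomial.C n)
    let θ' : MvPolynomial B K →ₐ[K] MvPolynomial B K :=
      MvPolynomial.aeval (fun b => MvPolynomial.X b - MvPolynomial.C n)
    have h1 : θ'.comp θ = AlgHom.id K _ := by
      apply MvPolynomial.algHom_ext
      intro b
      simp [θ, θ']
    rw [isTranscendenceBasis_iff_algebraicIndependent_isAlgebraic]
    have hcomp : (MvPolynomial.aeval w : MvPolynomial B K →ₐ[K] L) =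
        (MvPolynomial.aeval v).comp θ := by
      apply MvPolynomial.algHom_ext
      intro b
      simp [θ, v, w]
    have hθ : Function.Injective θ := by
      intro x y hxy
      have := congrArg θ' hxy
      have h2 := fun z => AlgHom.congr_fun h1 z
      simp only [AlgHom.comp_apply, AlgHom.id_apply] at h2
      rwa [h2, h2] at this
    refine ⟨?_, ?_⟩
    · change Function.Injective (MvPolynomial.aeval w : MvPolynomial B K →ₐ[K] L)
      rw [hcomp]
      rw [AlgHom.coe_comp]
      exact Function.Injective.comp hB.1 hθ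
    · have hadj : Algebra.adjoin K (Set.range w) = Algebra.adjoin K (Set.range v) := by
        apply le_antisymm
        · rw [Algebra.adjoin_le_iff]
          rintro _ ⟨b, rfl⟩
          exact add_mem (Algebra.subset_adjoin ⟨b, rfl⟩) (Subalgebra.algebraMap_mem _ n)
        · rw [Algebra.adjoin_le_iff]
          rintro _ ⟨b, rfl⟩
          have : v b = w b - algebraMap K L n := by simp [v, w]
          rw [this]
          exact sub_mem (Algebra.subset_adjoin ⟨b, rfl⟩) (Subalgebra.algebraMap_mem _ n)
      rw [hadj]
      exact hB.isAlgebraic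
  obtain ⟨σ, hσ'⟩ := S27A.exists_equiv' hB hw
  exact ⟨σ, hσ' ⟨a, haB rfl⟩⟩

/-- an element with a finite orbit is algebraic -/
theorem isAlgebraic_of_finite_orbit' [Infinite K] {a : L}
    (h : {b : L | ∃ σ : L ≃ₐ[K] L, σ a = b}.Finite) : IsAlgebraic K a := by
  by_contra ha
  choose σ hσ' using exists_aut_addc K a ha
  have : Set.Infinite {b : L | ∃ σ : L ≃ₐ[K] L, σ a = b} := by
    refine Set.infinite_of_injective_forall_mem (f := fun n : K => a + algebraMap K L n) ?_ ?_
    · intro m n hmn
      simpa using hmn
    · intro n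
      exact ⟨σ n, hσ' n⟩
  exact this h

/-- the fixed field -/
theorem mem_range_of_finite_orbit' [IsAlgClosed K] {a : L}
    (h : {b : L | ∃ σ : L ≃ₐ[K] L, σ a = b}.Finite) : ∃ c : K, algebraMap K L c = a := by
  have h1 := isAlgebraic_of_finite_orbit' K h
  have h2 := IsAlgClosed.degree_eq_one_of_irreducible K (minpoly.irreducible h1.isIntegral)
  exact minpoly.mem_range_of_degree_eq_one K a h2

theorem mem_range_of_fixed' [IsAlgClosed K] {a : L}
    (h : ∀ σ : L ≃ₐ[K] L, σ a = a) : ∃ c : K, algebraMap K L c = a := by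
  apply mem_range_of_finite_orbit'
  refine (Set.finite_singleton a).subset ?_
  rintro _ ⟨σ, rfl⟩
  exact h σ


end

section

variable {K K' F F' : Type*} [Field K] [Field K'] [Field F] [Field F']
  [Algebra K F] [Algebra K' F'] [Algebra K K'] [Algebra F F']
  [IsAlgClosed K] [IsAlgClosed K'] [FunField K F] [FunField K' F'] [hC : CExt K K' F F']

theorem exists_semi' (σ : K' ≃ₐ[K] K') :
    ∃ s : SemilinearAut K' F', (∀ a, SemilinearAut.baseAut s a = σ a) ∧ FixF F s := by
  letI : Algebra K F' := ((algebraMap F F').comp (algebraMap K F)).toAlgebra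
  haveI : IsScalarTower K F F' := IsScalarTower.of_algebraMap_eq fun _ => rfl
  haveI : IsScalarTower K K' F' := IsScalarTower.of_algebraMap_eq fun a => hC.comm a
  let T := K' ⊗[K] F
  let μ : T →ₐ[K'] F' := Algebra.TensorProduct.lift (Algebra.ofId K' F')
    (IsScalarTower.toAlgHom K F F') (fun x y => Commute.all _ _)
  have hμ : ∀ (a : K') (f : F), μ (a ⊗ₜ f) = algebraMap K' F' a * bc F F' f := fun a f =>
    Algebra.TensorProduct.lift_tmul _ _ _ a f
  have hinj : Function.Injective μ := by
    let b := Module.Basis.ofVectorSpace K F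
    let b' := Algebra.TensorProduct.basis K' b
    have hli : LinearIndependent K' (fun i => μ (b' i)) := by
      have h1 := S27A.linInd_bc (K' := K') (F' := F') b.linearIndependent
      convert h1 using 2 with i
      rw [Algebra.TensorProduct.basis_apply, hμ, map_one, one_mul]
    rw [injective_iff_map_eq_zero]
    intro x hx
    have h1 : b'.repr x = 0 := by
      rw [linearIndependent_iff] at hli
      apply hli
      rw [Finsupp.linearCombination_apply, Finsupp.sum]
      have h2 := congrArg μ (b'.linearCombination_repr x)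
      rw [Finsupp.linearCombination_apply, Finsupp.sum, map_sum, hx] at h2
      rw [← h2]
      refine Finset.sum_congr rfl fun i _ => ?_
      rw [map_smul]
    exact (LinearEquiv.map_eq_zero_iff _).1 h1
  letI algT : Algebra T F' := μ.toRingHom.toAlgebra
  have halg : ∀ x : T, algebraMap T F' x = μ x := fun _ => rfl
  haveI : FaithfulSMul T F' := (faithfulSMul_iff_algebraMap_injective T F').2 hinj
  haveI : IsFractionRing T F' := by
    refine IsFractionRing.of_field T F' fun z => ?_
    have h1 : IntermediateField.adjoin K' (Set.range (bc F F')) = ⊤ :=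
      hC.gen _ fun f => IntermediateField.subset_adjoin _ _ ⟨f, rfl⟩
    have h2 : z ∈ IntermediateField.adjoin K' (Set.range (bc F F')) := by
      rw [h1]; exact IntermediateField.mem_top
    have h3 : Algebra.adjoin K' (Set.range (bc F F')) ≤ μ.range := by
      rw [Algebra.adjoin_le_iff]
      rintro _ ⟨f, rfl⟩
      exact ⟨1 ⊗ₜ f, by
        change μ (1 ⊗ₜ f) = _
        rw [hμ, map_one, one_mul]⟩
    obtain ⟨r, hr, s, hs, rfl⟩ := IntermediateField.mem_adjoin_iff_div.1 h2
    obtain ⟨x, hx⟩ := h3 hr
    obtain ⟨y, hy⟩ := h3 hs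
    exact ⟨x, y, by rw [halg, halg, ← hx, ← hy]; rfl⟩
  let θ : T ≃ₐ[K] T := Algebra.TensorProduct.congr σ AlgEquiv.refl
  let ρ : F' ≃+* F' := IsFractionRing.ringEquivOfRingEquiv (A := T) (B := T) θ.toRingEquiv
  have hρ : ∀ x : T, ρ (μ x) = μ (θ x) := fun x =>
    IsFractionRing.ringEquivOfRingEquiv_algebraMap (A := T) (B := T) (K := F') (L := F')
      θ.toRingEquiv x
  have h1 : ∀ a : K', ρ (algebraMap K' F' a) = algebraMap K' F' (σ a) := by
    intro a
    have h2 := hρ (a ⊗ₜ 1)
    have h3 : θ (a ⊗ₜ 1) = σ a ⊗ₜ 1 := Algebra.TensorProduct.congr_apply _ _ _ |>.trans (by simp)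
    rw [h3, hμ, hμ, map_one, mul_one, mul_one] at h2
    exact h2
  have h2 : ∀ f : F, ρ (bc F F' f) = bc F F' f := by
    intro f
    have h2 := hρ (1 ⊗ₜ f)
    have h3 : θ (1 ⊗ₜ f) = 1 ⊗ₜ f := Algebra.TensorProduct.congr_apply _ _ _ |>.trans (by simp)
    rw [h3, hμ, map_one, one_mul] at h2
    exact h2
  exact ⟨⟨(ρ, σ.toRingEquiv), h1⟩, fun a => rfl, h2⟩

end

/-- a stable space of vectors contains a vector over the small field -/
theorem exists_fixed_vec' {K K' ι : Type*} [Field K] [IsAlgClosed K] [Field K'] [IsAlgClosed K']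
    [Algebra K K'] [Fintype ι] (R : Submodule K' (ι → K'))
    (hR : ∀ σ : K' ≃ₐ[K] K', ∀ c ∈ R, (fun i => σ (c i)) ∈ R) (h0 : R ≠ ⊥) :
    ∃ d : ι → K, d ≠ 0 ∧ (fun i => algebraMap K K' (d i)) ∈ R := by
  classical
  obtain ⟨c₀, hc₀, hc₀0⟩ := Submodule.exists_mem_ne_zero_of_ne_bot h0
  have hex : ∃ n : ℕ, ∃ c ∈ R, c ≠ 0 ∧ (Finset.univ.filter fun i => c i ≠ 0).card = n :=
    ⟨_, c₀, hc₀, hc₀0, rfl⟩
  obtain ⟨c, hc, hc0, hcn⟩ := Nat.find_spec hex
  obtain ⟨i₀, hi₀⟩ := Function.ne_iff.1 hc0
  have hi₀' : c i₀ ≠ 0 := hi₀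
  set d : ι → K' := fun i => (c i₀)⁻¹ * c i with hd
  have hdR : d ∈ R := R.smul_mem (c i₀)⁻¹ hc
  have hd1 : d i₀ = 1 := inv_mul_cancel₀ hi₀'
  have hfix : ∀ σ : K' ≃ₐ[K] K', ∀ i, σ (d i) = d i := by
    intro σ
    by_contra hcon
    push Not at hcon
    obtain ⟨i₁, hi₁⟩ := hcon
    have h1 : (fun i => σ (d i)) - d ∈ R := R.sub_mem (hR σ d hdR) hdR
    have h2 : (fun i => σ (d i)) - d ≠ 0 := by
      intro h
      have := congrFun h i₁
      exact hi₁ (sub_eq_zero.1 this)
    apply Nat.find_min hex (m := (Finset.univ.filter fun i =>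
      ((fun i => σ (d i)) - d) i ≠ 0).card) ?_ ⟨_, h1, h2, rfl⟩
    rw [← hcn]
    apply Finset.card_lt_card
    refine ⟨?_, ?_⟩
    · intro i hi
      rw [Finset.mem_filter] at hi ⊢
      refine ⟨hi.1, fun h => hi.2 ?_⟩
      change σ (d i) - d i = 0
      have : d i = 0 := by rw [hd]; simp only; rw [h, mul_zero]
      rw [this, map_zero, sub_zero]
    · intro h
      have h3 := h (Finset.mem_filter.2 ⟨Finset.mem_univ i₀, hi₀'⟩)
      rw [Finset.mem_filter] at h3
      apply h3.2
      change σ (d i₀) - d i₀ = 0
      rw [hd1, map_one, sub_self]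
  choose e he using fun i => mem_range_of_fixed' K (fun σ => hfix σ i)
  refine ⟨e, ?_, ?_⟩
  · intro h
    have := he i₀
    rw [h, hd1, Pi.zero_apply, map_zero] at this
    exact zero_ne_one this
  · have : (fun i => algebraMap K K' (e i)) = d := funext he
    rw [this]
    exact hdR

variable {K K' F F' : Type*} [Field K] [Field K'] [Field F] [Field F']
  [Algebra K F] [Algebra K' F'] [Algebra K K'] [Algebra F F']
  [IsAlgClosed K] [IsAlgClosed K'] [FunField K F] [FunField K' F'] [hC : CExt K K' F F']

include hC in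
/-- functions fixed by all semilinear automorphisms -/
theorem mem_range_of_fix' {x : F'} (hx : ∀ s : SemilinearAut K' F', FixF F s → s • x = x) :
    ∃ f : F, bc F F' f = x := by
  classical
  by_contra hcon
  push Not at hcon
  letI : Algebra K F' := ((algebraMap F F').comp (algebraMap K F)).toAlgebra
  haveI : IsScalarTower K F F' := IsScalarTower.of_algebraMap_eq fun _ => rfl
  haveI : IsScalarTower K K' F' := IsScalarTower.of_algebraMap_eq fun a => hC.comm a
  -- `x` is a quotient
  have h1 : IntermediateField.adjoin K' (Set.range (bc F F')) = ⊤ :=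
    hC.gen _ fun f => IntermediateField.subset_adjoin _ _ ⟨f, rfl⟩
  have h2 : x ∈ IntermediateField.adjoin K' (Set.range (bc F F')) := by
    rw [h1]; exact IntermediateField.mem_top
  obtain ⟨r, hr, s, hs, hxrs⟩ := IntermediateField.mem_adjoin_iff_div.1 h2
  let b := Module.Basis.ofVectorSpace K F
  -- elements of the algebra are combinations of the basis
  have hspan : ∀ y ∈ Algebra.adjoin K' (Set.range (bc F F')),
      y ∈ Submodule.span K' (Set.range fun i => bc F F' (b i)) := by
    have hF : ∀ f : F, bc F F' f ∈ Submodule.span K' (Set.range fun i => bc F F' (b i)) := by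
      intro f
      rw [← b.linearCombination_repr f, Finsupp.linearCombination_apply, Finsupp.sum, map_sum]
      refine Submodule.sum_mem _ fun i _ => ?_
      rw [Algebra.smul_def, map_mul, bc, hC.comm, ← Algebra.smul_def]
      exact Submodule.smul_mem _ _ (Submodule.subset_span ⟨i, rfl⟩)
    have hmul : ∀ y ∈ Submodule.span K' (Set.range fun i => bc F F' (b i)),
        ∀ z ∈ Submodule.span K' (Set.range fun i => bc F F' (b i)),
        y * z ∈ Submodule.span K' (Set.range fun i => bc F F' (b i)) := by
      intro y hy z hz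
      induction hy using Submodule.span_induction with
      | mem y hy =>
        obtain ⟨i, rfl⟩ := hy
        induction hz using Submodule.span_induction with
        | mem z hz =>
          obtain ⟨j, rfl⟩ := hz
          change bc F F' (b i) * bc F F' (b j) ∈ _
          rw [← map_mul]
          exact hF _
        | zero => rw [mul_zero]; exact zero_mem _
        | add y z _ _ hy hz => rw [mul_add]; exact add_mem hy hz
        | smul a y _ hy => rw [mul_smul_comm]; exact Submodule.smul_mem _ _ hy
      | zero => rw [zero_mul]; exact zero_mem _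
      | add x z _ _ hx hz => rw [add_mul]; exact add_mem hx hz
      | smul a x _ hx => rw [smul_mul_assoc]; exact Submodule.smul_mem _ _ hx
    intro y hy
    induction hy using Algebra.adjoin_induction with
    | mem y hy =>
      obtain ⟨f, rfl⟩ := hy
      exact hF f
    | algebraMap a =>
      have := Submodule.smul_mem _ a (hF 1)
      rwa [map_one, Algebra.smul_def, mul_one] at this
    | add y z _ _ hy hz => exact add_mem hy hz
    | mul y z _ _ hy hz => exact hmul y hy z hz
  obtain ⟨c, hc⟩ := (Finsupp.mem_span_range_iff_exists_finsupp).1 (hspan r hr)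
  obtain ⟨d, hd⟩ := (Finsupp.mem_span_range_iff_exists_finsupp).1 (hspan s hs)
  have hs0 : s ≠ 0 := by
    rintro rfl
    apply hcon 0
    rw [hxrs, div_zero, map_zero]
  let S : Finset _ := c.support ∪ d.support
  have hc' : ∑ i ∈ S, c i • bc F F' (b i) = r := by
    rw [← hc, Finsupp.sum]
    symm
    apply Finset.sum_subset Finset.subset_union_left
    intro i _ hi
    rw [Finsupp.notMem_support_iff.1 hi, zero_smul]
  have hd' : ∑ i ∈ S, d i • bc F F' (b i) = s := by
    rw [← hd, Finsupp.sum]
    symm
    apply Finset.sum_subset Finset.subset_union_right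
    intro i _ hi
    rw [Finsupp.notMem_support_iff.1 hi, zero_smul]
  -- the relation space
  let w : S ⊕ S → F' := Sum.elim (fun i => x * bc F F' (b i)) (fun i => bc F F' (b i))
  let L : (S ⊕ S → K') →ₗ[K'] F' := Fintype.linearCombination K' w
  have hL : ∀ e, L e = ∑ i, e i • w i := fun e => Fintype.linearCombination_apply K' w e
  have hwfix : ∀ s : SemilinearAut K' F', FixF F s → ∀ i, s • w i = w i := by
    intro s hs i
    rcases i with i | i
    · change s • (x * bc F F' (b i)) = x * bc F F' (b i)
      rw [smul_mul', hx s hs, hs]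
    · exact hs _
  have hstab : ∀ σ : K' ≃ₐ[K] K', ∀ e ∈ LinearMap.ker L, (fun i => σ (e i)) ∈ LinearMap.ker L := by
    intro σ e he
    obtain ⟨s, hs1, hs2⟩   := exists_semi' (F := F) (F' := F') σ
    rw [LinearMap.mem_ker, hL] at he ⊢
    have h3 := congrArg (fun y => s • y) he
    simp only [smul_zero] at h3
    rw [Finset.smul_sum] at h3
    rw [← h3]
    refine Finset.sum_congr rfl fun i _ => ?_
    rw [Algebra.smul_def, Algebra.smul_def, smul_mul', SemilinearAut.smul_algebraMap,
      hwfix s hs2, hs1]
  have hne : LinearMap.ker L ≠ ⊥ := by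
    intro h
    have h3 : (Sum.elim (fun i : S => d i) (fun i : S => -c i) : S ⊕ S → K') ∈ LinearMap.ker L := by
      rw [LinearMap.mem_ker, hL, Fintype.sum_sum_type]
      simp only [Sum.elim_inl, Sum.elim_inr, w, neg_smul]
      rw [Finset.sum_neg_distrib]
      have e1 : ∑ i : S, d i • (x * bc F F' (b i)) = x * s := by
        rw [← hd', Finset.mul_sum, ← Finset.sum_coe_sort S]
        refine Finset.sum_congr rfl fun i _ => ?_
        rw [mul_smul_comm]
      have e2 : ∑ i : S, c i • bc F F' (b i) = r := by
        rw [← hc', ← Finset.sum_coe_sort S]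
      rw [e1, e2, hxrs, div_mul_cancel₀ _ hs0, add_neg_cancel]
    rw [h, Submodule.mem_bot] at h3
    apply hs0
    rw [← hd', ← Finset.sum_coe_sort S]
    apply Finset.sum_eq_zero
    intro i _
    have := congrFun h3 (Sum.inl i)
    simp only [Sum.elim_inl, Pi.zero_apply] at this
    rw [this, zero_smul]
  obtain ⟨e, he0, he⟩ := exists_fixed_vec' (K := K) (LinearMap.ker L) hstab hne
  rw [LinearMap.mem_ker, hL, Fintype.sum_sum_type] at he
  simp only [Sum.elim_inl, Sum.elim_inr, w] at he
  set α : F := ∑ i : S, e (Sum.inl i) • b i with hα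
  set β : F := ∑ i : S, e (Sum.inr i) • b i with hβ
  have e1 : ∑ i : S, algebraMap K K' (e (Sum.inl i)) • (x * bc F F' (b i)) = x * bc F F' α := by
    rw [hα, map_sum, Finset.mul_sum]
    refine Finset.sum_congr rfl fun i _ => ?_
    rw [Algebra.smul_def, Algebra.smul_def, map_mul, bc, hC.comm]
    ring
  have e2 : ∑ i : S, algebraMap K K' (e (Sum.inr i)) • (bc F F' (b i)) = bc F F' β := by
    rw [hβ, map_sum]
    refine Finset.sum_congr rfl fun i _ => ?_
    rw [Algebra.smul_def, Algebra.smul_def, map_mul, bc, hC.comm]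
  rw [e1, e2] at he
  have hbS : LinearIndependent K (fun i : S => b i) :=
    b.linearIndependent.comp _ Subtype.val_injective
  by_cases hα0 : α = 0
  · rw [hα0, map_zero, mul_zero, zero_add] at he
    have hβ0 : β = 0 := (map_eq_zero _).1 he
    apply he0
    funext i
    rcases i with i | i
    · exact Fintype.linearIndependent_iff.1 hbS (fun i => e (Sum.inl i)) hα0 i
    · exact Fintype.linearIndependent_iff.1 hbS (fun i => e (Sum.inr i)) hβ0 i
  · apply hcon (-β / α)
    have hα' : bc F F' α ≠ 0 := bc_ne_zero hα0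
    rw [map_div₀, map_neg, div_eq_iff hα']
    linear_combination -he

/-- **Riemann-Roch spaces commute with constant field extensions.** -/
theorem L_bcD_le' (D : Divisor K F) :
    riemannRochSpace (bcD K' F' D) ≤ SL K' F' D := by
  classical
  obtain ⟨n, hn⟩ : ∃ n, ell (bcD K' F' D) = n := ⟨_, rfl⟩
  obtain ⟨P, hP1, hP2, hP3⟩ := S27A.exists_places K' F' n D D.support hn
  set V := riemannRochSpace (bcD K' F' D) with hV
  have hreg : ∀ x ∈ V, ∀ i, Ge (bcP K' F' (P i)) 0 x := by
    intro x hx i
    have h1 := (mem_L.1 hx) (bcP K' F' (P i))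
    rwa [bcD_apply, Finsupp.notMem_support_iff.1 (hP2 i), neg_zero] at h1
  let E : V →ₗ[K'] (Fin n → K') :=
    { toFun := fun x i => ev (bcP K' F' (P i)) (x : F')
      map_add' := fun x y => funext fun i => ev_add (hreg x x.2 i) (hreg y y.2 i)
      map_smul' := fun a x => funext fun i => by
        change ev _ (a • (x : F')) = a * ev _ (x : F')
        rw [Algebra.smul_def, ev_mul (Ge.algebraMap _ a) (hreg x x.2 i), ev_algebraMap] }
  have hinj : Function.Injective E := by
    rw [← LinearMap.ker_eq_bot, LinearMap.ker_eq_bot']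
    intro x hx
    by_contra hx0
    have hx0' : (x : F') ≠ 0 := fun h => hx0 (Subtype.ext h)
    have h1 : (x : F') ∈ riemannRochSpace (bcD K' F' (D - ∑ i, Finsupp.single (P i) 1)) := by
      rw [mem_L]
      intro v
      by_cases hv : ∃ i, v = bcP K' F' (P i)
      · obtain ⟨i, rfl⟩ := hv
        have h2 : ev (bcP K' F' (P i)) (x : F') = 0 := congrFun hx i
        rw [ev_eq_zero_iff (hreg x x.2 i)] at h2
        refine h2.mono ?_
        rw [bcD_apply, Finsupp.sub_apply, Finsupp.notMem_support_iff.1 (hP2 i),
          Finsupp.finsetSum_apply, Finset.sum_eq_single i, Finsupp.single_eq_same]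
        · norm_num
        · intro j _ hj
          exact Finsupp.single_eq_of_ne fun h => hj (hP1 h).symm
        · intro h; exact absurd (Finset.mem_univ i) h
      · push Not at hv
        have h2 := (mem_L.1 x.2) v
        refine h2.mono ?_
        have h3 : bcD K' F' (∑ i, Finsupp.single (P i) 1) v = 0 := by
          rw [map_sum, Finsupp.finsetSum_apply]
          apply Finset.sum_eq_zero
          intro i _
          rw [bcD_single]
          exact Finsupp.single_eq_of_ne (hv i)
        rw [map_sub, Finsupp.sub_apply, h3, sub_zero]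
    have h2 : riemannRochSpace (bcD K' F' (D - ∑ i, Finsupp.single (P i) 1)) = ⊥ :=
      Submodule.finrank_eq_zero.1 hP3
    rw [h2] at h1
    exact hx0' h1
  have hsurj : Function.Surjective E := by
    rw [← LinearMap.injective_iff_surjective_of_finrank_eq_finrank]
    · exact hinj
    · rw [Module.finrank_fin_fun]; exact hn
  choose e he using fun i : Fin n => hsurj (Pi.single i 1)
  have hfix : ∀ i, ∀ s : SemilinearAut K' F', FixF F s → s • (e i : F') = e i := by
    intro i s hs
    have h1 : (⟨s • (e i : F'), S27A.smul_mem_bcD hs (e i).2⟩ : V) = e i := by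
      apply hinj
      rw [he]
      funext j
      change ev (bcP K' F' (P j)) (s • (e i : F')) = _
      have h2 := ev_smul s (bcP K' F' (P j)) (e i : F')
      rw [hs.smul_bcP] at h2
      rw [h2]
      have h3 : ev (bcP K' F' (P j)) (e i : F') = (Pi.single i 1 : Fin n → K') j :=
        congrFun (he i) j
      rw [h3]
      by_cases hij : j = i
      · subst hij
        rw [Pi.single_eq_same, map_one]
      · rw [Pi.single_eq_of_ne hij, map_zero]
    exact congrArg Subtype.val h1
  choose f hf using fun i => mem_range_of_fix' (K := K) (F := F) (hfix i)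
  intro x hx
  have h1 : (⟨x, hx⟩ : V) = ∑ i, (ev (bcP K' F' (P i)) x) • e i := by
    apply hinj
    rw [map_sum]
    funext j
    rw [Finset.sum_apply, Finset.sum_eq_single j]
    · rw [map_smul, he, Pi.smul_apply, Pi.single_eq_same, smul_eq_mul, mul_one]
      rfl
    · intro i _ hij
      rw [map_smul, he, Pi.smul_apply, Pi.single_eq_of_ne hij.symm, smul_zero]
    · intro h; exact absurd (Finset.mem_univ j) h
  have h2 := congrArg Subtype.val h1
  rw [Submodule.coe_sum] at h2
  change x = _ at h2
  rw [h2]
  refine Submodule.sum_mem _ fun i _ => ?_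
  rw [Submodule.coe_smul]
  refine Submodule.smul_mem _ _ ?_
  rw [← hf i]
  apply bc_mem_SL
  rw [← bc_mem_L (K' := K') (F' := F'), hf i]
  exact (e i).2

theorem ell_bcD_eq' (D : Divisor K F) : ell (bcD K' F' D) = ell D := by
  apply le_antisymm
  · rw [← finrank_SL (K' := K') (F' := F') D]
    exact Submodule.finrank_mono (L_bcD_le' D)
  · exact ell_le_ell_bcD D

variable (K K' F F') in
include hC in
/-- **The genus is invariant under constant field extensions.** -/
theorem rrGenus_bc' : rrGenus K F = rrGenus K' F' := by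
  obtain ⟨c', hc'⟩ := exists_riemann (K := K') (F := F')
  have := rrGenus_unique (K := K) (F := F) (g := rrGenus K' F') ⟨c', fun D hD => by
    have h1 := hc' (bcD K' F' D) (by rwa [degree_bcD])
    rwa [ell_bcD_eq', degree_bcD] at h1⟩
  exact_mod_cast this.symm

end Fermat.Agent.S26A
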