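import Fermat.Agent.S26A.Gn1
import Fermat.Agent.MW.Fam

/-!
# A rigid effective divisor of degree the genus
-/

set_option autoImplicit false
set_option linter.unusedSectionVars false
set_option linter.style.haveILetI false

namespace Fermat.Agent.S26A

open AlgebraicCurve Fermat.Agent.RR Fermat.Agent.Curve IntermediateField Module Fermat.Agent.MW

section

variable {K F : Type*} [Field K] [IsAlgClosed K] [Field F] [Algebra K F] [FunField K F]

theorem exists_kill (n : ℕ) : ∀ (D : Divisor K F), ell D = n → ∃ P : Fin n → Place K F,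
    ell (D - ∑ i, Finsupp.single (P i) 1) = 0 := by
  classical
  induction n with
  | zero =>
    intro D h
    refine ⟨Fin.elim0, ?_⟩
    rw [Finset.univ_eq_empty, Finset.sum_empty, sub_zero]
    exact h
  | succ n ih =>
    intro D h
    obtain ⟨x, hx0, hx⟩ := exists_ne_zero_of_ell_pos (K := K) (D := D)
      (by rw [h]; positivity)
    obtain ⟨P₀, hP₀⟩ := exists_place_avoid (K := K) (F := F) (D.support ∪ (divisor K x).support)
    rw [Finset.mem_union, not_or, Finsupp.notMem_support_iff, Finsupp.notMem_support_iff,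
      divisor_apply] at hP₀
    obtain ⟨h2, h3⟩ := hP₀
    have h4 : x ∉ riemannRochSpace (D - Finsupp.single P₀ 1) := by
      intro h5
      have h6 := ((mem_L.1 h5) P₀).le_ord hx0
      rw [Finsupp.sub_apply, h2, Finsupp.single_eq_same, h3] at h6
      omega
    have hle : riemannRochSpace (D - Finsupp.single P₀ 1) ≤ riemannRochSpace D :=
      L_mono (sub_le_self _ (Spec.single_le_of_nonneg P₀))
    have hlt : ell (D - Finsupp.single P₀ 1) < ell D := by
      apply Submodule.finrank_lt_finrank_of_lt
      exact lt_of_le_of_ne hle fun h5 => h4 (by rw [h5]; exact hx)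
    have h5 := (finite_add_single (D - Finsupp.single P₀ 1) P₀ inferInstance).2
    rw [sub_add_cancel] at h5
    obtain ⟨P, hP3⟩ := ih (D - Finsupp.single P₀ 1) (by omega)
    refine ⟨Fin.cons P₀ P, ?_⟩
    rw [Fin.sum_univ_succ]
    simp only [Fin.cons_zero, Fin.cons_succ]
    rw [← sub_sub]
    exact hP3

/-- a rigid effective divisor of degree the genus, avoiding a given place -/
theorem exists_rigid (p : Place K F) : ∃ E : Divisor K F, 0 ≤ E ∧
    Divisor.degree E = rrGenus K F ∧ ell E = 1 ∧ E p = 0 := by
  classical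
  obtain ⟨c, hc⟩ := exists_riemann (K := K) (F := F)
  set m : ℤ := max (c + 1) (rrGenus K F + 1) with hm
  have hm1 : c + 1 ≤ m := le_max_left _ _
  have hm2 : (rrGenus K F : ℤ) + 1 ≤ m := le_max_right _ _
  set D : Divisor K F := Finsupp.single p (m - 1) with hD
  have hdD : Divisor.degree D = m - 1 := by rw [hD, degree_single']
  have h1 : (ell D : ℤ) = m - rrGenus K F := by
    rw [hc D (by rw [hdD]; omega), hdD]
    ring
  obtain ⟨P, hP⟩ := exists_kill (ell D) D rfl
  set D₁ : Divisor K F := D - ∑ i, Finsupp.single (P i) 1 + Finsupp.single p 1 with hD₁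
  have hsum : Divisor.degree (∑ i, Finsupp.single (P i) (1 : ℤ) : Divisor K F) = ell D := by
    rw [map_sum]
    simp only [degree_single', Finset.sum_const, Finset.card_univ, Fintype.card_fin, nsmul_eq_mul,
      mul_one]
  have hdeg : Divisor.degree D₁ = rrGenus K F := by
    rw [hD₁, map_add, map_sub, hdD, hsum, degree_single', h1]
    ring
  have h2 := riemann D₁
  rw [hdeg] at h2
  have h3 := (finite_add_single (D - ∑ i, Finsupp.single (P i) 1) p inferInstance).2
  rw [← hD₁, hP] at h3
  have h4 : ell D₁ = 1 := by omega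
  obtain ⟨x, hx0, hx⟩ := exists_ne_zero_of_ell_pos (K := K) (D := D₁) (by rw [h4]; exact one_pos)
  have hxv : ∀ v, -D₁ v ≤ v.ord x := fun v => ((mem_L.1 hx) v).le_ord hx0
  refine ⟨D₁ + divisor K x, ?_, ?_, ?_, ?_⟩
  · intro v
    rw [Finsupp.add_apply, divisor_apply, Finsupp.zero_apply]
    have := hxv v
    omega
  · rw [map_add, degree_divisor, add_zero, hdeg]
  · have h5 : D₁ + divisor K x = D₁ - divisor K x⁻¹ := by
      ext v
      rw [Finsupp.add_apply, Finsupp.sub_apply, divisor_apply, divisor_apply, Place.ord_inv]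
      ring
    rw [h5, ell_sub_divisor (inv_ne_zero hx0), h4]
  · rw [Finsupp.add_apply, divisor_apply]
    by_contra hne
    have h5 : x ∈ riemannRochSpace (D - ∑ i, Finsupp.single (P i) 1) := by
      rw [mem_L]
      intro v
      apply Ge.of_le
      have h6 := hxv v
      have h7 : D₁ v = (D - ∑ i, Finsupp.single (P i) 1 : Divisor K F) v +
          (Finsupp.single p 1 : Divisor K F) v := by
        rw [hD₁, Finsupp.add_apply]
      by_cases hv : v = p
      · subst hv
        rw [Finsupp.single_eq_same] at h7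
        omega
      · rw [Finsupp.single_eq_of_ne hv] at h7
        omega
    have h6 : riemannRochSpace (D - ∑ i, Finsupp.single (P i) 1) = ⊥ :=
      Submodule.finrank_eq_zero.1 hP
    rw [h6] at h5
    exact hx0 h5

/-- a rigid divisor is alone in its class -/
theorem eq_of_ell_one {E D : Divisor K F} (hE : 0 ≤ E) (h1 : ell E = 1) (hD : 0 ≤ D) {h : F}
    (hh : h ≠ 0) (hdiv : D - E = divisor K h) : D = E := by
  have h2 : h ∈ riemannRochSpace E := by
    rw [mem_L]
    intro v
    apply Ge.of_le
    have h3 : D v - E v = v.ord h := by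
      rw [← Finsupp.sub_apply, hdiv, divisor_apply]
    have h4 : 0 ≤ D v := hD v
    omega
  have h3 : (1 : F) ∈ riemannRochSpace E := by
    rw [mem_L]
    intro v
    apply Ge.of_le
    rw [Place.ord_one]
    have h4 : 0 ≤ E v := hE v
    omega
  have h4 : ∃ c : K, h = algebraMap K F c := by
    have h5 : Module.finrank K (riemannRochSpace E) = 1 := h1
    have h6 : (⟨1, h3⟩ : riemannRochSpace E) ≠ 0 := by
      intro h
      exact one_ne_zero (congrArg Subtype.val h)
    obtain ⟨c, hc⟩ := (finrank_eq_one_iff_of_nonzero' (⟨1, h3⟩ : riemannRochSpace E) h6).1 h5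
      ⟨h, h2⟩
    refine ⟨c, ?_⟩
    have h7 := congrArg Subtype.val hc
    change c • (1 : F) = h at h7
    rw [← h7, Algebra.smul_def, mul_one]
  obtain ⟨c, rfl⟩ := h4
  have h5 : divisor K (algebraMap K F c) = 0 := by
    ext v
    rw [divisor_apply, ord_algebraMap]
    rfl
  rw [h5, sub_eq_zero] at hdiv
  exact hdiv

/-- Riemann's inequality gives effective divisors -/
theorem exists_eff' {D : Divisor K F} (hD : (rrGenus K F : ℤ) ≤ Divisor.degree D) :
    ∃ (G : Divisor K F) (h : F), 0 ≤ G ∧ h ≠ 0 ∧ G - D = divisor K h := by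
  have h1 := riemann D
  obtain ⟨x, hx0, hx⟩ := exists_ne_zero_of_ell_pos (K := K) (D := D) (by omega)
  refine ⟨D + divisor K x, x, ?_, hx0, by rw [add_sub_cancel_left]⟩
  intro v
  rw [Finsupp.add_apply, divisor_apply, Finsupp.zero_apply]
  have := ((mem_L.1 hx) v).le_ord hx0
  omega

end

end Fermat.Agent.S26A
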