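import Fermat.Agent.S26A.Dim2

/-!
# Translations and multiplication by `n` on functions
-/

set_option autoImplicit false
set_option linter.style.haveILetI false
set_option linter.unusedSectionVars false

noncomputable section

namespace Fermat.Agent.S26A

universe u

open IntermediateField

namespace AVar

variable {K : Type u} [Field K] {g : ℕ} (A : AVar K g) {L M N : Type u} [Field L] [Algebra K L]
  [Field M] [Algebra K M] [Field N] [Algebra K N]

theorem inc_comp (τ : M →ₐ[K] N) (σ : L →ₐ[K] M) (x : A.P L) :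
    A.inc (τ.comp σ) x = A.inc τ (A.inc σ x) := by
  rw [inc, ← Pl.ofHom_comp, A.pl_comp]
  rfl

theorem inc_id (x : A.P L) : A.inc (AlgHom.id K L) x = x := A.pl_id L x

theorem ev_congr {x y : A.P L} (h : x = y) (f : A.F) (hx : f ∈ A.O x) (hy : f ∈ A.O y) :
    A.ev x ⟨f, hx⟩ = A.ev y ⟨f, hy⟩ := by
  subst h
  rfl

theorem inc_injective (σ : L →ₐ[K] M) : Function.Injective (A.inc σ) := by
  rw [injective_iff_map_eq_zero]
  intro x hx
  have h0 : A.inc σ x = A.inc σ 0 := by rw [hx, map_zero]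
  have hO : A.O x = A.O (0 : A.P L) := by
    rw [← A.O_inc σ x, h0, A.O_inc]
  refine A.ext_pt hO fun f hf hf' => ?_
  have hσ : ∀ a b : L, σ a = σ b → a = b := fun _ _ h => σ.injective h
  apply hσ
  have h1 : f ∈ A.O (A.inc σ x) := by rw [A.O_inc]; exact hf
  have h2 : f ∈ A.O (A.inc σ (0 : A.P L)) := by rw [A.O_inc]; exact hf'
  rw [← A.ev_inc σ x f h1 hf, ← A.ev_inc σ 0 f h2 hf']
  exact A.ev_congr h0 f h1 h2

theorem val_congr {x y : A.P L} (h : x = y) (hx : A.Gen x) (hy : A.Gen y) :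
    A.val x hx = A.val y hy := by
  subst h
  rfl

theorem val_inc (σ : L →ₐ[K] M) {x : A.P L} (hx : A.Gen x) (h : A.Gen (A.inc σ x)) :
    A.val (A.inc σ x) h = σ.comp (A.val x hx) := by
  ext f
  exact A.ev_inc σ x f _ _

theorem val_gen (h : A.Gen A.gen) : A.val A.gen h = AlgHom.id K A.F := by
  ext f
  exact A.ev_gen _

theorem gen_gen : A.Gen A.gen := A.O_gen

theorem val_inc_gen (σ : A.F →ₐ[K] L) (h : A.Gen (A.inc σ A.gen)) :
    A.val (A.inc σ A.gen) h = σ := by
  rw [A.val_inc σ A.gen_gen, A.val_gen]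
  rfl

/-- base change from `K` -/
def kst (L : Type u) [Field L] [Algebra K L] : A.P K →+ A.P L := A.inc (Algebra.ofId K L)

theorem inc_kst (σ : L →ₐ[K] M) (a : A.P K) : A.inc σ (A.kst L a) = A.kst M a := by
  rw [kst, ← A.inc_comp]
  congr 2
  exact AlgHom.ext fun c => σ.commutes c

theorem rk_kst (a : A.P K) : rkS K (A.vals (A.kst L a)) = 0 := by
  rw [kst, A.rk_inc]
  refine le_antisymm ?_ zero_le
  have h : (A.vals a) ⊆ adjoin K (∅ : Set K) := by
    intro c _
    exact IntermediateField.algebraMap_mem _ c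
  refine (rkS_le_of_subset_adjoin h).trans ?_
  rw [rkS, Matroid.eRk_empty]

theorem gen_add_kst {x : A.P L} (hx : A.Gen x) (a : A.P K) : A.Gen (x + A.kst L a) := by
  refine A.gen_of_rk ?_
  rw [← A.rk_of_gen hx]
  have h := A.rk_le_rk_add x (A.kst L a) 1
  rwa [one_smul, rk_kst, add_zero] at h

/-- translation of functions -/
def tau (a : A.P K) : A.F →ₐ[K] A.F := A.val (A.gen + A.kst A.F a) (A.gen_add_kst A.gen_gen a)

theorem inc_tau (a : A.P K) : A.inc (A.tau a) A.gen = A.gen + A.kst A.F a := by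
  rw [tau, A.eq_inc_val]

theorem val_tau {x : A.P L} (hx : A.Gen x) (a : A.P K) (f : A.F) :
    A.val x hx (A.tau a f) = A.val (x + A.kst L a) (A.gen_add_kst hx a) f := by
  have h : x + A.kst L a = A.inc (A.val x hx) (A.gen + A.kst A.F a) := by
    rw [map_add, A.inc_kst, A.eq_inc_val]
  rw [A.val_congr h _ (A.gen_inc _ (A.gen_add_kst A.gen_gen a)),
    A.val_inc _ (A.gen_add_kst A.gen_gen a)]
  rfl

theorem tau_add (a b : A.P K) (f : A.F) : A.tau (a + b) f = A.tau a (A.tau b f) := by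
  have h := A.val_tau (A.gen_add_kst A.gen_gen a) b f
  change A.tau a (A.tau b f) = _ at h
  rw [h]
  change A.val _ _ f = A.val _ _ f
  rw [A.val_congr (show A.gen + A.kst A.F (a + b) = A.gen + A.kst A.F a + A.kst A.F b by
    rw [map_add, add_assoc])]

theorem tau_zero (f : A.F) : A.tau 0 f = f := by
  change A.val _ _ f = f
  rw [A.val_congr (show A.gen + A.kst A.F 0 = A.gen by rw [map_zero, add_zero]) _ A.gen_gen,
    A.val_gen]
  rfl

theorem tau_injective' {a b : A.P K} (h : A.tau a = A.tau b) : a = b := by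
  have h1 := A.inc_tau a
  rw [h, A.inc_tau b] at h1
  exact A.inc_injective _ (add_left_cancel h1).symm

section nsm

variable (n : ℕ) (hn : (n : K) ≠ 0)

include hn

theorem gen_nsmul {x : A.P L} (hx : A.Gen x) : A.Gen (n • x) := by
  rw [← A.eq_inc_val hx, ← map_nsmul]
  exact A.gen_inc _ (A.nsm_gen n hn)

/-- multiplication by `n` on functions -/
def nu : A.F →ₐ[K] A.F := A.val (n • A.gen) (A.nsm_gen n hn)

theorem inc_nu : A.inc (A.nu n hn) A.gen = n • A.gen := by
  rw [nu, A.eq_inc_val]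

theorem val_nu {x : A.P L} (hx : A.Gen x) (f : A.F) :
    A.val x hx (A.nu n hn f) = A.val (n • x) (A.gen_nsmul n hn hx) f := by
  have h : n • x = A.inc (A.val x hx) (n • A.gen) := by
    rw [map_nsmul, A.eq_inc_val]
  rw [A.val_congr h _ (A.gen_inc _ (A.nsm_gen n hn)), A.val_inc _ (A.nsm_gen n hn)]
  rfl

theorem tau_nu {a : A.P K} (ha : n • a = 0) (f : A.F) :
    A.tau a (A.nu n hn f) = A.nu n hn f := by
  have h := A.val_nu n hn (A.gen_add_kst A.gen_gen a) f
  change A.tau a (A.nu n hn f) = _ at h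
  rw [h]
  change A.val _ _ f = A.val _ _ f
  rw [A.val_congr (show n • (A.gen + A.kst A.F a) = n • A.gen by
    rw [smul_add, ← map_nsmul, ha, map_zero, add_zero])]

/-- `P K` is divisible by `n` -/
theorem nsmul_surj [IsAlgClosed K] (a : A.P K) : ∃ b : A.P K, n • b = a := by
  let Ω := AlgebraicClosure A.F
  letI : Algebra K Ω := inferInstance
  let i : A.F →ₐ[K] Ω := IsScalarTower.toAlgHom K A.F Ω
  have h : A.O a ≤ A.O (n • A.inc i A.gen) := by
    rw [show A.O (n • A.inc i A.gen) = ⊤ from A.gen_nsmul n hn (A.gen_inc _ A.gen_gen)]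
    exact le_top
  obtain ⟨φ, hφ⟩ := exists_pl_of_le h
  exact ⟨A.pl φ (A.inc i A.gen), by rw [← map_nsmul]; exact hφ⟩

end nsm

end AVar

end Fermat.Agent.S26A
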