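import Fermat.Agent.S26A.Gr3
import Fermat.Agent.S26A.Dg4

/-!
# Poles
-/

set_option autoImplicit false
set_option linter.style.haveILetI false
set_option linter.unusedSectionVars false

noncomputable section

namespace Fermat.Agent.S26A

universe u

open IntermediateField

namespace AVar

section dg

variable {X : Type*}

theorem dg_mono {D D' : X →₀ ℤ} (h : D ≤ D') : dg D ≤ dg D' := by
  have h1 : dg D' = dg D + dg (D' - D) := by
    rw [← dg_add7]
    congr 1
    abel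
  have h2 : 0 ≤ dg (D' - D) := by
    refine Finset.sum_nonneg fun t _ => ?_
    have := h t
    rw [Finsupp.sub_apply]
    linarith
  linarith

theorem dg_nonneg {D : X →₀ ℤ} (h : 0 ≤ D) : 0 ≤ dg D := by
  have := dg_mono h
  rwa [dg_zero7] at this

theorem dg_sum {I : Type*} (s : Finset I) (D : I → X →₀ ℤ) : dg (∑ i ∈ s, D i) = ∑ i ∈ s, dg (D i) :=
  map_sum (dgH X) D s

theorem dg_nsmul (k : ℕ) (D : X →₀ ℤ) : dg (k • D) = k * dg D := by
  rw [← dgH_apply, map_nsmul, dgH_apply, nsmul_eq_mul]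

end dg

variable {K : Type u} [Field K] [IsAlgClosed K] {g : ℕ} {A : AVar K g} {j : Fin g}
  (T : CT K (A.FC j)) {L : Type u} [Field L] [Algebra K L] [IsAlgClosed L]

/-- the poles of `h` are bounded by `D` -/
def Bdd (D : Pl K (A.FC j) L →₀ ℤ) (h : T.cur L) : Prop := h = 0 ∨ -T.div h ≤ D

variable {T}

theorem Bdd.add {D : Pl K (A.FC j) L →₀ ℤ} {h h' : T.cur L} (hh : Bdd T D h) (hh' : Bdd T D h') :
    Bdd T D (h + h') := by
  rcases hh with rfl | hh
  · rwa [zero_add]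
  rcases hh' with rfl | hh'
  · rw [add_zero]
    exact .inr hh
  by_cases h0 : h = 0
  · rw [h0, zero_add]
    exact .inr hh'
  by_cases h0' : h' = 0
  · rw [h0', add_zero]
    exact .inr hh
  by_cases h1 : h + h' = 0
  · exact .inl h1
  refine .inr fun t => ?_
  have h2 := T.div_add t h h' h0 h0' h1
  have h3 := hh t
  have h4 := hh' t
  simp only [Finsupp.coe_neg, Pi.neg_apply] at h3 h4 ⊢
  rcases min_le_iff.1 h2 with h5 | h5 <;> linarith

theorem Bdd.mul {D D' : Pl K (A.FC j) L →₀ ℤ} {h h' : T.cur L} (hh : Bdd T D h)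
    (hh' : Bdd T D' h') : Bdd T (D + D') (h * h') := by
  by_cases h0 : h = 0
  · exact .inl (by rw [h0, zero_mul])
  by_cases h0' : h' = 0
  · exact .inl (by rw [h0', mul_zero])
  refine .inr ?_
  rw [T.div_mul h h' h0 h0', neg_add]
  exact add_le_add (hh.resolve_left h0) (hh'.resolve_left h0')

theorem Bdd.mono {D D' : Pl K (A.FC j) L →₀ ℤ} {h : T.cur L} (hh : Bdd T D h) (hD : D ≤ D') :
    Bdd T D' h := hh.imp id fun h => h.trans hD

theorem bdd_const {D : Pl K (A.FC j) L →₀ ℤ} (hD : 0 ≤ D) (c : L) : Bdd T D (T.iL L c) := by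
  refine .inr ?_
  rw [T.div_const, neg_zero]
  exact hD

theorem bdd_alg {D : Pl K (A.FC j) L →₀ ℤ} (hD : 0 ≤ D) (c : K) :
    Bdd T D (algebraMap K (T.cur L) c) := by
  have := bdd_const (T := T) hD (algebraMap K L c)
  rwa [AlgHom.commutes] at this

theorem bdd_one {D : Pl K (A.FC j) L →₀ ℤ} (hD : 0 ≤ D) : Bdd T D (1 : T.cur L) := by
  have := bdd_const (T := T) hD (1 : L)
  rwa [map_one] at this

theorem Bdd.pow {D : Pl K (A.FC j) L →₀ ℤ} {h : T.cur L} (hh : Bdd T D h) (k : ℕ) :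
    Bdd T (k • D) (h ^ k) := by
  induction k with
  | zero =>
    rw [pow_zero, zero_smul]
    exact bdd_one le_rfl
  | succ k ih =>
    rw [pow_succ, succ_nsmul]
    exact ih.mul hh

theorem bdd_prod {I : Type*} (s : Finset I) {D : I → Pl K (A.FC j) L →₀ ℤ} {h : I → T.cur L}
    (hh : ∀ i ∈ s, Bdd T (D i) (h i)) : Bdd T (∑ i ∈ s, D i) (∏ i ∈ s, h i) := by
  classical
  induction s using Finset.induction_on with
  | empty =>
    rw [Finset.sum_empty, Finset.prod_empty]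
    exact bdd_one le_rfl
  | insert a s ha ih =>
    rw [Finset.sum_insert ha, Finset.prod_insert ha]
    exact (hh a (Finset.mem_insert_self a s)).mul
      (ih fun i hi => hh i (Finset.mem_insert_of_mem hi))

theorem bdd_sum {I : Type*} (s : Finset I) {D : Pl K (A.FC j) L →₀ ℤ} {h : I → T.cur L}
    (hh : ∀ i ∈ s, Bdd T D (h i)) : Bdd T D (∑ i ∈ s, h i) := by
  classical
  induction s using Finset.induction_on with
  | empty =>
    rw [Finset.sum_empty]
    exact .inl rfl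
  | insert a s ha ih =>
    rw [Finset.sum_insert ha]
    exact (hh a (Finset.mem_insert_self a s)).add
      (ih fun i hi => hh i (Finset.mem_insert_of_mem hi))

variable (T) in
open Classical in
/-- the divisor of poles of `z ↦ f (w + m ι(z))` -/
def Pd (w : A.P L) (m : ℤ) (f : A.F) : Pl K (A.FC j) L →₀ ℤ :=
  if h : A.Gen (wc T w m) then (-(T.div (A.val (wc T w m) h f))) ⊔ 0 else 0

theorem Pd_eq {w : A.P L} {m : ℤ} (h : A.Gen (wc T w m)) (f : A.F) :
    Pd T w m f = (-(T.div (A.val (wc T w m) h f))) ⊔ 0 := dif_pos h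

theorem Pd_nonneg (w : A.P L) (m : ℤ) (f : A.F) : 0 ≤ Pd T w m f := by
  rw [Pd]
  split_ifs
  · exact le_sup_right
  · exact le_rfl

theorem bdd_Pd {w : A.P L} {m : ℤ} (h : A.Gen (wc T w m)) (f : A.F) :
    Bdd T (Pd T w m f) (A.val (wc T w m) h f) := by
  rw [Pd_eq h]
  exact .inr le_sup_left

/-- the degree of the poles = the degree of the zeros -/
theorem dg_Pd {w : A.P L} {m : ℤ} (h : A.Gen (wc T w m)) (f : A.F) :
    dg (Pd T w m f) = dg (Zd T w m f) := by
  rw [Pd_eq h, Zd_eq7 T h]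
  set D := T.div (A.val (wc T w m) h f) with hD
  have h1 : dg D = 0 := T.deg_div _
  have h2 : D + ((-D) ⊔ 0) = D ⊔ 0 := by
    ext t
    simp only [Finsupp.coe_add, Pi.add_apply, Finsupp.sup_apply, Finsupp.coe_neg, Pi.neg_apply,
      Finsupp.coe_zero, Pi.zero_apply]
    omega
  rw [← h2, dg_add7, h1, zero_add]

/-- functions with poles bounded by `D` have degree at most `dg D` -/
theorem dg_Zd_le {w : A.P L} {m : ℤ} (h : A.Gen (wc T w m)) {f : A.F} (hf : f ≠ 0)
    {D : Pl K (A.FC j) L →₀ ℤ} (hD : 0 ≤ D) (hb : Bdd T D (A.val (wc T w m) h f)) :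
    dg (Zd T w m f) ≤ dg D := by
  rw [← dg_Pd h, Pd_eq h]
  refine dg_mono (sup_le (hb.resolve_left ?_) hD)
  intro h0
  apply hf
  apply (A.val (wc T w m) h).injective
  rw [map_zero]
  exact h0

theorem wc_nsmul (n : ℕ) (w : A.P L) (m : ℤ) : n • wc T w m = wc T (n • w) (n * m) := by
  rw [wc, wc, smul_add, ← map_nsmul, mul_smul, natCast_zsmul]

theorem wc_add_kst (w : A.P L) (m : ℤ) (a : A.P K) :
    wc T w m + A.kst (T.cur L) a = wc T (w + A.kst L a) m := by
  rw [wc, wc, map_add, A.inc_kst]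
  abel

theorem val_wc_nu (n : ℕ) (hn : (n : K) ≠ 0) {w : A.P L} {m : ℤ} (h : A.Gen (wc T w m))
    (h' : A.Gen (wc T (n • w) (n * m))) (f : A.F) :
    A.val (wc T w m) h (A.nu n hn f) = A.val (wc T (n • w) (n * m)) h' f := by
  rw [A.val_nu n hn h]
  exact congrArg (fun φ : A.F →ₐ[K] T.cur L => φ f) (A.val_congr (wc_nsmul n w m) _ _)

theorem val_wc_tau (a : A.P K) {w : A.P L} {m : ℤ} (h : A.Gen (wc T w m))
    (h' : A.Gen (wc T (w + A.kst L a) m)) (f : A.F) :
    A.val (wc T w m) h (A.tau a f) = A.val (wc T (w + A.kst L a) m) h' f := by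
  rw [A.val_tau h]
  exact congrArg (fun φ : A.F →ₐ[K] T.cur L => φ f) (A.val_congr (wc_add_kst w m a) _ _)

theorem Pd_nu (n : ℕ) (hn : (n : K) ≠ 0) {w : A.P L} (hw : A.Gen w) (m : ℤ) (f : A.F) :
    Pd T w m (A.nu n hn f) = Pd T (n • w) (n * m) f := by
  rw [Pd_eq (gen_wc T hw m), Pd_eq (gen_wc T (A.gen_nsmul n hn hw) (n * m)),
    val_wc_nu n hn _ (gen_wc T (A.gen_nsmul n hn hw) (n * m))]

theorem Pd_tau (a : A.P K) {w : A.P L} (hw : A.Gen w) (m : ℤ) (f : A.F) :
    Pd T w m (A.tau a f) = Pd T (w + A.kst L a) m f := by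
  rw [Pd_eq (gen_wc T hw m), Pd_eq (gen_wc T (A.gen_add_kst hw a) m),
    val_wc_tau a _ (gen_wc T (A.gen_add_kst hw a) m)]

theorem Zd_nu (n : ℕ) (hn : (n : K) ≠ 0) {w : A.P L} (hw : A.Gen w) (m : ℤ) (f : A.F) :
    Zd T w m (A.nu n hn f) = Zd T (n • w) (n * m) f := by
  rw [Zd_eq7 T (gen_wc T hw m), Zd_eq7 T (gen_wc T (A.gen_nsmul n hn hw) (n * m)),
    val_wc_nu n hn _ (gen_wc T (A.gen_nsmul n hn hw) (n * m))]

theorem Zd_tau (a : A.P K) {w : A.P L} (hw : A.Gen w) (m : ℤ) (f : A.F) :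
    Zd T w m (A.tau a f) = Zd T (w + A.kst L a) m f := by
  rw [Zd_eq7 T (gen_wc T hw m), Zd_eq7 T (gen_wc T (A.gen_add_kst hw a) m),
    val_wc_tau a _ (gen_wc T (A.gen_add_kst hw a) m)]

end AVar

end Fermat.Agent.S26A
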