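import Fermat.Agent.S26A.Gr1

/-!
# The functions invariant under the translations by `A[n]`
-/

set_option autoImplicit false
set_option linter.style.haveILetI false
set_option linter.unusedSectionVars false

noncomputable section

namespace Fermat.Agent.S26A

universe u

open IntermediateField

/-- a finitely generated extension without derivations is separable -/
theorem isSeparable_of_derivation {E F : Type*} [Field E] [Field F] [Algebra E F]
    [Algebra.EssFiniteType E F] (h : ∀ D : Derivation E F F, D = 0) : Algebra.IsSeparable E F := by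
  rw [← Algebra.FormallyUnramified.iff_isSeparable]
  refine ⟨⟨fun x y => ?_⟩⟩
  have h0 : ∀ z : Ω[F⁄E], z = 0 := by
    intro z
    rw [← Module.forall_dual_apply_eq_zero_iff F]
    intro ℓ
    have h1 := h (KaehlerDifferential.linearMapEquivDerivation E F ℓ)
    have h2 : ℓ = 0 := by
      apply (KaehlerDifferential.linearMapEquivDerivation E F).injective
      rw [h1, map_zero]
    rw [h2]
    rfl
  rw [h0 x, h0 y]

/-- an element fixed by all embeddings -/
theorem mem_of_fixed {E F Ω : Type*} [Field E] [Field F] [Field Ω] [Algebra E F] [Algebra E Ω]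
    [IsAlgClosed Ω] [Algebra.IsSeparable E F] (i : F →ₐ[E] Ω) (f : F)
    (h : ∀ σ : F →ₐ[E] Ω, σ f = i f) : ∃ e : E, algebraMap E F e = f := by
  classical
  have hint : IsIntegral E f := Algebra.IsIntegral.isIntegral f
  have hsep : (minpoly E f).Separable := Algebra.IsSeparable.isSeparable E f
  have hroot : ∀ y : Ω, Polynomial.aeval y (minpoly E f) = 0 → y = i f := by
    intro y hy
    obtain ⟨σ, hσ⟩ := IntermediateField.exists_algHom_of_splits_of_aeval
      (fun s => ⟨Algebra.IsIntegral.isIntegral s, IsAlgClosed.splits _⟩) hy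
    rw [← hσ]
    exact h σ
  have hsplit : ((minpoly E f).map (algebraMap E Ω)).Splits := IsAlgClosed.splits _
  have hcard : (minpoly E f).natDegree = Multiset.card ((minpoly E f).map (algebraMap E Ω)).roots := by
    rw [← hsplit.natDegree_eq_card_roots, Polynomial.natDegree_map]
  have hnodup : ((minpoly E f).map (algebraMap E Ω)).roots.Nodup :=
    Polynomial.nodup_roots hsep.map
  have hle : Multiset.card ((minpoly E f).map (algebraMap E Ω)).roots ≤ 1 := by
    by_contra hlt
    push Not at hlt
    have hall : ∀ y ∈ ((minpoly E f).map (algebraMap E Ω)).roots, y = i f := by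
      intro y hy
      apply hroot
      rw [Polynomial.mem_roots'] at hy
      have := hy.2
      rwa [Polynomial.IsRoot, Polynomial.eval_map_algebraMap] at this
    have heq := Multiset.eq_replicate_card.2 hall
    rw [heq] at hnodup
    have := Multiset.nodup_iff_count_le_one.1 hnodup (i f)
    rw [Multiset.count_replicate_self] at this
    omega
  have hdeg : (minpoly E f).natDegree = 1 := by
    have := minpoly.natDegree_pos hint
    omega
  exact minpoly.natDegree_eq_one_iff.1 hdeg

namespace AVar

variable {K : Type u} [Field K] [IsAlgClosed K] {g : ℕ} (A : AVar K g)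

theorem mem_range_nu (n : ℕ) (hn : (n : K) ≠ 0) (f : A.F)
    (h : ∀ a : A.P K, n • a = 0 → A.tau a f = f) : ∃ f', A.nu n hn f' = f := by
  let E : IntermediateField K A.F := (A.nu n hn).fieldRange
  have hfg : Algebra.EssFiniteType K A.F := by
    obtain ⟨s, hs⟩ := A.fg
    have : (⊤ : IntermediateField K A.F).FG := ⟨s, hs⟩
    exact IntermediateField.fg_top_iff.1 this
  haveI : Algebra.EssFiniteType E A.F := Algebra.EssFiniteType.of_comp K E A.F
  haveI hsep : Algebra.IsSeparable E A.F := by
    refine isSeparable_of_derivation fun D => ?_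
    have h1 : D.restrictScalars K = 0 := by
      refine A.nsm_sep n hn _ fun f => ?_
      have h2 : A.ev (n • A.gen) f ∈ E := ⟨(f : A.F), rfl⟩
      exact D.map_algebraMap ⟨_, h2⟩
    ext x
    have := congrArg (fun D' : Derivation K A.F A.F => D' x) h1
    exact this
  let Ω := AlgebraicClosure A.F
  letI : Algebra K Ω := inferInstance
  letI : Algebra E Ω := inferInstance
  have hmem : ∃ e : E, algebraMap E A.F e = f := by
    refine mem_of_fixed (Ω := Ω) (IsScalarTower.toAlgHom E A.F Ω) f fun σ => ?_
    let σ' : A.F →ₐ[K] Ω := σ.restrictScalars K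
    let i : A.F →ₐ[K] Ω := IsScalarTower.toAlgHom K A.F Ω
    have h1 : σ'.comp (A.nu n hn) = i.comp (A.nu n hn) := by
      ext x
      exact σ.commutes ⟨A.nu n hn x, x, rfl⟩
    have h2 : n • (A.inc σ' A.gen - A.inc i A.gen) = 0 := by
      rw [smul_sub, ← map_nsmul, ← map_nsmul, ← A.inc_nu n hn, ← A.inc_comp, ← A.inc_comp, h1,
        sub_self]
    obtain ⟨a, ha⟩ := A.tors n hn _ h2
    have ha' : A.kst Ω a = A.inc σ' A.gen - A.inc i A.gen := ha
    have hna : n • a = 0 := by
      apply A.inc_injective (Algebra.ofId K Ω)
      rw [map_zero, map_nsmul]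
      exact (congrArg (fun x => n • x) ha').trans h2
    have h3 : A.inc σ' A.gen = A.inc i (A.gen + A.kst A.F a) := by
      rw [map_add, A.inc_kst, ha']
      abel
    have h4 : σ' = i.comp (A.tau a) := by
      rw [← A.inc_tau, ← A.inc_comp] at h3
      rw [← A.val_inc_gen σ' (A.gen_inc _ A.gen_gen), A.val_congr h3 _ (A.gen_inc _ A.gen_gen),
        A.val_inc_gen]
    have h5 := h a hna
    change σ' f = i f
    rw [h4]
    change i (A.tau a f) = i f
    rw [h5]
  obtain ⟨⟨_, f', rfl⟩, he⟩ := hmem
  exact ⟨f', he⟩

end AVar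

end Fermat.Agent.S26A
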