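import Mathlib

/-!
# Eigenfunctions for a finite abelian group of automorphisms
-/

set_option autoImplicit false
set_option linter.style.haveILetI false
set_option linter.unusedSectionVars false

noncomputable section

namespace Fermat.Agent.S26A

open Finset

section Chars

variable {K : Type*} [Field K] {G : Type*} [CommGroup G] [Finite G]

theorem natCast_card_ne_zero7 (n : ℕ) (hn : (n : K) ≠ 0) (hG : ∀ a : G, a ^ n = 1) :
    (Nat.card G : K) ≠ 0 := by
  intro h
  have hn0 : n ≠ 0 := by
    rintro rfl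
    exact hn Nat.cast_zero
  obtain ⟨p, hp⟩ := CharP.exists K
  rcases CharP.char_is_prime_or_zero K p with hpp | rfl
  · have h1 : p ∣ Nat.card G := (CharP.cast_eq_zero_iff K p _).1 h
    haveI := Fact.mk hpp
    obtain ⟨x, hx⟩ := exists_prime_orderOf_dvd_card' p h1
    have h2 : p ∣ n := hx ▸ orderOf_dvd_of_pow_eq_one (hG x)
    exact hn ((CharP.cast_eq_zero_iff K p _).2 h2)
  · haveI := CharP.charP_to_charZero K
    exact Nat.card_pos.ne' (Nat.cast_eq_zero.1 h)

/-- the value of a character -/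
def chv (χ : G →* Kˣ) (a : G) : K := ((χ a : Kˣ) : K)

theorem chv_ne (χ : G →* Kˣ) (a : G) : chv χ a ≠ 0 := (χ a).ne_zero

theorem chv_mul (χ : G →* Kˣ) (a b : G) : chv χ (a * b) = chv χ a * chv χ b := by
  rw [chv, map_mul, Units.val_mul]; rfl

theorem chv_inv (χ : G →* Kˣ) (a : G) : chv χ a⁻¹ * chv χ a = 1 := by
  rw [← chv_mul, inv_mul_cancel, chv, map_one, Units.val_one]

theorem sum_chv_ne [Fintype G] {χ ψ : G →* Kˣ} (h : χ ≠ ψ) :
    ∑ a, chv ψ a⁻¹ * chv χ a = 0 := by
  classical
  have h1 : (Units.coeHom K).comp (ψ⁻¹ * χ) ≠ 1 := by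
    intro h2
    apply h
    ext a
    have h3 := DFunLike.congr_fun h2 a
    rw [MonoidHom.comp_apply, Units.coeHom_apply, MonoidHom.one_apply, Units.val_eq_one,
      MonoidHom.mul_apply, MonoidHom.inv_apply, inv_mul_eq_one] at h3
    rw [h3]
  have h2 := sum_hom_units_eq_zero _ h1
  rw [← h2]
  refine Finset.sum_congr rfl fun a _ => ?_
  rw [MonoidHom.comp_apply, Units.coeHom_apply, MonoidHom.mul_apply, Units.val_mul, chv, chv,
    map_inv, MonoidHom.inv_apply]

theorem sum_chv_self [Fintype G] (χ : G →* Kˣ) :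
    ∑ a, chv χ a⁻¹ * chv χ a = (Nat.card G : K) := by
  rw [Finset.sum_congr rfl fun a _ => chv_inv χ a, Finset.sum_const, Finset.card_univ, nsmul_eq_mul,
    mul_one, Nat.card_eq_fintype_card]

theorem sum_chars [IsAlgClosed K] (n : ℕ) (hn : (n : K) ≠ 0) (hG : ∀ a : G, a ^ n = 1)
    [Fintype (G →* Kˣ)] {a : G} (ha : a ≠ 1) : ∑ χ : G →* Kˣ, chv χ a = 0 := by
  classical
  haveI : NeZero ((Monoid.exponent G : ℕ) : K) := ⟨by
    intro h
    obtain ⟨m, hm⟩ := Monoid.exponent_dvd_of_forall_pow_eq_one hG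
    apply hn
    rw [hm, Nat.cast_mul, h, zero_mul]⟩
  obtain ⟨φ, hφ⟩ := CommGroup.exists_apply_ne_one_of_hasEnoughRootsOfUnity G K ha
  have h1 : ∑ χ : G →* Kˣ, chv χ a = chv φ a * ∑ χ : G →* Kˣ, chv χ a := by
    rw [Finset.mul_sum, ← Equiv.sum_comp (Equiv.mulLeft φ)]
    refine Finset.sum_congr rfl fun χ _ => ?_
    rw [Equiv.coe_mulLeft, chv, MonoidHom.mul_apply, Units.val_mul]
    rfl
  by_contra h2
  have h3 : chv φ a = 1 := by
    have h4 : (1 : K) * ∑ χ : G →* Kˣ, chv χ a = chv φ a * ∑ χ : G →* Kˣ, chv χ a := by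
      rw [one_mul]; exact h1
    exact (mul_right_cancel₀ h2 h4).symm
  exact hφ (Units.ext h3)

end Chars

/-- **eigenfunctions** -/
theorem exists_eigen {K F : Type*} [Field K] [IsAlgClosed K] [Field F] [Algebra K F] {H : Type*}
    [AddCommGroup H] [Finite H] (n : ℕ) (hn : (n : K) ≠ 0) (hH : ∀ a : H, n • a = 0)
    (τ : H → F →ₐ[K] F) (h0 : τ 0 = AlgHom.id K F) (hadd : ∀ a b f, τ (a + b) f = τ a (τ b f))
    (hinj : Function.Injective τ) :
    ∃ (ι : Type) (_ : Fintype ι) (χ : ι → H → K) (u : ι → F) (p : ι → F →ₗ[K] F),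
      Fintype.card ι = Nat.card H ∧ (∀ i, u i ≠ 0) ∧ (∀ i a, χ i a ≠ 0) ∧
      (∀ i a, τ a (u i) = algebraMap K F (χ i a) * u i) ∧
      (∀ r : ι → F, (∀ i a, τ a (r i) = r i) → ∑ i, r i * u i = 0 → r = 0) ∧
      (∀ f, ∑ i, p i f = f) ∧ (∀ i a f, τ a (p i f) = algebraMap K F (χ i a) * p i f) ∧
      (∀ i f, ∃ c : H → K, p i f = ∑ᶠ a, algebraMap K F (c a) * τ a f) := by
  classical
  haveI : Fintype H := Fintype.ofFinite H
  have hG : ∀ a : Multiplicative H, a ^ n = 1 := fun a => hH a.toAdd
  haveI : NeZero ((Monoid.exponent (Multiplicative H) : ℕ) : K) := ⟨by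
    intro h
    obtain ⟨m, hm⟩ := Monoid.exponent_dvd_of_forall_pow_eq_one hG
    apply hn
    rw [hm, Nat.cast_mul, h, zero_mul]⟩
  have hcard : Nat.card (Multiplicative H →* Kˣ) = Nat.card H :=
    CommGroup.card_monoidHom_of_hasEnoughRootsOfUnity (Multiplicative H) K
  haveI : Finite (Multiplicative H →* Kˣ) :=
    Nat.finite_of_card_ne_zero (by rw [hcard]; exact Nat.card_pos.ne')
  haveI : Fintype (Multiplicative H →* Kˣ) := Fintype.ofFinite _
  let N : K := (Nat.card H : K)
  have hN : N ≠ 0 := natCast_card_ne_zero7 (G := Multiplicative H) n hn hG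
  let X := Multiplicative H →* Kˣ
  let cv : X → H → K := fun χ a => chv χ (Multiplicative.ofAdd a)
  have cv_add : ∀ χ a b, cv χ (a + b) = cv χ a * cv χ b := fun χ a b => chv_mul χ _ _
  have cv_ne : ∀ χ a, cv χ a ≠ 0 := fun χ a => chv_ne χ _
  -- the projections
  let P : X → F →ₗ[K] F := fun χ => N⁻¹ • ∑ a : H, cv χ (-a) • (τ a).toLinearMap
  have hP : ∀ χ f, P χ f = ∑ a : H, algebraMap K F (N⁻¹ * cv χ (-a)) * τ a f := by
    intro χ f
    simp only [P, LinearMap.smul_apply, LinearMap.sum_apply, AlgHom.toLinearMap_apply,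
      Finset.smul_sum, smul_smul]
    exact Finset.sum_congr rfl fun a _ => by rw [Algebra.smul_def]
  have hPτ : ∀ χ a f, τ a (P χ f) = algebraMap K F (cv χ a) * P χ f := by
    intro χ b f
    rw [hP, map_sum, Finset.mul_sum]
    conv_rhs => rw [← Equiv.sum_comp (Equiv.addLeft b)]
    refine Finset.sum_congr rfl fun a _ => ?_
    rw [map_mul, AlgHom.commutes, ← hadd, Equiv.coe_addLeft, ← mul_assoc, ← map_mul]
    congr 2
    have h1 : cv χ (-a) = cv χ b * cv χ (-(b + a)) := by
      rw [← cv_add]; congr 1; abel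
    rw [h1]; ring
  have hPsum : ∀ f, ∑ χ, P χ f = f := by
    intro f
    simp only [hP]
    rw [Finset.sum_comm]
    have h1 : ∀ a : H, ∑ χ : X, algebraMap K F (N⁻¹ * cv χ (-a)) * τ a f =
        if a = 0 then f else 0 := by
      intro a
      rw [← Finset.sum_mul, ← map_sum, ← Finset.mul_sum]
      split_ifs with ha
      · subst ha
        have h2 : ∑ χ : X, cv χ (-0) = N := by
          have h3 : ∀ χ : X, cv χ (-0) = 1 := by
            intro χ
            rw [neg_zero]
            exact congrArg Units.val (map_one χ)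
          rw [Finset.sum_congr rfl fun χ _ => h3 χ, Finset.sum_const, Finset.card_univ,
            nsmul_eq_mul, mul_one, ← Nat.card_eq_fintype_card, hcard]
        rw [h2, inv_mul_cancel₀ hN, map_one, one_mul, h0]
        rfl
      · have h2 : ∑ χ : X, cv χ (-a) = 0 :=
          sum_chars n hn hG (a := Multiplicative.ofAdd (-a)) (by
            intro h3
            apply ha
            have := congrArg Multiplicative.toAdd h3
            exact neg_eq_zero.1 this)
        rw [h2, mul_zero, map_zero, zero_mul]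
    rw [Finset.sum_congr rfl fun a _ => h1 a, Finset.sum_ite_eq' Finset.univ (0 : H),
      if_pos (Finset.mem_univ _)]
  -- projections are non zero
  have hPne : ∀ χ, ∃ f, P χ f ≠ 0 := by
    intro χ
    by_contra! h
    have h1 := linearIndependent_monoidHom F F
    have h2 : LinearIndependent F (fun a : H => ((τ a : F →* F) : F → F)) := by
      refine h1.comp (fun a : H => ((τ a : F →* F))) ?_
      intro a b hab
      apply hinj
      ext x
      exact DFunLike.congr_fun hab x
    have h3 := Fintype.linearIndependent_iff.1 h2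
      (fun a => algebraMap K F (N⁻¹ * cv χ (-a))) (by
        funext f
        have := h f
        rw [hP] at this
        rw [Finset.sum_apply]
        exact this) 0
    rw [map_eq_zero] at h3
    exact mul_ne_zero (inv_ne_zero hN) (cv_ne _ _) h3
  choose w hw using hPne
  -- independence
  have hind : ∀ r : X → F, (∀ χ a, τ a (r χ) = r χ) → ∑ χ, r χ * P χ (w χ) = 0 → r = 0 := by
    intro r hr hs
    funext ψ
    have h1 : P ψ (∑ χ, r χ * P χ (w χ)) = r ψ * P ψ (w ψ) := by
      rw [map_sum]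
      have h2 : ∀ χ, P ψ (r χ * P χ (w χ)) = if χ = ψ then r ψ * P ψ (w ψ) else 0 := by
        intro χ
        rw [hP]
        have h3 : ∀ a : H, algebraMap K F (N⁻¹ * cv ψ (-a)) * τ a (r χ * P χ (w χ)) =
            algebraMap K F (N⁻¹ * (cv ψ (-a) * cv χ a)) * (r χ * P χ (w χ)) := by
          intro a
          rw [map_mul (τ a), hr, hPτ, ← mul_assoc (N⁻¹), map_mul (algebraMap K F) (N⁻¹ * cv ψ (-a))]
          ring
        rw [Finset.sum_congr rfl fun a _ => h3 a, ← Finset.sum_mul, ← map_sum, ← Finset.mul_sum]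
        split_ifs with h
        · subst h
          have h4 : ∑ a : H, cv χ (-a) * cv χ a = N := by
            refine Eq.trans ?_ (sum_chv_self χ)
            exact Fintype.sum_equiv Multiplicative.ofAdd _ _ fun _ => rfl
          rw [h4, inv_mul_cancel₀ hN, map_one, one_mul]
        · have h4 : ∑ a : H, cv ψ (-a) * cv χ a = 0 := by
            refine Eq.trans ?_ (sum_chv_ne h)
            exact Fintype.sum_equiv Multiplicative.ofAdd _ _ fun _ => rfl
          rw [h4, mul_zero, map_zero, zero_mul]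
      rw [Finset.sum_congr rfl fun χ _ => h2 χ, Finset.sum_ite_eq' Finset.univ ψ,
        if_pos (Finset.mem_univ _)]
    rw [hs, map_zero] at h1
    exact (mul_eq_zero.1 h1.symm).resolve_right (hw ψ)
  -- indexing
  let e : Fin (Nat.card H) ≃ X := (Finite.equivFinOfCardEq hcard).symm
  refine ⟨Fin (Nat.card H), inferInstance, fun i => cv (e i), fun i => P (e i) (w (e i)),
    fun i => P (e i), Fintype.card_fin _, fun i => hw _, fun i a => cv_ne _ _,
    fun i a => hPτ _ _ _, ?_, ?_, fun i a f => hPτ _ _ _, ?_⟩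
  · intro r hr hs
    have h1 := hind (fun χ => r (e.symm χ)) (fun χ a => hr _ a) (by
      rw [← Equiv.sum_comp e, ← hs]
      exact Finset.sum_congr rfl fun i _ => by rw [Equiv.symm_apply_apply])
    funext i
    have h2 := congrFun h1 (e i)
    simpa using h2
  · intro f
    have := hPsum f
    rw [← Equiv.sum_comp e] at this
    exact this
  · intro i f
    refine ⟨fun a => N⁻¹ * cv (e i) (-a), ?_⟩
    rw [finsum_eq_sum_of_fintype, ← hP]

end Fermat.Agent.S26A
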