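import Mathlib

/-!
# Numerical growth
-/

set_option autoImplicit false
set_option linter.style.haveILetI false

noncomputable section

namespace Fermat.Agent.S26A

open Filter Topology Finset

theorem growth_le (g : ℕ) (a : ℝ) (s : ℕ) (A B : Fin g → ℝ) (hA : ∀ j, 0 ≤ A j)
    (hB : ∀ j, 0 ≤ B j)
    (h : ∀ k : ℕ, a * ((s * k + g).choose g : ℝ) ≤ ∏ j, (A j * k + B j)) :
    a * (s : ℝ) ^ g ≤ g.factorial * ∏ j, A j := by
  have hprod : 0 ≤ ∏ j, A j := Finset.prod_nonneg fun j _ => hA j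
  have hf0 : (0 : ℝ) ≤ g.factorial := Nat.cast_nonneg _
  rcases le_or_gt a 0 with ha | ha
  · have h1 : a * (s : ℝ) ^ g ≤ 0 := mul_nonpos_of_nonpos_of_nonneg ha (by positivity)
    exact h1.trans (mul_nonneg hf0 hprod)
  have key : ∀ k : ℕ, a * (s * k : ℝ) ^ g ≤ g.factorial * ∏ j, (A j * k + B j) := by
    intro k
    have h1 : ((s * k : ℕ) : ℝ) ^ g ≤ g.factorial * ((s * k + g).choose g : ℝ) := by
      have h2 : (s * k) ^ g ≤ g.factorial * (s * k + g).choose g := by
        rw [← Nat.ascFactorial_eq_factorial_mul_choose]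
        exact (Nat.pow_le_pow_left (Nat.le_succ _) g).trans (Nat.pow_succ_le_ascFactorial _ _)
      exact_mod_cast h2
    calc a * (s * k : ℝ) ^ g = a * ((s * k : ℕ) : ℝ) ^ g := by push_cast; ring
      _ ≤ a * (g.factorial * ((s * k + g).choose g : ℝ)) := by gcongr
      _ = g.factorial * (a * ((s * k + g).choose g : ℝ)) := by ring
      _ ≤ g.factorial * ∏ j, (A j * k + B j) := by gcongr; exact h k
  have key2 : ∀ k : ℕ, 0 < k → a * (s : ℝ) ^ g ≤ g.factorial * ∏ j, (A j + B j / k) := by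
    intro k hk
    have hk' : (0 : ℝ) < k := Nat.cast_pos.2 hk
    have h1 : ∏ j, (A j + B j / k) = (∏ j, (A j * k + B j)) / (k : ℝ) ^ g := by
      have h2 : ∀ j, A j + B j / k = (A j * k + B j) / k := fun j => by
        field_simp
      rw [Finset.prod_congr rfl fun j _ => h2 j, Finset.prod_div_distrib, Finset.prod_const,
        Finset.card_univ, Fintype.card_fin]
    rw [h1, mul_div_assoc', le_div_iff₀ (by positivity)]
    calc a * (s : ℝ) ^ g * (k : ℝ) ^ g = a * (s * k : ℝ) ^ g := by ring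
      _ ≤ _ := key k
  have hlim : Tendsto (fun k : ℕ => (g.factorial : ℝ) * ∏ j, (A j + B j / k)) atTop
      (𝓝 (g.factorial * ∏ j, (A j + 0))) := by
    refine Tendsto.const_mul _ (tendsto_finsetProd _ fun j _ => ?_)
    exact tendsto_const_nhds.add (tendsto_const_div_atTop_nhds_zero_nat (B j))
  simp only [add_zero] at hlim
  refine ge_of_tendsto hlim ?_
  filter_upwards [eventually_gt_atTop 0] with k hk
  exact key2 k hk

theorem eq_of_growth (N : ℕ → ℕ) (n : ℕ) (hn : 0 < n) (g : ℕ) (c C : ℝ) (hc : 0 < c)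
    (hm : ∀ m, N (n ^ m) = N n ^ m)
    (hlo : ∀ m, c * ((n ^ m : ℕ) : ℝ) ^ (2 * g) ≤ N (n ^ m))
    (hup : ∀ m, (N (n ^ m) : ℝ) ≤ C * ((n ^ m : ℕ) : ℝ) ^ (2 * g)) : N n = n ^ (2 * g) := by
  have hy : (0 : ℝ) < (n : ℝ) ^ (2 * g) := by positivity
  set r : ℝ := (N n : ℝ) / (n : ℝ) ^ (2 * g) with hr
  have hr0 : 0 ≤ r := by positivity
  have e : ∀ m : ℕ, (N (n ^ m) : ℝ) = r ^ m * ((n ^ m : ℕ) : ℝ) ^ (2 * g) := by
    intro m
    rw [hm, hr, div_pow]
    push_cast
    rw [← pow_mul, ← pow_mul, mul_comm m (2 * g), div_mul_cancel₀]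
    positivity
  have hp : ∀ m : ℕ, (0 : ℝ) < ((n ^ m : ℕ) : ℝ) ^ (2 * g) := fun m => by positivity
  have h1 : ∀ m : ℕ, c ≤ r ^ m := by
    intro m
    have := hlo m
    rw [e] at this
    exact le_of_mul_le_mul_right this (hp m)
  have h2 : ∀ m : ℕ, r ^ m ≤ C := by
    intro m
    have := hup m
    rw [e] at this
    exact le_of_mul_le_mul_right this (hp m)
  have hr1 : r = 1 := by
    rcases lt_trichotomy r 1 with h | h | h
    · exfalso
      have h3 := tendsto_pow_atTop_nhds_zero_of_lt_one hr0 h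
      have h4 : c ≤ 0 := ge_of_tendsto' h3 h1
      exact absurd h4 (not_le.2 hc)
    · exact h
    · exfalso
      obtain ⟨m, hm⟩ := pow_unbounded_of_one_lt C h
      exact absurd (h2 m) (not_le.2 hm)
  have h3 : (N n : ℝ) = (n : ℝ) ^ (2 * g) := by
    rw [hr, div_eq_one_iff_eq hy.ne'] at hr1
    exact hr1
  exact_mod_cast h3

end Fermat.Agent.S26A
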