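import Mathlib

/-!
# Taylor expansions and products of monomials in étale coordinates
-/

set_option autoImplicit false
set_option linter.style.haveILetI false
set_option linter.unusedSectionVars false

noncomputable section

namespace Fermat.Agent.S26A

open MvPowerSeries Finset

variable {K : Type*} [Field K] {g : ℕ}

/-- leading monomial `m`, coefficient `1` -/
def Lead (m : Fin g →₀ ℕ) (s : MvPowerSeries (Fin g) K) : Prop :=
  ∀ p : Fin g →₀ ℕ, p.degree ≤ m.degree → coeff p s = if p = m then 1 else 0

theorem Lead.mul {m m' : Fin g →₀ ℕ} {s s' : MvPowerSeries (Fin g) K} (h : Lead m s)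
    (h' : Lead m' s') : Lead (m + m') (s * s') := by
  intro p hp
  rw [map_add] at hp
  rw [coeff_mul]
  have key : ∀ q ∈ antidiagonal p, coeff q.1 s * coeff q.2 s' =
      if q = (m, m') then (1 : K) else 0 := by
    rintro ⟨a, b⟩ hq
    rw [HasAntidiagonal.mem_antidiagonal] at hq
    have hd : a.degree + b.degree ≤ m.degree + m'.degree := by
      rw [← map_add, hq]
      exact hp
    by_cases h1 : a.degree ≤ m.degree
    · by_cases ha : a = m
      · subst ha
        have h2 : b.degree ≤ m'.degree := by omega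
        change coeff a s * coeff b s' = _
        rw [h a le_rfl, h' b h2, if_pos rfl, one_mul]
        by_cases hb : b = m'
        · rw [if_pos hb, if_pos (by rw [hb])]
        · rw [if_neg hb, if_neg (fun h => hb (Prod.ext_iff.1 h).2)]
      · change coeff a s * coeff b s' = _
        rw [h a h1, if_neg ha, zero_mul, if_neg (fun h => ha (Prod.ext_iff.1 h).1)]
    · have h2 : b.degree < m'.degree := by omega
      have hb : b ≠ m' := fun h => by rw [h] at h2; exact lt_irrefl _ h2
      change coeff a s * coeff b s' = _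
      rw [h' b h2.le, if_neg hb, mul_zero, if_neg (fun h => hb (Prod.ext_iff.1 h).2)]
  rw [Finset.sum_congr rfl key, Finset.sum_ite_eq']
  by_cases h3 : p = m + m'
  · rw [if_pos h3, if_pos (HasAntidiagonal.mem_antidiagonal.2 h3.symm)]
  · rw [if_neg h3, if_neg (fun h => h3 (HasAntidiagonal.mem_antidiagonal.1 h).symm)]

theorem Lead.one : Lead (0 : Fin g →₀ ℕ) (1 : MvPowerSeries (Fin g) K) := by
  intro p hp
  rw [coeff_one]

theorem Lead.pow {m : Fin g →₀ ℕ} {s : MvPowerSeries (Fin g) K} (h : Lead m s) (n : ℕ) :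
    Lead (n • m) (s ^ n) := by
  induction n with
  | zero =>
    rw [zero_smul, pow_zero]
    exact Lead.one
  | succ n ih =>
    rw [succ_nsmul, pow_succ]
    exact ih.mul h

theorem Lead.prod {ι : Type*} (S : Finset ι) (m : ι → Fin g →₀ ℕ)
    (s : ι → MvPowerSeries (Fin g) K) (h : ∀ i ∈ S, Lead (m i) (s i)) :
    Lead (∑ i ∈ S, m i) (∏ i ∈ S, s i) := by
  classical
  induction S using Finset.induction_on with
  | empty => exact Lead.one
  | insert a S ha ih =>
    rw [Finset.sum_insert ha, Finset.prod_insert ha]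
    exact (h a (Finset.mem_insert_self _ _)).mul (ih fun i hi => h i (Finset.mem_insert_of_mem hi))

variable {O : Type*} [CommRing O] [Algebra K O]

theorem linearIndependent_of_lead (Θ : O →ₐ[K] MvPowerSeries (Fin g) K) {ι : Type*}
    (m : ι → Fin g →₀ ℕ) (hm : Function.Injective m) (x : ι → O)
    (hx : ∀ i, Lead (m i) (Θ (x i))) : LinearIndependent K x := by
  classical
  rw [linearIndependent_iff']
  intro s c hc
  by_contra hne
  push Not at hne
  obtain ⟨i₀, hi₀, hci₀⟩ := hne
  obtain ⟨i, hi, hmin⟩ := Finset.exists_min_image (s.filter fun i => c i ≠ 0)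
    (fun i => (m i).degree) ⟨i₀, Finset.mem_filter.2 ⟨hi₀, hci₀⟩⟩
  rw [Finset.mem_filter] at hi
  have h1 : ∑ j ∈ s, c j * coeff (m i) (Θ (x j)) = 0 := by
    have h2 := congrArg (fun z => coeff (m i) (Θ z)) hc
    simp only [map_sum, map_smul, map_zero, smul_eq_mul] at h2
    exact h2
  have h3 : ∑ j ∈ s, c j * coeff (m i) (Θ (x j)) = c i := by
    rw [Finset.sum_eq_single i]
    · rw [hx i _ le_rfl, if_pos rfl, mul_one]
    · intro j hj hji
      by_cases hcj : c j = 0
      · rw [hcj, zero_mul]
      · have h4 := hmin j (Finset.mem_filter.2 ⟨hj, hcj⟩)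
        rw [hx j _ h4, if_neg (fun h => hji (hm h).symm), mul_zero]
    · intro h
      exact absurd hi.1 h
  rw [h3] at h1
  exact hi.2 h1

/-- span of the monomials of degree `≤ k` -/
def VS (K : Type*) [Field K] {O : Type*} [CommRing O] [Algebra K O] {g : ℕ} (t : Fin g → O)
    (k : ℕ) : Submodule K O :=
  Submodule.span K {x | ∃ e : Fin g → ℕ, ∑ i, e i ≤ k ∧ x = ∏ i, t i ^ e i}

theorem VS_mono (t : Fin g → O) {k l : ℕ} (h : k ≤ l) : VS K t k ≤ VS K t l :=
  Submodule.span_mono fun _ ⟨e, he, hx⟩ => ⟨e, he.trans h, hx⟩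

theorem VS_mul {t : Fin g → O} {k l : ℕ} {x y : O} (hx : x ∈ VS K t k) (hy : y ∈ VS K t l) :
    x * y ∈ VS K t (k + l) := by
  have h : VS K t k * VS K t l ≤ VS K t (k + l) := by
    unfold VS
    rw [Submodule.span_mul_span]
    refine Submodule.span_mono ?_
    rintro _ ⟨_, ⟨e, he, rfl⟩, _, ⟨e', he', rfl⟩, rfl⟩
    refine ⟨e + e', ?_, ?_⟩
    · simp only [Pi.add_apply, Finset.sum_add_distrib]
      omega
    · simp only [Pi.add_apply, pow_add, Finset.prod_mul_distrib]
  exact h (Submodule.mul_mem_mul hx hy)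

theorem one_mem_VS (t : Fin g → O) (k : ℕ) : (1 : O) ∈ VS K t k :=
  Submodule.subset_span ⟨0, by simp, by simp⟩

theorem mem_VS_one (t : Fin g → O) (i : Fin g) : t i ∈ VS K t 1 := by
  classical
  refine Submodule.subset_span ⟨fun j => if j = i then 1 else 0, ?_, ?_⟩
  · simp
  · rw [Finset.prod_eq_single i]
    · simp
    · intro j _ hj
      simp [hj]
    · intro h
      exact absurd (Finset.mem_univ i) h

theorem pow_mem_VS {t : Fin g → O} {x : O} (hx : x ∈ VS K t 1) (n : ℕ) : x ^ n ∈ VS K t n := by
  induction n with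
  | zero =>
    rw [pow_zero]
    exact one_mem_VS t 0
  | succ n ih =>
    rw [pow_succ]
    exact VS_mul ih hx

theorem prod_mem_VS {t : Fin g → O} (S : Finset (Fin g)) (x : Fin g → O) (hx : ∀ i, x i ∈ VS K t 1)
    (e : Fin g → ℕ) : ∏ i ∈ S, x i ^ e i ∈ VS K t (∑ i ∈ S, e i) := by
  classical
  induction S using Finset.induction_on with
  | empty => exact one_mem_VS t _
  | insert a S ha ih =>
    rw [Finset.sum_insert ha, Finset.prod_insert ha]
    exact VS_mul (pow_mem_VS (hx a) _) ih

/-- normalized coordinates -/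
theorem exists_coord_ty (Θ : O →ₐ[K] MvPowerSeries (Fin g) K) (t : Fin g → O)
    (ht : LinearIndependent K (fun i : Fin g => fun j : Fin g =>
      MvPowerSeries.coeff (Finsupp.single j 1) (Θ (t i)))) :
    ∃ l : Fin g → O, ∀ j, l j ∈ VS K t 1 ∧ Lead (Finsupp.single j 1) (Θ (l j)) := by
  classical
  set M : Matrix (Fin g) (Fin g) K := fun i j => coeff (Finsupp.single j 1) (Θ (t i)) with hM
  have hu : IsUnit M := Matrix.linearIndependent_rows_iff_isUnit.1 ht
  have hB : M⁻¹ * M = 1 := Matrix.nonsing_inv_mul M ((Matrix.isUnit_iff_isUnit_det M).1 hu)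
  refine ⟨fun j => ∑ i, M⁻¹ j i • (t i - algebraMap K O (coeff 0 (Θ (t i)))), fun j => ⟨?_, ?_⟩⟩
  · refine Submodule.sum_mem _ fun i _ => Submodule.smul_mem _ _ (Submodule.sub_mem _
      (mem_VS_one t i) ?_)
    rw [Algebra.algebraMap_eq_smul_one]
    exact Submodule.smul_mem _ _ (one_mem_VS t 1)
  · intro p hp
    rw [Finsupp.degree_single] at hp
    have hc : ∀ q : Fin g →₀ ℕ, coeff q (Θ (∑ i, M⁻¹ j i •
        (t i - algebraMap K O (coeff 0 (Θ (t i)))))) =
        ∑ i, M⁻¹ j i * (coeff q (Θ (t i)) - if q = 0 then coeff 0 (Θ (t i)) else 0) := by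
      intro q
      rw [map_sum, map_sum]
      refine Finset.sum_congr rfl fun i _ => ?_
      rw [map_smul, map_smul, smul_eq_mul, map_sub, map_sub, AlgHom.commutes,
        MvPowerSeries.algebraMap_apply, Algebra.algebraMap_self, RingHom.id_apply, coeff_C]
    rw [hc]
    rcases Nat.eq_zero_or_pos p.degree with h0 | h0
    · have hp0 : p = 0 := (Finsupp.degree_eq_zero_iff p).1 h0
      subst hp0
      rw [if_neg (fun h => by simpa using (DFunLike.congr_fun h j).symm)]
      refine Finset.sum_eq_zero fun i _ => ?_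
      rw [if_pos rfl, sub_self, mul_zero]
    · have h1 : p.degree = 1 := by omega
      obtain ⟨l, rfl⟩ : ∃ l, Finsupp.single l 1 = p := by
        have h2 : p ∈ {d : Fin g →₀ ℕ | d.degree = 1} := h1
        rw [← Finsupp.range_single_one] at h2
        exact h2
      have h3 : Finsupp.single l 1 ≠ (0 : Fin g →₀ ℕ) := by
        intro h
        simpa using DFunLike.congr_fun h l
      have h4 : ∑ i, M⁻¹ j i * (coeff (Finsupp.single l 1) (Θ (t i)) -
          if Finsupp.single l 1 = (0 : Fin g →₀ ℕ) then coeff 0 (Θ (t i)) else 0) =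
          (M⁻¹ * M) j l := by
        rw [Matrix.mul_apply]
        refine Finset.sum_congr rfl fun i _ => ?_
        rw [if_neg h3, sub_zero]
      rw [h4, hB, Matrix.one_apply]
      by_cases hjl : j = l
      · rw [if_pos hjl, if_pos (by rw [hjl])]
      · rw [if_neg hjl, if_neg]
        intro h
        exact hjl (Finsupp.single_left_injective one_ne_zero h).symm

theorem exists_le_sum (m : Fin g → ℕ) (j : ℕ) (hj : j ≤ ∑ i, m i) :
    ∃ e : Fin g → ℕ, e ≤ m ∧ ∑ i, e i = j := by
  classical
  induction j with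
  | zero => exact ⟨0, fun i => Nat.zero_le _, by simp⟩
  | succ j ih =>
    obtain ⟨e, he, hs⟩ := ih (by omega)
    have h1 : ∃ i, e i < m i := by
      by_contra h
      push Not at h
      have : ∑ i, m i ≤ ∑ i, e i := Finset.sum_le_sum fun i _ => h i
      omega
    obtain ⟨i, hi⟩ := h1
    refine ⟨e + Pi.single i 1, ?_, ?_⟩
    · intro l
      by_cases hl : l = i
      · subst hl
        simp only [Pi.add_apply, Pi.single_eq_same]
        omega
      · simp only [Pi.add_apply, Pi.single_eq_of_ne hl, add_zero]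
        exact he l
    · simp only [Pi.add_apply, Finset.sum_add_distrib, hs, Finset.sum_pi_single',
        Finset.mem_univ, if_true]

theorem exists_split {H : Type*} (S : Finset H) (k : ℕ) : ∀ m : Fin g → ℕ, ∑ i, m i ≤ S.card * k →
    ∃ e : H → Fin g → ℕ, (∀ a ∈ S, ∑ i, e a i ≤ k) ∧ ∀ i, ∑ a ∈ S, e a i = m i := by
  classical
  induction S using Finset.induction_on with
  | empty =>
    intro m hm
    rw [Finset.card_empty, zero_mul, Nat.le_zero, Finset.sum_eq_zero_iff] at hm
    exact ⟨fun _ _ => 0, fun a ha => absurd ha (Finset.notMem_empty a), fun i => by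
      rw [Finset.sum_empty, hm i (Finset.mem_univ i)]⟩
  | insert a S ha ih =>
    intro m hm
    rw [Finset.card_insert_of_notMem ha, add_mul, one_mul] at hm
    obtain ⟨e₀, he₀, hs₀⟩ := exists_le_sum m (min k (∑ i, m i)) (min_le_right _ _)
    have h1 : ∑ i, (m i - e₀ i) + ∑ i, e₀ i = ∑ i, m i := by
      rw [← Finset.sum_add_distrib]
      exact Finset.sum_congr rfl fun i _ => Nat.sub_add_cancel (he₀ i)
    obtain ⟨e, he, hs⟩ := ih (fun i => m i - e₀ i) (by
      have h2 : ∑ i, (m i - e₀ i) = ∑ i, m i - min k (∑ i, m i) := by omega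
      change ∑ i, (m i - e₀ i) ≤ _
      omega)
    refine ⟨fun b => if b = a then e₀ else e b, ?_, ?_⟩
    · intro b hb
      by_cases hba : b = a
      · simp only [hba, if_true]
        rw [hs₀]
        exact min_le_left _ _
      · simp only [hba, if_false]
        exact he b ((Finset.mem_insert.1 hb).resolve_left hba)
    · intro i
      rw [Finset.sum_insert ha]
      change (if a = a then e₀ else e a) i + ∑ b ∈ S, (if b = a then e₀ else e b) i = m i
      rw [if_pos rfl]
      have h2 : ∑ b ∈ S, (if b = a then e₀ else e b) i = ∑ b ∈ S, e b i := by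
        refine Finset.sum_congr rfl fun b hb => ?_
        rw [if_neg]
        rintro rfl
        exact ha hb
      rw [h2, hs]
      exact Nat.add_sub_cancel' (he₀ i)

/-- **products of monomials of degree `≤ k` in the translated coordinates span a space of dimension
at least `C(Nk + g, g)`** -/
theorem taylor_lower {H : Type*} [Fintype H] (Θ : O →ₐ[K] MvPowerSeries (Fin g) K)
    (τ : H → Fin g → O)
    (hτ : ∀ a, LinearIndependent K (fun i : Fin g => fun j : Fin g =>
      MvPowerSeries.coeff (Finsupp.single j 1) (Θ (τ a i)))) (k : ℕ) :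
    (Fintype.card H * k + g).choose g ≤ Module.finrank K (Submodule.span K
      {x : O | ∃ e : H → Fin g → ℕ, (∀ a, ∑ i, e a i ≤ k) ∧ x = ∏ a, ∏ i, τ a i ^ e a i}) := by
  classical
  choose l hl using fun a => exists_coord_ty Θ (τ a) (hτ a)
  set d := Fintype.card H * k with hd
  set W := Submodule.span K
    {x : O | ∃ e : H → Fin g → ℕ, (∀ a, ∑ i, e a i ≤ k) ∧ x = ∏ a, ∏ i, τ a i ^ e a i} with hW
  -- the products are in `W`
  have hprod : ∀ v : H → O, (∀ a, v a ∈ VS K (τ a) k) → ∏ a, v a ∈ W := by
    intro v hv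
    have h1 : ∏ a, VS K (τ a) k ≤ W := by
      unfold VS
      rw [Submodule.prod_span]
      refine Submodule.span_mono ?_
      intro x hx
      rw [Set.mem_fintype_prod] at hx
      obtain ⟨v, hv, rfl⟩ := hx
      choose e he he' using hv
      exact ⟨e, he, Finset.prod_congr rfl fun a _ => he' a⟩
    refine h1 ?_
    have h2 : ∀ S : Finset H, ∏ a ∈ S, v a ∈ ∏ a ∈ S, VS K (τ a) k := by
      intro S
      induction S using Finset.induction_on with
      | empty =>
        rw [Finset.prod_empty, Finset.prod_empty]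
        exact Submodule.one_le.1 le_rfl
      | insert a S ha ih =>
        rw [Finset.prod_insert ha, Finset.prod_insert ha]
        exact Submodule.mul_mem_mul (hv a) ih
    exact h2 Finset.univ
  -- the monomials
  let ι := {p : Fin (g + 1) →₀ ℕ // p ∈ (Finset.univ : Finset (Fin (g + 1))).finsuppAntidiag d}
  let m : ι → Fin g →₀ ℕ := fun p => p.1.tail
  have hsum : ∀ p : ι, p.1 0 + ∑ i, m p i = d := by
    intro p
    have h1 := (Finset.mem_finsuppAntidiag.1 p.2).1
    rw [Fin.sum_univ_succ] at h1
    exact h1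
  have hminj : Function.Injective m := by
    intro p q hpq
    have h1 := hsum p
    have h2 := hsum q
    rw [hpq] at h1
    refine Subtype.ext (Finsupp.ext fun i => ?_)
    refine Fin.cases ?_ (fun i => ?_) i
    · omega
    · exact DFunLike.congr_fun hpq i
  have hx : ∀ p : ι, ∃ x : O, x ∈ W ∧ Lead (m p) (Θ x) := by
    intro p
    obtain ⟨e, he, hs⟩ := exists_split (Finset.univ : Finset H) k (m p) (by
      have := hsum p
      rw [Finset.card_univ]
      omega)
    refine ⟨∏ a, ∏ i, l a i ^ e a i, ?_, ?_⟩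
    · refine hprod _ fun a => ?_
      exact VS_mono _ (he a (Finset.mem_univ a)) (prod_mem_VS _ (l a) (fun i => (hl a i).1) _)
    · have h1 : Lead (∑ a, ∑ i, e a i • Finsupp.single i 1)
          (∏ a, ∏ i, (Θ (l a i)) ^ e a i) :=
        Lead.prod _ _ _ fun a _ => Lead.prod _ _ _ fun i _ => (hl a i).2.pow _
      have h2 : (∑ a, ∑ i, e a i • Finsupp.single i 1 : Fin g →₀ ℕ) = m p := by
        refine Finsupp.ext fun i => ?_
        rw [← hs i, Finsupp.finsetSum_apply]
        refine Finset.sum_congr rfl fun a _ => ?_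
        rw [Finsupp.finsetSum_apply, Finset.sum_eq_single i]
        · simp
        · intro b _ hb
          simp [hb]
        · intro h
          exact absurd (Finset.mem_univ i) h
      rw [h2] at h1
      rw [map_prod]
      have h3 : ∏ a, Θ (∏ i, l a i ^ e a i) = ∏ a, ∏ i, (Θ (l a i)) ^ e a i :=
        Finset.prod_congr rfl fun a _ => by
          rw [map_prod]
          exact Finset.prod_congr rfl fun i _ => map_pow _ _ _
      rw [h3]
      exact h1
  choose x hxW hxL using hx
  have hli : LinearIndependent K x := linearIndependent_of_lead Θ m hminj x hxL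
  have hli' : LinearIndependent K (fun p => (⟨x p, hxW p⟩ : W)) := by
    refine LinearIndependent.of_comp W.subtype ?_
    exact hli
  -- `W` is finite-dimensional
  have hfin : {x : O | ∃ e : H → Fin g → ℕ, (∀ a, ∑ i, e a i ≤ k) ∧
      x = ∏ a, ∏ i, τ a i ^ e a i}.Finite := by
    refine Set.Finite.subset (Set.finite_range
      (fun e : H → Fin g → Fin (k + 1) => ∏ a, ∏ i, τ a i ^ (e a i : ℕ))) ?_
    rintro _ ⟨e, he, rfl⟩
    have hlt : ∀ a i, e a i < k + 1 := fun a i => by
      have h1 : e a i ≤ ∑ i, e a i := Finset.single_le_sum (fun _ _ => Nat.zero_le _)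
        (Finset.mem_univ i)
      have h2 := he a
      omega
    exact ⟨fun a i => ⟨e a i, hlt a i⟩, rfl⟩
  haveI : FiniteDimensional K W := FiniteDimensional.span_of_finite K hfin
  have h1 := hli'.fintype_card_le_finrank
  have h2 : Fintype.card ι = (d + g).choose g := by
    have h3 := Finset.card_finsuppAntidiag_nat_eq_choose
      (s := (Finset.univ : Finset (Fin (g + 1)))) d
    rw [Finset.card_univ, Fintype.card_fin] at h3
    have h4 : Fintype.card ι = ((Finset.univ : Finset (Fin (g + 1))).finsuppAntidiag d).card :=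
      Fintype.card_coe _
    rw [h4, h3, show g + 1 + d - 1 = d + g by omega]
    exact Nat.choose_symm_add
  rw [h2] at h1
  exact h1

end Fermat.Agent.S26A
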