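import Fermat.Agent.S26A.Gr2
import Fermat.Agent.S26A.Gr4
import Fermat.Agent.S26A.Ty
import Fermat.Agent.S26A.Nu1

/-!
# The lower bound: products of translated coordinates
-/

set_option autoImplicit false
set_option linter.style.haveILetI false
set_option linter.unusedSectionVars false

noncomputable section

namespace Fermat.Agent.S26A

universe u

namespace AVar

variable {K : Type u} [Field K] [IsAlgClosed K] {g : ℕ} (A : AVar K g)

/-- the points killed by `n` -/
def Tn (n : ℕ) : AddSubgroup (A.P K) := (nsmulAddMonoidHom n : A.P K →+ A.P K).ker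

theorem mem_Tn {n : ℕ} {a : A.P K} : a ∈ A.Tn n ↔ n • a = 0 := Iff.rfl

section

variable (H : AddSubgroup (A.P K)) [Fintype H]

/-- products of monomials of degree `≤ k` in the translated coordinates -/
def Wk (k : ℕ) : Submodule K A.F :=
  Submodule.span K {x | ∃ e : H → Fin g → ℕ, (∀ a, ∑ i, e a i ≤ k) ∧
    x = ∏ a : H, ∏ i, A.tau (a : A.P K) (A.co i) ^ e a i}

theorem tau_Wk (k : ℕ) (b : H) {f : A.F} (hf : f ∈ A.Wk H k) : A.tau (b : A.P K) f ∈ A.Wk H k := by
  have h : (A.Wk H k).map (A.tau (b : A.P K)).toLinearMap ≤ A.Wk H k := by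
    conv_lhs => unfold Wk
    rw [Submodule.map_span, Submodule.span_le]
    rintro _ ⟨_, ⟨e, he, rfl⟩, rfl⟩
    refine Submodule.subset_span ⟨fun a i => e (a - b) i, fun a => he _, ?_⟩
    change A.tau (b : A.P K) (∏ a : H, ∏ i, A.tau (a : A.P K) (A.co i) ^ e a i) = _
    rw [map_prod]
    refine Fintype.prod_equiv (Equiv.addLeft b) _ _ fun a => ?_
    rw [map_prod]
    refine Finset.prod_congr rfl fun i _ => ?_
    rw [map_pow, ← A.tau_add]
    change _ = A.tau ((b + a : H) : A.P K) (A.co i) ^ e (b + a - b) i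
    rw [add_sub_cancel_left, AddSubgroup.coe_add]
  exact h ⟨f, hf, rfl⟩

theorem exists_coTheta : ∃ (p : A.P K) (Θ : A.O p →ₐ[K] MvPowerSeries (Fin g) K)
    (τ : H → Fin g → A.O p), (∀ a i, ((τ a i : A.O p) : A.F) = A.tau (a : A.P K) (A.co i)) ∧
      ∀ a, LinearIndependent K (fun i : Fin g => fun j : Fin g =>
        MvPowerSeries.coeff (Finsupp.single j 1) (Θ (τ a i))) := by
  obtain ⟨p, Θ, hΘ⟩ := A.coΘ ((Finset.univ : Finset H).map ⟨Subtype.val, Subtype.val_injective⟩)
  have h : ∀ a : H, ∃ τ : Fin g → A.O p,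
      (∀ i, ((τ i : A.O p) : A.F) = A.tau (a : A.P K) (A.co i)) ∧
      LinearIndependent K (fun i : Fin g => fun j : Fin g =>
        MvPowerSeries.coeff (Finsupp.single j 1) (Θ (τ i))) := by
    intro a
    obtain ⟨τ, h1, h2⟩ := hΘ (a : A.P K)
      (Finset.mem_map.2 ⟨a, Finset.mem_univ a, rfl⟩)
    refine ⟨τ, fun i => ?_, h2⟩
    obtain ⟨h3, h4⟩ := h1 i
    exact h4
  choose τ h1 h2 using h
  exact ⟨p, Θ, τ, h1, h2⟩

theorem co_ne_zero (i : Fin g) : A.co i ≠ 0 := by
  intro h0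
  haveI : Fintype (⊥ : AddSubgroup (A.P K)) := Fintype.ofFinite _
  obtain ⟨p, Θ, τ, h1, h2⟩ := A.exists_coTheta ⊥
  have h3 := (h2 0).ne_zero i
  apply h3
  have h4 : τ 0 i = 0 := by
    apply Subtype.ext
    rw [h1, h0, map_zero]
    rfl
  funext j
  rw [h4, map_zero, map_zero]
  rfl

theorem lower_Wk (k : ℕ) :
    (Fintype.card H * k + g).choose g ≤ Module.finrank K (A.Wk H k) := by
  obtain ⟨p, Θ, τ, h1, h2⟩ := A.exists_coTheta H
  have h3 := taylor_lower Θ τ h2 k
  refine h3.trans (le_of_eq ?_)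
  have hinj : Function.Injective (A.O p).val.toLinearMap := Subtype.val_injective
  have h4 : (Submodule.span K {x : A.O p | ∃ e : H → Fin g → ℕ, (∀ a, ∑ i, e a i ≤ k) ∧
      x = ∏ a, ∏ i, τ a i ^ e a i}).map (A.O p).val.toLinearMap = A.Wk H k := by
    unfold Wk
    rw [Submodule.map_span]
    congr 1
    ext x
    constructor
    · rintro ⟨_, ⟨e, he, rfl⟩, rfl⟩
      refine ⟨e, he, ?_⟩
      change (A.O p).val (∏ a, ∏ i, τ a i ^ e a i) = _
      rw [map_prod]
      refine Finset.prod_congr rfl fun a _ => ?_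
      rw [map_prod]
      refine Finset.prod_congr rfl fun i _ => ?_
      rw [map_pow]
      exact congrArg (· ^ e a i) (h1 a i)
    · rintro ⟨e, he, rfl⟩
      refine ⟨∏ a, ∏ i, τ a i ^ e a i, ⟨e, he, rfl⟩, ?_⟩
      change (A.O p).val (∏ a, ∏ i, τ a i ^ e a i) = _
      rw [map_prod]
      refine Finset.prod_congr rfl fun a _ => ?_
      rw [map_prod]
      refine Finset.prod_congr rfl fun i _ => ?_
      rw [map_pow]
      exact congrArg (· ^ e a i) (h1 a i)
  rw [← h4]
  exact (Submodule.equivMapOfInjective _ hinj _).finrank_eq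

instance finite_Wk (k : ℕ) : FiniteDimensional K (A.Wk H k) := by
  refine FiniteDimensional.span_of_finite K ?_
  refine Set.Finite.subset (Set.finite_range
    (fun e : H → Fin g → Fin (k + 1) =>
      ∏ a : H, ∏ i, A.tau (a : A.P K) (A.co i) ^ (e a i : ℕ))) ?_
  rintro _ ⟨e, he, rfl⟩
  have hlt : ∀ a i, e a i < k + 1 := fun a i => by
    have h1 : e a i ≤ ∑ i, e a i := Finset.single_le_sum (fun _ _ => Nat.zero_le _)
      (Finset.mem_univ i)
    have h2 := he a
    omega
  exact ⟨fun a i => ⟨e a i, hlt a i⟩, rfl⟩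

/-! ### poles -/

variable (T : ∀ j, CT K (A.FC j)) (j : Fin g) (m : ℤ)

/-- values on the tautological translate of the curve -/
abbrev hv : A.F →ₐ[K] (T j).cur (AlgebraicClosure A.F) :=
  A.val (wc (T j) (xt A) m) (gen_wc (T j) gen_xt m)

/-- the poles of the translated coordinates -/
def SP : Pl K (A.FC j) (AlgebraicClosure A.F) →₀ ℤ :=
  ∑ a : H, ∑ i, Pd (T j) (xt A) m (A.tau (a : A.P K) (A.co i))

theorem SP_nonneg : 0 ≤ A.SP H T j m :=
  Finset.sum_nonneg fun _ _ => Finset.sum_nonneg fun _ _ => Pd_nonneg _ _ _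

theorem bdd_Wk (k : ℕ) {f : A.F} (hf : f ∈ A.Wk H k) :
    Bdd (T j) (k • A.SP H T j m) (A.hv T j m f) := by
  unfold Wk at hf
  induction hf using Submodule.span_induction with
  | mem x hx =>
    obtain ⟨e, he, rfl⟩ := hx
    have h1 : Bdd (T j) (∑ a : H, ∑ i, e a i • Pd (T j) (xt A) m (A.tau (a : A.P K) (A.co i)))
        (∏ a : H, ∏ i, (A.hv T j m (A.tau (a : A.P K) (A.co i))) ^ e a i) :=
      bdd_prod _ fun a _ => bdd_prod _ fun i _ => (bdd_Pd (gen_wc (T j) gen_xt m) _).pow _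
    rw [map_prod]
    have h2 : ∏ a : H, A.hv T j m (∏ i, A.tau (a : A.P K) (A.co i) ^ e a i) =
        ∏ a : H, ∏ i, (A.hv T j m (A.tau (a : A.P K) (A.co i))) ^ e a i := by
      refine Finset.prod_congr rfl fun a _ => ?_
      rw [map_prod]
      exact Finset.prod_congr rfl fun i _ => map_pow _ _ _
    rw [h2]
    refine h1.mono ?_
    unfold SP
    rw [Finset.smul_sum]
    refine Finset.sum_le_sum fun a _ => ?_
    rw [Finset.smul_sum]
    refine Finset.sum_le_sum fun i _ => ?_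
    refine nsmul_le_nsmul_left (Pd_nonneg _ _ _) ?_
    exact (Finset.single_le_sum (fun _ _ => Nat.zero_le _) (Finset.mem_univ i)).trans (he a)
  | zero => exact .inl (map_zero _)
  | add x y _ _ hx hy =>
    rw [map_add]
    exact hx.add hy
  | smul c x _ hx =>
    rw [Algebra.smul_def, map_mul, AlgHom.commutes]
    have h1 := (bdd_alg (T := T j) (L := AlgebraicClosure A.F) (D := 0) le_rfl c).mul hx
    rwa [zero_add] at h1

theorem dg_SP : dg (A.SP H T j m) = Fintype.card H * ∑ i, qd (T j) (A.co i) m := by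
  unfold SP
  rw [dg_sum]
  have h : ∀ a : H, dg (∑ i, Pd (T j) (xt A) m (A.tau (a : A.P K) (A.co i))) =
      ∑ i, qd (T j) (A.co i) m := by
    intro a
    rw [dg_sum]
    refine Finset.sum_congr rfl fun i _ => ?_
    rw [dg_Pd (gen_wc (T j) gen_xt m), Zd_tau _ gen_xt]
    exact dg_eq_qd (T j) (A.gen_add_kst gen_xt _) m (A.co_ne_zero i)
  rw [Finset.sum_congr rfl fun a _ => h a, Finset.sum_const, Finset.card_univ, nsmul_eq_mul]

end

end AVar

end Fermat.Agent.S26A
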