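import Fermat.Agent.S26A.Gr6a
import Fermat.Agent.S26A.Gr5

/-!
# The lower bound
-/

set_option autoImplicit false
set_option linter.style.haveILetI false
set_option linter.unusedSectionVars false

noncomputable section

namespace Fermat.Agent.S26A

universe u

namespace AVar

variable {K : Type u} [Field K] [IsAlgClosed K] {g : ℕ} (A : AVar K g)

section

variable {n : ℕ} (hn : (n : K) ≠ 0) (H : AddSubgroup (A.P K)) [Fintype H]
  {ι : Type} [Fintype ι] (E : Eig (fun a : H => A.tau (a : A.P K)) ι)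

theorem p_Wk (k : ℕ) (i : ι) {f : A.F} (hf : f ∈ A.Wk H k) : E.p i f ∈ A.Wk H k := by
  obtain ⟨c, hc⟩ := E.p_eq i f
  rw [hc, finsum_eq_sum_of_fintype]
  refine Submodule.sum_mem _ fun a _ => ?_
  rw [← Algebra.smul_def]
  exact Submodule.smul_mem _ _ (A.tau_Wk H k a hf)

/-- `f ↦ u_i · f(n ·)` -/
def mi (i : ι) : A.F →ₗ[K] A.F := (LinearMap.mulLeft K (E.u i)).comp (A.nu n hn).toLinearMap

theorem mi_apply (i : ι) (f : A.F) : A.mi hn H E i f = E.u i * A.nu n hn f := rfl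

theorem mi_injective (i : ι) : Function.Injective (A.mi hn H E i) := by
  intro f f' h
  rw [mi_apply, mi_apply] at h
  exact (A.nu n hn).injective (mul_left_cancel₀ (E.u_ne i) h)

theorem exists_mi (hH : ∀ a, n • a = 0 → a ∈ H) (i : ι) (f : A.F) :
    ∃ f', A.mi hn H E i f' = E.p i f := by
  obtain ⟨f', hf'⟩ := A.mem_range_nu n hn (E.p i f / E.u i) (fun a ha => by
    have h1 := E.tau_p i ⟨a, hH a ha⟩ f
    have h2 := E.tau_u i ⟨a, hH a ha⟩
    have h3 : algebraMap K A.F (E.χ i ⟨a, hH a ha⟩) ≠ 0 := fun h =>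
      E.χ_ne i ⟨a, hH a ha⟩ ((algebraMap K A.F).injective (h.trans (map_zero _).symm))
    rw [map_div₀]
    change A.tau a (E.p i f) = _ at h1
    change A.tau a (E.u i) = _ at h2
    rw [h1, h2, mul_div_mul_left _ _ h3])
  refine ⟨f', ?_⟩
  rw [mi_apply, hf', mul_div_cancel₀ _ (E.u_ne i)]

/-- the functions `f'` with `u_i · f'(n ·)` in the image of `p_i` -/
def Vi (k : ℕ) (i : ι) : Submodule K A.F := ((A.Wk H k).map (E.p i)).comap (A.mi hn H E i)

theorem map_Vi (hH : ∀ a, n • a = 0 → a ∈ H) (k : ℕ) (i : ι) :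
    (A.Vi hn H E k i).map (A.mi hn H E i) = (A.Wk H k).map (E.p i) := by
  unfold Vi
  rw [Submodule.map_comap_eq, inf_eq_right]
  rintro _ ⟨f, _, rfl⟩
  exact A.exists_mi hn H E hH i f

theorem finrank_Wk_le (hH : ∀ a, n • a = 0 → a ∈ H) (k : ℕ) :
    Module.finrank K (A.Wk H k) ≤ ∑ i, Module.finrank K (A.Vi hn H E k i) := by
  have h1 : ∀ i, Module.finrank K (A.Vi hn H E k i) =
      Module.finrank K ((A.Wk H k).map (E.p i)) := by
    intro i
    rw [← A.map_Vi hn H E hH k i]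
    exact (Submodule.equivMapOfInjective _ (A.mi_injective hn H E i) _).finrank_eq
  rw [Finset.sum_congr rfl fun i _ => h1 i, ← Module.finrank_pi_fintype]
  let Φ : A.Wk H k →ₗ[K] (∀ i, (A.Wk H k).map (E.p i)) :=
    LinearMap.pi fun i => (E.p i).submoduleMap (A.Wk H k)
  refine LinearMap.finrank_le_finrank_of_injective (f := Φ) ?_
  rw [injective_iff_map_eq_zero]
  intro f hf
  apply Subtype.ext
  rw [← E.sum_p (f : A.F)]
  refine Finset.sum_eq_zero fun i _ => ?_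
  have h2 := congrArg (fun z : ((A.Wk H k).map (E.p i)) => (z : A.F)) (congrFun hf i)
  exact h2

theorem finite_Vi (hH : ∀ a, n • a = 0 → a ∈ H) (k : ℕ) (i : ι) :
    FiniteDimensional K (A.Vi hn H E k i) := by
  have e := Submodule.equivMapOfInjective _ (A.mi_injective hn H E i) (A.Vi hn H E k i)
  haveI : FiniteDimensional K ((A.Vi hn H E k i).map (A.mi hn H E i)) := by
    rw [A.map_Vi hn H E hH k i]
    infer_instance
  exact Module.Finite.equiv e.symm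

variable (T : ∀ j, CT K (A.FC j))

/-- the constants `c_j` -/
def cj (j : Fin g) : ℤ := ∑ i, qd (T j) (A.co i) 1 + ∑ i, qd (T j) (A.co i) (-1)

/-- the constants `B_j` -/
def Bj (j : Fin g) : ℤ :=
  ∑ i, (dg (Pd (T j) (xt A) 1 (E.u i)⁻¹) + dg (Pd (T j) (xt A) (-1) (E.u i)⁻¹))

theorem qd_nonneg (j : Fin g) (f : A.F) (m : ℤ) : 0 ≤ qd (T j) f m := A.dg_Zd_nonneg (T j) _ _ _

theorem cj_nonneg (j : Fin g) : 0 ≤ A.cj T j :=
  add_nonneg (Finset.sum_nonneg fun i _ => A.qd_nonneg T j _ _)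
    (Finset.sum_nonneg fun i _ => A.qd_nonneg T j _ _)

theorem Bj_nonneg (j : Fin g) : 0 ≤ A.Bj H E T j :=
  Finset.sum_nonneg fun i _ => add_nonneg (dg_nonneg (Pd_nonneg _ _ _))
    (dg_nonneg (Pd_nonneg _ _ _))

/-- the degree of `f'(n ·)` -/
theorem dg_nu_le (k : ℕ) (i : ι) {v : A.F} (hv0 : v ≠ 0) (hv : v ∈ A.Vi hn H E k i) (j : Fin g)
    (m : ℤ) : dg (Zd (T j) (xt A) m (A.nu n hn v)) ≤
      k * dg (A.SP H T j m) + dg (Pd (T j) (xt A) m (E.u i)⁻¹) := by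
  obtain ⟨f, hf, hfv⟩ := hv
  have hnu : A.nu n hn v = E.p i f * (E.u i)⁻¹ := by
    rw [mi_apply] at hfv
    rw [hfv, mul_comm (E.u i), mul_assoc, mul_inv_cancel₀ (E.u_ne i), mul_one]
  have h0 : A.nu n hn v ≠ 0 := fun h => hv0 ((A.nu n hn).injective (h.trans (map_zero _).symm))
  have h1 : Bdd (T j) (k • A.SP H T j m + Pd (T j) (xt A) m (E.u i)⁻¹)
      (A.val (wc (T j) (xt A) m) (gen_wc (T j) gen_xt m) (A.nu n hn v)) := by
    rw [hnu, map_mul]
    exact (A.bdd_Wk H T j m k (A.p_Wk H E k i hf)).mul (bdd_Pd (gen_wc (T j) gen_xt m) _)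
  have h2 := dg_Zd_le (gen_wc (T j) gen_xt m) h0
    (add_nonneg (nsmul_nonneg (A.SP_nonneg H T j m) k) (Pd_nonneg _ _ _)) h1
  rwa [dg_add7, dg_nsmul] at h2

theorem qd_le (k : ℕ) (i : ι) {v : A.F} (hv0 : v ≠ 0) (hv : v ∈ A.Vi hn H E k i) (j : Fin g) :
    (n : ℤ) ^ 2 * qd (T j) v 1 ≤ k * (Fintype.card H * A.cj T j) + A.Bj H E T j := by
  obtain ⟨α, β, h⟩ := degree_quadratic (T j) hv0
  have hq : ∀ m : ℤ, (qd (T j) v m : ℚ) = α * m ^ 2 + β * m := fun m => h gen_xt m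
  have e1 : (n : ℤ) ^ 2 * (qd (T j) v 1 + qd (T j) v (-1)) =
      qd (T j) v n + qd (T j) v (-n) := by
    have : ((n : ℚ)) ^ 2 * ((qd (T j) v 1 : ℚ) + (qd (T j) v (-1) : ℚ)) =
        (qd (T j) v n : ℚ) + (qd (T j) v (-n) : ℚ) := by
      rw [hq, hq, hq, hq]
      push_cast
      ring
    exact_mod_cast this
  have hgn : A.Gen (n • xt A) := A.gen_nsmul n hn gen_xt
  have e2 : qd (T j) v n = dg (Zd (T j) (xt A) 1 (A.nu n hn v)) := by
    rw [Zd_nu n hn gen_xt, mul_one]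
    exact (dg_eq_qd (T j) hgn n hv0).symm
  have e3 : qd (T j) v (-n) = dg (Zd (T j) (xt A) (-1) (A.nu n hn v)) := by
    rw [Zd_nu n hn gen_xt, mul_neg_one]
    exact (dg_eq_qd (T j) hgn (-n) hv0).symm
  have h1 := A.dg_nu_le hn H E T k i hv0 hv j 1
  have h2 := A.dg_nu_le hn H E T k i hv0 hv j (-1)
  rw [← e2, dg_SP] at h1
  rw [← e3, dg_SP] at h2
  have h3 := A.qd_nonneg T j v (-1)
  have h4 : dg (Pd (T j) (xt A) 1 (E.u i)⁻¹) + dg (Pd (T j) (xt A) (-1) (E.u i)⁻¹) ≤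
      A.Bj H E T j := by
    unfold Bj
    exact Finset.single_le_sum (f := fun i => dg (Pd (T j) (xt A) 1 (E.u i)⁻¹) +
      dg (Pd (T j) (xt A) (-1) (E.u i)⁻¹)) (fun i _ => add_nonneg (dg_nonneg (Pd_nonneg _ _ _))
        (dg_nonneg (Pd_nonneg _ _ _))) (Finset.mem_univ i)
  have h5 : (n : ℤ) ^ 2 * qd (T j) v 1 ≤ (n : ℤ) ^ 2 * (qd (T j) v 1 + qd (T j) v (-1)) :=
    mul_le_mul_of_nonneg_left (by omega) (by positivity)
  rw [e1] at h5
  have h6 : (k : ℤ) * (Fintype.card H * A.cj T j) =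
      k * (Fintype.card H * ∑ i, qd (T j) (A.co i) 1) +
        k * (Fintype.card H * ∑ i, qd (T j) (A.co i) (-1)) := by
    unfold cj
    ring
  rw [h6]
  linarith

theorem finrank_Vi_le (hB : BoundSt A T) (hn0 : 0 < n) (hH : ∀ a, n • a = 0 → a ∈ H) (k : ℕ)
    (i : ι) : Module.finrank K (A.Vi hn H E k i) ≤
      ∏ j, ((k * (Fintype.card H * (A.cj T j).toNat) + (A.Bj H E T j).toNat) / n ^ 2 + 1) := by
  haveI := A.finite_Vi hn H E hH k i
  let b := Module.finBasis K (A.Vi hn H E k i)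
  have hli : LinearIndependent K (fun s => ((b s : A.Vi hn H E k i) : A.F)) :=
    b.linearIndependent.map' (A.Vi hn H E k i).subtype (Submodule.ker_subtype _)
  have h := hB (fun s => ((b s : A.Vi hn H E k i) : A.F)) hli
    (fun j => (k * (Fintype.card H * (A.cj T j).toNat) + (A.Bj H E T j).toNat) / n ^ 2) ?_
  · rwa [Fintype.card_fin] at h
  intro j c hc L _ _ _ w hw
  set v : A.F := ∑ s, c s • ((b s : A.Vi hn H E k i) : A.F) with hv
  have hvV : v ∈ A.Vi hn H E k i :=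
    Submodule.sum_mem _ fun s _ => Submodule.smul_mem _ _ (b s).2
  rw [dg_eq_qd (T j) hw 1 hc]
  have h1 := A.qd_le hn H E T k i hc hvV j
  have h2 : 0 < n ^ 2 := by positivity
  have h3 : (qd (T j) v 1).toNat * n ^ 2 ≤
      k * (Fintype.card H * (A.cj T j).toNat) + (A.Bj H E T j).toNat := by
    zify
    rw [Int.toNat_of_nonneg (A.qd_nonneg T j v 1), Int.toNat_of_nonneg (A.cj_nonneg T j),
      Int.toNat_of_nonneg (A.Bj_nonneg H E T j), mul_comm]
    exact h1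
  have h4 := (Nat.le_div_iff_mul_le h2).2 h3
  have h5 := Int.self_le_toNat (qd (T j) v 1)
  omega

include hn E in
theorem choose_le (hB : BoundSt A T) (hn0 : 0 < n) (hH : ∀ a, n • a = 0 → a ∈ H) (k : ℕ) :
    (Fintype.card H * k + g).choose g ≤ Fintype.card H *
      ∏ j, ((k * (Fintype.card H * (A.cj T j).toNat) + (A.Bj H E T j).toNat) / n ^ 2 + 1) := by
  refine (A.lower_Wk H k).trans ((A.finrank_Wk_le hn H E hH k).trans ?_)
  refine (Finset.sum_le_sum fun i _ => A.finrank_Vi_le hn H E T hB hn0 hH k i).trans ?_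
  rw [Finset.sum_const, Finset.card_univ, E.card, Nat.card_eq_fintype_card, smul_eq_mul]

include hn E in
theorem lower_aux (hB : BoundSt A T) (hn0 : 0 < n) (hH : ∀ a, n • a = 0 → a ∈ H) :
    n ^ (2 * g) ≤ (g.factorial * ∏ j, (A.cj T j).toNat) * Fintype.card H := by
  set N := Fintype.card H with hN
  have hN0 : 0 < N := Fintype.card_pos
  have hN' : (0 : ℝ) < N := Nat.cast_pos.2 hN0
  have hn' : (0 : ℝ) < n := Nat.cast_pos.2 hn0
  have key := growth_le g (1 / N : ℝ) N (fun j => N * (A.cj T j).toNat / (n : ℝ) ^ 2)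
    (fun j => (A.Bj H E T j).toNat / (n : ℝ) ^ 2 + 1) (fun j => by positivity)
    (fun j => by positivity) (fun k => by
      have h1 := A.choose_le hn H E T hB hn0 hH k
      rw [← hN] at h1
      have h2 : ((N * k + g).choose g : ℝ) ≤ N * ∏ j : Fin g,
          ((((k * (N * (A.cj T j).toNat) + (A.Bj H E T j).toNat) / n ^ 2 : ℕ) : ℝ) + 1) := by
        exact_mod_cast h1
      rw [one_div, inv_mul_le_iff₀ hN']
      refine h2.trans (mul_le_mul_of_nonneg_left ?_ hN'.le)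
      refine Finset.prod_le_prod (fun j _ => by positivity) fun j _ => ?_
      have h3 : (((k * (N * (A.cj T j).toNat) + (A.Bj H E T j).toNat) / n ^ 2 : ℕ) : ℝ) ≤
          ((k * (N * (A.cj T j).toNat) + (A.Bj H E T j).toNat : ℕ) : ℝ) / ((n ^ 2 : ℕ) : ℝ) :=
        Nat.cast_div_le
      have h4 : ((k * (N * (A.cj T j).toNat) + (A.Bj H E T j).toNat : ℕ) : ℝ) /
          ((n ^ 2 : ℕ) : ℝ) = N * (A.cj T j).toNat / (n : ℝ) ^ 2 * k +
            (A.Bj H E T j).toNat / (n : ℝ) ^ 2 := by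
        push_cast
        ring
      rw [h4] at h3
      linarith)
  have h5 : ∏ j : Fin g, ((N : ℝ) * (A.cj T j).toNat / (n : ℝ) ^ 2) =
      (N : ℝ) ^ g * (∏ j, ((A.cj T j).toNat : ℝ)) / ((n : ℝ) ^ 2) ^ g := by
    rw [Finset.prod_div_distrib, Finset.prod_mul_distrib, Finset.prod_const, Finset.prod_const,
      Finset.card_univ, Fintype.card_fin]
  rw [h5] at key
  have h6 : (0 : ℝ) < ((n : ℝ) ^ 2) ^ g := by positivity
  have h7 : (0 : ℝ) < (N : ℝ) ^ g := by positivity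
  have h8 : ((n : ℝ) ^ 2) ^ g ≤ (g.factorial * ∏ j, ((A.cj T j).toNat : ℝ)) * N := by
    rw [one_div, inv_mul_le_iff₀ hN', ← mul_div_assoc, ← mul_div_assoc, le_div_iff₀ h6] at key
    have h9 : (N : ℝ) ^ g * ((n : ℝ) ^ 2) ^ g ≤
        (N : ℝ) ^ g * ((g.factorial * ∏ j, ((A.cj T j).toNat : ℝ)) * N) := by
      calc (N : ℝ) ^ g * ((n : ℝ) ^ 2) ^ g ≤ _ := key
        _ = _ := by ring
    exact le_of_mul_le_mul_left h9 h7
  rw [← pow_mul] at h8
  exact_mod_cast h8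

end

/-- **the lower bound** -/
theorem lower (T : ∀ j, CT K (A.FC j)) (hB : BoundSt A T)
    (hE : ∀ (n : ℕ), (n : K) ≠ 0 → ∀ (H : AddSubgroup (A.P K)) [Finite H], (∀ a ∈ H, n • a = 0) →
      ∃ (ι : Type) (_ : Fintype ι), Nonempty (Eig (fun a : H => A.tau (a : A.P K)) ι)) :
    ∃ C : ℕ, ∀ n : ℕ, 0 < n → (n : K) ≠ 0 → ∀ (H : AddSubgroup (A.P K)) [Finite H],
      (∀ a, a ∈ H ↔ n • a = 0) → n ^ (2 * g) ≤ C * Nat.card H := by
  refine ⟨g.factorial * ∏ j, (A.cj T j).toNat, fun n hn0 hn H _ hH => ?_⟩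
  obtain ⟨ι, _, ⟨E⟩⟩ := hE n hn H (fun a ha => (hH a).1 ha)
  haveI : Fintype H := Fintype.ofFinite H
  rw [Nat.card_eq_fintype_card]
  exact A.lower_aux hn H E T hB hn0 (fun a ha => (hH a).2 ha)

end AVar

end Fermat.Agent.S26A
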