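import Fermat.Agent.S26A.CT1d
import Fermat.Agent.S26A.Dim2

/-!
# Linear disjointness
-/

set_option autoImplicit false
set_option linter.style.haveILetI false
set_option linter.unusedSectionVars false

noncomputable section

namespace Fermat.Agent.S26A

universe u

open TensorProduct

theorem linDisj {K L F L' : Type u} [Field K] [IsAlgClosed K] [Field L] [Algebra K L] [Field F]
    [Algebra K F] [Field L'] [Algebra K L'] (φ : L →ₐ[K] L') (v : F →ₐ[K] L') {ι κ : Type*}
    (b : ι → L) (y : κ → F) (hb : ∀ l : L, IsAlgebraic (Algebra.adjoin K (Set.range b)) l)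
    (hy : ∀ f : F, IsAlgebraic (Algebra.adjoin K (Set.range y)) f)
    (hind : AlgebraicIndependent K (Sum.elim (φ ∘ b) (v ∘ y))) {ν : Type*} [Fintype ν]
    (f : ν → F) (hf : LinearIndependent K f) (a : ν → L) (h : ∑ i, φ (a i) * v (f i) = 0) :
    a = 0 := by
  classical
  haveI : IsDomain (L ⊗[K] F) := isDomain_tmul
  let D := L ⊗[K] F
  let π : D →ₐ[K] L' := Algebra.TensorProduct.productMap φ v
  let iL : L →ₐ[K] D := Algebra.TensorProduct.includeLeft
  let iF : F →ₐ[K] D := Algebra.TensorProduct.includeRight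
  let w : ι ⊕ κ → D := Sum.elim (iL ∘ b) (iF ∘ y)
  let R : Subalgebra K D := Algebra.adjoin K (Set.range w)
  have hπ : ∀ d ∈ R, π d = 0 → d = 0 := by
    intro d hd h0
    rw [show R = _ from Algebra.adjoin_range_eq_range_aeval K w] at hd
    obtain ⟨p, rfl⟩ := hd
    have h1 : π (MvPolynomial.aeval w p) = MvPolynomial.aeval (Sum.elim (φ ∘ b) (v ∘ y)) p := by
      rw [← AlgHom.comp_apply, MvPolynomial.comp_aeval]
      congr 2
      funext s
      cases s with
      | inl i =>
        change Algebra.TensorProduct.productMap φ v (b i ⊗ₜ[K] (1 : F)) = φ (b i)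
        rw [Algebra.TensorProduct.productMap_apply_tmul, map_one, mul_one]
      | inr i =>
        change Algebra.TensorProduct.productMap φ v ((1 : L) ⊗ₜ[K] y i) = v (y i)
        rw [Algebra.TensorProduct.productMap_apply_tmul, map_one, one_mul]
    have h2 : MvPolynomial.aeval (Sum.elim (φ ∘ b) (v ∘ y)) p = 0 := by rw [← h1]; exact h0
    have h3 : p = 0 := (algebraicIndependent_iff.1 hind) p h2
    rw [h3]
    exact map_zero _
  have hL : ∀ l : L, IsAlgebraic R (iL l) := by
    intro l
    have h1 : ∀ x : Algebra.adjoin K (Set.range b), iL (x : L) ∈ R := by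
      intro x
      have h2 : Algebra.adjoin K (Set.range b) ≤ R.comap iL := by
        refine Algebra.adjoin_le ?_
        rintro _ ⟨i, rfl⟩
        exact Algebra.subset_adjoin ⟨Sum.inl i, rfl⟩
      exact h2 x.2
    let j : Algebra.adjoin K (Set.range b) →ₐ[K] R :=
      (iL.comp (Algebra.adjoin K (Set.range b)).val).codRestrict R h1
    refine (hb l).ringHom_of_comp_eq j.toRingHom iL.toRingHom ?_ ?_
    · intro x x' hx
      have : iL (x : L) = iL (x' : L) := congrArg Subtype.val hx
      exact Subtype.ext (iL.toRingHom.injective this)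
    · rfl
  have hF : ∀ l : F, IsAlgebraic R (iF l) := by
    intro l
    have h1 : ∀ x : Algebra.adjoin K (Set.range y), iF (x : F) ∈ R := by
      intro x
      have h2 : Algebra.adjoin K (Set.range y) ≤ R.comap iF := by
        refine Algebra.adjoin_le ?_
        rintro _ ⟨i, rfl⟩
        exact Algebra.subset_adjoin ⟨Sum.inr i, rfl⟩
      exact h2 x.2
    let j : Algebra.adjoin K (Set.range y) →ₐ[K] R :=
      (iF.comp (Algebra.adjoin K (Set.range y)).val).codRestrict R h1
    refine (hy l).ringHom_of_comp_eq j.toRingHom iF.toRingHom ?_ ?_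
    · intro x x' hx
      have : iF (x : F) = iF (x' : F) := congrArg Subtype.val hx
      exact Subtype.ext (iF.toRingHom.injective this)
    · rfl
  have hD : ∀ d : D, IsAlgebraic R d := by
    intro d
    induction d using TensorProduct.induction_on with
    | zero => exact isAlgebraic_zero
    | tmul l f =>
      have h1 : (l ⊗ₜ[K] f : D) = iL l * iF f := by
        change (l ⊗ₜ[K] f : D) = (l ⊗ₜ[K] (1 : F)) * ((1 : L) ⊗ₜ[K] f)
        rw [Algebra.TensorProduct.tmul_mul_tmul, mul_one, one_mul]
      rw [h1]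
      exact (hL l).mul (hF f)
    | add x y hx hy => exact hx.add hy
  have hker : RingHom.ker π.toRingHom = ⊥ := by
    by_contra hne
    obtain ⟨d, hd, hd0⟩ := Submodule.exists_mem_ne_zero_of_ne_bot hne
    refine Ideal.comap_ne_bot_of_algebraic_mem hd0 hd (hD d) ?_
    rw [eq_bot_iff]
    intro r hr
    have h1 : π (r : D) = 0 := hr
    exact Subtype.ext (hπ _ r.2 h1)
  have h1 : π (∑ i, a i • ((1 : L) ⊗ₜ[K] f i : D)) = 0 := by
    rw [map_sum, ← h]
    refine Finset.sum_congr rfl fun i _ => ?_
    rw [TensorProduct.smul_tmul', smul_eq_mul, mul_one]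
    exact Algebra.TensorProduct.productMap_apply_tmul φ v (a i) (f i)
  have h2 : (∑ i, a i • ((1 : L) ⊗ₜ[K] f i : D)) = 0 := by
    have : (∑ i, a i • ((1 : L) ⊗ₜ[K] f i : D)) ∈ RingHom.ker π.toRingHom := h1
    rw [hker] at this
    exact this
  have h3 := linInd_one_tmul (L := L) hf
  funext i
  exact Fintype.linearIndependent_iff.1 h3 a h2 i

end Fermat.Agent.S26A
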