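import Mathlib

/-!
# Extension of places
-/

set_option autoImplicit false
set_option linter.unusedSectionVars false

noncomputable section

namespace Fermat.Agent.S26A

open Polynomial

section Graph

variable {L M : Type*} [Field L] [Field M]

/-- a graph of a ring homomorphism from a subring of `L` to `M` -/
def IsGr (Γ : Subring (L × M)) : Prop := ∀ m : M, ((0 : L), m) ∈ Γ → m = 0

theorem IsGr.unique {Γ : Subring (L × M)} (h : IsGr Γ) {x : L} {m m' : M} (h1 : (x, m) ∈ Γ)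
    (h2 : (x, m') ∈ Γ) : m = m' := by
  have h3 := Γ.sub_mem h1 h2
  rw [Prod.mk_sub_mk, sub_self] at h3
  exact sub_eq_zero.1 (h _ h3)

/-- the domain of a graph -/
def dm (Γ : Subring (L × M)) : Subring L := Γ.map (RingHom.fst L M)

theorem mem_dm {Γ : Subring (L × M)} {x : L} : x ∈ dm Γ ↔ ∃ m, (x, m) ∈ Γ := by
  rw [dm, Subring.mem_map]
  constructor
  · rintro ⟨⟨a, m⟩, h, rfl⟩
    exact ⟨m, h⟩
  · rintro ⟨m, h⟩
    exact ⟨(x, m), h, rfl⟩

/-- the homomorphism of a graph -/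
def gf {Γ : Subring (L × M)} (h : IsGr Γ) : dm Γ →+* M where
  toFun x := (mem_dm.1 x.2).choose
  map_one' := h.unique (mem_dm.1 (1 : dm Γ).2).choose_spec Γ.one_mem
  map_zero' := h.unique (mem_dm.1 (0 : dm Γ).2).choose_spec Γ.zero_mem
  map_mul' x y := h.unique (mem_dm.1 (x * y : dm Γ).2).choose_spec
    (Γ.mul_mem (mem_dm.1 x.2).choose_spec (mem_dm.1 y.2).choose_spec)
  map_add' x y := h.unique (mem_dm.1 (x + y : dm Γ).2).choose_spec
    (Γ.add_mem (mem_dm.1 x.2).choose_spec (mem_dm.1 y.2).choose_spec)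

theorem gf_spec {Γ : Subring (L × M)} (h : IsGr Γ) (x : dm Γ) : ((x : L), gf h x) ∈ Γ :=
  (mem_dm.1 x.2).choose_spec

theorem gf_eq {Γ : Subring (L × M)} (h : IsGr Γ) (x : dm Γ) {m : M} (hm : ((x : L), m) ∈ Γ) :
    gf h x = m := h.unique (gf_spec h x) hm

/-- the graph of a homomorphism -/
def gr (R : Subring L) (f : R →+* M) : Subring (L × M) := (R.subtype.prod f).range

theorem mem_gr {R : Subring L} {f : R →+* M} {x : L} {m : M} :
    (x, m) ∈ gr R f ↔ ∃ h : x ∈ R, f ⟨x, h⟩ = m := by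
  rw [gr, RingHom.mem_range]
  constructor
  · rintro ⟨⟨a, ha⟩, h⟩
    obtain ⟨rfl, rfl⟩ := Prod.mk.inj h
    exact ⟨ha, rfl⟩
  · rintro ⟨h, rfl⟩
    exact ⟨⟨x, h⟩, rfl⟩

theorem isGr_gr (R : Subring L) (f : R →+* M) : IsGr (gr R f) := by
  intro m hm
  obtain ⟨h, rfl⟩ := mem_gr.1 hm
  exact map_zero f

/-- maximal graphs -/
theorem exists_max (Γ₀ : Subring (L × M)) (h₀ : IsGr Γ₀) :
    ∃ Γ : Subring (L × M), Γ₀ ≤ Γ ∧ IsGr Γ ∧ ∀ Γ', IsGr Γ' → Γ ≤ Γ' → Γ' ≤ Γ := by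
  obtain ⟨Γ, h1, h2⟩ := zorn_le_nonempty₀ {Γ : Subring (L × M) | IsGr Γ} (fun c hc hch Γ' hΓ' => by
    haveI : Nonempty c := ⟨⟨Γ', hΓ'⟩⟩
    refine ⟨⨆ i : c, (i : Subring (L × M)), ?_, fun Γ'' h'' => le_iSup (fun i : c =>
      (i : Subring (L × M))) ⟨Γ'', h''⟩⟩
    intro m hm
    obtain ⟨i, hi⟩ := (Subring.mem_iSup_of_directed hch.directed).1 hm
    exact hc i.2 m hi) Γ₀ h₀
  exact ⟨Γ, h1, h2.1, fun Γ' h3 h4 => h2.2 h3 h4⟩

end Graph

section Max

variable {L M : Type*} [Field L] [Field M] {Γ : Subring (L × M)} (h : IsGr Γ)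
  (hmax : ∀ Γ' : Subring (L × M), IsGr Γ' → Γ ≤ Γ' → Γ' ≤ Γ)

include h hmax in
/-- elements with nonzero image are invertible -/
theorem inv_mem_of_max {x : L} {m : M} (hx : (x, m) ∈ Γ) (hm : m ≠ 0) : (x⁻¹, m⁻¹) ∈ Γ := by
  have hx0 : x ≠ 0 := by
    rintro rfl
    exact hm (h _ hx)
  -- the localisation
  let Γ' : Subring (L × M) :=
    { carrier := {p | ∃ n : ℕ, p * (x, m) ^ n ∈ Γ}
      mul_mem' := by
        rintro p p' ⟨n, hn⟩ ⟨n', hn'⟩
        refine ⟨n + n', ?_⟩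
        rw [show p * p' * (x, m) ^ (n + n') = (p * (x, m) ^ n) * (p' * (x, m) ^ n') by
          rw [pow_add]; ring]
        exact Γ.mul_mem hn hn'
      one_mem' := ⟨0, by rw [pow_zero, mul_one]; exact Γ.one_mem⟩
      add_mem' := by
        rintro p p' ⟨n, hn⟩ ⟨n', hn'⟩
        refine ⟨n + n', ?_⟩
        rw [show (p + p') * (x, m) ^ (n + n') = (p * (x, m) ^ n) * (x, m) ^ n' +
          (p' * (x, m) ^ n') * (x, m) ^ n by rw [pow_add]; ring]
        exact Γ.add_mem (Γ.mul_mem hn (Γ.pow_mem hx _)) (Γ.mul_mem hn' (Γ.pow_mem hx _))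
      zero_mem' := ⟨0, by rw [zero_mul]; exact Γ.zero_mem⟩
      neg_mem' := by
        rintro p ⟨n, hn⟩
        exact ⟨n, by rw [neg_mul]; exact Γ.neg_mem hn⟩ }
  have h1 : IsGr Γ' := by
    rintro c ⟨n, hn⟩
    rw [Prod.pow_mk, Prod.mk_mul_mk, zero_mul] at hn
    rcases mul_eq_zero.1 (h _ hn) with h2 | h2
    · exact h2
    · exact absurd h2 (pow_ne_zero n hm)
  have h2 : Γ ≤ Γ' := fun p hp => ⟨0, by rw [pow_zero, mul_one]; exact hp⟩
  apply hmax Γ' h1 h2
  refine ⟨1, ?_⟩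
  rw [pow_one, Prod.mk_mul_mk, inv_mul_cancel₀ hx0, inv_mul_cancel₀ hm]
  exact Γ.one_mem

include hmax in
/-- the dichotomy for an element -/
theorem dich [IsAlgClosed M] (y : L) :
    (∃ p : (dm Γ)[X], aeval y p = 0 ∧ p.map (gf h) = 1) ∨
    (∃ β : M, ∀ p : (dm Γ)[X], aeval y p = 0 → (p.map (gf h)).eval β = 0) := by
  classical
  set f := gf h with hf
  have hfield : IsField f.range := by
    refine ⟨⟨0, 1, zero_ne_one⟩, mul_comm, ?_⟩
    rintro ⟨_, ⟨a, rfl⟩⟩ ha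
    have ha' : f a ≠ 0 := fun h0 => ha (Subtype.ext h0)
    have h1 := inv_mem_of_max h hmax (gf_spec h a) ha'
    have h2 : (a : L)⁻¹ ∈ dm Γ := mem_dm.2 ⟨_, h1⟩
    refine ⟨⟨(f a)⁻¹, ⟨⟨(a : L)⁻¹, h2⟩, gf_eq h ⟨_, h2⟩ h1⟩⟩, ?_⟩
    exact Subtype.ext (mul_inv_cancel₀ ha')
  letI := hfield.toField
  let φ : (dm Γ)[X] →+* f.range[X] := mapRingHom f.rangeRestrict
  have hφ : Function.Surjective φ := map_surjective _ f.rangeRestrict_surjective
  let J : Ideal (dm Γ)[X] := RingHom.ker (aeval (R := dm Γ) y).toRingHom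
  obtain ⟨g, hg⟩ := (IsPrincipalIdealRing.principal (J.map φ)).principal
  have hmap : ∀ p : (dm Γ)[X], p.map f = (φ p).map f.range.subtype := by
    intro p
    change _ = (p.map f.rangeRestrict).map f.range.subtype
    rw [Polynomial.map_map]
    rfl
  by_cases hu : IsUnit g
  · left
    have h1 : (1 : f.range[X]) ∈ J.map φ := by
      rw [hg]
      exact (Ideal.eq_top_iff_one _).1 (Ideal.span_singleton_eq_top.2 hu)
    obtain ⟨p, hp, hp1⟩ := (Ideal.mem_map_iff_of_surjective φ hφ).1 h1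
    refine ⟨p, hp, ?_⟩
    rw [hmap, hp1, Polynomial.map_one]
  · right
    obtain ⟨β, hβ⟩ : ∃ β : M, (g.map f.range.subtype).eval β = 0 := by
      by_cases h0 : g = 0
      · exact ⟨0, by rw [h0, Polynomial.map_zero, eval_zero]⟩
      · apply IsAlgClosed.exists_root
        rw [degree_map_eq_of_injective (Subtype.val_injective)]
        intro hd
        exact hu (isUnit_iff_degree_eq_zero.2 hd)
    refine ⟨β, fun p hp => ?_⟩
    have h1 : φ p ∈ J.map φ := Ideal.mem_map_of_mem φ hp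
    rw [hg] at h1
    obtain ⟨c, hc⟩ := Ideal.mem_span_singleton'.1 h1
    rw [hmap, ← hc, Polynomial.map_mul, eval_mul, hβ, mul_zero]

include hmax in
/-- the second alternative gives membership -/
theorem mem_of_root {y : L} {β : M}
    (hβ : ∀ p : (dm Γ)[X], aeval y p = 0 → (p.map (gf h)).eval β = 0) : y ∈ dm Γ := by
  let F : (dm Γ)[X] →+* L × M := (aeval (R := dm Γ) y).toRingHom.prod
    ((evalRingHom β).comp (mapRingHom (gf h)))
  have hF : ∀ p, F p = (aeval y p, (p.map (gf h)).eval β) := fun p => rfl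
  have h1 : IsGr F.range := by
    rintro m ⟨p, hp⟩
    rw [hF] at hp
    obtain ⟨e1, e2⟩ := Prod.mk.inj hp
    rw [← e2]
    exact hβ p e1
  have h2 : Γ ≤ F.range := by
    rintro ⟨x, m⟩ hx
    have hx' : x ∈ dm Γ := mem_dm.2 ⟨m, hx⟩
    refine ⟨C ⟨x, hx'⟩, ?_⟩
    rw [hF, aeval_C, map_C, eval_C, gf_eq h ⟨x, hx'⟩ hx]
    rfl
  have h3 := hmax _ h1 h2 (⟨X, rfl⟩ : F X ∈ F.range)
  rw [hF, aeval_X] at h3
  exact mem_dm.2 ⟨_, h3⟩

include hmax in
theorem exists_integral {y : L}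
    (hA : ∃ p : (dm Γ)[X], aeval y p = 0 ∧ p.map (gf h) = 1) : IsIntegral (dm Γ) y⁻¹ := by
  obtain ⟨p, hp, hp1⟩ := hA
  have h0 : gf h (p.coeff 0) = 1 := by
    rw [← coeff_map, hp1, coeff_one_zero]
  have h1 := inv_mem_of_max h hmax (gf_spec h (p.coeff 0)) (by rw [h0]; exact one_ne_zero)
  have h2 : ((p.coeff 0 : dm Γ) : L)⁻¹ ∈ dm Γ := mem_dm.2 ⟨_, h1⟩
  have hc0 : ((p.coeff 0 : dm Γ) : L) ≠ 0 := by
    intro hc
    have h3 : p.coeff 0 = 0 := Subtype.ext hc
    rw [h3, map_zero] at h0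
    exact zero_ne_one h0
  -- the reversed polynomial
  refine ⟨C ⟨_, h2⟩ * p.reverse, ?_, ?_⟩
  · rw [Monic, leadingCoeff_mul, leadingCoeff_C, reverse_leadingCoeff, trailingCoeff]
    have h3 : p.natTrailingDegree = 0 := by
      rw [natTrailingDegree_eq_zero]
      right
      intro hc
      rw [hc, map_zero] at h0
      exact zero_ne_one h0
    rw [h3]
    exact Subtype.ext (inv_mul_cancel₀ hc0)
  · by_cases hy : y = 0
    · subst hy
      exfalso
      apply hc0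
      rw [← coeff_zero_eq_aeval_zero'] at hp
      exact hp
    · letI := invertibleOfNonzero hy
      have h3 := (eval₂_reverse_eq_zero_iff (algebraMap (dm Γ) L) y p).2 hp
      rw [invOf_eq_inv] at h3
      rw [eval₂_mul, h3, mul_zero]

include hmax in
/-- integral elements -/
theorem not_integral {z : L} (hz : IsIntegral (dm Γ) z)
    (hA : ∃ p : (dm Γ)[X], aeval z p = 0 ∧ p.map (gf h) = 1) : False := by
  obtain ⟨p, hp, hp1⟩ := hA
  let N : Submodule (dm Γ) L := Subalgebra.toSubmodule (Algebra.adjoin (dm Γ) {z})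
  have hN : N.FG := hz.fg_adjoin_singleton
  let I : Ideal (dm Γ) := RingHom.ker (gf h)
  have h1 : (1 : L) ∈ I • N := by
    have e1 : (1 : L) = aeval z (1 - p) := by rw [map_sub, hp, map_one, sub_zero]
    rw [e1, aeval_eq_sum_range]
    refine Submodule.sum_mem _ fun i _ => Submodule.smul_mem_smul ?_ ?_
    · rw [RingHom.mem_ker, ← coeff_map, Polynomial.map_sub, hp1, Polynomial.map_one, sub_self,
        coeff_zero]
    · exact Subalgebra.pow_mem _ (Algebra.self_mem_adjoin_singleton _ z) i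
  have h2 : N ≤ I • N := by
    intro x hx
    have key : ∀ w ∈ I • N, x * w ∈ I • N := by
      intro w hw
      induction hw using Submodule.smul_induction_on' with
      | smul r hr n hn =>
        rw [mul_smul_comm]
        exact Submodule.smul_mem_smul hr (Subalgebra.mul_mem _ hx hn)
      | add a ha b hb iha ihb =>
        rw [mul_add]
        exact Submodule.add_mem _ iha ihb
    have := key 1 h1
    rwa [mul_one] at this
  obtain ⟨r, hr, hr'⟩ := Submodule.exists_sub_one_mem_and_smul_eq_zero_of_fg_of_le_smul I N hN h2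
  have h3 : r = 0 := by
    have := hr' 1 (Subalgebra.one_mem _)
    rw [Algebra.smul_def, mul_one] at this
    exact Subtype.ext this
  rw [h3, zero_sub, RingHom.mem_ker, map_neg, map_one, neg_eq_zero] at hr
  exact one_ne_zero hr

include h hmax in
/-- the domain of a maximal graph is a valuation ring -/
theorem mem_or_inv_of_max [IsAlgClosed M] (y : L) : y ∈ dm Γ ∨ y⁻¹ ∈ dm Γ := by
  rcases dich h hmax y with hA | ⟨β, hβ⟩
  · right
    have h1 := exists_integral h hmax hA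
    rcases dich h hmax y⁻¹ with hA' | ⟨β, hβ⟩
    · exact (not_integral h hmax h1 hA').elim
    · exact mem_of_root h hmax hβ
  · exact .inl (mem_of_root h hmax hβ)

end Max

section Place

variable {L M : Type*} [Field L] [Field M] [IsAlgClosed M]

/-- **extension of homomorphisms to valuation rings** -/
theorem exists_valuation (R : Subring L) (f : R →+* M) :
    ∃ (V : ValuationSubring L) (ρ : V →+* M) (h : ∀ x ∈ R, x ∈ V),
      (∀ x : R, ρ ⟨x, h x x.2⟩ = f x) ∧ ∀ v : V, ρ v ≠ 0 → (v : L)⁻¹ ∈ V := by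
  obtain ⟨Γ, h1, h2, h3⟩ := exists_max (gr R f) (isGr_gr R f)
  let V : ValuationSubring L := ⟨dm Γ, fun y => mem_or_inv_of_max h2 h3 y⟩
  refine ⟨V, gf h2, fun x hx => mem_dm.2 ⟨f ⟨x, hx⟩, h1 (mem_gr.2 ⟨hx, rfl⟩)⟩, ?_, ?_⟩
  · intro x
    exact gf_eq h2 _ (h1 (mem_gr.2 ⟨x.2, rfl⟩))
  · intro v hv
    exact mem_dm.2 ⟨_, inv_mem_of_max h2 h3 (gf_spec h2 v) hv⟩

end Place

end Fermat.Agent.S26A
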