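import Fermat.Agent.MW.Ram
import Mathlib.RingTheory.Valuation.LocalSubring

/-!
# The product formula along an algebraic extension of a function field
-/

set_option autoImplicit false
set_option linter.unusedSectionVars false
set_option linter.style.haveILetI false

namespace Fermat.Agent.S26A

open AlgebraicCurve Fermat.Agent.RR Fermat.Agent.Curve Fermat.Agent.MW IntermediateField Module

section PF

variable {k F E : Type*} [Field k] [IsAlgClosed k] [Field F] [Field E] [Algebra k F] [Algebra k E]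
  [FunField k F] [FunField k E] (φ : F →ₐ[k] E)

/-- an element whose divisor is a pullback -/
theorem degree_eq_zero_of_pb {g : E} (_hg : g ≠ 0) (N : Divisor k F)
    (h : ∀ v : Place k E, v.ord g = re φ v * N (rs φ v)) : Divisor.degree N = 0 := by
  classical
  choose T hT hsum using sum_re φ
  have h0 := degree_divisor (K := k) g
  have h1 : Divisor.degree (divisor k g) = ∑ v ∈ N.support.biUnion T, v.ord g := by
    rw [degree_eq]
    refine Finset.sum_subset_zero_on_sdiff ?_ ?_ ?_
    · intro v hv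
      rw [Finsupp.mem_support_iff, divisor_apply] at hv
      have h2 : v.ord g ≠ 0 := hv
      rw [Finset.mem_biUnion]
      refine ⟨rs φ v, ?_, (hT _ v).2 rfl⟩
      rw [Finsupp.mem_support_iff]
      intro h3
      rw [h v, h3, mul_zero] at h2
      exact h2 rfl
    · intro v hv
      rw [Finset.mem_sdiff, Finsupp.mem_support_iff, not_not, divisor_apply] at hv
      exact hv.2
    · intro v _; rw [divisor_apply]
  rw [h1, Finset.sum_biUnion] at h0
  · have h2 : ∑ P ∈ N.support, ∑ v ∈ T P, v.ord g = (dg φ : ℤ) * Divisor.degree N := by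
      rw [degree_eq, Finset.mul_sum]
      refine Finset.sum_congr rfl fun P _ => ?_
      rw [← hsum P, Finset.sum_mul]
      refine Finset.sum_congr rfl fun v hv => ?_
      rw [h v, (hT P v).1 hv]
    rw [h2] at h0
    have h3 := dg_pos φ
    rcases mul_eq_zero.1 h0 with h4 | h4
    · exfalso
      have : dg φ = 0 := by exact_mod_cast h4
      omega
    · exact h4
  · intro P _ Q _ hPQ
    rw [Function.onFun, Finset.disjoint_left]
    intro v hv hv'
    exact hPQ (((hT P v).1 hv).symm.trans ((hT Q v).1 hv'))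

end PF

section Ext

/-- extension of a valuation ring -/
theorem exists_valExt {E L : Type*} [Field E] [Field L] (i : E →+* L) (O : ValuationSubring E) :
    ∃ V : ValuationSubring L, ∀ x : E, i x ∈ V ↔ x ∈ O := by
  let R : Subring L := O.toSubring.map i
  let e : O →+* R :=
    { toFun := fun x => ⟨i x, ⟨x, x.2, rfl⟩⟩
      map_one' := Subtype.ext (map_one i)
      map_mul' := fun x y => Subtype.ext (map_mul i _ _)
      map_zero' := Subtype.ext (map_zero i)
      map_add' := fun x y => Subtype.ext (map_add i _ _) }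
  have he : Function.Bijective e := by
    constructor
    · intro x y hxy
      exact Subtype.ext (i.injective (congrArg Subtype.val hxy))
    · rintro ⟨_, x, hx, rfl⟩
      exact ⟨⟨x, hx⟩, rfl⟩
  let e' : O ≃+* R := RingEquiv.ofBijective e he
  let I : Ideal R := (IsLocalRing.maximalIdeal O).comap (e'.symm : R →+* O)
  have hI : I ≠ ⊤ := by
    intro h
    have h1 : (1 : R) ∈ I := h ▸ Submodule.mem_top
    have h2 : (e'.symm : R →+* O) 1 ∈ IsLocalRing.maximalIdeal O := h1
    rw [map_one] at h2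
    exact (IsLocalRing.maximalIdeal.isMaximal O).ne_top ((Ideal.eq_top_iff_one _).2 h2)
  obtain ⟨B, hB1, hB2⟩ := Ideal.image_subset_nonunits_valuationSubring _ hI
  refine ⟨B, fun x => ⟨fun hx => ?_, fun hx => hB1 ⟨x, hx, rfl⟩⟩⟩
  by_contra hxO
  have hx0 : x ≠ 0 := fun h => hxO (h ▸ O.zero_mem)
  have hxi : x⁻¹ ∈ O := (O.mem_or_inv_mem x).resolve_left hxO
  have h3 : (⟨x⁻¹, hxi⟩ : O) ∈ IsLocalRing.maximalIdeal O := by
    rw [IsLocalRing.mem_maximalIdeal, mem_nonunits_iff]
    intro hu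
    obtain ⟨b, hb⟩ := hu.exists_right_inv
    have h4 : x⁻¹ * (b : E) = 1 := congrArg Subtype.val hb
    have h5 : (b : E) = x := by
      field_simp at h4
      exact h4
    exact hxO (h5 ▸ b.2)
  have h6 : i x⁻¹ ∈ (B.nonunits : Set L) := by
    apply hB2
    refine ⟨e' ⟨x⁻¹, hxi⟩, ?_, rfl⟩
    change (e'.symm : R →+* O) (e' ⟨x⁻¹, hxi⟩) ∈ IsLocalRing.maximalIdeal O
    have : (e'.symm : R →+* O) (e' ⟨x⁻¹, hxi⟩) = ⟨x⁻¹, hxi⟩ := e'.symm_apply_apply _
    rw [this]
    exact h3
  have h7 : B.valuation (i x⁻¹) < 1 := h6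
  have h8 : B.valuation (i x) ≤ 1 := (B.valuation_le_one_iff _).2 hx
  have h9 : B.valuation (i x) * B.valuation (i x⁻¹) = 1 := by
    rw [← map_mul, ← map_mul, mul_inv_cancel₀ hx0, map_one, map_one]
  have h10 : B.valuation (i x) * B.valuation (i x⁻¹) < 1 := by
    calc _ ≤ 1 * B.valuation (i x⁻¹) := mul_le_mul_left h8 _
      _ = B.valuation (i x⁻¹) := one_mul _
      _ < 1 := h7
  exact h10.ne h9

end Ext

section Main

variable {k F L : Type*} [Field k] [IsAlgClosed k] [Field F] [Algebra k F] [FunField k F] [Field L]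
  [Algebra F L]

/-- finite extensions of function fields -/
theorem funField_fin (E : Type*) [Field E] [Algebra F E] [Algebra k E] [IsScalarTower k F E]
    [FiniteDimensional F E] : FunField k E := by
  obtain ⟨t, ht, hfd⟩ := (inferInstance : FunField k F).out
  have h1 := finrank_tower (K := k) (E := F) (F := E) t
  have ht' : Transcendental k (algebraMap F E t) := fun h =>
    ht ((isAlgebraic_algebraMap_iff (algebraMap F E).injective).1 h)
  have h2 : 0 < finrank k⟮t⟯ F := finrank_pos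
  have h3 : 0 < finrank F E := finrank_pos
  haveI : FiniteDimensional k⟮algebraMap F E t⟯ E := by
    apply FiniteDimensional.of_finrank_pos
    rw [h1]
    exact Nat.mul_pos h2 h3
  exact FunField.of ht'

/-- units of a valuation ring -/
def VU (V : ValuationSubring L) (x : L) : Prop := x ∈ V ∧ x⁻¹ ∈ V

/-- **product formula along an algebraic extension** -/
theorem sum_deg_eq_zero [Algebra k L] [IsScalarTower k F L] [Algebra.IsAlgebraic F L]
    {ι : Type*} [Fintype ι] (ε : ι → ℤ) (Fy Fz : ι → F) (hFy : ∀ i, Fy i ≠ 0)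
    (hFz : ∀ i, Fz i ≠ 0) (hy hz : L) (hy0 : hy ≠ 0) (hz0 : hz ≠ 0)
    (H : ∀ V : ValuationSubring L, (∀ c : k, algebraMap k L c ∈ V) → V ≠ ⊤ →
      ∃ (c : L) (I J : Finset ι), c ≠ 0 ∧
        VU V (hy * c * ∏ i ∈ I, (algebraMap F L (Fy i)) ^ (-ε i)) ∧
        VU V (hz * c * ∏ i ∈ J, (algebraMap F L (Fz i)) ^ (-ε i)) ∧
        (∀ i ∈ I, algebraMap F L (Fy i) ∈ V) ∧ (∀ i, i ∉ I → (algebraMap F L (Fy i))⁻¹ ∈ V) ∧
        (∀ i ∈ J, algebraMap F L (Fz i) ∈ V) ∧ (∀ i, i ∉ J → (algebraMap F L (Fz i))⁻¹ ∈ V)) :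
    ∑ i, ε i * (Divisor.degree (zeroDiv k (Fy i)) - Divisor.degree (zeroDiv k (Fz i))) = 0 := by
  classical
  let g : L := hy / hz
  have hg0 : g ≠ 0 := div_ne_zero hy0 hz0
  let E : IntermediateField F L := F⟮g⟯
  haveI : FiniteDimensional F E :=
    adjoin.finiteDimensional (Algebra.IsAlgebraic.isAlgebraic (R := F) g).isIntegral
  haveI : FunField k E := funField_fin (F := F) E
  let φ : F →ₐ[k] E := IsScalarTower.toAlgHom k F E
  have hφ : ∀ f : F, ((φ f : E) : L) = algebraMap F L f := fun f => rfl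
  let gE : E := ⟨g, mem_adjoin_simple_self F g⟩
  have hgE : gE ≠ 0 := fun h => hg0 (congrArg Subtype.val h)
  let N : Divisor k F := ∑ i, ε i • (zeroDiv k (Fy i) - zeroDiv k (Fz i))
  have key : ∀ v : Place k E, v.ord gE = re φ v * N (rs φ v) := by
    intro v
    obtain ⟨V, hV⟩ := exists_valExt (algebraMap E L) v.toValuationSubring
    have hk : ∀ c : k, algebraMap k L c ∈ V := by
      intro c
      have h1 := (hV (algebraMap k E c)).2 (v.algebraMap_mem' c)
      exact h1
    have hVt : V ≠ ⊤ := by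
      intro h
      apply v.ne_top'
      rw [eq_top_iff]
      intro x _
      rw [← hV x, h]
      trivial
    obtain ⟨c, I, J, hc, ⟨hu1, hu1'⟩, ⟨hu2, hu2'⟩, hI, hI', hJ, hJ'⟩ := H V hk hVt
    have hord : ∀ x : E, (x : L) ∈ V → 0 ≤ v.ord x := fun x hx => by
      rw [← mem_iff_ord_nonneg]
      exact (hV x).1 hx
    set PI : E := ∏ i ∈ I, (φ (Fy i)) ^ (-ε i) with hPI
    set PJ : E := ∏ i ∈ J, (φ (Fz i)) ^ (-ε i) with hPJ
    have hφy : ∀ i, φ (Fy i) ≠ 0 := fun i => (map_ne_zero φ).2 (hFy i)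
    have hφz : ∀ i, φ (Fz i) ≠ 0 := fun i => (map_ne_zero φ).2 (hFz i)
    have hPI0 : PI ≠ 0 := Finset.prod_ne_zero_iff.2 fun i _ => zpow_ne_zero _ (hφy i)
    have hPJ0 : PJ ≠ 0 := Finset.prod_ne_zero_iff.2 fun i _ => zpow_ne_zero _ (hφz i)
    have ePI : ((PI : E) : L) = ∏ i ∈ I, (algebraMap F L (Fy i)) ^ (-ε i) := by
      rw [hPI]
      have := map_prod (algebraMap E L) (fun i => (φ (Fy i)) ^ (-ε i)) I
      refine this.trans (Finset.prod_congr rfl fun i _ => ?_)
      rw [map_zpow₀]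
      rfl
    have ePJ : ((PJ : E) : L) = ∏ i ∈ J, (algebraMap F L (Fz i)) ^ (-ε i) := by
      rw [hPJ]
      have := map_prod (algebraMap E L) (fun i => (φ (Fz i)) ^ (-ε i)) J
      refine this.trans (Finset.prod_congr rfl fun i _ => ?_)
      rw [map_zpow₀]
      rfl
    rw [← ePI] at hu1 hu1'
    rw [← ePJ] at hu2 hu2'
    have hPIL : ((PI : E) : L) ≠ 0 := fun h => hPI0 (Subtype.ext h)
    have hPJL : ((PJ : E) : L) ≠ 0 := fun h => hPJ0 (Subtype.ext h)
    have e1 : ((gE * PI * PJ⁻¹ : E) : L) = (hy * c * (PI : L)) * (hz * c * (PJ : L))⁻¹ := by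
      change hy / hz * (PI : L) * (PJ : L)⁻¹ = _
      field_simp
    have h1 : 0 ≤ v.ord (gE * PI * PJ⁻¹) := by
      apply hord
      rw [e1]
      exact V.mul_mem _ _ hu1 hu2'
    have h2 : 0 ≤ v.ord (gE * PI * PJ⁻¹)⁻¹ := by
      apply hord
      have : (((gE * PI * PJ⁻¹)⁻¹ : E) : L) = (hy * c * (PI : L))⁻¹ * (hz * c * (PJ : L)) := by
        change (((gE * PI * PJ⁻¹ : E) : L))⁻¹ = _
        rw [e1, mul_inv, inv_inv]
      rw [this]
      exact V.mul_mem _ _ hu1' hu2
    rw [v.ord_inv] at h2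
    have h3 : v.ord (gE * PI * PJ⁻¹) = 0 := by omega
    rw [v.ord_mul (mul_ne_zero hgE hPI0) (inv_ne_zero hPJ0), v.ord_mul hgE hPI0, v.ord_inv] at h3
    have ordP : ∀ (S : Finset ι) (G : ι → F), (∀ i, G i ≠ 0) →
        v.ord (∏ i ∈ S, (φ (G i)) ^ (-ε i)) = -∑ i ∈ S, ε i * (re φ v * (rs φ v).ord (G i)) := by
      intro S G hG
      have hG' : ∀ i, φ (G i) ≠ 0 := fun i => (map_ne_zero φ).2 (hG i)
      induction S using Finset.induction_on with
      | empty => rw [Finset.prod_empty, Finset.sum_empty, v.ord_one, neg_zero]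
      | insert a S ha ih =>
        rw [Finset.prod_insert ha, v.ord_mul (zpow_ne_zero _ (hG' a))
          (Finset.prod_ne_zero_iff.2 fun i _ => zpow_ne_zero _ (hG' i)), ih, Finset.sum_insert ha,
          v.ord_zpow, ord_map]
        ring
    rw [hPI, hPJ, ordP I Fy hFy, ordP J Fz hFz] at h3
    have hmax : ∀ (S : Finset ι) (G : ι → F), (∀ i, G i ≠ 0) →
        (∀ i ∈ S, algebraMap F L (G i) ∈ V) → (∀ i, i ∉ S → (algebraMap F L (G i))⁻¹ ∈ V) →
        ∑ i ∈ S, ε i * (re φ v * (rs φ v).ord (G i)) =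
          re φ v * ∑ i, ε i * zeroDiv k (G i) (rs φ v) := by
      intro S G hG hS hS'
      rw [Finset.mul_sum, ← Finset.sum_subset (Finset.subset_univ S)]
      · refine Finset.sum_congr rfl fun i hi => ?_
        have h4 := hord (φ (G i)) (hS i hi)
        rw [ord_map] at h4
        have h5 : 0 ≤ (rs φ v).ord (G i) := nonneg_of_mul_nonneg_right h4 (re_pos φ v)
        rw [zeroDiv_apply, max_eq_left h5]
        ring
      · intro i _ hi
        have h4 := hord (φ (G i))⁻¹ (hS' i hi)
        rw [v.ord_inv, ord_map] at h4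
        have h5 : (rs φ v).ord (G i) ≤ 0 := by
          have h6 := re_pos φ v
          by_contra hcon
          push Not at hcon
          have := mul_pos h6 hcon
          omega
        rw [zeroDiv_apply, max_eq_right h5, mul_zero, mul_zero]
    rw [hmax I Fy hFy hI hI', hmax J Fz hFz hJ hJ'] at h3
    have h4 : N (rs φ v) = ∑ i, ε i * zeroDiv k (Fy i) (rs φ v) -
        ∑ i, ε i * zeroDiv k (Fz i) (rs φ v) := by
      rw [← Finset.sum_sub_distrib]
      change (∑ i, ε i • (zeroDiv k (Fy i) - zeroDiv k (Fz i))) (rs φ v) = _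
      rw [Finsupp.finsetSum_apply]
      refine Finset.sum_congr rfl fun i _ => ?_
      rw [Finsupp.smul_apply, Finsupp.sub_apply, smul_eq_mul, mul_sub]
    rw [h4]
    linarith
  have h := degree_eq_zero_of_pb φ hgE N key
  rw [map_sum] at h
  rw [← h]
  refine Finset.sum_congr rfl fun i _ => ?_
  rw [map_zsmul, map_sub, smul_eq_mul]

end Main

end Fermat.Agent.S26A
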