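import Fermat.Agent.S26A.Def

/-!
# Ranks (transcendence degrees)
-/

set_option autoImplicit false
set_option linter.style.haveILetI false

noncomputable section

namespace Fermat.Agent.S26A

universe u

open AlgebraicIndependent

section rank

variable {K L M : Type u} [Field K] [Field L] [Field M] [Algebra K L] [Algebra K M]

theorem rkS_mono {S T : Set L} (h : S ⊆ T) : rkS K S ≤ rkS K T := Matroid.eRk_mono _ h

theorem rkS_union_le (S T : Set L) : rkS K (S ∪ T) ≤ rkS K S + rkS K T :=
  Matroid.eRk_union_le_eRk_add_eRk _ _ _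

theorem le_rkS_iff {n : ℕ} {S : Set L} :
    (n : ℕ∞) ≤ rkS K S ↔ ∃ v : Fin n → L, (∀ i, v i ∈ S) ∧ AlgebraicIndependent K v := by
  rw [rkS, Matroid.le_eRk_iff]
  constructor
  · rintro ⟨I, hI, hI', hc⟩
    rw [matroid_indep_iff] at hI'
    have hf : I.Finite := Set.finite_of_encard_eq_coe hc
    have hn : Nat.card I = n := by
      have h1 := hf.encard_eq_coe_toFinset_card
      rw [h1] at hc
      have h2 : hf.toFinset.card = n := by exact_mod_cast hc
      rw [← h2, Nat.card_coe_set_eq, Set.ncard_eq_toFinset_card I hf]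
    haveI := hf.to_subtype
    let e : Fin n ≃ I := (Finite.equivFinOfCardEq hn).symm
    exact ⟨fun i => e i, fun i => hI (e i).2, hI'.comp _ e.injective⟩
  · rintro ⟨v, hv, hv'⟩
    refine ⟨Set.range v, ?_, ?_, ?_⟩
    · rintro _ ⟨i, rfl⟩
      exact hv i
    · rw [matroid_indep_iff]
      exact hv'.to_subtype_range
    · have := hv'.injective
      rw [← Set.image_univ, this.encard_image, Set.encard_univ]
      simp

theorem rkS_eq_of_subset_closure {S T : Set L}
    (h : S ⊆ {x | IsAlgebraic (Algebra.adjoin K T) x}) : rkS K S ≤ rkS K T := by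
  rw [rkS, rkS, ← Matroid.eRk_closure_eq _ T]
  refine Matroid.eRk_mono _ (h.trans ?_)
  rw [matroid_closure_eq]
  intro x hx
  exact hx

theorem isAlgebraic_of_mem_adjoin {T : Set L} {x : L} (hx : x ∈ IntermediateField.adjoin K T) :
    IsAlgebraic (Algebra.adjoin K T) x := by
  induction hx using IntermediateField.adjoin_induction with
  | mem x hx =>
    exact isAlgebraic_algebraMap (⟨x, Algebra.subset_adjoin hx⟩ : Algebra.adjoin K T)
  | algebraMap c =>
    exact isAlgebraic_algebraMap (algebraMap K (Algebra.adjoin K T) c)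
  | add x y _ _ h1 h2 => exact h1.add h2
  | inv x _ h => exact h.inv
  | mul x y _ _ h1 h2 => exact h1.mul h2

theorem rkS_le_of_subset_adjoin {S T : Set L} (h : S ⊆ IntermediateField.adjoin K T) :
    rkS K S ≤ rkS K T :=
  rkS_eq_of_subset_closure fun _ hx => isAlgebraic_of_mem_adjoin (h hx)

theorem rkS_image (σ : L →ₐ[K] M) (S : Set L) : rkS K (σ '' S) = rkS K S := by
  refine le_antisymm ?_ ?_ <;> refine ENat.forall_natCast_le_iff_le.1 fun n hn => ?_
  · obtain ⟨v, hv, hv'⟩ := le_rkS_iff.1 hn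
    choose w hw hw' using hv
    refine le_rkS_iff.2 ⟨w, hw, ?_⟩
    have : v = σ ∘ w := funext fun i => (hw' i).symm
    rw [this] at hv'
    exact hv'.of_comp σ
  · obtain ⟨v, hv, hv'⟩ := le_rkS_iff.1 hn
    exact le_rkS_iff.2 ⟨σ ∘ v, fun i => ⟨_, hv i, rfl⟩, hv'.map' σ.injective⟩

theorem At.aeval {φ : Pl K L M} {ι : Type*} {v : ι → L} {w : ι → M} (h : ∀ i, φ.At (v i) (w i))
    (p : MvPolynomial ι K) : φ.At (MvPolynomial.aeval v p) (MvPolynomial.aeval w p) := by
  induction p using MvPolynomial.induction_on with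
  | C c => simpa using φ.at_alg c
  | add p q hp hq => simpa using hp.add hq
  | mul_X p i hp => simpa using hp.mul (h i)

theorem indep_of_at {φ : Pl K L M} {ι : Type*} {v : ι → L} {w : ι → M} (h : ∀ i, φ.At (v i) (w i))
    (hw : AlgebraicIndependent K w) : AlgebraicIndependent K v := by
  rw [algebraicIndependent_iff] at hw ⊢
  intro p hp
  refine hw p ?_
  have h1 := At.aeval h p
  rw [hp] at h1
  exact h1.uniq φ.at_zero

theorem rkS_le_of_at {φ : Pl K L M} {S : Set L} {T : Set M} (h : ∀ b ∈ T, ∃ a ∈ S, φ.At a b) :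
    rkS K T ≤ rkS K S := by
  refine ENat.forall_natCast_le_iff_le.1 fun n hn => ?_
  obtain ⟨v, hv, hv'⟩ := le_rkS_iff.1 hn
  choose a ha ha' using fun i => h _ (hv i)
  exact le_rkS_iff.2 ⟨a, ha, indep_of_at ha' hv'⟩

theorem transc_of_at {φ : Pl K L M} {ι : Type*} {v : ι → L} {w : ι → M}
    (h : ∀ i, φ.At (v i) (w i)) (hw : AlgebraicIndependent K w) {c : L} (hc : c ≠ 0)
    (hc' : φ.At c 0) : Transcendental (Algebra.adjoin K (Set.range v)) c := by
  intro hal
  obtain ⟨q, hq, hq'⟩ := hal
  -- divide by the power of `X`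
  obtain ⟨n, q', hq0, rfl⟩ : ∃ (n : ℕ) (q' : Polynomial (Algebra.adjoin K (Set.range v))),
      q'.coeff 0 ≠ 0 ∧ q = q' * Polynomial.X ^ n := by
    obtain ⟨q', h1, h2⟩ := Polynomial.exists_eq_pow_rootMultiplicity_mul_and_not_dvd q hq 0
    rw [map_zero, sub_zero] at h1 h2
    refine ⟨Polynomial.rootMultiplicity 0 q, q', fun h3 => h2 ?_, ?_⟩
    · rw [Polynomial.X_dvd_iff]
      exact h3
    · rw [mul_comm]
      exact h1
  rw [map_mul, map_pow, Polynomial.aeval_X, mul_eq_zero] at hq'
  replace hq' : Polynomial.aeval c q' = 0 := hq'.resolve_right (pow_ne_zero _ hc)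
  have hA : ∀ a : Algebra.adjoin K (Set.range v), ∃ p : MvPolynomial ι K,
      MvPolynomial.aeval v p = (a : L) := by
    rintro ⟨a, ha⟩
    rw [Algebra.adjoin_range_eq_range_aeval] at ha
    exact ha
  have key : ∀ q : Polynomial (Algebra.adjoin K (Set.range v)), ∀ p : MvPolynomial ι K,
      MvPolynomial.aeval v p = ((q.coeff 0 : Algebra.adjoin K (Set.range v)) : L) →
      φ.At (Polynomial.aeval c q) (MvPolynomial.aeval w p) := by
    intro q p hp
    rw [← Polynomial.divX_mul_X_add q, map_add, map_mul, Polynomial.aeval_X, Polynomial.aeval_C]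
    have h1 : ∃ b, φ.At (Polynomial.aeval c q.divX) b := by
      generalize q.divX = r
      induction r using Polynomial.induction_on' with
      | add r s hr hs =>
        obtain ⟨b, hb⟩ := hr
        obtain ⟨b', hb'⟩ := hs
        exact ⟨_, by rw [map_add]; exact hb.add hb'⟩
      | monomial n a =>
        rw [Polynomial.aeval_monomial]
        obtain ⟨p, hp⟩ := hA a
        have h2 := At.aeval h p
        rw [hp] at h2
        have h3 : ∀ n : ℕ, ∃ b, φ.At (c ^ n) b := by
          intro n
          induction n with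
          | zero => exact ⟨1, by rw [pow_zero]; exact φ.at_one⟩
          | succ n ih =>
            obtain ⟨b, hb⟩ := ih
            exact ⟨_, by rw [pow_succ]; exact hb.mul hc'⟩
        obtain ⟨b, hb⟩ := h3 n
        exact ⟨_, h2.mul hb⟩
    obtain ⟨b, hb⟩ := h1
    have h2 := (hb.mul hc').add (At.aeval h p)
    rw [mul_zero, zero_add, hp] at h2
    exact h2
  obtain ⟨p, hp⟩ := hA (q'.coeff 0)
  have h1 := key q' p hp
  rw [hq'] at h1
  have h2 : MvPolynomial.aeval w p = 0 := h1.uniq φ.at_zero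
  have h3 : p = 0 := (algebraicIndependent_iff.1 hw) p h2
  rw [h3, map_zero] at hp
  exact hq0 (Subtype.ext hp.symm)

/-- a place with residue field of full dimension is trivial -/
theorem rk_succ_le_of_at {φ : Pl K L M} {S : Set L} {T : Set M} (h : ∀ b ∈ T, ∃ a ∈ S, φ.At a b)
    {c : L} (hc : c ≠ 0) (hc' : φ.At c 0) {n : ℕ} (hn : (n : ℕ∞) ≤ rkS K T) :
    ((n + 1 : ℕ) : ℕ∞) ≤ rkS K (insert c S) := by
  obtain ⟨v, hv, hv'⟩ := le_rkS_iff.1 hn
  choose a ha ha' using fun i => h _ (hv i)
  have h1 := indep_of_at ha' hv'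
  have h2 := transc_of_at ha' hv' hc hc'
  have h3 : AlgebraicIndependent K (fun o : Option (Fin n) => o.elim c a) :=
    h1.option_iff_transcendental c |>.2 h2
  let e : Fin (n + 1) ≃ Option (Fin n) := finSuccEquiv n
  refine le_rkS_iff.2 ⟨fun i => (e i).elim c a, fun i => ?_, h3.comp e e.injective⟩
  change (e i).elim c a ∈ insert c S
  cases e i with
  | none => exact Set.mem_insert _ _
  | some k => exact Set.mem_insert_of_mem _ (ha k)

end rank

end Fermat.Agent.S26A
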