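import Mathlib
import Fermat.Prelude.Def_JacJ1Iface
import Fermat.Prelude.Def_GoodReductionJacobian_RelativeGroupLawKernel

/-!
# Commutative group schemes over a field: points with values in algebras
-/

set_option autoImplicit false
set_option linter.style.haveILetI false

universe u

noncomputable section

namespace Fermat.Agent.S26A

open CategoryTheory CategoryTheory.Limits AlgebraicGeometry NeronModelInfra GoodReductionJacobian

/-- a commutative group scheme over a field -/
structure GSch (K : Type u) [Field K] where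
  A : Scheme.{u}
  f : A ⟶ Spec (CommRingCat.of K)
  G : RelativeGroupLaw K f
  hc : G.IsCommutative

namespace GSch

variable {K : Type u} [Field K] (X : GSch K)

/-- the structure map of an algebra -/
abbrev str (K R : Type u) [Field K] [CommRing R] [Algebra K R] :
    Spec (CommRingCat.of R) ⟶ Spec (CommRingCat.of K) :=
  Spec.map (CommRingCat.ofHom (algebraMap K R))

/-- points with values in an algebra -/
def Pt (R : Type u) [CommRing R] [Algebra K R] : Type u := SchemeHomOver (str K R) X.f

variable {X} in
/-- the underlying morphism -/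
def Pt.m {R : Type u} [CommRing R] [Algebra K R] (x : X.Pt R) : Spec (CommRingCat.of R) ⟶ X.A := x.1

variable {X} in
theorem Pt.over {R : Type u} [CommRing R] [Algebra K R] (x : X.Pt R) : x.m ≫ X.f = str K R := x.2

variable {X} in
theorem Pt.ext' {R : Type u} [CommRing R] [Algebra K R] {x y : X.Pt R} (h : x.m = y.m) : x = y :=
  Subtype.ext h

instance (R : Type u) [CommRing R] [Algebra K R] : Add (X.Pt R) :=
  ⟨fun x y => X.G.mul (str K R) x y⟩

instance (R : Type u) [CommRing R] [Algebra K R] : Zero (X.Pt R) := ⟨X.G.one (str K R)⟩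

instance (R : Type u) [CommRing R] [Algebra K R] : Neg (X.Pt R) :=
  ⟨fun x => X.G.inv (str K R) x⟩

instance (R : Type u) [CommRing R] [Algebra K R] : AddCommGroup (X.Pt R) where
  add_assoc := X.G.mul_assoc _
  zero_add := X.G.one_mul _
  add_zero := X.G.mul_one _
  neg_add_cancel := X.G.inv_mul_cancel _
  add_comm := X.hc _
  nsmul := nsmulRec
  zsmul := zsmulRec

theorem str_comp {R S : Type u} [CommRing R] [Algebra K R] [CommRing S] [Algebra K S]
    (φ : R →ₐ[K] S) : Spec.map (CommRingCat.ofHom φ.toRingHom) ≫ str K R = str K S := by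
  rw [← Spec.map_comp, ← CommRingCat.ofHom_comp]
  congr 2
  exact φ.comp_algebraMap

/-- functoriality -/
def map {R S : Type u} [CommRing R] [Algebra K R] [CommRing S] [Algebra K S]
    (φ : R →ₐ[K] S) : X.Pt R →+ X.Pt S :=
  AddMonoidHom.mk' (fun x => schemeHomOverComp (Spec.map (CommRingCat.ofHom φ.toRingHom))
    (str_comp φ) x) fun x y => X.G.mul_natural _ _ _ _ x y

theorem map_m {R S : Type u} [CommRing R] [Algebra K R] [CommRing S] [Algebra K S]
    (φ : R →ₐ[K] S) (x : X.Pt R) :
    (X.map φ x).m = Spec.map (CommRingCat.ofHom φ.toRingHom) ≫ x.m := rfl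

theorem map_id' {R : Type u} [CommRing R] [Algebra K R] (x : X.Pt R) :
    X.map (AlgHom.id K R) x = x := by
  apply Pt.ext'
  rw [map_m]
  have : CommRingCat.ofHom (AlgHom.id K R).toRingHom = 𝟙 (CommRingCat.of R) := rfl
  rw [this, Spec.map_id, Category.id_comp]

theorem map_map {R S T : Type u} [CommRing R] [Algebra K R] [CommRing S] [Algebra K S]
    [CommRing T] [Algebra K T] (ψ : S →ₐ[K] T) (φ : R →ₐ[K] S) (x : X.Pt R) :
    X.map ψ (X.map φ x) = X.map (ψ.comp φ) x := by
  apply Pt.ext'
  rw [map_m, map_m, map_m]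
  have : CommRingCat.ofHom (ψ.comp φ).toRingHom =
    CommRingCat.ofHom φ.toRingHom ≫ CommRingCat.ofHom ψ.toRingHom := rfl
  rw [this, Spec.map_comp, Category.assoc]

theorem nsmul_def {R : Type u} [CommRing R] [Algebra K R] (n : ℕ) (x : X.Pt R) :
    n • x = X.G.nsmul (str K R) n x := by
  induction n with
  | zero => rw [zero_smul]; rfl
  | succ n ih => rw [succ_nsmul, ih]; rfl

end GSch

end Fermat.Agent.S26A
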