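import Mathlib
import Fermat.Prelude.Def_JacJ1Iface
import Fermat.Prelude.Def_GoodReductionJacobian_RelativeGroupLawKernel

set_option autoImplicit false
noncomputable section
universe u
open CategoryTheory CategoryTheory.Limits AlgebraicGeometry NeronModelInfra GoodReductionJacobian

namespace Fermat.Agent.S26A

variable {K : Type u} [Field K] {A : Scheme.{u}} (f : A ⟶ Spec (CommRingCat.of K))

/-- points of `A` with values in a `K`-algebra -/
abbrev PT (R : Type u) [CommRing R] [Algebra K R] : Type u :=
  SchemeHomOver (Spec.map (CommRingCat.ofHom (algebraMap K R))) f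

variable {f}

/-- functoriality in the algebra -/
def PT.map {R S : Type u} [CommRing R] [Algebra K R] [CommRing S] [Algebra K S]
    (φ : R →ₐ[K] S) (x : PT f R) : PT f S :=
  schemeHomOverComp (Spec.map (CommRingCat.ofHom (φ : R →+* S)))
    (by rw [← Spec.map_comp, ← CommRingCat.ofHom_comp, φ.comp_algebraMap]) x

@[simp] theorem PT.map_val {R S : Type u} [CommRing R] [Algebra K R] [CommRing S] [Algebra K S]
    (φ : R →ₐ[K] S) (x : PT f R) :
    (PT.map φ x).1 = Spec.map (CommRingCat.ofHom (φ : R →+* S)) ≫ x.1 := rfl

theorem PT.map_map {R S T : Type u} [CommRing R] [Algebra K R] [CommRing S] [Algebra K S]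
    [CommRing T] [Algebra K T] (φ : R →ₐ[K] S) (ψ : S →ₐ[K] T) (x : PT f R) :
    PT.map ψ (PT.map φ x) = PT.map (ψ.comp φ) x := by
  apply Subtype.ext
  simp only [PT.map_val]
  rw [← Category.assoc, ← Spec.map_comp, ← CommRingCat.ofHom_comp]
  rfl

theorem PT.map_id {R : Type u} [CommRing R] [Algebra K R] (x : PT f R) :
    PT.map (AlgHom.id K R) x = x := by
  apply Subtype.ext
  simp only [PT.map_val]
  have : CommRingCat.ofHom ((AlgHom.id K R : R →ₐ[K] R) : R →+* R) = 𝟙 (CommRingCat.of R) := rfl
  rw [this, Spec.map_id, Category.id_comp]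

/-- the additive group of points -/
@[reducible] def PT.grp (G : RelativeGroupLaw K f) (hc : G.IsCommutative)
    (R : Type u) [CommRing R] [Algebra K R] : AddCommGroup (PT f R) :=
  letI := G.pointGroup (Spec.map (CommRingCat.ofHom (algebraMap K R)))
  letI : CommGroup (PT f R) := { mul_comm := fun x y => hc _ x y }
  inferInstanceAs (AddCommGroup (Additive (PT f R)))

theorem PT.map_mul (G : RelativeGroupLaw K f)
    {R S : Type u} [CommRing R] [Algebra K R] [CommRing S] [Algebra K S]
    (φ : R →ₐ[K] S) (x y : PT f R) :
    PT.map φ (G.mul _ x y) = G.mul _ (PT.map φ x) (PT.map φ y) :=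
  G.mul_natural _ _ _ _ x y

/-- two points with values in a domain-reduced ring agreeing on an injective extension agree -/
theorem PT.map_injective [IsSeparated f] {R S : Type u} [CommRing R] [IsDomain R] [Algebra K R]
    [Field S] [Algebra K S] (φ : R →ₐ[K] S) (hφ : Function.Injective φ) :
    Function.Injective (PT.map (f := f) φ) := by
  intro x y hxy
  apply Subtype.ext
  have h := congrArg Subtype.val hxy
  simp only [PT.map_val] at h
  have : IsDominant (Spec.map (CommRingCat.ofHom (φ : R →+* S))) := by
    constructor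
    rw [DenseRange]
    have := (PrimeSpectrum.denseRange_comap_iff_ker_le_nilRadical (φ : R →+* S)).mpr (by
      rw [(RingHom.injective_iff_ker_eq_bot (φ : R →+* S)).mp hφ]; exact bot_le)
    exact this
  exact ext_of_isDominant_of_isSeparated (s := f) (by rw [x.2, y.2]) _ h

end Fermat.Agent.S26A
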