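import Fermat.Agent.S26A.Sch1a

/-!
# Points and homomorphisms on stalks
-/

set_option autoImplicit false
noncomputable section
universe u
open CategoryTheory CategoryTheory.Limits AlgebraicGeometry NeronModelInfra GoodReductionJacobian
open IsLocalRing

namespace Fermat.Agent.S26A

variable {K : Type u} [Field K] {A : Scheme.{u}} {f : A ⟶ Spec (CommRingCat.of K)}

section general
variable {R S : Type u} [CommRing R] [IsLocalRing R] [Algebra K R]
  [CommRing S] [IsLocalRing S] [Algebra K S]

theorem PT.st_spec (x : PT f R) : Spec.map x.st ≫ A.fromSpecStalk x.pt = x.1 :=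
  Scheme.Spec_stalkClosedPointTo_fromSpecStalk (R := CommRingCat.of R) x.1

theorem PT.algK_st (x : PT f R) : algK f x.pt ≫ x.st = CommRingCat.ofHom (algebraMap K R) := by
  apply Spec.map_injective
  rw [Spec.map_comp, ← fromSpecStalk_comp, ← Category.assoc, x.st_spec, x.2]

instance (x : PT f R) : IsLocalHom x.st.hom :=
  inferInstanceAs (IsLocalHom (Scheme.stalkClosedPointTo (R := CommRingCat.of R) x.1).hom)

/-- the point attached to a homomorphism from a local ring -/
def PT.mk (a : A) (θ : A.presheaf.stalk a ⟶ CommRingCat.of R)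
    (h : algK f a ≫ θ = CommRingCat.ofHom (algebraMap K R)) : PT f R :=
  ⟨Spec.map θ ≫ A.fromSpecStalk a, by
    rw [Category.assoc, fromSpecStalk_comp, ← Spec.map_comp, h]⟩

theorem PT.st_mk (a : A) (θ : A.presheaf.stalk a ⟶ CommRingCat.of R)
    (h : algK f a ≫ θ = CommRingCat.ofHom (algebraMap K R)) :
    ∃ h' : (PT.mk a θ h).pt ⤳ a, A.presheaf.stalkSpecializes h' ≫ (PT.mk a θ h).st = θ := by
  have h' : (PT.mk a θ h).pt ⤳ a := by
    have h1 : (PT.mk a θ h).pt ∈ Set.range (A.fromSpecStalk a) := by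
      refine ⟨Spec.map θ (closedPoint R), ?_⟩
      rfl
    rw [Scheme.range_fromSpecStalk] at h1
    exact h1
  refine ⟨h', ?_⟩
  apply Spec.map_injective
  rw [← cancel_mono (A.fromSpecStalk a), Spec.map_comp, Category.assoc,
    Scheme.SpecMap_stalkSpecializes_fromSpecStalk, PT.st_spec]
  rfl

theorem PT.pt_mk (a : A) (θ : A.presheaf.stalk a ⟶ CommRingCat.of R)
    (h : algK f a ≫ θ = CommRingCat.ofHom (algebraMap K R)) [IsLocalHom θ.hom] :
    (PT.mk a θ h).pt = a := by
  have h1 : Spec.map θ (closedPoint R) = closedPoint (A.presheaf.stalk a) :=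
    Spec_closedPoint (f := θ)
  change A.fromSpecStalk a (Spec.map θ (closedPoint R)) = a
  rw [h1]
  exact Scheme.fromSpecStalk_closedPoint

theorem PT.map_eq_mk (φ : R →ₐ[K] S) (y : PT f R) :
    ∃ h, PT.map φ y = PT.mk y.pt (y.st ≫ CommRingCat.ofHom (φ : R →+* S)) h := by
  refine ⟨?_, ?_⟩
  · rw [← Category.assoc, y.algK_st, ← CommRingCat.ofHom_comp, φ.comp_algebraMap]
  · apply Subtype.ext
    change _ ≫ _ = Spec.map _ ≫ _
    rw [Spec.map_comp, Category.assoc, y.st_spec]

theorem PT.st_map (φ : R →ₐ[K] S) (y : PT f R) :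
    ∃ h : (PT.map φ y).pt ⤳ y.pt, A.presheaf.stalkSpecializes h ≫ (PT.map φ y).st =
      y.st ≫ CommRingCat.ofHom (φ : R →+* S) := by
  obtain ⟨h, h1⟩ := PT.map_eq_mk φ y
  rw [h1]
  exact PT.st_mk _ _ _

theorem PT.pt_map (φ : R →ₐ[K] S) (y : PT f R) [IsLocalHom (φ : R →+* S)] :
    (PT.map φ y).pt = y.pt := by
  obtain ⟨h, h1⟩ := PT.map_eq_mk φ y
  rw [h1]
  have : IsLocalHom (y.st ≫ CommRingCat.ofHom (φ : R →+* S)).hom :=
    inferInstanceAs (IsLocalHom ((φ : R →+* S).comp y.st.hom))
  exact PT.pt_mk _ _ _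

end general

variable [IsIntegral A]

variable (f) in
/-- inclusion of local rings -/
def inc {a b : A} (h : OO f a ≤ OO f b) : A.presheaf.stalk a ⟶ A.presheaf.stalk b :=
  CommRingCat.ofHom (((eOO f b).symm.toRingHom : OO f b →+* A.presheaf.stalk b).comp
    ((Subalgebra.inclusion h).toRingHom.comp (eOO f a).toRingHom))

theorem toFF_inc {a b : A} (h : OO f a ≤ OO f b) (s : A.presheaf.stalk a) :
    toFF f b ((inc f h).hom s) = toFF f a s := by
  change toFF f b ((eOO f b).symm _) = _
  rw [toFF_eOO_symm]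
  rfl

theorem inc_specializes {a b : A} (h : OO f a ≤ OO f b)
    (hb : genericPoint A ⤳ b) (ha : genericPoint A ⤳ a) :
    inc f h ≫ A.presheaf.stalkSpecializes hb = A.presheaf.stalkSpecializes ha := by
  ext s
  exact toFF_inc h s

theorem inc_spec [IsSeparated f] {a b : A} (h : OO f a ≤ OO f b) :
    Spec.map (inc f h) ≫ A.fromSpecStalk a = A.fromSpecStalk b := by
  have hb : genericPoint A ⤳ b := (genericPoint_spec A).specializes trivial
  have ha : genericPoint A ⤳ a := (genericPoint_spec A).specializes trivial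
  have : IsDominant (Spec.map (A.presheaf.stalkSpecializes hb)) := by
    constructor
    rw [DenseRange]
    have := (PrimeSpectrum.denseRange_comap_iff_ker_le_nilRadical
      (A.presheaf.stalkSpecializes hb).hom).mpr (by
      rw [(RingHom.injective_iff_ker_eq_bot (A.presheaf.stalkSpecializes hb).hom).mp
        (toFF_injective f b)]; exact bot_le)
    exact this
  refine ext_of_isDominant_of_isSeparated (s := f) ?_ (Spec.map (A.presheaf.stalkSpecializes hb)) ?_
  · rw [Category.assoc, fromSpecStalk_comp, fromSpecStalk_comp, ← Spec.map_comp]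
    congr 1
    ext c
    apply toFF_injective f b
    rw [toFF_algK]
    exact (toFF_inc h _).trans (toFF_algK f a c)
  · rw [← Category.assoc, ← Spec.map_comp, inc_specializes h hb ha,
      Scheme.SpecMap_stalkSpecializes_fromSpecStalk, Scheme.SpecMap_stalkSpecializes_fromSpecStalk]

/-- points are determined by their local rings and values -/
theorem PT.eq_of_inc [IsSeparated f] {R : Type u} [CommRing R] [IsLocalRing R] [Algebra K R]
    (x y : PT f R) (h : OO f y.pt ≤ OO f x.pt)
    (hv : ∀ s, x.st.hom ((inc f h).hom s) = y.st.hom s) : x = y := by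
  apply Subtype.ext
  rw [← x.st_spec, ← y.st_spec, ← inc_spec h, ← Category.assoc, ← Spec.map_comp]
  congr 2
  ext s
  exact hv s

end Fermat.Agent.S26A
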