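import Fermat.Agent.S26A.Sch1b
import Fermat.Agent.S26A.Sch0
import Fermat.Agent.S26A.Pl

/-!
# Specialization of points
-/

set_option autoImplicit false
set_option linter.unusedSectionVars false
noncomputable section
universe u
open CategoryTheory CategoryTheory.Limits AlgebraicGeometry NeronModelInfra GoodReductionJacobian
open IsLocalRing

namespace Fermat.Agent.S26A

section lift
variable {K : Type u} [Field K] {A : Scheme.{u}} {f : A ⟶ Spec (CommRingCat.of K)}

/-- the valuative criterion -/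
theorem PT.exists_lift [IsProper f] {L : Type u} [Field L] [Algebra K L]
    (V : ValuationSubring L) [Algebra K V] [IsScalarTower K V L] (x : PT f L) :
    ∃ y : PT f V, PT.map (IsScalarTower.toAlgHom K V L) y = x := by
  let S : ValuativeCommSq f :=
    { R := V
      K := L
      i₁ := x.1
      i₂ := Spec.map (CommRingCat.ofHom (algebraMap K V))
      commSq := ⟨by
        rw [x.2, ← Spec.map_comp, ← CommRingCat.ofHom_comp, ← IsScalarTower.algebraMap_eq]⟩ }
  have H : ValuativeCriterion f := by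
    have h : IsProper f := inferInstance
    rw [IsProper.eq_valuativeCriterion] at h
    exact h.1.1.1
  obtain ⟨⟨l⟩⟩ := (H.existence S)
  refine ⟨⟨l.l, l.fac_right⟩, Subtype.ext l.fac_left⟩

end lift

section pl
variable {K L M N : Type u} [Field K] [Field L] [Field M] [Field N]
  [Algebra K L] [Algebra K M] [Algebra K N]

instance Pl.algV (φ : Pl K L M) : Algebra K φ.V :=
  RingHom.toAlgebra ((algebraMap K L).codRestrict φ.V.toSubring φ.mem')

instance Pl.towV (φ : Pl K L M) : IsScalarTower K φ.V L :=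
  IsScalarTower.of_algebraMap_eq fun _ => rfl

/-- the inclusion -/
def Pl.sub (φ : Pl K L M) : φ.V →ₐ[K] L := IsScalarTower.toAlgHom K φ.V L

theorem Pl.sub_apply (φ : Pl K L M) (v : φ.V) : φ.sub v = v := rfl

theorem Pl.sub_injective (φ : Pl K L M) : Function.Injective φ.sub := Subtype.val_injective

/-- the residue map -/
def Pl.res (φ : Pl K L M) : φ.V →ₐ[K] M := { φ.ρ with commutes' := φ.alg' }

theorem Pl.res_apply (φ : Pl K L M) (v : φ.V) : φ.res v = φ.ρ v := rfl

instance Pl.local_res (φ : Pl K L M) : IsLocalHom (φ.res : φ.V →+* M) := by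
  constructor
  intro a ha
  have h0 : φ.ρ a ≠ 0 := ha.ne_zero
  have ha0 : (a : L) ≠ 0 := by
    intro h
    apply h0
    have : a = 0 := Subtype.ext h
    rw [this, map_zero]
  refine IsUnit.of_mul_eq_one (⟨(a : L)⁻¹, φ.inv' a h0⟩ : φ.V) ?_
  exact Subtype.ext (mul_inv_cancel₀ ha0)

end pl

namespace GSch

variable {K : Type u} [Field K] (X : GSch K) [IsProper X.f]

section
variable {L M N : Type u} [Field L] [Field M] [Field N]
  [Algebra K L] [Algebra K M] [Algebra K N]

theorem map_injective {R S : Type u} [CommRing R] [IsDomain R] [Algebra K R]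
    [Field S] [Algebra K S] (φ : R →ₐ[K] S) (hφ : Function.Injective φ) :
    Function.Injective (X.map φ) :=
  PT.map_injective (f := X.f) φ hφ

theorem exists_lift (φ : Pl K L M) (x : X.Pt L) : ∃ y : X.Pt φ.V, X.map φ.sub y = x :=
  PT.exists_lift (f := X.f) φ.V x

/-- the lift to the valuation ring -/
def lift (φ : Pl K L M) (x : X.Pt L) : X.Pt φ.V := (X.exists_lift φ x).choose

theorem lift_spec (φ : Pl K L M) (x : X.Pt L) : X.map φ.sub (X.lift φ x) = x :=
  (X.exists_lift φ x).choose_spec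

theorem lift_unique (φ : Pl K L M) (x : X.Pt L) (y : X.Pt φ.V) (h : X.map φ.sub y = x) :
    X.lift φ x = y :=
  X.map_injective φ.sub φ.sub_injective ((X.lift_spec φ x).trans h.symm)

/-- specialization -/
def pl (φ : Pl K L M) : X.Pt L →+ X.Pt M :=
  AddMonoidHom.mk' (fun x => X.map φ.res (X.lift φ x)) fun x y => by
    rw [X.lift_unique φ (x + y) (X.lift φ x + X.lift φ y) (by rw [map_add, X.lift_spec, X.lift_spec]),
      map_add]

theorem pl_eq (φ : Pl K L M) (x : X.Pt L) : X.pl φ x = X.map φ.res (X.lift φ x) := rfl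

theorem pl_of_lift (φ : Pl K L M) (x : X.Pt L) (y : X.Pt φ.V) (h : X.map φ.sub y = x) :
    X.pl φ x = X.map φ.res y := by
  rw [pl_eq, X.lift_unique φ x y h]

theorem pl_ofHom (σ : L →ₐ[K] M) (x : X.Pt L) : X.pl (Pl.ofHom σ) x = X.map σ x := by
  have h := X.lift_spec (Pl.ofHom σ) x
  conv_rhs => rw [← h]
  rw [map_map]
  rfl

theorem pl_id (x : X.Pt L) : X.pl (Pl.id K L) x = x := by
  rw [Pl.id, pl_ofHom, map_id']

theorem pl_comp (ψ : Pl K M N) (φ : Pl K L M) (x : X.Pt L) :
    X.pl (ψ.comp φ) x = X.pl ψ (X.pl φ x) := by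
  -- the two maps from the composite valuation ring
  let i : (ψ.comp φ).V →ₐ[K] φ.V :=
    { toFun := fun a => ⟨a, a.2.choose_spec.1.1⟩
      map_one' := rfl
      map_mul' := fun _ _ => rfl
      map_zero' := rfl
      map_add' := fun _ _ => rfl
      commutes' := fun _ => rfl }
  let k : (ψ.comp φ).V →ₐ[K] M := φ.res.comp i
  have hk : ∀ a, k a ∈ ψ.V.toSubring := fun a => by
    have h := a.2.choose_spec
    have h1 : φ.ρ ⟨a, h.1.1⟩ = _ := h.1.2
    change φ.ρ ⟨a, h.1.1⟩ ∈ ψ.V
    rw [h1]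
    exact h.2
  let j : (ψ.comp φ).V →ₐ[K] ψ.V :=
    { k.toRingHom.codRestrict ψ.V.toSubring hk with
      commutes' := fun c => Subtype.ext (φ.alg' c) }
  have h1 : X.lift φ x = X.map i (X.lift (ψ.comp φ) x) := by
    apply X.lift_unique
    rw [map_map]
    exact X.lift_spec (ψ.comp φ) x
  have h2 : X.lift ψ (X.pl φ x) = X.map j (X.lift (ψ.comp φ) x) := by
    apply X.lift_unique
    rw [map_map, pl_eq, h1, map_map]
    rfl
  rw [pl_eq, pl_eq X ψ, h2, map_map]
  rfl

end

variable [IsIntegral X.A]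

section
variable {L M : Type u} [Field L] [Field M] [Algebra K L] [Algebra K M]

/-- the point -/
def ptt (x : X.Pt L) : X.A := PT.pt (f := X.f) x

/-- the map on the stalk -/
def stt (x : X.Pt L) : X.A.presheaf.stalk (X.ptt x) →+* L := (PT.st (f := X.f) x).hom

theorem stt_algK (x : X.Pt L) (c : K) : X.stt x ((algK X.f (X.ptt x)).hom c) = algebraMap K L c := by
  have := PT.algK_st (f := X.f) x
  exact congrArg (fun t => t.hom c) this

theorem isUnit_of_stt (x : X.Pt L) (s : X.A.presheaf.stalk (X.ptt x)) (h : X.stt x s ≠ 0) :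
    IsUnit s :=
  (inferInstance : IsLocalHom (PT.st (f := X.f) x).hom).map_nonunit s (isUnit_iff_ne_zero.2 h)

/-- the local ring of a point -/
def O (x : X.Pt L) : Subalgebra K (FF X.f) := OO X.f (X.ptt x)

theorem mem_O (x : X.Pt L) (a : FF X.f) : a ∈ X.O x ↔ ∃ s, toFF X.f (X.ptt x) s = a := Iff.rfl

/-- the values at a point -/
def ev (x : X.Pt L) : X.O x →ₐ[K] L where
  toRingHom := (X.stt x).comp (eOO X.f (X.ptt x)).symm.toRingHom
  commutes' c := by
    have h : (eOO X.f (X.ptt x)).symm (algebraMap K (OO X.f (X.ptt x)) c) =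
        (algK X.f (X.ptt x)).hom c := by
      rw [RingEquiv.symm_apply_eq]
      exact Subtype.ext (toFF_algK X.f _ c).symm
    change X.stt x ((eOO X.f (X.ptt x)).symm (algebraMap K (OO X.f (X.ptt x)) c)) = _
    rw [h, stt_algK]

theorem ev_toFF (x : X.Pt L) (s : X.A.presheaf.stalk (X.ptt x)) (h : toFF X.f (X.ptt x) s ∈ X.O x) :
    X.ev x ⟨toFF X.f (X.ptt x) s, h⟩ = X.stt x s := by
  have h : (eOO X.f (X.ptt x)).symm ⟨toFF X.f (X.ptt x) s, h⟩ = s := by
    rw [RingEquiv.symm_apply_eq]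
    rfl
  change X.stt x ((eOO X.f (X.ptt x)).symm ⟨toFF X.f (X.ptt x) s, _⟩) = _
  rw [h]

theorem ev_inv (x : X.Pt L) (a : X.O x) (ha : X.ev x a ≠ 0) : (a : FF X.f)⁻¹ ∈ X.O x := by
  obtain ⟨_, s, rfl⟩ := a
  rw [ev_toFF] at ha
  obtain ⟨t, ht⟩ := (X.isUnit_of_stt x s ha).exists_right_inv
  refine ⟨t, ?_⟩
  refine eq_inv_of_mul_eq_one_right ?_
  rw [← map_mul, ht, map_one]

end

end GSch

end Fermat.Agent.S26A
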