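import Fermat.Agent.S26A.Sch1d
import Fermat.Agent.S26A.Dom6
import Fermat.Agent.S26A.AVar

/-!
# Assembly of the `AVar` of a commutative group scheme
-/

set_option autoImplicit false
set_option linter.unusedSectionVars false
noncomputable section
universe u
open CategoryTheory CategoryTheory.Limits AlgebraicGeometry NeronModelInfra GoodReductionJacobian
open IsLocalRing

namespace Fermat.Agent.S26A.GSch

variable {K : Type u} [Field K] (X : GSch K) [IsProper X.f] [IsIntegral X.A]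
  (g : ℕ) [SmoothOfRelativeDimension g X.f]

section
variable {L M : Type u} [Field L] [Field M] [Algebra K L] [Algebra K M]

instance (x : X.Pt L) : IsLocalHom (X.stt x) :=
  inferInstanceAs (IsLocalHom (PT.st (f := X.f) x).hom)

theorem ev_eq (x : X.Pt L) (a : X.O x) : X.ev x a = X.stt x ((eOO X.f (X.ptt x)).symm a) := rfl

theorem cod0 (x : X.Pt L) (y : Fin g → X.O x)
    (hy : AlgebraicIndependent K (fun i => X.ev x (y i))) : X.O x = ⊤ :=
  OO_eq_top X.f g (X.ptt x) (X.stt x) (X.stt_algK x)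
    (fun i => (eOO X.f (X.ptt x)).symm (y i)) hy

theorem cod1 (x : X.Pt L) (y : Fin (g - 1) → X.O x)
    (hy : AlgebraicIndependent K (fun i => X.ev x (y i))) (a : FF X.f) :
    a ∈ X.O x ∨ a⁻¹ ∈ X.O x :=
  OO_valuation X.f g (X.ptt x) (X.stt x) (X.stt_algK x)
    (fun i => (eOO X.f (X.ptt x)).symm (y i)) hy a

end

/-- the abelian variety, given torsion, curves and coordinates -/
def mkAVar
    (tors : ∀ n : ℕ, (n : K) ≠ 0 → ∀ {L : Type u} [Field L] [Algebra K L] (x : X.Pt L), n • x = 0 →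
      ∃ a : X.Pt K, X.pl (Pl.ofHom (Algebra.ofId K L)) a = x)
    (nsm_gen : ∀ n : ℕ, (n : K) ≠ 0 → X.O (n • X.gen) = ⊤)
    (nsm_sep : ∀ n : ℕ, (n : K) ≠ 0 → ∀ D : Derivation K (FF X.f) (FF X.f),
      (∀ a : X.O (n • X.gen), D (X.ev (n • X.gen) a) = 0) → D = 0)
    (FC : Fin g → Type u) [fFC : ∀ j, Field (FC j)] [aFC : ∀ j, Algebra K (FC j)]
    [ffC : ∀ j, Fermat.Agent.RR.FunField K (FC j)]
    (ι : ∀ j, X.Pt (FC j)) (o : ∀ j, Pl K (FC j) K) (ι_o : ∀ j, X.pl (o j) (ι j) = 0)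
    (sum_gen : ∀ {L : Type u} [Field L] [Algebra K L] (z : ∀ j, FC j →ₐ[K] L) (t : ∀ j, FC j),
      AlgebraicIndependent K (fun j => z j (t j)) →
      X.O (∑ j, X.pl (Pl.ofHom (z j)) (ι j)) = ⊤)
    (co : Fin g → FF X.f)
    (coΘ : ∀ H : Finset (X.Pt K), ∃ (p : X.Pt K) (Θ : X.O p →ₐ[K] MvPowerSeries (Fin g) K),
      ∀ a ∈ H, ∃ τ : Fin g → X.O p,
        (∀ i, ∃ h : co i ∈ X.O (X.gen + X.pl (Pl.ofHom (Algebra.ofId K (FF X.f))) a),
          ((τ i : X.O p) : FF X.f) =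
            X.ev (X.gen + X.pl (Pl.ofHom (Algebra.ofId K (FF X.f))) a) ⟨co i, h⟩) ∧
        LinearIndependent K (fun i : Fin g => fun j : Fin g =>
          MvPowerSeries.coeff (Finsupp.single j 1) (Θ (τ i)))) :
    AVar K g where
  F := FF X.f
  P L _ _ := X.Pt L
  gP L _ _ := inferInstanceAs (AddCommGroup (X.Pt L))
  pl φ := X.pl φ
  pl_id _ _ _ x := X.pl_id x
  pl_comp ψ φ x := X.pl_comp ψ φ x
  O x := X.O x
  ev x := X.ev x
  ev_inv x a ha := X.ev_inv x a ha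
  pl_ev φ x a := X.pl_ev φ x a
  map_O σ x := X.map_O σ x
  sp_unique φ x v h := X.sp_unique φ x v h
  gen := X.gen
  O_gen := X.O_gen
  ev_gen a := X.ev_gen a
  desc x E h := X.desc x E h
  fg := fg_FF X.f g
  tr := trdeg_FF X.f g
  cod0 x y h := X.cod0 g x y h
  cod1 x y h := X.cod1 g x y h
  tors n hn _ _ _ x hx := tors n hn x hx
  nsm_gen n hn := nsm_gen n hn
  nsm_sep n hn := nsm_sep n hn
  FC := FC
  ι := ι
  o := o
  ι_o := ι_o
  sum_gen z t h := sum_gen z t h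
  co := co
  coΘ := coΘ

end Fermat.Agent.S26A.GSch
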