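import Fermat.Agent.S26A.Ext1
import Fermat.Agent.S27A.BC2

/-!
# Extension of places to algebraically independent curves
-/

set_option autoImplicit false
set_option linter.style.haveILetI false

noncomputable section

namespace Fermat.Agent.S26A

open Polynomial AlgebraicCurve Fermat.Agent.RR Fermat.Agent.MW IntermediateField
open scoped TensorProduct

universe u

section Lin

variable {K L C : Type u} [Field K] [IsAlgClosed K] [Field L] [Field C] [Algebra K L] [Algebra K C]
  [hC : FunField K C] (E : IntermediateField K L) [IsAlgClosed E] (z : C →ₐ[K] L)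

/-- the compositum -/
def cmp : IntermediateField E L := IntermediateField.adjoin E (Set.range z)

theorem mem_cmp (f : C) : z f ∈ cmp E z := IntermediateField.subset_adjoin _ _ ⟨f, rfl⟩

instance algCmp : Algebra C (cmp E z) :=
  (z.toRingHom.codRestrict (cmp E z).toSubfield (mem_cmp E z)).toAlgebra

theorem algCmp_apply (f : C) : ((algebraMap C (cmp E z) f : cmp E z) : L) = z f := rfl

variable {E z}

theorem cext_cmp {t : C} (ht : Transcendental E (z t)) : CExt K E C (cmp E z) where
  comm a := by
    apply Subtype.ext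
    rw [algCmp_apply, z.commutes]
    rfl
  gen E' h := by
    rw [eq_top_iff]
    have h1 : cmp E z ≤ IntermediateField.lift E' := by
      refine IntermediateField.adjoin_le_iff.2 ?_
      rintro _ ⟨f, rfl⟩
      exact (IntermediateField.mem_lift (⟨z f, mem_cmp E z f⟩ : cmp E z)).2 (h f)
    intro x _
    exact (IntermediateField.mem_lift x).1 (h1 x.2)
  tr f := by
    rintro ⟨a, ha⟩
    have ha' : (a : L) = z f := congrArg Subtype.val ha
    by_contra hcon
    have hf : Transcendental K f := by
      intro h1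
      obtain ⟨c, hc⟩ := mem_range_of_alg (L₀ := K) h1
      exact hcon ⟨c, hc⟩
    haveI := RR.fd (K := K) hf
    -- `t` is algebraic over `K(f)`
    have h2 : IsAlgebraic K⟮f⟯ t := Algebra.IsAlgebraic.isAlgebraic t
    apply ht
    let F' : IntermediateField K C := IntermediateField.comap z (E)
    have h3 : K⟮f⟯ ≤ F' := by
      rw [IntermediateField.adjoin_simple_le_iff]
      change z f ∈ E
      rw [← ha']
      exact a.2
    obtain ⟨p, hp0, hp⟩ := h2
    let ψ : K⟮f⟯ →+* E := ((z.toRingHom.comp K⟮f⟯.toSubfield.subtype).codRestrict E.toSubfield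
      (fun x => h3 x.2))
    refine ⟨p.map ψ, (Polynomial.map_ne_zero_iff ψ.injective).2 hp0, ?_⟩
    have h4 : aeval (z t) (p.map ψ) = z (aeval t p) := by
      rw [aeval_def, eval₂_map, aeval_def]
      change _ = z.toRingHom (eval₂ _ t p)
      rw [hom_eval₂]
      rfl
    rw [h4, hp, map_zero]

theorem funField_cmp {t : C} (ht : Transcendental E (z t)) : FunField E (cmp E z) := by
  haveI := cext_cmp ht
  have htK : Transcendental K t := by
    intro h1
    obtain ⟨c, rfl⟩ := mem_range_of_alg (L₀ := K) h1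
    apply ht
    rw [z.commutes, IsScalarTower.algebraMap_apply K E L]
    exact isAlgebraic_algebraMap _
  haveI := RR.fd (K := K) htK
  haveI := (finrank_bc_le (K := K) (K' := E) (F := C) (F' := cmp E z) t).1
  refine ⟨bc C (cmp E z) t, ?_, inferInstance⟩
  intro h1
  apply ht
  obtain ⟨p, hp0, hp⟩ := h1
  refine ⟨p, hp0, ?_⟩
  have := congrArg Subtype.val hp
  have h5 := aeval_algHom_apply (cmp E z).val (bc C (cmp E z) t) p
  change aeval (z t) p = _ at h5
  rw [h5, hp, map_zero]

/-- **linear disjointness** -/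
theorem linInd_of_tr {t : C} (ht : Transcendental E (z t)) {ι : Type*} {u : ι → C}
    (hu : LinearIndependent K u) : LinearIndependent E (fun i => z (u i)) := by
  haveI := cext_cmp ht
  haveI := funField_cmp ht
  have h1 := S27A.linInd_bc (K := K) (K' := E) (F := C) (F' := cmp E z) hu
  exact h1.map' (cmp E z).val.toLinearMap (LinearMap.ker_eq_bot.2 (cmp E z).val.injective)

theorem disj_of_tr {t : C} (ht : Transcendental E (z t)) (R : Subalgebra K L)
    (hR : ∀ x ∈ R, x ∈ E) (B : Subalgebra K C) : R.LinearDisjoint (B.map z) := by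
  let b := Module.Basis.ofVectorSpace K B
  let e : B ≃ₐ[K] B.map z := Subalgebra.equivMapOfInjective B z z.injective
  let b' := b.map e.toLinearEquiv
  refine Subalgebra.LinearDisjoint.of_basis_right R (B.map z) b' ?_
  have hu : LinearIndependent K (fun i => ((b i : B) : C)) :=
    b.linearIndependent.map' B.val.toLinearMap (LinearMap.ker_eq_bot.2 Subtype.val_injective)
  have h1 := linInd_of_tr ht hu
  rw [linearIndependent_iff'] at h1 ⊢
  intro s g hg i hi
  have h2 := h1 s (fun i => ⟨(g i : L), hR _ (g i).2⟩) (by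
    rw [← hg]
    refine Finset.sum_congr rfl fun i _ => ?_
    rfl) i hi
  have h3 : ((g i : R) : L) = 0 := congrArg (fun x : E => (x : L)) h2
  exact Subtype.ext h3

end Lin

section KL

variable {K L M C : Type u} [Field K] [IsAlgClosed K] [Field L] [Field M] [IsAlgClosed M] [Field C]
  [Algebra K L] [Algebra K M] [Algebra K C]
  [hC : FunField K C] (E : IntermediateField K L) [IsAlgClosed E] (z : C →ₐ[K] L)

/-- the valuation ring as a subalgebra -/
def Pl.alg {K L M : Type u} [Field K] [Field L] [Field M] [Algebra K L] [Algebra K M]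
    (φ : Pl K L M) : Subalgebra K L := { φ.V.toSubring with algebraMap_mem' := φ.mem' }

/-- the residue map as an algebra homomorphism -/
def Pl.algρ {K L M : Type u} [Field K] [Field L] [Field M] [Algebra K L] [Algebra K M]
    (φ : Pl K L M) : φ.alg →ₐ[K] M := { φ.ρ with commutes' := φ.alg' }

/-- **extension of a place and of a place of an independent curve** -/
theorem exists_pl_two {t : C} (ht : Transcendental E (z t)) (φ₀ : Pl K L M) (w : Pl K C M) :
    ∃ φ : Pl K L M, (∀ a ∈ E, ∀ b, φ₀.At a b → φ.At a b) ∧ φ.comp (Pl.ofHom z) = w := by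
  let R : Subalgebra K L := φ₀.alg ⊓ E.toSubalgebra
  have hd := disj_of_tr (K := K) (E := E) (z := z) ht R (fun x hx => hx.2) w.alg
  let e₁ : R →ₐ[K] M := φ₀.algρ.comp (Subalgebra.inclusion inf_le_left)
  let iz : w.alg ≃ₐ[K] w.alg.map z := Subalgebra.equivMapOfInjective w.alg z z.injective
  let e₂ : w.alg.map z →ₐ[K] M := w.algρ.comp iz.symm.toAlgHom
  let e : (R ⊔ w.alg.map z : Subalgebra K L) →ₐ[K] M :=
    (Algebra.TensorProduct.productMap e₁ e₂).comp hd.mulMap.symm.toAlgHom
  obtain ⟨φ, hφ⟩ := exists_pl (R ⊔ w.alg.map z) e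
  have key : ∀ (a : R) (b : w.alg.map z), φ.At ((a : L) * b) (e₁ a * e₂ b) := by
    intro a b
    have h1 := hφ (hd.mulMap (a ⊗ₜ[K] b))
    have h2 : e (hd.mulMap (a ⊗ₜ[K] b)) = e₁ a * e₂ b := by
      change (Algebra.TensorProduct.productMap e₁ e₂) (hd.mulMap.symm (hd.mulMap _)) = _
      rw [AlgEquiv.symm_apply_apply, Algebra.TensorProduct.productMap_apply_tmul]
    rw [h2] at h1
    exact h1
  refine ⟨φ, ?_, ?_⟩
  · rintro a ha b ⟨h1, rfl⟩
    have h2 := key ⟨a, h1, ha⟩ 1
    rw [map_one, mul_one] at h2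
    have h3 : (((1 : w.alg.map z) : L)) = 1 := rfl
    rw [h3, mul_one] at h2
    exact h2
  · refine (Pl.eq_of_at fun a b hab => ?_).symm
    obtain ⟨h1, rfl⟩ := hab
    refine Pl.comp_at (Pl.ofHom_at z a) ?_
    have h2 := key 1 (iz ⟨a, h1⟩)
    rw [map_one, one_mul] at h2
    have h3 : (((1 : R) : L)) = 1 := rfl
    rw [h3, one_mul] at h2
    have h4 : e₂ (iz ⟨a, h1⟩) = w.ρ ⟨a, h1⟩ := by
      change w.algρ (iz.symm (iz _)) = _
      rw [AlgEquiv.symm_apply_apply]
      rfl
    rw [h4] at h2
    exact h2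

end KL

end Fermat.Agent.S26A
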