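import Fermat.Agent.S26A.Sch3a

/-!
# Extension of places to families of algebraically independent curves
-/

set_option autoImplicit false
set_option linter.style.haveILetI false

noncomputable section

namespace Fermat.Agent.S26A

open Polynomial AlgebraicCurve Fermat.Agent.RR Fermat.Agent.MW IntermediateField
open scoped TensorProduct

universe u

variable {K L M : Type u} [Field K] [IsAlgClosed K] [Field L] [Field M] [IsAlgClosed M]
  [Algebra K L] [Algebra K M]

/-- the relative algebraic closure -/
def clS (K : Type u) {L : Type u} [Field K] [Field L] [Algebra K L] (S : Set L) :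
    IntermediateField K L :=
  IntermediateField.restrictScalars K (algebraicClosure (IntermediateField.adjoin K S) L)

omit [IsAlgClosed K] in
theorem clS_alg [IsAlgClosed L] (S : Set L) : IsAlgClosed (clS K S) :=
  IsAlgClosure.isAlgClosed (K := algebraicClosure (IntermediateField.adjoin K S) L)
    (IntermediateField.adjoin K S)

open scoped IntermediateField.algebraAdjoinAdjoin in
omit [IsAlgClosed K] in
theorem mem_clS {S : Set L} {x : L} : x ∈ clS K S ↔ IsAlgebraic (Algebra.adjoin K S) x := by
  have h1 : x ∈ clS K S ↔ IsAlgebraic (IntermediateField.adjoin K S) x :=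
    mem_algebraicClosure_iff
  rw [h1]
  exact (IsFractionRing.isAlgebraic_iff (Algebra.adjoin K S) (IntermediateField.adjoin K S) L).symm

open scoped IntermediateField.algebraAdjoinAdjoin in
omit [IsAlgClosed K] in
theorem tr_clS {S : Set L} {x : L} (h : Transcendental (Algebra.adjoin K S) x) :
    Transcendental (clS K S) x := by
  intro h1
  apply h
  rw [IsFractionRing.isAlgebraic_iff (Algebra.adjoin K S) (IntermediateField.adjoin K S) L]
  have h2 : IsAlgebraic (algebraicClosure (IntermediateField.adjoin K S) L) x := h1
  exact h2.restrictScalars (IntermediateField.adjoin K S)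

/-- **extension of places of independent curves** -/
theorem exists_pl_family {n : ℕ} {FC : Fin n → Type u} [∀ i, Field (FC i)]
    [∀ i, Algebra K (FC i)] [∀ i, FunField K (FC i)] (z : ∀ i, FC i →ₐ[K] L) (t : ∀ i, FC i)
    (ht : AlgebraicIndependent K (fun i => z i (t i))) (w : ∀ i, Pl K (FC i) M) :
    ∃ φ : Pl K L M, ∀ i, φ.comp (Pl.ofHom (z i)) = w i := by
  classical
  -- the algebraically closed case
  have key : ∀ (L : Type u) [Field L] [IsAlgClosed L] [Algebra K L] (z : ∀ i, FC i →ₐ[K] L)
      (_ : AlgebraicIndependent K (fun i => z i (t i))),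
      ∃ φ : Pl K L M, ∀ i, φ.comp (Pl.ofHom (z i)) = w i := by
    intro L _ _ _ z ht
    have h : ∀ s : Finset (Fin n), ∃ φ : Pl K L M, ∀ i ∈ s, φ.comp (Pl.ofHom (z i)) = w i := by
      intro s
      induction s using Finset.induction_on with
      | empty =>
        obtain ⟨φ, -⟩ := exists_pl (K := K) (L := L) (M := M) ⊥
          ((Algebra.ofId K M).comp (Algebra.botEquiv K L).toAlgHom)
        exact ⟨φ, by simp⟩
      | insert a s ha ih =>
        obtain ⟨φ₀, h₀⟩ := ih
        set S : Set L := (fun i => z i (t i)) '' (s : Set (Fin n)) with hS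
        haveI := clS_alg (K := K) S
        have htr : Transcendental (clS K S) (z a (t a)) :=
          tr_clS (ht.transcendental_adjoin (s := (s : Set (Fin n))) (i := a) (by simpa using ha))
        obtain ⟨φ, h1, h2⟩ := exists_pl_two (clS K S) (z a) htr φ₀ (w a)
        refine ⟨φ, fun i hi => ?_⟩
        rcases Finset.mem_insert.1 hi with rfl | hi
        · exact h2
        · refine (Pl.eq_of_at fun x b hxb => ?_).symm
          rw [← h₀ i hi, Pl.comp_at_iff] at hxb
          obtain ⟨c, hc, hc'⟩ := hxb
          have e : c = z i x := hc.uniq (Pl.ofHom_at (z i) x)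
          subst e
          refine Pl.comp_at (Pl.ofHom_at (z i) x) (h1 _ ?_ b hc')
          -- `z i x` is algebraic over `z i (t i)`
          have htK : Transcendental K (t i) := by
            intro hal
            have := ht.transcendental i
            exact this (hal.algHom (z i))
          haveI := RR.fd (K := K) htK
          have h3 : IsAlgebraic K⟮t i⟯ x := Algebra.IsAlgebraic.isAlgebraic x
          let F' : IntermediateField K (FC i) := IntermediateField.comap (z i) (clS K S)
          have h4 : K⟮t i⟯ ≤ F' := by
            rw [IntermediateField.adjoin_simple_le_iff]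
            change z i (t i) ∈ clS K S
            rw [mem_clS]
            exact isAlgebraic_algebraMap
              (⟨z i (t i), Algebra.subset_adjoin ⟨i, hi, rfl⟩⟩ : Algebra.adjoin K S)
          obtain ⟨p, hp0, hp⟩ := h3
          let ψ : K⟮t i⟯ →+* clS K S :=
            ((z i).toRingHom.comp K⟮t i⟯.toSubfield.subtype).codRestrict (clS K S).toSubfield
              (fun x => h4 x.2)
          have h5 : IsAlgebraic (clS K S) (z i x) := by
            refine ⟨p.map ψ, (Polynomial.map_ne_zero_iff ψ.injective).2 hp0, ?_⟩
            have h6 : aeval (z i x) (p.map ψ) = z i (aeval x p) := by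
              rw [aeval_def, eval₂_map, aeval_def]
              change _ = (z i).toRingHom (eval₂ _ x p)
              rw [hom_eval₂]
              rfl
            rw [h6, hp, map_zero]
          obtain ⟨c, hc⟩ := mem_range_of_alg (L₀ := clS K S) h5
          rw [← hc]
          exact c.2
    obtain ⟨φ, hφ⟩ := h Finset.univ
    exact ⟨φ, fun i => hφ i (Finset.mem_univ i)⟩
  let j : L →ₐ[K] AlgebraicClosure L := IsScalarTower.toAlgHom K L (AlgebraicClosure L)
  obtain ⟨φ, hφ⟩ := key (AlgebraicClosure L) (fun i => j.comp (z i)) (by
    have := ht.map' (f := j) j.injective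
    exact this)
  refine ⟨φ.comp (Pl.ofHom j), fun i => ?_⟩
  rw [Pl.comp_assoc, Pl.ofHom_comp]
  exact hφ i

end Fermat.Agent.S26A
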