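import Fermat.Agent.S26A.Sch3b
import Fermat.Agent.RR.LSpace

/-!
# Generating curves
-/

set_option autoImplicit false
set_option linter.style.haveILetI false

noncomputable section

namespace Fermat.Agent.S26A

open Polynomial AlgebraicCurve Fermat.Agent.RR Fermat.Agent.MW

universe u

/-- the data of an abelian variety needed for the construction of generating curves -/
structure Pre (K : Type u) [Field K] (g : ℕ) where
  F : Type u
  [fF : Field F]
  [aF : Algebra K F]
  P : (L : Type u) → [Field L] → [Algebra K L] → Type u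
  [gP : ∀ (L : Type u) [Field L] [Algebra K L], AddCommGroup (P L)]
  pl : ∀ {L M : Type u} [Field L] [Field M] [Algebra K L] [Algebra K M], Pl K L M → (P L →+ P M)
  pl_comp : ∀ {L M N : Type u} [Field L] [Field M] [Field N] [Algebra K L] [Algebra K M]
    [Algebra K N] (ψ : Pl K M N) (φ : Pl K L M) (x : P L), pl (ψ.comp φ) x = pl ψ (pl φ x)
  O : ∀ {L : Type u} [Field L] [Algebra K L], P L → Subalgebra K F
  ev : ∀ {L : Type u} [Field L] [Algebra K L] (x : P L), O x →ₐ[K] L
  pl_ev : ∀ {L M : Type u} [Field L] [Field M] [Algebra K L] [Algebra K M] (φ : Pl K L M) (x : P L)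
    (f : O (pl φ x)), ∃ h : (f : F) ∈ O x, φ.At (ev x ⟨f, h⟩) (ev (pl φ x) f)
  map_O : ∀ {L M : Type u} [Field L] [Field M] [Algebra K L] [Algebra K M] (σ : L →ₐ[K] M) (x : P L),
    O (pl (Pl.ofHom σ) x) = O x
  tr : Algebra.trdeg K F = g
  cod0 : ∀ {L : Type u} [Field L] [Algebra K L] (x : P L) (y : Fin g → O x),
    AlgebraicIndependent K (fun i => ev x (y i)) → O x = ⊤
  frac : ∀ f : F, ∃ a b : O (0 : P K), (b : F) ≠ 0 ∧ f * b = a
  curve : ∀ f : O (0 : P K), f ≠ 0 → ∃ (C : Type u) (_ : Field C) (_ : Algebra K C)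
    (_ : FunField K C) (x : P C) (o : Pl K C K), pl o x = 0 ∧
      ∀ h : (f : F) ∈ O x, ev x ⟨f, h⟩ ≠ 0

attribute [instance] Pre.fF Pre.aF Pre.gP

namespace Pre

variable {K : Type u} [Field K] {g : ℕ} (X : Pre K g)

/-- a curve through `0` -/
structure Cv where
  C : Type u
  [fC : Field C]
  [aC : Algebra K C]
  [ffC : FunField K C]
  x : X.P C
  o : Pl K C K
  h : X.pl o x = 0

attribute [instance] Cv.fC Cv.aC Cv.ffC

variable {X}

/-- the sum of points on curves -/
def sm {j : ℕ} (c : Fin j → X.Cv) {L : Type u} [Field L] [Algebra K L]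
    (z : ∀ i, (c i).C →ₐ[K] L) : X.P L := ∑ i, X.pl (Pl.ofHom (z i)) (c i).x

theorem pl_sm {j : ℕ} (c : Fin j → X.Cv) {L M : Type u} [Field L] [Algebra K L] [Field M]
    [Algebra K M] (z : ∀ i, (c i).C →ₐ[K] L) (φ : Pl K L M) :
    X.pl φ (sm c z) = ∑ i, X.pl (φ.comp (Pl.ofHom (z i))) (c i).x := by
  rw [sm, map_sum]
  exact Finset.sum_congr rfl fun i _ => (X.pl_comp _ _ _).symm

theorem pl_sm' {j : ℕ} (c : Fin j → X.Cv) {L M : Type u} [Field L] [Algebra K L] [Field M]
    [Algebra K M] (z : ∀ i, (c i).C →ₐ[K] L) (z' : ∀ i, (c i).C →ₐ[K] M) (φ : Pl K L M)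
    (h : ∀ i, φ.comp (Pl.ofHom (z i)) = Pl.ofHom (z' i)) :
    X.pl φ (sm c z) = sm c z' := by
  rw [pl_sm, sm]
  exact Finset.sum_congr rfl fun i _ => by rw [h]

theorem O_le {L M : Type u} [Field L] [Algebra K L] [Field M]
    [Algebra K M] (φ : Pl K L M) (x : X.P L) : X.O (X.pl φ x) ≤ X.O x :=
  fun f hf => (X.pl_ev φ x ⟨f, hf⟩).1

theorem pl_ev' {L M : Type u} [Field L] [Algebra K L] [Field M]
    [Algebra K M] (φ : Pl K L M) (x : X.P L) (y : X.P M) (h : X.pl φ x = y) (f : X.F)
    (hf : f ∈ X.O y) (hf' : f ∈ X.O x) : φ.At (X.ev x ⟨f, hf'⟩) (X.ev y ⟨f, hf⟩) := by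
  subst h
  exact (X.pl_ev φ x ⟨f, hf⟩).2

theorem ev_ofHom {L M : Type u} [Field L] [Algebra K L] [Field M]
    [Algebra K M] (σ : L →ₐ[K] M) (x : X.P L) (y : X.P M) (h : X.pl (Pl.ofHom σ) x = y) (f : X.F)
    (hf : f ∈ X.O y) (hf' : f ∈ X.O x) : X.ev y ⟨f, hf⟩ = σ (X.ev x ⟨f, hf'⟩) :=
  (pl_ev' (Pl.ofHom σ) x y h f hf hf').uniq (Pl.ofHom_at σ _)

/-- good systems of curves -/
def Good {j : ℕ} (c : Fin j → X.Cv) (f : Fin j → X.F) : Prop :=
  ∀ (L : Type u) [Field L] [Algebra K L] (z : ∀ i, (c i).C →ₐ[K] L) (t : ∀ i, (c i).C),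
    AlgebraicIndependent K (fun i => z i (t i)) →
    ∃ h : ∀ i, f i ∈ X.O (sm c z), AlgebraicIndependent K (fun i => X.ev (sm c z) ⟨f i, h i⟩)

end Pre

/-- the valuation argument -/
theorem algInd_of_pl {K L M : Type u} [Field K] [Field L] [Field M] [Algebra K L] [Algebra K M]
    (φ : Pl K L M) {j : ℕ} (u : Fin (j + 1) → L) (v : Fin j → M) (hv : AlgebraicIndependent K v)
    (h : ∀ i : Fin j, φ.At (u i.castSucc) (v i)) (hl : φ.At (u (Fin.last j)) 0)
    (h0 : u (Fin.last j) ≠ 0) : AlgebraicIndependent K u := by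
  classical
  set u' : Fin j → L := fun i => u i.castSucc with hu'
  -- values of polynomials
  have key : ∀ p : MvPolynomial (Fin j) K, φ.At (MvPolynomial.aeval u' p) (MvPolynomial.aeval v p) := by
    intro p
    induction p using MvPolynomial.induction_on with
    | C a => simpa using φ.at_alg a
    | add p q hp hq => simpa using hp.add hq
    | mul_X p i hp => simpa using hp.mul (h i)
  have hu : AlgebraicIndependent K u' := by
    rw [algebraicIndependent_iff]
    intro p hp
    have h1 := key p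
    rw [hp] at h1
    exact (algebraicIndependent_iff.1 hv) p (h1.uniq φ.at_zero)
  have htr : Transcendental (Algebra.adjoin K (Set.range u')) (u (Fin.last j)) := by
    intro hal
    obtain ⟨q, hq0, hq⟩ := hal.exists_nonzero_coeff_and_aeval_eq_zero
      (mem_nonZeroDivisors_of_ne_zero h0)
    -- every element of `adjoin` is finite
    have hR : ∀ r : Algebra.adjoin K (Set.range u'), ∃ b, φ.At (r : L) b ∧ (b = 0 → r = 0) := by
      rintro ⟨r, hr⟩
      rw [Algebra.adjoin_range_eq_range_aeval] at hr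
      obtain ⟨p, rfl⟩ := hr
      refine ⟨_, key p, fun hb => ?_⟩
      have : p = 0 := (algebraicIndependent_iff.1 hv) p hb
      subst this
      exact Subtype.ext (map_zero _)
    have hQ : ∀ p : Polynomial (Algebra.adjoin K (Set.range u')),
        ∃ b, φ.At (aeval (u (Fin.last j)) p) b := by
      intro p
      induction p using Polynomial.induction_on with
      | C a =>
        obtain ⟨b, hb, -⟩ := hR a
        refine ⟨b, ?_⟩
        rw [aeval_C]
        exact hb
      | add p q hp hq =>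
        obtain ⟨b, hb⟩ := hp
        obtain ⟨c, hc⟩ := hq
        refine ⟨b + c, ?_⟩
        rw [map_add]
        exact hb.add hc
      | monomial n a hp =>
        obtain ⟨b, hb⟩ := hp
        refine ⟨b * 0, ?_⟩
        rw [pow_succ, ← mul_assoc, map_mul, aeval_X]
        exact hb.mul hl
    obtain ⟨b, hb⟩ := hQ q.divX
    obtain ⟨b0, hb0, hb0'⟩ := hR (q.coeff 0)
    have h1 := Polynomial.divX_mul_X_add q
    rw [← h1, map_add, map_mul, aeval_X, aeval_C] at hq
    have h2 : φ.At 0 (b * 0 + b0) := by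
      rw [← hq]
      exact (hb.mul hl).add hb0
    have h3 := h2.uniq φ.at_zero
    rw [mul_zero, zero_add] at h3
    exact hq0 (hb0' h3)
  have h4 := (hu.option_iff_transcendental (u (Fin.last j))).2 htr
  have h5 := h4.comp (finSuccEquivLast : Fin (j + 1) ≃ Option (Fin j)) (Equiv.injective _)
  convert h5 using 1
  funext i
  refine Fin.lastCases ?_ (fun i => ?_) i
  · simp
  · simp [hu']

end Fermat.Agent.S26A
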