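import Fermat.Agent.S26A.Sch3c

/-!
# Generating curves (induction)
-/

set_option autoImplicit false
set_option linter.style.haveILetI false

noncomputable section

namespace Fermat.Agent.S26A

open Polynomial AlgebraicCurve Fermat.Agent.RR Fermat.Agent.MW IntermediateField

universe u

namespace Pre

variable {K : Type u} [Field K] [IsAlgClosed K] {g : ℕ} {X : Pre K g}

omit [IsAlgClosed K] in
theorem O_zero (M : Type u) [Field M] [Algebra K M] : X.O (0 : X.P M) = X.O (0 : X.P K) := by
  have := X.map_O (Algebra.ofId K M) 0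
  rwa [map_zero] at this

omit [IsAlgClosed K] in
theorem pl_zero_of (c : X.Cv) {M : Type u} [Field M] [Algebra K M] :
    X.pl ((Pl.ofHom (Algebra.ofId K M)).comp c.o) c.x = 0 := by
  rw [X.pl_comp, c.h, map_zero]

theorem O_zero_le {j : ℕ} (c : Fin j → X.Cv) {L : Type u} [Field L] [Algebra K L]
    (z : ∀ i, (c i).C →ₐ[K] L) (t : ∀ i, (c i).C)
    (ht : AlgebraicIndependent K (fun i => z i (t i))) : X.O (0 : X.P K) ≤ X.O (sm c z) := by
  obtain ⟨φ, hφ⟩ := exists_pl_family (M := AlgebraicClosure L) z t ht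
    (fun i => (Pl.ofHom (Algebra.ofId K _)).comp (c i).o)
  have h := O_le φ (sm c z)
  rw [pl_sm] at h
  have h2 : ∑ i, X.pl (φ.comp (Pl.ofHom (z i))) (c i).x = 0 :=
    Finset.sum_eq_zero fun i _ => by rw [hφ, pl_zero_of]
  rwa [h2, O_zero] at h

omit [IsAlgClosed K] in
theorem O_zero_le_cv (c : X.Cv) : X.O (0 : X.P K) ≤ X.O c.x := by
  have := O_le c.o c.x
  rwa [c.h] at this

/-- vanishing on sums of points -/
def Van {j : ℕ} (c : Fin j → X.Cv) (φ : X.F) : Prop :=
  ∀ (L : Type u) [Field L] [Algebra K L] (z : ∀ i : Fin j, (c i).C →ₐ[K] L)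
      (t : ∀ i : Fin j, (c i).C), AlgebraicIndependent K (fun i => z i (t i)) →
      ∀ h : φ ∈ X.O (sm c z), X.ev (sm c z) ⟨φ, h⟩ = 0

/-- the induction step -/
theorem Good.step {j : ℕ} {c : Fin (j + 1) → X.Cv} {f : Fin (j + 1) → X.F}
    (hG : Good (fun i : Fin j => c i.castSucc) (fun i : Fin j => f i.castSucc))
    (hf : ∀ i, f i ∈ X.O (0 : X.P K))
    (h1 : ∀ h : f (Fin.last j) ∈ X.O (c (Fin.last j)).x,
      X.ev (c (Fin.last j)).x ⟨f (Fin.last j), h⟩ ≠ 0)
    (h2 : Van (fun i : Fin j => c i.castSucc) (f (Fin.last j))) :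
    Good c f := by
  intro L _ _ z t ht
  have hO := O_zero_le c z t ht
  refine ⟨fun i => hO (hf i), ?_⟩
  let M := AlgebraicClosure L
  let J : L →ₐ[K] M := IsScalarTower.toAlgHom K L M
  -- place (a)
  let wa : ∀ i, Pl K (c i).C M := Fin.lastCases (motive := fun i => Pl K (c i).C M)
    ((Pl.ofHom (Algebra.ofId K M)).comp (c (Fin.last j)).o)
    (fun i => Pl.ofHom (J.comp (z i.castSucc)))
  obtain ⟨a, ha⟩ := exists_pl_family (M := M) z t ht wa
  let z' : ∀ i : Fin j, (c i.castSucc).C →ₐ[K] M := fun i => J.comp (z i.castSucc)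
  have hya : X.pl a (sm c z) = sm (fun i : Fin j => c i.castSucc) z' := by
    rw [pl_sm, Fin.sum_univ_castSucc, ha]
    have e1 : wa (Fin.last j) = (Pl.ofHom (Algebra.ofId K M)).comp (c (Fin.last j)).o :=
      Fin.lastCases_last
    rw [e1, pl_zero_of, add_zero, sm]
    refine Finset.sum_congr rfl fun i _ => ?_
    rw [ha]
    have e2 : wa i.castSucc = Pl.ofHom (J.comp (z i.castSucc)) := Fin.lastCases_castSucc i
    rw [e2]
  -- place (b)
  let wb : ∀ i, Pl K (c i).C M := Fin.lastCases (motive := fun i => Pl K (c i).C M)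
    (Pl.ofHom (J.comp (z (Fin.last j))))
    (fun i => (Pl.ofHom (Algebra.ofId K M)).comp (c i.castSucc).o)
  obtain ⟨b, hb⟩ := exists_pl_family (M := M) z t ht wb
  have hyb : X.pl b (sm c z) = X.pl (Pl.ofHom (J.comp (z (Fin.last j)))) (c (Fin.last j)).x := by
    rw [pl_sm, Fin.sum_univ_castSucc, hb]
    have e1 : wb (Fin.last j) = Pl.ofHom (J.comp (z (Fin.last j))) := Fin.lastCases_last
    rw [e1]
    refine add_eq_right.2 (Finset.sum_eq_zero fun i _ => ?_)
    rw [hb]
    have e2 : wb i.castSucc = (Pl.ofHom (Algebra.ofId K M)).comp (c i.castSucc).o :=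
      Fin.lastCases_castSucc i
    rw [e2, pl_zero_of]
  have htJ : AlgebraicIndependent K (fun i : Fin j => z' i (t i.castSucc)) := by
    have h3 := ht.comp (Fin.castSucc : Fin j → Fin (j + 1)) (Fin.castSucc_injective j)
    exact h3.map' (f := J) J.injective
  obtain ⟨h, hv⟩ := hG M z' (fun i => t i.castSucc) htJ
  refine algInd_of_pl a _ _ hv (fun i => ?_) ?_ ?_
  · exact pl_ev' a (sm c z) _ hya _ (h i) _
  · have h5 : f (Fin.last j) ∈ X.O (sm (fun i : Fin j => c i.castSucc) z') :=
      O_zero_le (fun i : Fin j => c i.castSucc) z' (fun i => t i.castSucc) htJ (hf _)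
    have h6 := pl_ev' a (sm c z) _ hya _ h5 (hO (hf _))
    rwa [h2 M z' (fun i => t i.castSucc) htJ h5] at h6
  · intro h7
    have h8 : f (Fin.last j) ∈ X.O (c (Fin.last j)).x := O_zero_le_cv _ (hf _)
    have h9 : f (Fin.last j) ∈ X.O (X.pl (Pl.ofHom (J.comp (z (Fin.last j)))) (c (Fin.last j)).x) := by
      rw [X.map_O]
      exact h8
    have h10 := pl_ev' b (sm c z) _ hyb _ h9 (hO (hf _))
    rw [h7] at h10
    have h11 := h10.uniq b.at_zero
    rw [ev_ofHom (J.comp (z (Fin.last j))) (c (Fin.last j)).x _ rfl _ h9 h8] at h11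
    exact h1 h8 ((map_eq_zero_iff _ (RingHom.injective (J.comp (z (Fin.last j))).toRingHom)).1 h11)

end Pre

/-- a large algebraically closed field -/
abbrev Mj (K : Type u) [Field K] (j : ℕ) : Type u :=
  AlgebraicClosure (FractionRing (MvPolynomial (Fin j) K))

instance faithful_Mj (K : Type u) [Field K] (j : ℕ) :
    FaithfulSMul (MvPolynomial (Fin j) K) (Mj K j) := by
  rw [faithfulSMul_iff_algebraMap_injective,
    IsScalarTower.algebraMap_eq (MvPolynomial (Fin j) K) (FractionRing (MvPolynomial (Fin j) K))]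
  exact (algebraMap (FractionRing (MvPolynomial (Fin j) K)) (Mj K j)).injective.comp
    (IsFractionRing.injective _ _)

theorem trdeg_Mj (K : Type u) [Field K] (j : ℕ) : Algebra.trdeg K (Mj K j) = j := by
  have h1 := _root_.trdeg_add_eq K (MvPolynomial (Fin j) K) (A := Mj K j)
  have h2 : Algebra.trdeg K (MvPolynomial (Fin j) K) = j := by
    rw [MvPolynomial.trdeg_of_isDomain]
    simp
  haveI : Algebra.IsAlgebraic (MvPolynomial (Fin j) K) (Mj K j) :=
    (IsFractionRing.comap_isAlgebraic_iff (K := FractionRing (MvPolynomial (Fin j) K))).2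
      inferInstance
  rw [h2, trdeg_eq_zero (R := MvPolynomial (Fin j) K), add_zero] at h1
  exact h1.symm

open scoped IntermediateField.algebraAdjoinAdjoin in
/-- embeddings of function fields -/
theorem exists_emb {K C M : Type u} [Field K] [Field C] [Algebra K C] [hF : FunField K C] [Field M]
    [Algebra K M] [IsAlgClosed M] (m : M) (hm : Transcendental K m) :
    ∃ (z : C →ₐ[K] M) (t : C), z t = m := by
  obtain ⟨t, ht, hfd⟩ := hF.out
  letI : Algebra K[X] C := (aeval t).toAlgebra
  letI : Algebra K[X] M := (aeval m).toAlgebra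
  haveI : IsScalarTower K K[X] C := IsScalarTower.of_algebraMap_eq fun a => by
    change _ = aeval t (algebraMap K K[X] a)
    simp
  haveI : IsScalarTower K K[X] M := IsScalarTower.of_algebraMap_eq fun a => by
    change _ = aeval m (algebraMap K K[X] a)
    simp
  haveI : FaithfulSMul K[X] C := (faithfulSMul_iff_algebraMap_injective _ _).2
    (transcendental_iff_injective.1 ht)
  haveI : FaithfulSMul K[X] M := (faithfulSMul_iff_algebraMap_injective _ _).2
    (transcendental_iff_injective.1 hm)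
  haveI : Algebra.IsAlgebraic K[X] C := by
    constructor
    intro x
    have h3 : IsAlgebraic K⟮t⟯ x := Algebra.IsAlgebraic.isAlgebraic x
    have h4 : IsAlgebraic (Algebra.adjoin K {t}) x :=
      (IsFractionRing.isAlgebraic_iff (Algebra.adjoin K {t}) K⟮t⟯ C).2 h3
    obtain ⟨p, hp0, hp⟩ := h4
    let π : K[X] →+* Algebra.adjoin K {t} :=
      ((aeval t : K[X] →ₐ[K] C).codRestrict (Algebra.adjoin K {t}) (fun p => by
        rw [Algebra.adjoin_singleton_eq_range_aeval]
        exact ⟨p, rfl⟩)).toRingHom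
    have hπ : Function.Surjective π := by
      rintro ⟨y, hy⟩
      rw [Algebra.adjoin_singleton_eq_range_aeval] at hy
      obtain ⟨q, hq⟩ := hy
      exact ⟨q, Subtype.ext hq⟩
    obtain ⟨q, rfl⟩ := Polynomial.map_surjective π hπ p
    refine ⟨q, fun h => hp0 (by rw [h, Polynomial.map_zero]), ?_⟩
    rw [aeval_def, eval₂_map] at hp
    rw [aeval_def]
    exact hp
  let z : C →ₐ[K[X]] M := IsAlgClosed.lift
  refine ⟨z.restrictScalars K, t, ?_⟩
  have h5 : z (algebraMap K[X] C Polynomial.X) = algebraMap K[X] M Polynomial.X := z.commutes _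
  have h6 : algebraMap K[X] C Polynomial.X = t := aeval_X t
  have h7 : algebraMap K[X] M Polynomial.X = m := aeval_X m
  rw [h6, h7] at h5
  exact h5

namespace Pre

variable {K : Type u} [Field K] [IsAlgClosed K] {g : ℕ} {X : Pre K g}

omit [IsAlgClosed K] in
/-- functions vanishing at a point of small dimension -/
theorem exists_van {j : ℕ} (hj : j < g) (x : X.P (Mj K j))
    (hx : X.O (0 : X.P K) ≤ X.O x) :
    ∃ f : X.O (0 : X.P K), f ≠ 0 ∧ X.ev x ⟨f, hx f.2⟩ = 0 := by
  by_contra hcon
  push Not at hcon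
  let e : X.O (0 : X.P K) →ₐ[K] Mj K j := (X.ev x).comp (Subalgebra.inclusion hx)
  have he : Function.Injective e := by
    rw [injective_iff_map_eq_zero]
    intro f hf
    by_contra h0
    exact hcon f h0 hf
  have h1 := _root_.trdeg_le_of_injective e he
  haveI : Algebra.IsAlgebraic (X.O (0 : X.P K)) X.F := by
    constructor
    intro f
    obtain ⟨a, b, hb, hab⟩ := X.frac f
    refine ⟨Polynomial.C b * Polynomial.X - Polynomial.C a, ?_, ?_⟩
    · intro h
      have h2 := congrArg (fun p => Polynomial.coeff p 1) h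
      simp [Polynomial.coeff_C] at h2
      exact hb (congrArg Subtype.val h2)
    · simp only [map_sub, map_mul, aeval_C, aeval_X]
      change (b : X.F) * f - a = 0
      rw [mul_comm, hab, sub_self]
  have h2 := _root_.trdeg_add_eq K (X.O (0 : X.P K)) (A := X.F)
  rw [trdeg_eq_zero (R := X.O (0 : X.P K)), add_zero, X.tr] at h2
  rw [h2, trdeg_Mj] at h1
  exact absurd (Nat.cast_le.1 h1) (by omega)

/-- a model -/
theorem exists_model {j : ℕ} (c : Fin j → X.Cv) : ∃ (z : ∀ i, (c i).C →ₐ[K] Mj K j)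
    (t : ∀ i, (c i).C), AlgebraicIndependent K (fun i => z i (t i)) := by
  have h0 : AlgebraicIndependent K
      (fun i : Fin j => algebraMap (MvPolynomial (Fin j) K) (Mj K j) (MvPolynomial.X i)) := by
    have h1 := MvPolynomial.algebraicIndependent_X (Fin j) K
    exact h1.map' (f := IsScalarTower.toAlgHom K (MvPolynomial (Fin j) K) (Mj K j))
      (FaithfulSMul.algebraMap_injective _ _)
  have h2 : ∀ i, ∃ (z : (c i).C →ₐ[K] Mj K j) (t : (c i).C),
      z t = algebraMap (MvPolynomial (Fin j) K) (Mj K j) (MvPolynomial.X i) := fun i =>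
    exists_emb _ (h0.transcendental i)
  choose z t h using h2
  refine ⟨z, t, ?_⟩
  have : (fun i => z i (t i)) =
      (fun i : Fin j => algebraMap (MvPolynomial (Fin j) K) (Mj K j) (MvPolynomial.X i)) :=
    funext h
  rw [this]
  exact h0

/-- the induction -/
theorem exists_good (j : ℕ) (hj : j ≤ g) : ∃ (c : Fin j → X.Cv) (f : Fin j → X.F),
    (∀ i, f i ∈ X.O (0 : X.P K)) ∧ Good c f := by
  induction j with
  | zero =>
    refine ⟨fun i => i.elim0, fun i => i.elim0, fun i => i.elim0, ?_⟩
    intro L _ _ z t ht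
    refine ⟨fun i => i.elim0, ?_⟩
    rw [algebraicIndependent_empty_type_iff]
    exact (algebraMap K L).injective
  | succ j ih =>
    obtain ⟨c, f, hf, hG⟩ := ih (by omega)
    obtain ⟨z₀, t₀, h₀⟩ := exists_model c
    obtain ⟨φ, hφ, hev⟩ := exists_van (X := X) (j := j) (by omega) (sm c z₀) (O_zero_le c z₀ t₀ h₀)
    obtain ⟨C, i1, i2, i3, x, o, ho, hx⟩ := X.curve φ hφ
    let c₁ : X.Cv := { C := C, x := x, o := o, h := ho }
    let c' : Fin (j + 1) → X.Cv := Fin.snoc (α := fun _ => X.Cv) c c₁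
    let f' : Fin (j + 1) → X.F := Fin.snoc (α := fun _ => X.F) f (φ : X.F)
    have hc' : (fun i : Fin j => c' i.castSucc) = c := funext fun i => by simp [c']
    have hf' : (fun i : Fin j => f' i.castSucc) = f := funext fun i => by simp [f']
    have hcl : c' (Fin.last j) = c₁ := by simp [c']
    have hfl : f' (Fin.last j) = (φ : X.F) := by simp [f']
    refine ⟨c', f', fun i => ?_, ?_⟩
    · refine Fin.lastCases ?_ (fun i => ?_) i
      · rw [hfl]; exact φ.2
      · have := congrFun hf' i
        change f' i.castSucc = f i at this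
        rw [this]; exact hf i
    · refine Good.step ?_ ?_ ?_ ?_
      · rw [hc', hf']
        exact hG
      · intro i
        refine Fin.lastCases ?_ (fun i => ?_) i
        · rw [hfl]; exact φ.2
        · have := congrFun hf' i
          change f' i.castSucc = f i at this
          rw [this]; exact hf i
      · rw [hcl, hfl]
        exact hx
      · rw [hfl, hc']
        intro L _ _ z t ht h
        obtain ⟨ψ, hψ⟩ := exists_pl_family (M := AlgebraicClosure L) z₀ t₀ h₀
          (fun i => Pl.ofHom ((IsScalarTower.toAlgHom K L (AlgebraicClosure L)).comp (z i)))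
        have h1 : X.pl (Pl.ofHom (IsScalarTower.toAlgHom K L (AlgebraicClosure L))) (sm c z) =
            X.pl ψ (sm c z₀) := by
          rw [pl_sm, pl_sm]
          refine Finset.sum_congr rfl fun i _ => ?_
          rw [hψ, Pl.ofHom_comp]
        have h2 : (φ : X.F) ∈ X.O (X.pl ψ (sm c z₀)) := by
          rw [← h1, X.map_O]
          exact h
        have h3 := pl_ev' ψ (sm c z₀) _ rfl _ h2 (O_zero_le c z₀ t₀ h₀ φ.2)
        rw [hev] at h3
        have h4 := h3.uniq ψ.at_zero
        rw [ev_ofHom _ (sm c z) _ h1 _ h2 h] at h4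
        exact (map_eq_zero_iff _ (RingHom.injective
          (IsScalarTower.toAlgHom K L (AlgebraicClosure L)).toRingHom)).1 h4

/-- **generating curves** -/
theorem exists_gen (X : Pre K g) : ∃ c : Fin g → X.Cv, ∀ {L : Type u} [Field L] [Algebra K L]
    (z : ∀ j, (c j).C →ₐ[K] L) (t : ∀ j, (c j).C), AlgebraicIndependent K (fun j => z j (t j)) →
    X.O (∑ j, X.pl (Pl.ofHom (z j)) (c j).x) = ⊤ := by
  obtain ⟨c, f, hf, hG⟩ := exists_good (X := X) g le_rfl
  refine ⟨c, fun {L} _ _ z t ht => ?_⟩
  obtain ⟨h, h'⟩ := hG L z t ht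
  exact X.cod0 _ _ h'

end Pre

end Fermat.Agent.S26A
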