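import Fermat.Agent.S26A.Sch0

/-!
# Morphisms from the spectrum of a local ring
-/

set_option autoImplicit false
set_option linter.style.haveILetI false

universe u

noncomputable section

namespace Fermat.Agent.S26A

open CategoryTheory CategoryTheory.Limits AlgebraicGeometry TopologicalSpace

section Joint

variable {X : Scheme.{u}} {R R₁ R₂ : CommRingCat.{u}} [IsLocalRing R] [IsLocalRing R₁]

omit [IsLocalRing R] [IsLocalRing R₁] in
theorem app_cancel (φ : R ⟶ R₁) {a b : Γ(Spec R, ⊤)}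
    (h : (Spec.map φ).appTop a = (Spec.map φ).appTop b) :
    φ ((Scheme.ΓSpecIso R).hom a) = φ ((Scheme.ΓSpecIso R).hom b) := by
  have h1 := Scheme.ΓSpecIso_naturality φ
  have h2 : ∀ c : Γ(Spec R, ⊤), (Scheme.ΓSpecIso R₁).hom ((Spec.map φ).appTop c) =
      φ ((Scheme.ΓSpecIso R).hom c) := fun c => by
    have := congrArg (fun ψ => ψ.hom c) h1
    exact this
  rw [← h2, ← h2, h]

/-- **joint injectivity** -/
theorem hom_ext_joint (φ₁ : R ⟶ R₁) (φ₂ : R ⟶ R₂) [IsLocalHom φ₁.hom]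
    (hinj : ∀ a b : R, φ₁ a = φ₁ b → φ₂ a = φ₂ b → a = b) {z z' : Spec R ⟶ X}
    (h₁ : Spec.map φ₁ ≫ z = Spec.map φ₁ ≫ z') (h₂ : Spec.map φ₂ ≫ z = Spec.map φ₂ ≫ z') :
    z = z' := by
  obtain ⟨U, hU, hxU⟩ : ∃ U : X.Opens, IsAffineOpen U ∧ z (IsLocalRing.closedPoint R) ∈ U := by
    obtain ⟨_, ⟨U, hU, rfl⟩, hxU, -⟩ := X.isBasis_affineOpens.exists_subset_of_mem_open
      (Set.mem_univ (z (IsLocalRing.closedPoint R))) isOpen_univ
    exact ⟨U, hU, hxU⟩
  have hpt : z' (IsLocalRing.closedPoint R) = z (IsLocalRing.closedPoint R) := by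
    have e1 : (Spec.map φ₁) (IsLocalRing.closedPoint R₁) = IsLocalRing.closedPoint R :=
      Spec_closedPoint
    have e2 : z ((Spec.map φ₁) (IsLocalRing.closedPoint R₁)) =
        z' ((Spec.map φ₁) (IsLocalRing.closedPoint R₁)) :=
      congrArg (fun (ψ : Spec R₁ ⟶ X) => ψ.base (IsLocalRing.closedPoint R₁)) h₁
    rw [e1] at e2
    exact e2.symm
  have hxU' : z' (IsLocalRing.closedPoint R) ∈ U := by rw [hpt]; exact hxU
  have r1 : Set.range z ⊆ Set.range U.ι := by
    rintro _ ⟨y, rfl⟩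
    rw [Scheme.Opens.range_ι]
    have : y ∈ z ⁻¹ᵁ U := by
      rw [Scheme.preimage_eq_top_of_closedPoint_mem z hxU]; trivial
    exact this
  have r2 : Set.range z' ⊆ Set.range U.ι := by
    rintro _ ⟨y, rfl⟩
    rw [Scheme.Opens.range_ι]
    have : y ∈ z' ⁻¹ᵁ U := by
      rw [Scheme.preimage_eq_top_of_closedPoint_mem z' hxU']; trivial
    exact this
  have f1 := IsOpenImmersion.lift_fac U.ι z r1
  have f2 := IsOpenImmersion.lift_fac U.ι z' r2
  haveI : IsAffine U := hU
  have key : IsOpenImmersion.lift U.ι z r1 = IsOpenImmersion.lift U.ι z' r2 := by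
    generalize IsOpenImmersion.lift U.ι z r1 = y at f1 ⊢
    generalize IsOpenImmersion.lift U.ι z' r2 = y' at f2 ⊢
    subst f1 f2
    have g1 : Spec.map φ₁ ≫ y = Spec.map φ₁ ≫ y' := by
      rw [← cancel_mono U.ι, Category.assoc, Category.assoc, h₁]
    have g2 : Spec.map φ₂ ≫ y = Spec.map φ₂ ≫ y' := by
      rw [← cancel_mono U.ι, Category.assoc, Category.assoc, h₂]
    apply ext_of_isAffine
    ext a
    have k1 : (Spec.map φ₁).appTop (y.appTop a) = (Spec.map φ₁).appTop (y'.appTop a) := by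
      have := congrArg (fun ψ : Spec R₁ ⟶ U => ψ.appTop.hom a) g1
      simpa only [Scheme.Hom.comp_appTop, CommRingCat.hom_comp, RingHom.comp_apply] using this
    have k2 : (Spec.map φ₂).appTop (y.appTop a) = (Spec.map φ₂).appTop (y'.appTop a) := by
      have := congrArg (fun ψ : Spec R₂ ⟶ U => ψ.appTop.hom a) g2
      simpa only [Scheme.Hom.comp_appTop, CommRingCat.hom_comp, RingHom.comp_apply] using this
    have k3 := hinj _ _ (app_cancel φ₁ k1) (by
      have h1 := Scheme.ΓSpecIso_naturality φ₂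
      have h2 : ∀ c : Γ(Spec R, ⊤), (Scheme.ΓSpecIso R₂).hom ((Spec.map φ₂).appTop c) =
          φ₂ ((Scheme.ΓSpecIso R).hom c) := fun c => by
        have := congrArg (fun ψ => ψ.hom c) h1
        exact this
      rw [← h2, ← h2, k2])
    exact (Scheme.ΓSpecIso R).commRingCatIsoToRingEquiv.injective k3
  rw [← f1, ← f2, key]

end Joint

end Fermat.Agent.S26A
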