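import Fermat.Agent.S26A.Sch4a

/-!
# Dual numbers: there is no torsion in the tangent space
-/

set_option autoImplicit false
set_option linter.style.haveILetI false

universe u

noncomputable section

namespace Fermat.Agent.S26A

open CategoryTheory CategoryTheory.Limits AlgebraicGeometry

/-- square zero extensions of a field are local -/
theorem isLocalRing_tsze {L M : Type*} [Field L] [AddCommGroup M] [Module L M] [Module Lᵐᵒᵖ M]
    [IsCentralScalar L M] : IsLocalRing (TrivSqZeroExt L M) := by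
  haveI : Nontrivial (TrivSqZeroExt L M) := by
    refine ⟨0, 1, fun h => ?_⟩
    have := congrArg TrivSqZeroExt.fst h
    rw [TrivSqZeroExt.fst_zero, TrivSqZeroExt.fst_one] at this
    exact zero_ne_one this
  refine IsLocalRing.of_isUnit_or_isUnit_one_sub_self fun a => ?_
  rw [TrivSqZeroExt.isUnit_iff_isUnit_fst, TrivSqZeroExt.isUnit_iff_isUnit_fst,
    TrivSqZeroExt.fst_sub, TrivSqZeroExt.fst_one, isUnit_iff_ne_zero, isUnit_iff_ne_zero]
  by_contra h
  push Not at h
  rw [h.1, sub_zero] at h
  exact one_ne_zero h.2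

namespace GSch

variable {K : Type u} [Field K] (X : GSch K) (L : Type u) [Field L] [Algebra K L]

/-- the dual numbers -/
abbrev D1 : Type u := TrivSqZeroExt L L

/-- the dual numbers in two variables -/
abbrev D2 : Type u := TrivSqZeroExt L (L × L)

variable {L}

/-- induced map -/
def mp {M N : Type u} [AddCommGroup M] [Module L M] [Module Lᵐᵒᵖ M] [IsCentralScalar L M]
    [AddCommGroup N] [Module L N] [Module Lᵐᵒᵖ N] [IsCentralScalar L N] [Module K M] [Module K N]
    [IsScalarTower K L M] [IsScalarTower K L N]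
    (g : M →ₗ[L] N) : TrivSqZeroExt L M →ₐ[K] TrivSqZeroExt L N :=
  (TrivSqZeroExt.map g).restrictScalars K

theorem mp_comp {M N P : Type u} [AddCommGroup M] [Module L M] [Module Lᵐᵒᵖ M]
    [IsCentralScalar L M]
    [AddCommGroup N] [Module L N] [Module Lᵐᵒᵖ N] [IsCentralScalar L N]
    [AddCommGroup P] [Module L P] [Module Lᵐᵒᵖ P] [IsCentralScalar L P]
    [Module K M] [Module K N] [Module K P]
    [IsScalarTower K L M] [IsScalarTower K L N] [IsScalarTower K L P]
    (h : N →ₗ[L] P) (g : M →ₗ[L] N) :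
    (mp (K := K) h).comp (mp (K := K) g) = mp (K := K) (h.comp g) := by
  apply AlgHom.ext
  intro a
  change TrivSqZeroExt.map h (TrivSqZeroExt.map g a) = TrivSqZeroExt.map (h.comp g) a
  rw [TrivSqZeroExt.map_comp_map]
  rfl

/-- the reduction -/
abbrev red (K : Type u) [Field K] (L : Type u) [Field L] [Algebra K L] : D1 L →ₐ[K] L :=
  TrivSqZeroExt.fstHom K L L

theorem mp_zero : mp (K := K) (0 : L →ₗ[L] L) = (TrivSqZeroExt.inlAlgHom K L L).comp (red K L) := by
  apply AlgHom.ext
  intro a
  change TrivSqZeroExt.map (0 : L →ₗ[L] L) a = TrivSqZeroExt.inl (TrivSqZeroExt.fst a)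
  apply TrivSqZeroExt.ext
  · rw [TrivSqZeroExt.fst_map, TrivSqZeroExt.fst_inl]
  · rw [TrivSqZeroExt.snd_map, TrivSqZeroExt.snd_inl, LinearMap.zero_apply]

theorem mp_id : mp (K := K) (LinearMap.id : L →ₗ[L] L) = AlgHom.id K (D1 L) := by
  apply AlgHom.ext
  intro a
  change TrivSqZeroExt.map (LinearMap.id : L →ₗ[L] L) a = a
  rw [TrivSqZeroExt.map_id]
  rfl

variable {X}

theorem map_mp_zero {x : X.Pt (D1 L)} (hx : X.map (red K L) x = 0) :
    X.map (mp (0 : L →ₗ[L] L)) x = 0 := by
  rw [mp_zero, ← map_map, hx, map_zero]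

/-- joint injectivity for the dual numbers in two variables -/
theorem pt_ext_D2 {z z' : X.Pt (D2 L)}
    (h1 : X.map (mp (LinearMap.fst L L L)) z = X.map (mp (LinearMap.fst L L L)) z')
    (h2 : X.map (mp (LinearMap.snd L L L)) z = X.map (mp (LinearMap.snd L L L)) z') :
    z = z' := by
  haveI i1 : IsLocalRing (CommRingCat.of (D2 L)) := isLocalRing_tsze (L := L) (M := L × L)
  haveI i2 : IsLocalRing (CommRingCat.of (D1 L)) := isLocalRing_tsze (L := L) (M := L)
  apply Pt.ext'
  let φ₁ : CommRingCat.of (D2 L) ⟶ CommRingCat.of (D1 L) :=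
    CommRingCat.ofHom (mp (K := K) (LinearMap.fst L L L)).toRingHom
  let φ₂ : CommRingCat.of (D2 L) ⟶ CommRingCat.of (D1 L) :=
    CommRingCat.ofHom (mp (K := K) (LinearMap.snd L L L)).toRingHom
  haveI : IsLocalHom φ₁.hom := by
    refine ⟨fun a ha => ?_⟩
    have ha' : IsUnit (TrivSqZeroExt.map (LinearMap.fst L L L) a) := ha
    rw [TrivSqZeroExt.isUnit_iff_isUnit_fst, TrivSqZeroExt.fst_map] at ha'
    exact TrivSqZeroExt.isUnit_iff_isUnit_fst.2 ha'
  refine hom_ext_joint φ₁ φ₂ ?_ (congrArg Pt.m h1) (congrArg Pt.m h2)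
  intro a b ha hb
  have ha' : TrivSqZeroExt.map (LinearMap.fst L L L) a =
    TrivSqZeroExt.map (LinearMap.fst L L L) b := ha
  have hb' : TrivSqZeroExt.map (LinearMap.snd L L L) a =
    TrivSqZeroExt.map (LinearMap.snd L L L) b := hb
  apply TrivSqZeroExt.ext
  · have := congrArg TrivSqZeroExt.fst ha'
    rwa [TrivSqZeroExt.fst_map, TrivSqZeroExt.fst_map] at this
  · have h3 := congrArg TrivSqZeroExt.snd ha'
    have h4 := congrArg TrivSqZeroExt.snd hb'
    rw [TrivSqZeroExt.snd_map, TrivSqZeroExt.snd_map] at h3 h4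
    exact Prod.ext h3 h4

/-- **additivity** -/
theorem map_mp_add {x : X.Pt (D1 L)} (hx : X.map (red K L) x = 0) (g h : L →ₗ[L] L) :
    X.map (mp (g + h)) x = X.map (mp g) x + X.map (mp h) x := by
  have key : X.map (mp (g.prod h)) x =
      X.map (mp ((LinearMap.inl L L L).comp g)) x + X.map (mp ((LinearMap.inr L L L).comp h)) x := by
    apply pt_ext_D2
    · rw [map_add, map_map, map_map, map_map, mp_comp, mp_comp, mp_comp]
      have e1 : (LinearMap.fst L L L).comp (g.prod h) = g := by ext; rfl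
      have e2 : (LinearMap.fst L L L).comp ((LinearMap.inl L L L).comp g) = g := by ext; rfl
      have e3 : (LinearMap.fst L L L).comp ((LinearMap.inr L L L).comp h) = 0 := by ext; rfl
      rw [e1, e2, e3, map_mp_zero hx, add_zero]
    · rw [map_add, map_map, map_map, map_map, mp_comp, mp_comp, mp_comp]
      have e1 : (LinearMap.snd L L L).comp (g.prod h) = h := by ext; rfl
      have e2 : (LinearMap.snd L L L).comp ((LinearMap.inl L L L).comp g) = 0 := by ext; rfl
      have e3 : (LinearMap.snd L L L).comp ((LinearMap.inr L L L).comp h) = h := by ext; rfl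
      rw [e1, e2, e3, map_mp_zero hx, zero_add]
  have h2 := congrArg (X.map (mp (LinearMap.fst L L L + LinearMap.snd L L L))) key
  rw [map_add, map_map, map_map, map_map, mp_comp, mp_comp, mp_comp] at h2
  have e1 : (LinearMap.fst L L L + LinearMap.snd L L L).comp (g.prod h) = g + h := by
    ext; rfl
  have e2 : (LinearMap.fst L L L + LinearMap.snd L L L).comp ((LinearMap.inl L L L).comp g) = g := by
    ext; simp
  have e3 : (LinearMap.fst L L L + LinearMap.snd L L L).comp ((LinearMap.inr L L L).comp h) = h := by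
    ext; simp
  rwa [e1, e2, e3] at h2

theorem map_mp_nsmul {x : X.Pt (D1 L)} (hx : X.map (red K L) x = 0) (n : ℕ) :
    X.map (mp (n • (LinearMap.id : L →ₗ[L] L))) x = n • x := by
  induction n with
  | zero => rw [zero_smul, zero_smul, map_mp_zero hx]
  | succ n ih => rw [succ_nsmul, map_mp_add hx, ih, mp_id, map_id', succ_nsmul]

/-- **the tangent space has no torsion** -/
theorem eq_zero_of_nsmul {x : X.Pt (D1 L)} (hx : X.map (red K L) x = 0) {n : ℕ}
    (hn : (n : K) ≠ 0) (h : n • x = 0) : x = 0 := by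
  have hn' : (n : L) ≠ 0 := by
    intro h0
    apply hn
    apply (algebraMap K L).injective
    rw [map_natCast, h0, map_zero]
  have h1 := map_mp_nsmul hx n
  rw [h] at h1
  have h2 := congrArg (X.map (mp ((n : L)⁻¹ • (LinearMap.id : L →ₗ[L] L)))) h1
  rw [map_map, mp_comp, map_zero] at h2
  have e : ((n : L)⁻¹ • (LinearMap.id : L →ₗ[L] L)).comp (n • (LinearMap.id : L →ₗ[L] L)) =
      LinearMap.id := by
    ext
    simp [hn']
  rw [e, mp_id, map_id'] at h2
  exact h2

/-- torsion points of the same reduction coincide -/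
theorem eq_of_nsmul {x y : X.Pt (D1 L)} (hxy : X.map (red K L) x = X.map (red K L) y) {n : ℕ}
    (hn : (n : K) ≠ 0) (h : n • x = n • y) : x = y := by
  rw [← sub_eq_zero]
  apply eq_zero_of_nsmul (n := n) _ hn
  · rw [smul_sub, h, sub_self]
  · rw [map_sub, hxy, sub_self]

end GSch

end Fermat.Agent.S26A
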