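import Fermat.Agent.S26A.Sch1a
import Fermat.Agent.S26A.Sch4b

/-!
# Derivations and points
-/

set_option autoImplicit false
set_option linter.style.haveILetI false

universe u

noncomputable section

namespace Fermat.Agent.S26A

open CategoryTheory CategoryTheory.Limits AlgebraicGeometry NeronModelInfra GoodReductionJacobian
open IsLocalRing

variable {K : Type u} [Field K] {A : Scheme.{u}} {f : A ⟶ Spec (CommRingCat.of K)}

/-- multiples in the group of points -/
theorem grp_nsmul (G : RelativeGroupLaw K f) (hc : G.IsCommutative)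
    (R : Type u) [CommRing R] [Algebra K R] (n : ℕ) (x : PT f R) :
    letI := PT.grp G hc R
    n • x = G.nsmul _ n x := by
  letI := PT.grp G hc R
  change n • x = G.nsmul _ n x
  induction n with
  | zero => rw [zero_smul]; rfl
  | succ n ih => rw [succ_nsmul, ih]; rfl

theorem map_nsmul_grp (G : RelativeGroupLaw K f)
    {R S : Type u} [CommRing R] [Algebra K R] [CommRing S] [Algebra K S] (φ : R →ₐ[K] S)
    (n : ℕ) (x : PT f R) : PT.map φ (G.nsmul _ n x) = G.nsmul _ n (PT.map φ x) :=
  G.nsmul_natural _ _ _ _ n x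

/-- **torsion in the tangent space** -/
theorem eq_of_nsmul_D1 (G : RelativeGroupLaw K f) (hc : G.IsCommutative)
    {L : Type u} [Field L] [Algebra K L] {x y : PT f (GSch.D1 L)}
    (hxy : PT.map (GSch.red K L) x = PT.map (GSch.red K L) y) {n : ℕ}
    (hn : (n : K) ≠ 0) (h : G.nsmul _ n x = G.nsmul _ n y) : x = y := by
  let X : GSch K := ⟨A, f, G, hc⟩
  exact GSch.eq_of_nsmul (X := X) (L := L) (x := x) (y := y) hxy hn
    ((GSch.nsmul_def X n x).trans (Eq.trans h (GSch.nsmul_def X n y).symm))

section Loc

/-- points of a local ring with the same underlying point -/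
theorem PT.map_eq_iff {L R : Type u} [Field L] [Algebra K L] [CommRing R] [IsLocalRing R]
    [Algebra K R] (x : PT f L) (φ ψ : L →ₐ[K] R) :
    PT.map φ x = PT.map ψ x ↔ ∀ s : A.presheaf.stalk x.pt, φ (x.st.hom s) = ψ (x.st.hom s) := by
  haveI : IsLocalRing (CommRingCat.of R) := inferInstanceAs (IsLocalRing R)
  haveI : IsLocalRing (CommRingCat.of L) := inferInstanceAs (IsLocalRing L)
  have hx : Spec.map x.st ≫ A.fromSpecStalk x.pt = x.1 :=
    Scheme.Spec_stalkClosedPointTo_fromSpecStalk (R := CommRingCat.of L) x.1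
  have key : ∀ χ : L →ₐ[K] R, (PT.map χ x).1 =
      Spec.map (x.st ≫ CommRingCat.ofHom (χ : L →+* R)) ≫ A.fromSpecStalk x.pt := by
    intro χ
    rw [PT.map_val, Spec.map_comp, Category.assoc, hx]
  constructor
  · intro h s
    have hloc : ∀ χ : L →ₐ[K] R, IsLocalHom (x.st ≫ CommRingCat.ofHom (χ : L →+* R)).hom := by
      intro χ
      haveI h1 : IsLocalHom x.st.hom :=
        Scheme.isLocalHom_stalkClosedPointTo (R := CommRingCat.of L) x.1
      haveI h2 : IsLocalHom (CommRingCat.ofHom (χ : L →+* R)).hom := by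
        refine ⟨fun a ha => ?_⟩
        rw [isUnit_iff_ne_zero]
        rintro rfl
        have h3 : IsUnit ((χ : L →+* R) 0) := ha
        rw [map_zero] at h3
        exact not_isUnit_zero h3
      rw [CommRingCat.hom_comp]
      infer_instance
    have h1 : (SpecToEquivOfLocalRing A (CommRingCat.of R)).symm
        ⟨x.pt, x.st ≫ CommRingCat.ofHom (φ : L →+* R), hloc φ⟩ =
      (SpecToEquivOfLocalRing A (CommRingCat.of R)).symm
        ⟨x.pt, x.st ≫ CommRingCat.ofHom (ψ : L →+* R), hloc ψ⟩ := by
      have := congrArg Subtype.val h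
      rw [key, key] at this
      exact this
    have h2 := (SpecToEquivOfLocalRing A (CommRingCat.of R)).symm.injective h1
    have h3 := eq_of_heq (Sigma.mk.inj_iff.1 h2).2
    have h4 := congrArg (fun t => t.1.hom s) h3
    exact h4
  · intro h
    apply Subtype.ext
    rw [key, key]
    congr 2
    ext s
    exact h s

/-- the homomorphism to the dual numbers defined by a derivation -/
def derHom {L : Type u} [Field L] [Algebra K L] (D : Derivation K L L) : L →ₐ[K] GSch.D1 L :=
  AlgHom.ofLinearMap
    ((TrivSqZeroExt.inlAlgHom K L L).toLinearMap + ((TrivSqZeroExt.inrHom L L).restrictScalars K) ∘ₗ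
      (D : L →ₗ[K] L))
    (by
      change TrivSqZeroExt.inl (1 : L) + TrivSqZeroExt.inr (D 1) = 1
      rw [D.map_one_eq_zero, TrivSqZeroExt.inr_zero, add_zero, TrivSqZeroExt.inl_one])
    (by
      intro a b
      change TrivSqZeroExt.inl (a * b) + TrivSqZeroExt.inr (D (a * b)) =
        (TrivSqZeroExt.inl a + TrivSqZeroExt.inr (D a)) *
          (TrivSqZeroExt.inl b + TrivSqZeroExt.inr (D b))
      apply TrivSqZeroExt.ext
      · simp
      · simp [Derivation.leibniz, mul_comm])

theorem fst_derHom {L : Type u} [Field L] [Algebra K L] (D : Derivation K L L) (a : L) :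
    TrivSqZeroExt.fst (derHom D a) = a := by
  change TrivSqZeroExt.fst (TrivSqZeroExt.inl a + TrivSqZeroExt.inr (D a)) = a
  simp

theorem snd_derHom {L : Type u} [Field L] [Algebra K L] (D : Derivation K L L) (a : L) :
    TrivSqZeroExt.snd (derHom D a) = D a := by
  change TrivSqZeroExt.snd (TrivSqZeroExt.inl a + TrivSqZeroExt.inr (D a)) = D a
  simp

theorem red_derHom {L : Type u} [Field L] [Algebra K L] (D : Derivation K L L) :
    (GSch.red K L).comp (derHom D) = AlgHom.id K L := by
  apply AlgHom.ext
  intro a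
  exact fst_derHom D a

theorem derHom_eq_iff {L : Type u} [Field L] [Algebra K L] (D : Derivation K L L) (a : L) :
    derHom D a = derHom (0 : Derivation K L L) a ↔ D a = 0 := by
  constructor
  · intro h
    have := congrArg TrivSqZeroExt.snd h
    rwa [snd_derHom, snd_derHom] at this
  · intro h
    apply TrivSqZeroExt.ext
    · rw [fst_derHom, fst_derHom]
    · rw [snd_derHom, snd_derHom, h]; rfl

/-- **derivations vanishing on the values at `n x` vanish on the values at `x`** -/
theorem der_eq_zero (G : RelativeGroupLaw K f) (hc : G.IsCommutative)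
    {L : Type u} [Field L] [Algebra K L] (x : PT f L) {n : ℕ} (hn : (n : K) ≠ 0)
    (D : Derivation K L L)
    (hD : ∀ s, D ((PT.st (f := f) (R := L) (G.nsmul _ n x)).hom s) = 0) (s : A.presheaf.stalk x.pt) :
    D (x.st.hom s) = 0 := by
  haveI : IsLocalRing (GSch.D1 L) := isLocalRing_tsze
  have h1 : PT.map (derHom D) (G.nsmul _ n x : PT f L) = PT.map (derHom (0 : Derivation K L L)) (G.nsmul _ n x) := by
    rw [PT.map_eq_iff]
    intro s
    rw [derHom_eq_iff]
    exact hD s
  rw [map_nsmul_grp, map_nsmul_grp] at h1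
  have h2 : PT.map (derHom D) x = PT.map (derHom (0 : Derivation K L L)) x := by
    refine eq_of_nsmul_D1 G hc ?_ hn h1
    rw [PT.map_map, PT.map_map, red_derHom, red_derHom]
  rw [PT.map_eq_iff] at h2
  exact (derHom_eq_iff D _).1 (h2 s)

end Loc

end Fermat.Agent.S26A
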