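import Fermat.Agent.S26A.Ext1

/-!
# Étale coordinates near the translates of a point: the abstract half
-/

set_option autoImplicit false
set_option linter.style.haveILetI false

noncomputable section

namespace Fermat.Agent.S26A

open Polynomial

universe u

variable {K : Type u} [Field K]

/-- a place of `F` with a pole at an element which is not in a normal local ring -/
theorem exists_pl_of_notMem [IsAlgClosed K] {F : Type u} [Field F] [Algebra K F]
    (R : Subalgebra K F) (e : R →ₐ[K] K)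
    (hinv : ∀ r : R, e r ≠ 0 → (r : F)⁻¹ ∈ R)
    (hN : ∀ f : F, IsIntegral R f → f ∈ R) (f : F) (hf : f ∉ R) :
    ∃ φ : Pl K F K, (∀ r : R, φ.At (r : F) (e r)) ∧ φ.At f⁻¹ 0 := by
  have hf0 : f ≠ 0 := by
    rintro rfl
    exact hf (zero_mem _)
  set Φ : R[X] →ₐ[K] F := (aeval f⁻¹ : R[X] →ₐ[R] F).restrictScalars K with hΦ
  set E : R[X] →ₐ[K] K := (aeval (R := K) (A := K) 0 : K[X] →ₐ[K] K).comp
    (mapAlgHom e) with hE
  have hE' : ∀ p : R[X], E p = e (p.coeff 0) := by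
    intro p
    change aeval (0 : K) (p.map (e : R →+* K)) = _
    rw [← coeff_zero_eq_aeval_zero, coeff_map]
    rfl
  have hker : RingHom.ker Φ.rangeRestrict ≤ RingHom.ker E := by
    intro p hp
    rw [RingHom.mem_ker] at hp ⊢
    have hp' : aeval f⁻¹ p = 0 := congrArg Subtype.val hp
    rw [hE']
    by_contra h0
    apply hf
    apply hN
    -- `f` is integral
    have hu : (p.coeff 0 : F)⁻¹ ∈ R := hinv _ h0
    set u : R := ⟨_, hu⟩ with hu'
    have hc0 : (p.coeff 0 : F) ≠ 0 := by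
      intro h
      apply h0
      have : p.coeff 0 = 0 := Subtype.ext h
      rw [this, map_zero]
    have huc : u * p.coeff 0 = 1 := Subtype.ext (inv_mul_cancel₀ hc0)
    have hq0 : (C u * p).coeff 0 = 1 := by rw [coeff_C_mul, huc]
    have hq : aeval f⁻¹ (C u * p) = 0 := by rw [map_mul, hp', mul_zero]
    set q := C u * p with hqdef
    refine ⟨q.reverse, ?_, ?_⟩
    · rw [Monic, reverse_leadingCoeff, trailingCoeff_eq_coeff_zero (by rw [hq0]; exact one_ne_zero),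
        hq0]
    · letI : Invertible f⁻¹ := invertibleOfNonzero (inv_ne_zero hf0)
      have := (eval₂_reverse_eq_zero_iff (algebraMap R F) f⁻¹ q).2 hq
      rwa [invOf_eq_inv, inv_inv] at this
  obtain ⟨φ, hφ⟩ := exists_pl Φ.range (AlgHom.liftOfSurjective Φ.rangeRestrict
    Φ.rangeRestrict_surjective E hker)
  have hφ' : ∀ p : R[X], φ.At (aeval f⁻¹ p) (e (p.coeff 0)) := by
    intro p
    have h1 := hφ (Φ.rangeRestrict p)
    have h2 := AlgHom.liftOfSurjective_apply Φ.rangeRestrict Φ.rangeRestrict_surjective E hker p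
    rw [← hE', ← h2]
    exact h1
  refine ⟨φ, fun r => ?_, ?_⟩
  · simpa using hφ' (C r)
  · simpa using hφ' X

/-- the first fields of an abelian variety -/
structure AV0 (K : Type u) [Field K] where
  F : Type u
  [fF : Field F]
  [aF : Algebra K F]
  P : (L : Type u) → [Field L] → [Algebra K L] → Type u
  [gP : ∀ (L : Type u) [Field L] [Algebra K L], AddCommGroup (P L)]
  pl : ∀ {L M : Type u} [Field L] [Field M] [Algebra K L] [Algebra K M], Pl K L M → (P L →+ P M)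
  pl_id : ∀ (L : Type u) [Field L] [Algebra K L] (x : P L), pl (Pl.id K L) x = x
  pl_comp : ∀ {L M N : Type u} [Field L] [Field M] [Field N] [Algebra K L] [Algebra K M]
    [Algebra K N] (ψ : Pl K M N) (φ : Pl K L M) (x : P L), pl (ψ.comp φ) x = pl ψ (pl φ x)
  O : ∀ {L : Type u} [Field L] [Algebra K L], P L → Subalgebra K F
  ev : ∀ {L : Type u} [Field L] [Algebra K L] (x : P L), O x →ₐ[K] L
  ev_inv : ∀ {L : Type u} [Field L] [Algebra K L] (x : P L) (f : O x), ev x f ≠ 0 → (f : F)⁻¹ ∈ O x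
  pl_ev : ∀ {L M : Type u} [Field L] [Field M] [Algebra K L] [Algebra K M] (φ : Pl K L M) (x : P L)
    (f : O (pl φ x)), ∃ h : (f : F) ∈ O x, φ.At (ev x ⟨f, h⟩) (ev (pl φ x) f)
  map_O : ∀ {L M : Type u} [Field L] [Field M] [Algebra K L] [Algebra K M] (σ : L →ₐ[K] M) (x : P L),
    O (pl (Pl.ofHom σ) x) = O x
  sp_unique : ∀ {L M : Type u} [Field L] [Field M] [Algebra K L] [Algebra K M] (φ : Pl K L M)
    (x : P L) (v : P M), (∀ f : O v, ∃ h : (f : F) ∈ O x, φ.At (ev x ⟨f, h⟩) (ev v f)) →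
    pl φ x = v
  gen : P F
  O_gen : O gen = ⊤
  ev_gen : ∀ f : O gen, ev gen f = f

attribute [instance] AV0.fF AV0.aF AV0.gP

namespace AV0

variable (X : AV0 K)

/-- constant points -/
def cst (L : Type u) [Field L] [Algebra K L] (a : X.P K) : X.P L :=
  X.pl (Pl.ofHom (Algebra.ofId K L)) a

theorem pl_cst {L M : Type u} [Field L] [Algebra K L] [Field M] [Algebra K M] (φ : Pl K L M)
    (a : X.P K) : X.pl φ (X.cst L a) = X.cst M a := by
  have : φ.comp (Pl.ofHom (Algebra.ofId K L)) = Pl.ofHom (Algebra.ofId K M) := by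
    refine Pl.eq_of_at fun x c h => ?_
    obtain ⟨b, hb, h1⟩ := Pl.comp_at_iff.1 h
    obtain rfl : b = algebraMap K L x := hb.uniq (Pl.ofHom_at _ x)
    rw [h1.uniq (φ.at_alg x)]
    exact Pl.ofHom_at _ x
  rw [cst, cst, ← X.pl_comp, this]

theorem cst_self (a : X.P K) : X.cst K a = a := by
  have : Pl.ofHom (Algebra.ofId K K) = Pl.id K K := by
    congr 1
  rw [cst, this, X.pl_id]

/-- the translate of the generic point -/
def gt (a : X.P K) : X.P X.F := X.gen + X.cst X.F a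

variable {X}

theorem mem_gen (f : X.F) : f ∈ X.O X.gen := by
  rw [X.O_gen]
  exact Algebra.mem_top

theorem pl_ev' {L M : Type u} [Field L] [Algebra K L] [Field M]
    [Algebra K M] (φ : Pl K L M) (x : X.P L) (y : X.P M) (h : X.pl φ x = y) (f : X.F)
    (hf : f ∈ X.O y) : ∃ hf' : f ∈ X.O x, φ.At (X.ev x ⟨f, hf'⟩) (X.ev y ⟨f, hf⟩) := by
  subst h
  exact X.pl_ev φ x ⟨f, hf⟩

/-- the specializations of the generic point -/
theorem pl_gen {M : Type u} [Field M] [Algebra K M] (φ : Pl K X.F M) (y : X.P M)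
    (h : ∀ f : X.O y, φ.At (f : X.F) (X.ev y f)) : X.pl φ X.gen = y := by
  refine X.sp_unique φ X.gen y fun f => ⟨mem_gen _, ?_⟩
  rw [X.ev_gen]
  exact h f

theorem pl_gt {M : Type u} [Field M] [Algebra K M] (φ : Pl K X.F M) (y : X.P M)
    (h : ∀ f : X.O y, φ.At (f : X.F) (X.ev y f)) (a : X.P K) :
    X.pl φ (X.gt a) = y + X.cst M a := by
  rw [gt, map_add, pl_gen φ y h, pl_cst]

variable (X) in
/-- normality -/
def Nor : Prop := ∀ (q : X.P K) (f : X.F), IsIntegral (X.O q) f → f ∈ X.O q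

variable [IsAlgClosed K]

theorem mem_gt (hN : X.Nor) (p a : X.P K) (f : X.F) (hf : f ∈ X.O (p + a)) :
    ∃ (h : f ∈ X.O (X.gt a)) (h' : X.ev (X.gt a) ⟨f, h⟩ ∈ X.O p),
      X.ev p ⟨_, h'⟩ = X.ev (p + a) ⟨f, hf⟩ := by
  have key : ∀ φ : Pl K X.F K, (∀ r : X.O p, φ.At (r : X.F) (X.ev p r)) →
      ∃ h : f ∈ X.O (X.gt a), φ.At (X.ev (X.gt a) ⟨f, h⟩) (X.ev (p + a) ⟨f, hf⟩) := by
    intro φ hφ
    refine pl_ev' φ (X.gt a) (p + a) ?_ f hf
    rw [pl_gt φ p hφ, cst_self]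
  obtain ⟨φ, hφ⟩ := exists_pl (X.O p) (X.ev p)
  obtain ⟨h, hh⟩ := key φ hφ
  have h' : X.ev (X.gt a) ⟨f, h⟩ ∈ X.O p := by
    by_contra h'
    obtain ⟨ψ, hψ, hψ'⟩ := exists_pl_of_notMem (X.O p) (X.ev p) (X.ev_inv p) (hN p) _ h'
    obtain ⟨_, hh'⟩ := key ψ hψ
    have h1 := hh'.mul hψ'
    rw [mul_inv_cancel₀, mul_zero] at h1
    · exact one_ne_zero (ψ.at_one.uniq h1)
    · intro h0
      rw [h0] at h'
      exact h' (zero_mem _)
  exact ⟨h, h', (hφ ⟨_, h'⟩).uniq hh⟩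

variable (X) in
/-- translation is an automorphism -/
theorem gt_gt (a : X.P K) (f : X.F) : ∃ (h : f ∈ X.O (X.gt a)) (h' : X.ev (X.gt a) ⟨f, h⟩ ∈
    X.O (X.gt (-a))), X.ev (X.gt (-a)) ⟨_, h'⟩ = f := by
  -- a place of `F` in an algebraic closure, taking `gen` to its translate
  have key : ∀ b : X.P K, ∃ ψ : Pl K X.F (AlgebraicClosure X.F),
      (∀ g : X.F, ∃ h : g ∈ X.O (X.gt (-b)), ψ.At (X.ev (X.gt (-b)) ⟨g, h⟩)
        (algebraMap X.F (AlgebraicClosure X.F) g)) ∧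
      ∀ r : X.O (X.gt b), ψ.At (r : X.F) (algebraMap X.F (AlgebraicClosure X.F) (X.ev (X.gt b) r)) := by
    intro b
    set j : X.F →ₐ[K] AlgebraicClosure X.F :=
      IsScalarTower.toAlgHom K X.F (AlgebraicClosure X.F) with hj
    obtain ⟨ψ, hψ⟩ := exists_pl (X.O (X.gt b)) (j.comp (X.ev (X.gt b)))
    have h1 : X.pl ψ X.gen = X.pl (Pl.ofHom j) (X.gt b) := by
      refine pl_gen ψ _ fun f => ?_
      obtain ⟨h2, h3⟩ := X.pl_ev (Pl.ofHom j) (X.gt b) f
      rw [h3.uniq (Pl.ofHom_at j _)]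
      exact hψ ⟨_, h2⟩
    refine ⟨ψ, fun g => ?_, hψ⟩
    have h4 : X.pl ψ (X.gt (-b)) = X.pl (Pl.ofHom j) X.gen := by
      rw [gt, map_add, h1, gt, pl_cst, map_add, pl_cst, add_assoc]
      have : X.cst (AlgebraicClosure X.F) (-b) = - X.cst (AlgebraicClosure X.F) b := map_neg _ _
      rw [this, add_neg_cancel, add_zero]
    have h5 : g ∈ X.O (X.pl (Pl.ofHom j) X.gen) := by
      rw [X.map_O]
      exact mem_gen g
    obtain ⟨h6, h7⟩ := pl_ev' ψ (X.gt (-b)) _ h4 g h5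
    obtain ⟨h8, h9⟩ := X.pl_ev (Pl.ofHom j) X.gen ⟨g, h5⟩
    rw [h9.uniq (Pl.ofHom_at j _), X.ev_gen] at h7
    exact ⟨h6, h7⟩
  have hO : ∀ (b : X.P K) (g : X.F), g ∈ X.O (X.gt b) := by
    intro b g
    obtain ⟨ψ, h1, -⟩ := key (-b)
    have := (h1 g).1
    rwa [neg_neg] at this
  obtain ⟨ψ, h1, h2⟩ := key (-a)
  rw [neg_neg] at h1
  obtain ⟨h3, h4⟩ := h1 f
  refine ⟨h3, hO _ _, ?_⟩
  exact (algebraMap X.F (AlgebraicClosure X.F)).injective ((h2 ⟨_, hO _ _⟩).uniq h4)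

variable (X) in
theorem mem_O_gt (a : X.P K) (f : X.F) : f ∈ X.O (X.gt a) := (X.gt_gt a f).1

variable (X) in
/-- the automorphism of translation by `a` -/
def tr (a : X.P K) : X.F →ₐ[K] X.F :=
  (X.ev (X.gt a)).comp
    ((AlgHom.id K X.F).codRestrict (X.O (X.gt a)) (X.mem_O_gt a))

theorem tr_eq (a : X.P K) (f : X.F) (h : f ∈ X.O (X.gt a)) : X.tr a f = X.ev (X.gt a) ⟨f, h⟩ := rfl

theorem tr_tr (a : X.P K) (f : X.F) : X.tr (-a) (X.tr a f) = f := (X.gt_gt a f).2.2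

theorem tr_mem (hN : X.Nor) (p a : X.P K) (f : X.O (p + a)) :
    ∃ h : X.tr a f ∈ X.O p, X.ev p ⟨_, h⟩ = X.ev (p + a) f := (mem_gt hN p a f f.2).2

theorem tr_mem' (hN : X.Nor) (p a : X.P K) (f : X.O p) :
    ∃ h : X.tr (-a) f ∈ X.O (p + a), X.ev (p + a) ⟨_, h⟩ = X.ev p f := by
  have h : (f : X.F) ∈ X.O (p + a + -a) := by
    rw [add_neg_cancel_right]
    exact f.2
  obtain ⟨h1, h2⟩ := tr_mem hN (p + a) (-a) ⟨_, h⟩
  refine ⟨h1, h2.trans ?_⟩
  have : ∀ (q : X.P K) (_ : q = p) (h : (f : X.F) ∈ X.O q), X.ev q ⟨f, h⟩ = X.ev p f := by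
    rintro _ rfl h
    rfl
  exact this _ (add_neg_cancel_right p a) h

theorem coeff_single_mul {g : ℕ} (j : Fin g) (f h : MvPowerSeries (Fin g) K) :
    MvPowerSeries.coeff (Finsupp.single j 1) (f * h) =
      MvPowerSeries.coeff (Finsupp.single j 1) f * MvPowerSeries.constantCoeff h +
      MvPowerSeries.constantCoeff f * MvPowerSeries.coeff (Finsupp.single j 1) h := by
  classical
  rw [MvPowerSeries.coeff_mul, Finsupp.antidiagonal_single]
  rw [Finset.sum_map]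
  have : Finset.HasAntidiagonal.antidiagonal 1 = ({(0, 1), (1, 0)} : Finset (ℕ × ℕ)) := rfl
  rw [this, Finset.sum_pair (by simp)]
  simp [add_comm]

theorem coeff_single_alg {g : ℕ} (j : Fin g) (c : K) :
    MvPowerSeries.coeff (Finsupp.single j 1) (algebraMap K (MvPowerSeries (Fin g) K) c) = 0 := by
  classical
  rw [MvPowerSeries.algebraMap_apply, Algebra.algebraMap_self, RingHom.id_apply, MvPowerSeries.coeff_C,
    if_neg (by simp)]

/-- **étale coordinates near the translates of a point** -/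
theorem coTheta {g : ℕ} (hN : X.Nor) (co : Fin g → X.F) (U : Set (X.P K))
    (h1 : ∀ q ∈ U, ∀ i, co i ∈ X.O q)
    (hΘ : ∀ q ∈ U, ∃ Θ : X.O q →ₐ[K] MvPowerSeries (Fin g) K,
      (∀ f, MvPowerSeries.constantCoeff (Θ f) = X.ev q f) ∧
      ∀ i (h : co i ∈ X.O q) j, MvPowerSeries.coeff (Finsupp.single j 1) (Θ ⟨co i, h⟩) =
        if i = j then 1 else 0)
    (h2 : ∀ q ∈ U, ∀ f : X.O q, X.ev q f = 0 → ∃ r : Fin g → X.O q,
      ∃ h : ∀ i, co i ∈ X.O q,
        f = ∑ i, r i * (⟨co i, h i⟩ - algebraMap K (X.O q) (X.ev q ⟨co i, h i⟩)))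
    (hH : ∀ H : Finset (X.P K), ∃ p : X.P K, ∀ a ∈ H, p + a ∈ U) (H : Finset (X.P K)) :
    ∃ (p : X.P K) (Θ : X.O p →ₐ[K] MvPowerSeries (Fin g) K),
    ∀ a ∈ H, ∃ τ : Fin g → X.O p,
      (∀ i, ∃ h : co i ∈ X.O (X.gen + X.pl (Pl.ofHom (Algebra.ofId K X.F)) a),
        ((τ i : X.O p) : X.F) = X.ev (X.gen + X.pl (Pl.ofHom (Algebra.ofId K X.F)) a) ⟨co i, h⟩) ∧
      LinearIndependent K (fun i : Fin g => fun j : Fin g =>
        MvPowerSeries.coeff (Finsupp.single j 1) (Θ (τ i))) := by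
  classical
  obtain ⟨p, hp⟩ := hH (insert 0 H)
  have hp0 : p ∈ U := by
    have := hp 0 (Finset.mem_insert_self _ _)
    rwa [add_zero] at this
  obtain ⟨Θ, hΘ1, hΘ2⟩ := hΘ p hp0
  refine ⟨p, Θ, fun a ha => ?_⟩
  have hq : p + a ∈ U := hp a (Finset.mem_insert_of_mem ha)
  set T : X.O (p + a) →ₐ[K] X.O p := ((X.tr a).comp (X.O (p + a)).val).codRestrict (X.O p)
    (fun f => (tr_mem hN p a f).1) with hT
  have hTe : ∀ f, X.ev p (T f) = X.ev (p + a) f := fun f => (tr_mem hN p a f).2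
  set τ : Fin g → X.O p := fun i => T ⟨co i, h1 _ hq i⟩ with hτ
  refine ⟨τ, fun i => ⟨X.mem_O_gt a _, rfl⟩, ?_⟩
  set A : Matrix (Fin g) (Fin g) K := fun i j =>
    MvPowerSeries.coeff (Finsupp.single j 1) (Θ (τ i)) with hA
  have hR : ∀ j : Fin g, ∃ R : Fin g → K, ∀ k, ∑ i, R i * A i k = if j = k then 1 else 0 := by
    intro j
    have hj := h1 p hp0 j
    set c := X.ev p ⟨co j, hj⟩ with hc
    set f₀ : X.O p := ⟨co j, hj⟩ - algebraMap K _ c with hf₀
    have hf₀e : X.ev p f₀ = 0 := by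
      rw [hf₀, map_sub, AlgHom.commutes, ← hc]
      exact sub_self _
    obtain ⟨hm, he⟩ := tr_mem' hN p a f₀
    obtain ⟨r, h, hr⟩ := h2 _ hq ⟨_, hm⟩ (he.trans hf₀e)
    have h3 : T ⟨_, hm⟩ = f₀ := by
      refine Subtype.ext ?_
      change X.tr a (X.tr (-a) f₀) = f₀
      have := tr_tr (-a) (f₀ : X.F)
      rwa [neg_neg] at this
    rw [hr] at h3
    refine ⟨fun i => X.ev p (T (r i)), fun k => ?_⟩
    have h4 := congrArg (fun z => MvPowerSeries.coeff (Finsupp.single k 1) (Θ z)) h3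
    simp only [map_sum, map_mul, coeff_single_mul] at h4
    have h5 : MvPowerSeries.coeff (Finsupp.single k 1) (Θ f₀) = if j = k then 1 else 0 := by
      rw [hf₀, map_sub, map_sub, hΘ2, AlgHom.commutes, coeff_single_alg, sub_zero]
    rw [h5] at h4
    rw [← h4]
    refine Finset.sum_congr rfl fun i _ => ?_
    rw [hΘ1, hΘ1, hTe, hTe]
    have h6 : X.ev (p + a) (⟨co i, h i⟩ - algebraMap K _ (X.ev (p + a) ⟨co i, h i⟩)) = 0 := by
      rw [map_sub, AlgHom.commutes]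
      exact sub_self _
    rw [h6, mul_zero, zero_add, map_sub, map_sub, map_sub, AlgHom.commutes, AlgHom.commutes,
      coeff_single_alg, sub_zero, ← hTe]
  have hRA : ∃ R : Matrix (Fin g) (Fin g) K, R * A = 1 := by
    choose R hR' using hR
    refine ⟨Matrix.of R, ?_⟩
    ext j k
    rw [Matrix.mul_apply, Matrix.one_apply]
    exact hR' j k
  obtain ⟨R, hR'⟩ := hRA
  have : IsUnit A := (Matrix.isUnit_iff_isUnit_det A).2
    (Matrix.isUnit_det_of_left_inverse hR')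
  exact Matrix.linearIndependent_rows_iff_isUnit.2 this

end AV0

end Fermat.Agent.S26A
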