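import Fermat.Agent.S26A.Dom6

/-!
# Coordinates at the points of a chart
-/

set_option autoImplicit false
set_option linter.style.haveILetI false

noncomputable section

namespace Fermat.Agent.S26A

universe u

open CategoryTheory AlgebraicGeometry TopologicalSpace MvPolynomial IsLocalRing

section Alg

variable {K : Type u} [Field K] {g : ℕ}

theorem sub_C_mem_span (c : Fin g → K) (p : MvPolynomial (Fin g) K) :
    p - C (aeval c p) ∈ Ideal.span (Set.range fun i : Fin g => (X i - C (c i) : MvPolynomial (Fin g) K)) := by
  induction p using MvPolynomial.induction_on with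
  | C a => simp
  | add p q hp hq =>
    have := Ideal.add_mem _ hp hq
    convert this using 1
    rw [map_add, map_add]
    ring
  | mul_X p i hp =>
    have h1 := Ideal.mul_mem_right (X i) _ hp
    have h2 := Ideal.mul_mem_left (Ideal.span (Set.range fun i : Fin g =>
      (X i - C (c i) : MvPolynomial (Fin g) K))) (C (aeval c p))
      (Ideal.subset_span (Set.mem_range_self i))
    have := Ideal.add_mem _ h1 h2
    convert this using 1
    rw [map_mul, map_mul, aeval_X]
    ring

variable {S : Type u} [CommRing S] [Algebra (MvPolynomial (Fin g) K) S]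
  [Algebra.Etale (MvPolynomial (Fin g) K) S] (p : Ideal S) [p.IsPrime]
  (ε : Localization.AtPrime p →+* K) [IsLocalHom ε]
  (hε : ∀ c : K, ε (algebraMap S _ (algebraMap (MvPolynomial (Fin g) K) S (C c))) = c)

include hε in
/-- the functions vanishing at a rational point are generated by the coordinates -/
theorem mem_span_coord (s : Localization.AtPrime p) (hs : ε s = 0) :
    ∃ h : Fin g → Localization.AtPrime p, s = ∑ i,
      (algebraMap S _ (algebraMap (MvPolynomial (Fin g) K) S (X i)) -
        algebraMap S _ (algebraMap (MvPolynomial (Fin g) K) S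
          (C (ε (algebraMap S _ (algebraMap (MvPolynomial (Fin g) K) S (X i))))))) * h i := by
  have h1 : s ∈ maximalIdeal (Localization.AtPrime p) := by
    rw [mem_maximalIdeal, mem_nonunits_iff]
    intro h
    have := h.map ε
    rw [hs] at this
    exact not_isUnit_zero this
  rw [← map_comap_eq_maximalIdeal (K := K) (g := g) p, comap_eq_ker p ε hε] at h1
  set c : Fin g → K := tv K g (ε.comp (algebraMap S _)) with hc
  have h2 : RingHom.ker (aeval c : MvPolynomial (Fin g) K →ₐ[K] K) =
      Ideal.span (Set.range fun i : Fin g => (X i - C (c i) : MvPolynomial (Fin g) K)) := by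
    apply le_antisymm
    · intro q hq
      have h3 := sub_C_mem_span c q
      rw [RingHom.mem_ker] at hq
      rwa [hq, map_zero, sub_zero] at h3
    · rw [Ideal.span_le]
      rintro _ ⟨i, rfl⟩
      simp [RingHom.mem_ker]
  rw [h2, Ideal.map_span, ← Set.range_comp, Ideal.mem_span_range_iff_exists_fun] at h1
  obtain ⟨h, hh⟩ := h1
  refine ⟨h, ?_⟩
  rw [← hh]
  refine Finset.sum_congr rfl fun i _ => ?_
  rw [mul_comm]
  congr 1
  change algebraMap (MvPolynomial (Fin g) K) _ _ = _
  rw [map_sub, IsScalarTower.algebraMap_apply (MvPolynomial (Fin g) K) S (Localization.AtPrime p),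
    IsScalarTower.algebraMap_apply (MvPolynomial (Fin g) K) S (Localization.AtPrime p)]
  rfl

end Alg

end Fermat.Agent.S26A
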