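import Fermat.Agent.S26A.Sch1d

/-!
# Finitely many translates in an open subset
-/

set_option autoImplicit false
set_option linter.unusedSectionVars false
noncomputable section
universe u
open CategoryTheory CategoryTheory.Limits AlgebraicGeometry NeronModelInfra GoodReductionJacobian
open IsLocalRing TopologicalSpace

namespace Fermat.Agent.S26A.GSch

variable {K : Type u} [Field K] (X : GSch K) [IsProper X.f] [IsIntegral X.A]

theorem str_self : str K K = 𝟙 _ := by
  have : CommRingCat.ofHom (algebraMap K K) = 𝟙 (CommRingCat.of K) := rfl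
  rw [str, this, Spec.map_id]

/-- translation by a point -/
def trn (a : X.Pt K) : X.A ⟶ X.A :=
  (X.G.mul X.f (⟨𝟙 _, Category.id_comp _⟩ : SchemeHomOver X.f X.f)
    (schemeHomOverComp X.f (by rw [str_self, Category.comp_id]) a)).1

theorem m_trn (x a : X.Pt K) : x.m ≫ X.trn a = (x + a).m := by
  have h := X.G.mul_natural X.f (str K K) x.m x.over
    (⟨𝟙 _, Category.id_comp _⟩ : SchemeHomOver X.f X.f)
    (schemeHomOverComp X.f (by rw [str_self, Category.comp_id]) a)
  have h1 : schemeHomOverComp x.m x.over (⟨𝟙 _, Category.id_comp _⟩ : SchemeHomOver X.f X.f) = x :=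
    Subtype.ext (Category.comp_id _)
  have h2 : schemeHomOverComp x.m x.over
      (schemeHomOverComp X.f (by rw [str_self, Category.comp_id]) a) = a := by
    apply Subtype.ext
    change x.m ≫ X.f ≫ a.m = a.m
    have h3 : x.m ≫ X.f = 𝟙 _ := x.over.trans str_self
    rw [← Category.assoc, h3, Category.id_comp]
  rw [h1, h2] at h
  exact congrArg Subtype.val h

variable [IsAlgClosed K]

theorem exists_ptt_mem (U : X.A.Opens) (hU : (U : Set X.A).Nonempty) :
    ∃ p : X.Pt K, X.ptt p ∈ U := by
  haveI := LocallyOfFiniteType.jacobsonSpace X.f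
  obtain ⟨y, hy, hyc⟩ := nonempty_inter_closedPoints hU U.2.isLocallyClosed
  let q := (pointEquivClosedPoint X.f).symm ⟨y, hyc⟩
  let p : X.Pt K := ⟨q.1, by rw [q.2]; exact str_self.symm⟩
  refine ⟨p, ?_⟩
  have h1 : X.ptt p = y := by
    change q.1 (closedPoint K) = y
    have := congrArg Subtype.val ((pointEquivClosedPoint X.f).apply_symm_apply ⟨y, hyc⟩)
    exact this
  rw [h1]
  exact hy

/-- **(H2)** -/
theorem exists_translates (V : X.A.Opens) (hV : (V : Set X.A).Nonempty) (H : Finset (X.Pt K)) :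
    ∃ p : X.Pt K, ∀ a ∈ H, X.ptt (p + a) ∈ V := by
  classical
  have key : ∀ H : Finset (X.Pt K), ∃ U : X.A.Opens, (U : Set X.A).Nonempty ∧
      ∀ a ∈ H, U ≤ (X.trn a) ⁻¹ᵁ V := by
    intro H
    induction H using Finset.induction_on with
    | empty => exact ⟨V, hV, by simp⟩
    | insert a H _ ih =>
      obtain ⟨U, hU, hUH⟩ := ih
      have h1 : (((X.trn a) ⁻¹ᵁ V : X.A.Opens) : Set X.A).Nonempty := by
        obtain ⟨v, hv⟩ := X.exists_ptt_mem V hV
        refine ⟨X.ptt (v - a), ?_⟩
        have h2 : (v - a).m ≫ X.trn a = v.m := by rw [m_trn, sub_add_cancel]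
        have h3 : X.trn a (X.ptt (v - a)) = X.ptt v := by
          change X.trn a ((v - a).m (closedPoint K)) = v.m (closedPoint K)
          rw [← h2]
          rfl
        change X.trn a (X.ptt (v - a)) ∈ V
        rw [h3]
        exact hv
      refine ⟨U ⊓ (X.trn a) ⁻¹ᵁ V, ?_, ?_⟩
      · exact nonempty_preirreducible_inter U.2 ((X.trn a) ⁻¹ᵁ V).2 hU h1
      · intro b hb
        rcases Finset.mem_insert.1 hb with rfl | hb
        · exact inf_le_right
        · exact inf_le_left.trans (hUH b hb)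
  obtain ⟨U, hU, hUH⟩ := key H
  obtain ⟨p, hp⟩ := X.exists_ptt_mem U hU
  refine ⟨p, fun a ha => ?_⟩
  have h1 : X.trn a (X.ptt p) ∈ V := hUH a ha hp
  have h2 : X.ptt (p + a) = X.trn a (X.ptt p) := by
    change (p + a).m (closedPoint K) = X.trn a (p.m (closedPoint K))
    rw [← m_trn]
    rfl
  rw [h2]
  exact h1

end Fermat.Agent.S26A.GSch
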