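import Mathlib

/-!
# Formal coordinates from étale coordinates
-/

set_option autoImplicit false
set_option linter.style.haveILetI false

noncomputable section

namespace Fermat.Agent.S26A

theorem exists_lift_complete {P S M : Type*} [CommRing P] [CommRing S] [CommRing M] [Algebra P S]
    [Algebra.FormallySmooth P S] (I : Ideal M) [IsAdicComplete I M] (φ : P →+* M)
    (f : S →+* M ⧸ I) (h : ∀ p, f (algebraMap P S p) = Ideal.Quotient.mk I (φ p)) :
    ∃ g : S →+* M, (∀ p, g (algebraMap P S p) = φ p) ∧ ∀ s, Ideal.Quotient.mk I (g s) = f s := by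
  letI := φ.toAlgebra
  let f' : S →ₐ[P] M ⧸ I := { f with commutes' := h }
  obtain ⟨g, hg⟩ := Algebra.FormallySmooth.exists_mkₐ_comp_eq_of_isAdicComplete f'
  exact ⟨g, g.commutes, fun s => congrArg (fun k : S →ₐ[P] M ⧸ I => k s) hg⟩

/-- **formal coordinates from étale coordinates** -/
theorem exists_theta {g : ℕ} {K : Type*} [Field K] {S : Type*} [CommRing S]
    [Algebra (MvPolynomial (Fin g) K) S] [Algebra.FormallySmooth (MvPolynomial (Fin g) K) S]
    (ε : S →+* K)
    (hε : ∀ c : K, ε (algebraMap (MvPolynomial (Fin g) K) S (MvPolynomial.C c)) = c) :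
    ∃ Θ : S →+* MvPowerSeries (Fin g) K,
      (∀ c : K, Θ (algebraMap (MvPolynomial (Fin g) K) S (MvPolynomial.C c)) =
        MvPowerSeries.C c) ∧
      (∀ i, Θ (algebraMap (MvPolynomial (Fin g) K) S (MvPolynomial.X i)) =
        MvPowerSeries.C (ε (algebraMap (MvPolynomial (Fin g) K) S (MvPolynomial.X i))) +
          MvPowerSeries.X i) ∧
      ∀ s, MvPowerSeries.constantCoeff (Θ s) = ε s := by
  set I : Ideal (MvPowerSeries (Fin g) K) := Ideal.span (Set.range MvPowerSeries.X) with hI
  haveI : IsAdicComplete I (MvPowerSeries (Fin g) K) := by rw [hI]; infer_instance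
  set φ : MvPolynomial (Fin g) K →+* MvPowerSeries (Fin g) K :=
    MvPolynomial.eval₂Hom MvPowerSeries.C fun i =>
      MvPowerSeries.C (ε (algebraMap (MvPolynomial (Fin g) K) S (MvPolynomial.X i))) +
          MvPowerSeries.X i with hφ
  obtain ⟨Θ, h1, h2⟩ := exists_lift_complete (S := S) I φ
    (((Ideal.Quotient.mk I).comp MvPowerSeries.C).comp ε) (by
      intro p
      change (((Ideal.Quotient.mk I).comp MvPowerSeries.C).comp
        (ε.comp (algebraMap (MvPolynomial (Fin g) K) S))) p = ((Ideal.Quotient.mk I).comp φ) p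
      congr 1
      refine MvPolynomial.ringHom_ext (fun c => ?_) fun i => ?_
      · simp [hφ, hε]
      · simp only [hφ, RingHom.comp_apply, MvPolynomial.coe_eval₂Hom, MvPolynomial.eval₂_X, map_add]
        rw [left_eq_add]
        exact Ideal.Quotient.eq_zero_iff_mem.2 (Ideal.subset_span ⟨i, rfl⟩))
  refine ⟨Θ, fun c => ?_, fun i => ?_, fun s => ?_⟩
  · rw [h1, hφ]
    simp
  · rw [h1, hφ]
    simp
  · have h3 : Θ s - MvPowerSeries.C (ε s) ∈ I := Ideal.Quotient.eq.1 (h2 s)
    have h4 : I ≤ RingHom.ker (MvPowerSeries.constantCoeff (σ := Fin g) (R := K)) := by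
      rw [hI, Ideal.span_le]
      rintro _ ⟨i, rfl⟩
      exact MvPowerSeries.constantCoeff_X i
    have h5 := h4 h3
    rw [RingHom.mem_ker, map_sub, MvPowerSeries.constantCoeff_C, sub_eq_zero] at h5
    exact h5

/-- extension to the local ring -/
theorem exists_theta_loc {g : ℕ} {K : Type*} [Field K] {S : Type*} [CommRing S]
    [Algebra (MvPolynomial (Fin g) K) S] [Algebra.FormallySmooth (MvPolynomial (Fin g) K) S]
    {T : Type*} [CommRing T] [Algebra S T] (ε : T →+* K) (M : Submonoid S)
    [IsLocalization M T]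
    (hε : ∀ c : K, ε (algebraMap S T (algebraMap (MvPolynomial (Fin g) K) S
      (MvPolynomial.C c))) = c) :
    ∃ Θ : T →+* MvPowerSeries (Fin g) K,
      (∀ c : K, Θ (algebraMap S T (algebraMap (MvPolynomial (Fin g) K) S (MvPolynomial.C c))) =
        MvPowerSeries.C c) ∧
      (∀ i, Θ (algebraMap S T (algebraMap (MvPolynomial (Fin g) K) S (MvPolynomial.X i))) =
        MvPowerSeries.C (ε (algebraMap S T (algebraMap (MvPolynomial (Fin g) K) S
          (MvPolynomial.X i)))) + MvPowerSeries.X i) ∧
      ∀ s, MvPowerSeries.constantCoeff (Θ s) = ε s := by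
  obtain ⟨Θ, h1, h2, h3⟩ := exists_theta (ε.comp (algebraMap S T)) hε
  have hu : ∀ y : M, IsUnit (Θ y) := by
    intro y
    rw [MvPowerSeries.isUnit_iff_constantCoeff, h3]
    exact (IsLocalization.map_units T y).map ε
  refine ⟨IsLocalization.lift (M := M) hu, fun c => ?_, fun i => ?_, fun s => ?_⟩
  · rw [IsLocalization.lift_eq, h1]
  · rw [IsLocalization.lift_eq, h2]
    rfl
  · have : (MvPowerSeries.constantCoeff (σ := Fin g) (R := K)).comp
        (IsLocalization.lift (M := M) hu) = ε := by
      refine IsLocalization.ringHom_ext M ?_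
      ext s
      simp [IsLocalization.lift_eq, h3]
    exact congrArg (fun k : T →+* K => k s) this

end Fermat.Agent.S26A
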