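import Fermat.Agent.S26A.Sch5c
import Fermat.Agent.S26A.Sch5h
import Fermat.Agent.S26A.Sch5t
import Fermat.Agent.S26A.Sch5a
import Fermat.Agent.S26A.Dom7

/-!
# Coordinates at the points of a chart: schemes
-/

set_option autoImplicit false
set_option linter.style.haveILetI false
set_option linter.unusedSectionVars false

noncomputable section

namespace Fermat.Agent.S26A

universe u

open CategoryTheory AlgebraicGeometry TopologicalSpace MvPolynomial IsLocalRing

section Sch

variable {K : Type u} [Field K] {A : Scheme.{u}} (f : A ⟶ Spec (CommRingCat.of K)) (g : ℕ)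
  [SmoothOfRelativeDimension g f] [IsIntegral A]

theorem toFF_germ (V : A.Opens) (x : A) (hx : x ∈ V) (hV : genericPoint A ∈ V) (s : Γ(A, V)) :
    toFF f x ((A.presheaf.germ V x hx).hom s) = (A.presheaf.germ V (genericPoint A) hV).hom s := by
  have h := A.presheaf.germ_stalkSpecializes hx ((genericPoint_spec A).specializes trivial)
  exact congrArg (fun t => t.hom s) h

/-- coordinates -/
theorem exists_coord_sch : ∃ (co : Fin g → FF f) (V : A.Opens),
    (V : Set A).Nonempty ∧ ∀ x ∈ V, ∀ (ε : A.presheaf.stalk x →+* K) (_ : IsLocalHom ε)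
      (_ : ∀ c : K, ε ((algK f x).hom c) = c),
      ∃ t : Fin g → A.presheaf.stalk x, (∀ i, toFF f x (t i) = co i) ∧
        (∀ s, ε s = 0 → ∃ h : Fin g → A.presheaf.stalk x,
          s = ∑ i, (t i - (algK f x).hom (ε (t i))) * h i) ∧
        ∃ Θ : A.presheaf.stalk x →+* MvPowerSeries (Fin g) K,
          (∀ c : K, Θ ((algK f x).hom c) = MvPowerSeries.C c) ∧
          (∀ i, Θ (t i) = MvPowerSeries.C (ε (t i)) + MvPowerSeries.X i) ∧
          ∀ s, MvPowerSeries.constantCoeff (Θ s) = ε s := by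
  obtain ⟨V, hV, hgx, φ, hφ, hC⟩ := exists_chart f g (genericPoint A)
  refine ⟨fun i => (A.presheaf.germ V (genericPoint A) hgx).hom (φ (X i)), V, ⟨_, hgx⟩, ?_⟩
  intro x hx ε _ hε
  algebraize [φ]
  letI := A.presheaf.algebra_section_stalk (U := V) ⟨x, hx⟩
  haveI := hV.isLocalization_stalk ⟨x, hx⟩
  let p := (hV.primeIdealOf ⟨x, hx⟩).asIdeal
  let e : Localization.AtPrime p ≃ₐ[Γ(A, V)] A.presheaf.stalk x :=
    IsLocalization.algEquiv p.primeCompl _ _
  let ε' : Localization.AtPrime p →+* K := ε.comp (e : Localization.AtPrime p →+* _)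
  haveI : IsLocalHom ε' := ⟨fun a ha => by
    have h1 : IsUnit (e a) := isUnit_of_map_unit ε _ ha
    have h2 := h1.map e.symm
    rwa [AlgEquiv.symm_apply_apply] at h2⟩
  have he : ∀ s : Γ(A, V), e (algebraMap Γ(A, V) _ s) = (A.presheaf.germ V x hx).hom s :=
    fun s => AlgEquiv.commutes e s
  have heC : ∀ c : K, e (algebraMap Γ(A, V) _ (algebraMap (MvPolynomial (Fin g) K) Γ(A, V)
      (C c))) = (algK f x).hom c := by
    intro c
    change e (algebraMap Γ(A, V) _ (φ (C c))) = _
    rw [he, ← germ_stm f V x hx c, ← hC]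
    rfl
  have hε' : ∀ c : K, ε' (algebraMap Γ(A, V) _ (algebraMap (MvPolynomial (Fin g) K) Γ(A, V)
      (C c))) = c := by
    intro c
    change ε (e _) = _
    rw [heC, hε]
  refine ⟨fun i => (A.presheaf.germ V x hx).hom (φ (X i)), fun i => toFF_germ f V x hx hgx _, ?_, ?_⟩
  · intro s hs
    obtain ⟨h, hh⟩ := mem_span_coord p ε' hε' (e.symm s) (by
      change ε (e (e.symm s)) = 0
      rw [e.apply_symm_apply, hs])
    refine ⟨fun i => e (h i), ?_⟩
    have h1 := congrArg e hh
    rw [e.apply_symm_apply, map_sum] at h1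
    rw [h1]
    refine Finset.sum_congr rfl fun i _ => ?_
    rw [map_mul, map_sub, heC, he]
    have h2 : ε' (algebraMap Γ(A, V) _ (algebraMap (MvPolynomial (Fin g) K) Γ(A, V) (X i))) =
        ε ((A.presheaf.germ V x hx).hom (φ (X i))) := by
      change ε (e _) = _
      rw [he]
      rfl
    rw [h2]
    rfl
  · have hε'' : ∀ c : K, ε (algebraMap Γ(A, V) (A.presheaf.stalk x)
        (algebraMap (MvPolynomial (Fin g) K) Γ(A, V) (C c))) = c := by
      intro c
      have h1 := heC c
      rw [AlgEquiv.commutes] at h1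
      rw [h1, hε]
    obtain ⟨Θ, h1, h2, h3⟩ := exists_theta_loc (g := g) (S := Γ(A, V)) ε p.primeCompl hε''
    refine ⟨Θ, fun c => ?_, fun i => h2 i, h3⟩
    have h4 := heC c
    rw [AlgEquiv.commutes] at h4
    rw [← h4, h1]

end Sch

namespace GSch

variable {K : Type u} [Field K] (X : GSch K) [IsProper X.f] [IsIntegral X.A]

/-- the first fields of an abelian variety -/
def toAV0 : AV0 K where
  F := FF X.f
  P L := X.Pt L
  pl := X.pl
  pl_id L _ _ x := X.pl_id x
  pl_comp := X.pl_comp
  O := X.O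
  ev := X.ev
  ev_inv := X.ev_inv
  pl_ev := X.pl_ev
  map_O := X.map_O
  sp_unique := X.sp_unique
  gen := X.gen
  O_gen := X.O_gen
  ev_gen := X.ev_gen

end GSch

end Fermat.Agent.S26A
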