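import Fermat.Agent.S26A.Def
import Fermat.Agent.S26A.Ext1

/-!
# Specialization of the divisors of zeros
-/

set_option autoImplicit false
set_option linter.style.haveILetI false
set_option linter.unusedSectionVars false

noncomputable section

namespace Fermat.Agent.S26A

universe u

open AlgebraicCurve

variable {K : Type u} [Field K]

namespace Pl

variable {L M N : Type u} [Field L] [Field M] [Field N] [Algebra K L] [Algebra K M] [Algebra K N]

theorem ofHom_at_iff (σ : L →ₐ[K] M) (a : L) (b : M) : (ofHom σ).At a b ↔ b = σ a :=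
  ⟨fun h => h.uniq (ofHom_at σ a), fun h => h ▸ ofHom_at σ a⟩

theorem ofHom_inj {σ τ : L →ₐ[K] M} (h : ofHom σ = ofHom τ) : σ = τ := by
  refine AlgHom.ext fun a => ?_
  have h1 := ofHom_at σ a
  rw [h] at h1
  exact (ofHom_at_iff τ a _).1 h1

theorem comp_ofHom_inj (σ : M →ₐ[K] N) {s s' : Pl K L M}
    (h : (ofHom σ).comp s = (ofHom σ).comp s') : s = s' := by
  refine eq_of_at fun a b hb => ?_
  have h1 : ((ofHom σ).comp s).At a (σ b) := comp_at hb (ofHom_at σ b)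
  rw [h] at h1
  obtain ⟨b', h2, h3⟩ := comp_at_iff.1 h1
  rw [ofHom_at_iff] at h3
  rwa [σ.injective h3]

end Pl

namespace AVar

variable {g : ℕ} {A : AVar K g}

section

variable {L M N : Type u} [Field L] [Algebra K L] [Field M] [Algebra K M] [Field N] [Algebra K N]

theorem inc_inc (τ : M →ₐ[K] N) (σ : L →ₐ[K] M) (x : A.P L) :
    A.inc τ (A.inc σ x) = A.inc (τ.comp σ) x := by
  unfold inc
  rw [← A.pl_comp, Pl.ofHom_comp]

theorem pl_inc (φ : Pl K M N) (σ : L →ₐ[K] M) (x : A.P L) :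
    A.pl φ (A.inc σ x) = A.pl (φ.comp (Pl.ofHom σ)) x := by
  unfold inc
  rw [← A.pl_comp]

theorem inc_pl (σ : M →ₐ[K] N) (φ : Pl K L M) (x : A.P L) :
    A.inc σ (A.pl φ x) = A.pl ((Pl.ofHom σ).comp φ) x := by
  unfold inc
  rw [← A.pl_comp]

theorem gen_of_plS {φ : Pl K L M} {x : A.P L} (h : A.Gen (A.pl φ x)) : A.Gen x := by
  refine eq_top_iff.2 fun f _ => ?_
  obtain ⟨h1, _⟩ := A.pl_ev φ x ⟨f, by rw [show A.O (A.pl φ x) = ⊤ from h]; exact Algebra.mem_top⟩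
  exact h1

theorem gen_incS (σ : L →ₐ[K] M) {x : A.P L} (h : A.Gen x) : A.Gen (A.inc σ x) := by
  unfold Gen inc
  rw [A.map_O]
  exact h

theorem val_eqS (x : A.P L) (hx : A.Gen x) (f : A.F) (hf : f ∈ A.O x) :
    A.val x hx f = A.ev x ⟨f, hf⟩ := rfl

/-- values specialize -/
theorem at_val (φ : Pl K L M) (x : A.P L) (hx : A.Gen x) (f : A.O (A.pl φ x)) :
    φ.At (A.val x hx f) (A.ev (A.pl φ x) f) := by
  obtain ⟨h, h1⟩ := A.pl_ev φ x f
  exact h1

theorem val_incS (σ : L →ₐ[K] M) (x : A.P L) (hx : A.Gen x) (hx' : A.Gen (A.inc σ x)) :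
    A.val (A.inc σ x) hx' = σ.comp (A.val x hx) := by
  refine AlgHom.ext fun f => ?_
  have h := A.at_val (Pl.ofHom σ) x hx ⟨f, by
    rw [show A.O (A.pl (Pl.ofHom σ) x) = ⊤ from hx']; exact Algebra.mem_top⟩
  rw [Pl.ofHom_at_iff] at h
  exact h

theorem val_genS (h : A.Gen A.gen) : A.val A.gen h = AlgHom.id K A.F := by
  refine AlgHom.ext fun f => ?_
  exact A.ev_gen ⟨f, _⟩

theorem gen_genS : A.Gen A.gen := A.O_gen

theorem pl_val (x : A.P L) (hx : A.Gen x) : A.inc (A.val x hx) A.gen = x := by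
  refine A.sp_unique _ _ _ fun f => ?_
  refine ⟨by rw [A.O_gen]; exact Algebra.mem_top, ?_⟩
  rw [Pl.ofHom_at_iff]
  change A.ev x f = A.val x hx (A.ev A.gen _)
  rw [A.ev_gen]
  rfl

/-- a place of the function field with centre of codimension `≤ 1` is determined by its centre -/
theorem place_unique {φ φ' : Pl K A.F M} (v : A.P M) (h : A.pl φ A.gen = v)
    (h' : A.pl φ' A.gen = v) (hv : ∀ f : A.F, f ∈ A.O v ∨ f⁻¹ ∈ A.O v) : φ = φ' := by
  have key : ∀ ψ : Pl K A.F M, A.pl ψ A.gen = v → ∀ f : A.O v, ψ.At f (A.ev v f) := by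
    rintro ψ rfl f
    obtain ⟨h1, h2⟩ := A.pl_ev ψ A.gen f
    rw [A.ev_gen] at h2
    exact h2
  refine Pl.eq_of_at fun a b hb => ?_
  rcases hv a with ha | ha
  · have h1 := key φ h ⟨a, ha⟩
    rw [hb.uniq h1]
    exact key φ' h' ⟨a, ha⟩
  · have h1 := key φ h ⟨_, ha⟩
    by_cases ha0 : a = 0
    · subst ha0
      rw [hb.uniq φ.at_zero]
      exact φ'.at_zero
    have h2 : φ.At (a * a⁻¹) (b * A.ev v ⟨_, ha⟩) := hb.mul h1
    rw [mul_inv_cancel₀ ha0] at h2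
    have h3 := φ.at_one.uniq h2
    have h4 : A.ev v ⟨a⁻¹, ha⟩ ≠ 0 := by
      intro h5
      rw [h5, mul_zero] at h3
      exact one_ne_zero h3
    have h5 := A.ev_inv v ⟨a⁻¹, ha⟩ h4
    rw [show (((⟨a⁻¹, ha⟩ : A.O v) : A.F))⁻¹ = a from inv_inv a] at h5
    have h6 := key φ h ⟨a, h5⟩
    rw [hb.uniq h6]
    exact key φ' h' ⟨a, h5⟩

theorem comp_val_eq {L' : Type u} [Field L'] [Algebra K L'] (φ : Pl K L M) (φ' : Pl K L' M)
    (x : A.P L) (x' : A.P L') (hx : A.Gen x) (hx' : A.Gen x') (v : A.P M) (h : A.pl φ x = v)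
    (h' : A.pl φ' x' = v) (hv : ∀ f : A.F, f ∈ A.O v ∨ f⁻¹ ∈ A.O v) :
    φ.comp (Pl.ofHom (A.val x hx)) = φ'.comp (Pl.ofHom (A.val x' hx')) := by
  refine place_unique v ?_ ?_ hv
  · rw [← pl_inc, pl_val, h]
  · rw [← pl_inc, pl_val, h']

theorem val_or_of_gen {v : A.P M} (h : A.Gen v) (f : A.F) : f ∈ A.O v ∨ f⁻¹ ∈ A.O v :=
  .inl (by rw [show A.O v = ⊤ from h]; exact Algebra.mem_top)

end

end AVar

end Fermat.Agent.S26A
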