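import Fermat.Agent.S26A.Sq1

/-!
# Specialization of the divisors of zeros: the divisors
-/

set_option autoImplicit false
set_option linter.style.haveILetI false
set_option linter.unusedSectionVars false

noncomputable section

namespace Fermat.Agent.S26A

universe u

open AlgebraicCurve

variable {K : Type u} [Field K]

namespace AVar

variable {g : ℕ} {A : AVar K g} {j : Fin g} (T : CT K (A.FC j))

section

variable {L M N : Type u} [Field L] [Algebra K L] [IsAlgClosed L] [Field M] [Algebra K M]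
  [IsAlgClosed M] [Field N] [Algebra K N] [IsAlgClosed N]

variable (A j) in
/-- the base point of the curve, over `L` -/
def oS (L : Type u) [Field L] [Algebra K L] : Pl K (A.FC j) L :=
  (Pl.ofHom (Algebra.ofId K L)).comp (A.o j)

theorem pl_oS : A.pl (oS A j L) (A.ι j) = 0 := by
  unfold oS
  rw [A.pl_comp, A.ι_o, map_zero]

/-- evaluation at `t` of `w + m ι(z)` -/
theorem pl_hat_wc (t : Pl K (A.FC j) L) (w : A.P L) (m : ℤ) :
    A.pl (T.hat t) (wc T w m) = w + m • A.pl t (A.ι j) := by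
  unfold wc
  rw [map_add, map_zsmul, pl_inc, pl_inc, T.hat_iL, T.hat_iC, A.pl_id]

theorem gen_wcS {w : A.P L} (h : A.Gen w) (m : ℤ) : A.Gen (wc T w m) := by
  refine gen_of_plS (φ := T.hat (oS A j L)) ?_
  rw [pl_hat_wc, pl_oS, smul_zero, add_zero]
  exact h

/-- specialization of `w + m ι(z)` -/
theorem pl_cp_wc (φ : Pl K L M) (w : A.P L) (m : ℤ) :
    A.pl (T.cp φ) (wc T w m) = wc T (A.pl φ w) m := by
  unfold wc
  rw [map_add, map_zsmul, pl_inc, pl_inc, T.cp_iL, T.cp_iC, inc_pl]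
  rfl

theorem Zd_of_gen (w : A.P L) (m : ℤ) (f : A.F) (h : A.Gen (wc T w m)) :
    Zd T w m f = (T.div (A.val (wc T w m) h f)) ⊔ 0 := dif_pos h

theorem Zd_nonneg (w : A.P L) (m : ℤ) (f : A.F) : 0 ≤ Zd T w m f := by
  unfold Zd
  split_ifs
  · exact le_sup_right
  · exact le_rfl

end

section MapDomain

variable {X Y : Type*}

theorem mapDomain_sup_zero {φ : X → Y} (hφ : Function.Injective φ) (D : X →₀ ℤ) :
    (D ⊔ 0).mapDomain φ = (D.mapDomain φ) ⊔ 0 := by
  refine Finsupp.ext fun y => ?_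
  by_cases hy : y ∈ Set.range φ
  · obtain ⟨x, rfl⟩ := hy
    rw [Finsupp.mapDomain_apply hφ, Finsupp.sup_apply, Finsupp.sup_apply,
      Finsupp.mapDomain_apply hφ]
    rfl
  · rw [Finsupp.mapDomain_of_notMem_range _ _ hy, Finsupp.sup_apply,
      Finsupp.mapDomain_of_notMem_range _ _ hy]
    rfl

theorem dg_mapDomain (φ : X → Y) (D : X →₀ ℤ) : dg (D.mapDomain φ) = dg D := by
  unfold dg
  rw [Finsupp.sum_mapDomain_index (fun _ => rfl) (fun _ _ _ => rfl)]

theorem dg_add (D D' : X →₀ ℤ) : dg (D + D') = dg D + dg D' :=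
  Finsupp.sum_add_index' (fun _ => rfl) (fun _ _ _ => rfl)

theorem dg_sub (D D' : X →₀ ℤ) : dg (D - D') = dg D - dg D' := by
  have h := dg_add (D - D') D'
  rw [sub_add_cancel] at h
  omega

theorem dg_zero : dg (0 : X →₀ ℤ) = 0 := rfl

end MapDomain

section

variable {L M N : Type u} [Field L] [Algebra K L] [IsAlgClosed L] [Field M] [Algebra K M]
  [IsAlgClosed M] [Field N] [Algebra K N] [IsAlgClosed N]

theorem mapDomain_id_comp (D : Pl K (A.FC j) L →₀ ℤ) :
    D.mapDomain (fun t => (Pl.id K L).comp t) = D := by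
  have : (fun t : Pl K (A.FC j) L => (Pl.id K L).comp t) = fun t => t :=
    funext fun t => Pl.id_comp t
  rw [this]
  exact Finsupp.mapDomain_id

theorem mapDomain_comp_comp (ψ : Pl K M N) (φ : Pl K L M) (D : Pl K (A.FC j) L →₀ ℤ) :
    D.mapDomain (fun t => (ψ.comp φ).comp t) =
      (D.mapDomain (fun t => φ.comp t)).mapDomain (fun t => ψ.comp t) := by
  rw [← Finsupp.mapDomain_comp]
  congr 1
  exact funext fun t => Pl.comp_assoc _ _ _

/-- base change of the divisor of zeros -/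
theorem Zd_inc (σ : L →ₐ[K] M) (x : A.P L) (hx : A.Gen x) (f : A.F) (hf : f ≠ 0) :
    Zd T (A.inc σ x) 1 f = (Zd T x 1 f).mapDomain (fun t => (Pl.ofHom σ).comp t) := by
  obtain ⟨τ, hτ⟩ := T.cp_hom σ
  have h1 := gen_wcS T hx 1
  have h2 := gen_wcS T (gen_incS σ hx) 1
  have h3 : A.inc τ (wc T x 1) = wc T (A.inc σ x) 1 := by
    have := pl_cp_wc T (Pl.ofHom σ) x 1
    rw [hτ] at this
    exact this
  have h3' : A.Gen (A.inc τ (wc T x 1)) := h3 ▸ h2
  have h4 : A.val (wc T (A.inc σ x) 1) h2 f = τ (A.val (wc T x 1) h1 f) := by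
    have h5 : A.val (A.inc τ (wc T x 1)) h3' f = τ (A.val (wc T x 1) h1 f) := by
      rw [val_incS τ (wc T x 1) h1 h3']
      rfl
    rw [← h5]
    congr 2
    exact h3.symm
  have h0 : A.val (wc T x 1) h1 f ≠ 0 := fun h =>
    hf ((A.val (wc T x 1) h1).toRingHom.injective (h.trans (map_zero _).symm))
  rw [Zd_of_gen T _ _ _ h1, Zd_of_gen T _ _ _ h2, h4,
    mapDomain_sup_zero (fun s s' h => Pl.comp_ofHom_inj σ h)]
  congr 1
  refine T.cp_div (Pl.ofHom σ) _ _ ?_ ?_
  · intro h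
    exact h0 (τ.injective (h.trans (map_zero _).symm))
  · rw [hτ]
    exact Pl.ofHom_at _ _

end

end AVar

end Fermat.Agent.S26A
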