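import Fermat.Agent.S26A.Sq2

/-!
# Specialization of the divisors of zeros: codimension one
-/

set_option autoImplicit false
set_option linter.style.haveILetI false
set_option linter.unusedSectionVars false

noncomputable section

namespace Fermat.Agent.S26A

universe u

open AlgebraicCurve

variable {K : Type u} [Field K]

/-- conjugacy of extensions of places (proved in another file) -/
def Conj (K F Fb : Type u) [Field K] [Field F] [Field Fb] [Algebra K F] [Algebra K Fb]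
    [Algebra F Fb] [IsScalarTower K F Fb] : Prop :=
  ∀ (M : Type u) [Field M] [Algebra K M] [IsAlgClosed M] (ψ₁ ψ₂ : Pl K Fb M),
    ψ₁.comp (Pl.ofHom (IsScalarTower.toAlgHom K F Fb)) =
      ψ₂.comp (Pl.ofHom (IsScalarTower.toAlgHom K F Fb)) →
    ∃ σ : Fb ≃ₐ[F] Fb, ψ₂ = ψ₁.comp (Pl.ofHom (σ.toAlgHom.restrictScalars K))

namespace AVar

variable {g : ℕ} {A : AVar K g} {j : Fin g} (T : CT K (A.FC j))

section

variable {L L' M N : Type u} [Field L] [Algebra K L] [IsAlgClosed L] [Field L'] [Algebra K L']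
  [IsAlgClosed L'] [Field M] [Algebra K M]
  [IsAlgClosed M] [Field N] [Algebra K N] [IsAlgClosed N]

/-- the tautological embedding -/
abbrev iF (A : AVar K g) : A.F →ₐ[K] AlgebraicClosure A.F :=
  IsScalarTower.toAlgHom K A.F (AlgebraicClosure A.F)

/-- extension of an embedding to the algebraic closure -/
theorem exists_ext (v : A.F →ₐ[K] L) : ∃ τ : AlgebraicClosure A.F →ₐ[K] L, τ.comp (iF A) = v := by
  letI : Algebra A.F L := v.toRingHom.toAlgebra
  haveI : IsScalarTower K A.F L := IsScalarTower.of_algebraMap_eq fun c => (v.commutes c).symm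
  refine ⟨(IsAlgClosed.lift (R := A.F) (M := L) (S := AlgebraicClosure A.F)).restrictScalars K, ?_⟩
  refine AlgHom.ext fun f => ?_
  exact (IsAlgClosed.lift (R := A.F) (M := L) (S := AlgebraicClosure A.F)).commutes f

/-- the divisor of zeros for the tautological point -/
def D0 (f : A.F) : Pl K (A.FC j) (AlgebraicClosure A.F) →₀ ℤ := Zd T (A.inc (iF A) A.gen) 1 f

theorem gen_taut : A.Gen (A.inc (iF A) A.gen) := gen_incS _ gen_genS

theorem D0_inv (σ : AlgebraicClosure A.F ≃ₐ[A.F] AlgebraicClosure A.F) (f : A.F) (hf : f ≠ 0) :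
    (D0 T f).mapDomain
      (fun t => (Pl.ofHom (σ.toAlgHom.restrictScalars K)).comp t) = D0 T f := by
  have h : (σ.toAlgHom.restrictScalars K).comp (iF A) = iF A :=
    AlgHom.ext fun a => σ.commutes a
  unfold D0
  rw [← Zd_inc T _ _ gen_taut f hf, inc_inc, h]

theorem Zd_eq_D0 (x : A.P L) (hx : A.Gen x) (f : A.F) (hf : f ≠ 0)
    (τ : AlgebraicClosure A.F →ₐ[K] L) (hτ : τ.comp (iF A) = A.val x hx) :
    Zd T x 1 f = (D0 T f).mapDomain (fun t => (Pl.ofHom τ).comp t) := by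
  unfold D0
  rw [← Zd_inc T _ _ gen_taut f hf, inc_inc, hτ, pl_val]

/-- (CL) -/
theorem CL (hconj : Conj K A.F (AlgebraicClosure A.F)) (φ : Pl K L M) (φ' : Pl K L' M)
    (x : A.P L) (x' : A.P L') (hx : A.Gen x) (hx' : A.Gen x')
    (h : φ.comp (Pl.ofHom (A.val x hx)) = φ'.comp (Pl.ofHom (A.val x' hx')))
    (f : A.F) (hf : f ≠ 0) :
    (Zd T x 1 f).mapDomain (fun t => φ.comp t) = (Zd T x' 1 f).mapDomain (fun t => φ'.comp t) := by
  obtain ⟨τ, hτ⟩ := exists_ext (A.val x hx)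
  obtain ⟨τ', hτ'⟩ := exists_ext (A.val x' hx')
  rw [Zd_eq_D0 T x hx f hf τ hτ, Zd_eq_D0 T x' hx' f hf τ' hτ', ← mapDomain_comp_comp,
    ← mapDomain_comp_comp]
  obtain ⟨σ, hσ⟩ := hconj M (φ.comp (Pl.ofHom τ)) (φ'.comp (Pl.ofHom τ')) (by
    rw [Pl.comp_assoc, Pl.comp_assoc, Pl.ofHom_comp, Pl.ofHom_comp]
    exact (congrArg (fun v => φ.comp (Pl.ofHom v)) hτ).trans
      (h.trans (congrArg (fun v => φ'.comp (Pl.ofHom v)) hτ').symm))
  rw [hσ, mapDomain_comp_comp (φ.comp (Pl.ofHom τ)) (Pl.ofHom (σ.toAlgHom.restrictScalars K)),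
    D0_inv T σ f hf]

/-- specialization to a common point of codimension `≤ 1` -/
theorem Zd_common (hconj : Conj K A.F (AlgebraicClosure A.F)) (φ : Pl K L M) (φ' : Pl K L' M)
    (x : A.P L) (x' : A.P L') (hx : A.Gen x) (hx' : A.Gen x') (v : A.P M) (h : A.pl φ x = v)
    (h' : A.pl φ' x' = v) (hv : ∀ f : A.F, f ∈ A.O v ∨ f⁻¹ ∈ A.O v) (f : A.F) (hf : f ≠ 0) :
    (Zd T x 1 f).mapDomain (fun t => φ.comp t) = (Zd T x' 1 f).mapDomain (fun t => φ'.comp t) :=
  CL T hconj φ φ' x x' hx hx' (comp_val_eq φ φ' x x' hx hx' v h h' hv) f hf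

/-- specialization to a generic point -/
theorem Zd_spec (hconj : Conj K A.F (AlgebraicClosure A.F)) (φ : Pl K L M) (x : A.P L)
    (v : A.P M) (h : A.pl φ x = v) (hv : A.Gen v) (f : A.F) (hf : f ≠ 0) :
    (Zd T x 1 f).mapDomain (fun t => φ.comp t) = Zd T v 1 f := by
  have hx : A.Gen x := gen_of_plS (φ := φ) (h ▸ hv)
  rw [Zd_common T hconj φ (Pl.id K M) x v hx hv v h (A.pl_id M v) (val_or_of_gen hv) f hf]
  exact mapDomain_id_comp _

/-- the degree is constant -/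
theorem dg_Zd (x : A.P L) (hx : A.Gen x) (f : A.F) (hf : f ≠ 0) :
    dg (Zd T x 1 f) = dg (D0 T f) := by
  obtain ⟨τ, hτ⟩ := exists_ext (A.val x hx)
  rw [Zd_eq_D0 T x hx f hf τ hτ, dg_mapDomain]

end

/-! ### linear equivalence -/

section

variable {L M N : Type u} [Field L] [Algebra K L] [IsAlgClosed L] [Field M] [Algebra K M]
  [IsAlgClosed M] [Field N] [Algebra K N] [IsAlgClosed N]

theorem LEq.refl (D : Pl K (A.FC j) L →₀ ℤ) : LEq T D D :=
  ⟨1, one_ne_zero, by rw [sub_self, ← map_one (T.iL L), T.div_const]⟩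

variable {T}

theorem div_inv (h : T.cur L) (h0 : h ≠ 0) : T.div h⁻¹ = - T.div h := by
  have h1 := T.div_mul h h⁻¹ h0 (inv_ne_zero h0)
  rw [mul_inv_cancel₀ h0, ← map_one (T.iL L), T.div_const] at h1
  exact (neg_eq_of_add_eq_zero_right h1.symm).symm

theorem LEq.symm {D D' : Pl K (A.FC j) L →₀ ℤ} (h : LEq T D D') : LEq T D' D := by
  obtain ⟨u, hu, h⟩ := h
  exact ⟨u⁻¹, inv_ne_zero hu, by rw [div_inv u hu, ← h, neg_sub]⟩

theorem LEq.trans {D D' D'' : Pl K (A.FC j) L →₀ ℤ} (h : LEq T D D') (h' : LEq T D' D'') :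
    LEq T D D'' := by
  obtain ⟨u, hu, h⟩ := h
  obtain ⟨v, hv, h'⟩ := h'
  exact ⟨u * v, mul_ne_zero hu hv, by rw [T.div_mul u v hu hv, ← h, ← h', sub_add_sub_cancel]⟩

theorem LEq.add {D D' E E' : Pl K (A.FC j) L →₀ ℤ} (h : LEq T D D') (h' : LEq T E E') :
    LEq T (D + E) (D' + E') := by
  obtain ⟨u, hu, h⟩ := h
  obtain ⟨v, hv, h'⟩ := h'
  exact ⟨u * v, mul_ne_zero hu hv, by rw [T.div_mul u v hu hv, ← h, ← h', add_sub_add_comm]⟩

theorem leq_of_sub {D D' E E' : Pl K (A.FC j) L →₀ ℤ} (h : LEq T D D') (he : D - D' = E - E') :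
    LEq T E E' := by
  obtain ⟨u, hu, h⟩ := h
  exact ⟨u, hu, he ▸ h⟩

theorem mapDomain_sub' {X Y : Type*} (φ : X → Y) (D D' : X →₀ ℤ) :
    (D - D').mapDomain φ = D.mapDomain φ - D'.mapDomain φ :=
  map_sub (Finsupp.mapDomain.addMonoidHom φ) D D'

/-- linear equivalence specializes -/
theorem LEq.map {D D' : Pl K (A.FC j) L →₀ ℤ} (h : LEq T D D') (φ : Pl K L M) :
    LEq T (D.mapDomain (fun t => φ.comp t)) (D'.mapDomain (fun t => φ.comp t)) := by
  obtain ⟨u, hu, h⟩ := h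
  obtain ⟨c, b, hc, hb, hcb⟩ := T.scale φ u hu
  refine ⟨b, hb, ?_⟩
  have hc' : T.iL L c ≠ 0 := fun h => hc ((T.iL L).injective (h.trans (map_zero _).symm))
  rw [T.cp_div φ _ b hb hcb, T.div_mul _ _ hc' hu, T.div_const, zero_add, ← h, mapDomain_sub']

end

end AVar

end Fermat.Agent.S26A
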