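import Fermat.Agent.S26A.Sq3

/-!
# Rigidity
-/

set_option autoImplicit false
set_option linter.style.haveILetI false
set_option linter.unusedSectionVars false

noncomputable section

namespace Fermat.Agent.S26A

universe u

open AlgebraicCurve

variable {K : Type u} [Field K]

theorem Pl.comp_ofId {L M : Type u} [Field L] [Field M] [Algebra K L] [Algebra K M]
    (φ : Pl K L M) : φ.comp (Pl.ofHom (Algebra.ofId K L)) = Pl.ofHom (Algebra.ofId K M) := by
  refine Pl.eq_of_at fun a b h => ?_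
  obtain ⟨c, h1, h2⟩ := Pl.comp_at_iff.1 h
  rw [Pl.ofHom_at_iff] at h1 ⊢
  subst h1
  exact h2.uniq (φ.at_alg a)

namespace AVar

variable {g : ℕ} {A : AVar K g} {j : Fin g} (T : CT K (A.FC j))

/-- integral coefficients -/
def zc {X : Type*} (D : X →₀ ℕ) : X →₀ ℤ := D.mapRange (fun n : ℕ => (n : ℤ)) rfl

theorem zc_apply {X : Type*} (D : X →₀ ℕ) (x : X) : zc D x = (D x : ℤ) := rfl

theorem zc_mapDomain {X Y : Type*} (φ : X → Y) (D : X →₀ ℕ) :
    zc (D.mapDomain φ) = (zc D).mapDomain φ :=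
  (Finsupp.mapDomain_mapRange φ D _ rfl (fun _ _ => Nat.cast_add _ _)).symm

theorem dg_zc {X : Type*} (D : X →₀ ℕ) : dg (zc D) = ((D.sum fun _ n => n : ℕ) : ℤ) := by
  unfold dg zc
  rw [Finsupp.sum_mapRange_index (fun _ => rfl), Finsupp.sum, Finsupp.sum, Nat.cast_sum]

section

variable {L M N : Type u} [Field L] [Algebra K L] [IsAlgClosed L] [Field M] [Algebra K M]
  [IsAlgClosed M] [Field N] [Algebra K N] [IsAlgClosed N]

/-- constant points -/
abbrev cstS (A : AVar K g) (j : Fin g) (L : Type u) [Field L] [Algebra K L]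
    (s : Pl K (A.FC j) K) : Pl K (A.FC j) L := (Pl.ofHom (Algebra.ofId K L)).comp s

theorem comp_cst (φ : Pl K L M) (s : Pl K (A.FC j) K) : φ.comp (cstS A j L s) = cstS A j M s := by
  unfold cstS
  rw [← Pl.comp_assoc, Pl.comp_ofId]

theorem cst_inj : Function.Injective (cstS A j L) := fun _ _ h => Pl.comp_ofHom_inj _ h

theorem rigid' (D : Pl K (A.FC j) L →₀ ℕ)
    (h : LEq T (zc D) (zc (T.E₀.mapDomain (cstS A j L)))) : D = T.E₀.mapDomain (cstS A j L) := by
  obtain ⟨u, hu, h⟩ := h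
  refine T.E₀_rigid D u hu fun t => ?_
  exact DFunLike.congr_fun h t

theorem map_E0 (φ : Pl K L M) :
    (zc (T.E₀.mapDomain (cstS A j L))).mapDomain (fun t => φ.comp t) =
      zc (T.E₀.mapDomain (cstS A j M)) := by
  rw [← zc_mapDomain, ← Finsupp.mapDomain_comp]
  congr 2
  exact funext fun s => comp_cst φ s

theorem map_pos (φ : Pl K L M) (G : Pl K (A.FC j) L →₀ ℕ) (P : Pl K (A.FC j) L) (hP : G P ≠ 0) :
    G.mapDomain (fun t => φ.comp t) (φ.comp P) ≠ 0 := by
  have h1 : Finsupp.single P 1 ≤ G := by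
    rw [Finsupp.single_le_iff]
    omega
  obtain ⟨G', rfl⟩ := exists_add_of_le h1
  rw [Finsupp.mapDomain_add, Finsupp.mapDomain_single, Finsupp.add_apply, Finsupp.single_eq_same]
  omega

/-- a point with a value going to infinity goes to `p₀` -/
theorem eq_p₀ (t : Pl K (A.FC j) L) (h : A.FC j)
    (hreg : ∀ s : Pl K (A.FC j) K, s ≠ T.p₀ → h ∈ s.V) (h0 : t.At h⁻¹ 0) (hh : h ≠ 0) :
    t = cstS A j L T.p₀ := by
  by_contra hne
  have h1 := T.reg t h hreg hne
  have h2 : t.At (h * h⁻¹) (t.ρ ⟨h, h1⟩ * 0) := Pl.At.mul ⟨h1, rfl⟩ h0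
  rw [mul_inv_cancel₀ hh, mul_zero] at h2
  exact one_ne_zero (t.at_one.uniq h2)

/-- **rigidity** -/
theorem rigid (i : M →ₐ[K] N) (χ : Pl K M L) (θ : Pl K (A.FC j) N →₀ ℤ) (hdeg : dg θ = 0)
    (h1 : ∀ φ : Pl K N M, φ.comp (Pl.ofHom i) = Pl.id K M →
      LEq T (θ.mapDomain (fun t => (χ.comp φ).comp t)) 0)
    (φo : Pl K N M) (hφo : φo.comp (Pl.ofHom i) = Pl.id K M)
    (h2 : LEq T (θ.mapDomain (fun t => φo.comp t)) 0) : LEq T θ 0 := by
  have hd : (zc (T.E₀.mapDomain (cstS A j N)) + θ).sum (fun _ n => n) =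
      (T.E₀.sum (fun _ n => n) : ℕ) := by
    change dg (zc (T.E₀.mapDomain (cstS A j N)) + θ) = _
    rw [dg_add, hdeg, add_zero, zc_mapDomain, dg_mapDomain, dg_zc]
  obtain ⟨G, u, hu, hG⟩ := T.exists_eff _ hd
  have hG' : LEq T (zc G) (zc (T.E₀.mapDomain (cstS A j N)) + θ) :=
    ⟨u, hu, Finsupp.ext fun t => hG t⟩
  -- the points of `G` are defined over `M`
  have hA : ∀ P : Pl K (A.FC j) N, G P ≠ 0 → ∃ P' : Pl K (A.FC j) M, (Pl.ofHom i).comp P' = P := by
    intro P hP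
    by_cases hP0 : P = cstS A j N T.p₀
    · exact ⟨cstS A j M T.p₀, by rw [comp_cst, hP0]⟩
    refine T.defd i P fun h hreg => ?_
    have hb := T.reg P h hreg hP0
    by_cases hr : P.ρ ⟨h, hb⟩ ∈ Set.range i
    · obtain ⟨a, ha⟩ := hr
      exact ⟨a, hb, ha.symm⟩
    exfalso
    set b := P.ρ ⟨h, hb⟩ with hbdef
    have hPb : P.At h b := ⟨hb, rfl⟩
    letI : Algebra M N := i.toRingHom.toAlgebra
    haveI : IsScalarTower K M N := IsScalarTower.of_algebraMap_eq fun c => (i.commutes c).symm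
    have hb0 : b ≠ 0 := by
      intro h0
      exact hr ⟨0, by rw [h0, map_zero]⟩
    have hh0 : h ≠ 0 := by
      rintro rfl
      exact hb0 (hPb.uniq P.at_zero)
    obtain ⟨φ, hφ, hφb⟩ := exists_pl_pole (K := K) (L₀ := M) (L := N) b hr
    have hφ' : φ.comp (Pl.ofHom i) = Pl.id K M := hφ
    have h3 : (χ.comp φ).comp P = cstS A j L T.p₀ := by
      refine eq_p₀ T _ h hreg ?_ hh0
      exact Pl.comp_at (hPb.inv hb0) (Pl.comp_at hφb χ.at_zero)
    have h4 : LEq T (zc (G.mapDomain (fun t => (χ.comp φ).comp t)))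
        (zc (T.E₀.mapDomain (cstS A j L))) := by
      have h5 := hG'.map (χ.comp φ)
      rw [Finsupp.mapDomain_add, map_E0, ← zc_mapDomain] at h5
      have h6 := (LEq.refl T (zc (T.E₀.mapDomain (cstS A j L)))).add (h1 φ hφ')
      rw [add_zero] at h6
      exact h5.trans h6
    have h5 := rigid' T _ h4
    have h6 := map_pos (χ.comp φ) G P hP
    rw [h5, h3] at h6
    apply h6
    rw [Finsupp.mapDomain_apply cst_inj]
    exact T.E₀_p₀
  -- so `G = E₀`
  have hinj : Function.Injective (fun s : Pl K (A.FC j) M => (Pl.ofHom i).comp s) :=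
    fun _ _ h => Pl.comp_ofHom_inj _ h
  obtain ⟨G₁, hG₁⟩ : ∃ G₁ : Pl K (A.FC j) M →₀ ℕ,
      G₁.mapDomain (fun s => (Pl.ofHom i).comp s) = G := by
    refine ⟨G.comapDomain _ hinj.injOn, Finsupp.mapDomain_comapDomain _ hinj _ ?_⟩
    intro P hP
    exact hA P (Finsupp.mem_support_iff.1 hP)
  have h7 : G₁ = T.E₀.mapDomain (cstS A j M) := by
    refine rigid' T G₁ ?_
    have h8 := hG'.map φo
    rw [Finsupp.mapDomain_add, map_E0, ← hG₁, zc_mapDomain, ← mapDomain_comp_comp, hφo,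
      mapDomain_id_comp] at h8
    have h9 := (LEq.refl T (zc (T.E₀.mapDomain (cstS A j M)))).add h2
    rw [add_zero] at h9
    exact h8.trans h9
  have h8 : zc G = zc (T.E₀.mapDomain (cstS A j N)) := by
    rw [← hG₁, h7, zc_mapDomain, map_E0]
  rw [h8] at hG'
  refine (leq_of_sub hG'.symm (?_ : _ = θ - 0))
  rw [add_sub_cancel_left, sub_zero]

end

end AVar

end Fermat.Agent.S26A
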