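import Fermat.Agent.S26A.Gr2

/-!
# The zero test
-/

set_option autoImplicit false
set_option linter.style.haveILetI false
set_option linter.unusedSectionVars false

noncomputable section

namespace Fermat.Agent.S26A

universe u

namespace AVar

variable {K : Type u} [Field K] [IsAlgClosed K] {g : ℕ} {A : AVar K g} {j : Fin g}
  {T : CT K (A.FC j)} {L : Type u} [Field L] [Algebra K L] [IsAlgClosed L]
  {ν : Type*} [Fintype ν]

theorem div_smulZ (c : K) (hc : c ≠ 0) (h : T.cur L) (hh : h ≠ 0) : T.div (c • h) = T.div h := by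
  have h1 : c • h = T.iL L (algebraMap K L c) * h := by
    rw [Algebra.smul_def, AlgHom.commutes]
  rw [h1, T.div_mul _ _ ?_ hh, T.div_const, zero_add]
  rw [AlgHom.commutes]
  exact (map_ne_zero _).2 hc

variable (T) in
/-- the functions vanishing or with order `> m` at `t` -/
def ordGt (t : Pl K (A.FC j) L) (m : ℤ) : Submodule K (T.cur L) where
  carrier := {h | h = 0 ∨ m < T.div h t}
  zero_mem' := .inl rfl
  add_mem' {h h'} hh hh' := by
    change h = 0 ∨ _ at hh
    change h' = 0 ∨ _ at hh'
    change h + h' = 0 ∨ m < T.div (h + h') t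
    rcases hh with rfl | hh
    · rwa [zero_add]
    rcases hh' with rfl | hh'
    · rw [add_zero]
      exact .inr hh
    by_cases h0 : h = 0
    · rw [h0, zero_add]
      exact .inr hh'
    by_cases h0' : h' = 0
    · rw [h0', add_zero]
      exact .inr hh
    by_cases h1 : h + h' = 0
    · exact .inl h1
    exact .inr ((lt_min hh hh').trans_le (T.div_add t h h' h0 h0' h1))
  smul_mem' c h hh := by
    change h = 0 ∨ _ at hh
    change c • h = 0 ∨ m < T.div (c • h) t
    by_cases hc : c = 0
    · exact .inl (by rw [hc, zero_smul])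
    rcases hh with rfl | hh
    · exact .inl (smul_zero c)
    by_cases h0 : h = 0
    · exact .inl (by rw [h0, smul_zero])
    rw [div_smulZ c hc h h0]
    exact .inr hh

/-- a combination with the largest possible poles -/
theorem exists_comb [Nonempty ν] (F : ν → T.cur L) (hF : ∀ i, F i ≠ 0) :
    ∃ c : ν → K, ∑ i, c i • F i ≠ 0 ∧
      ∀ i, Bdd T ((-(T.div (∑ i, c i • F i))) ⊔ 0) (F i) := by
  classical
  haveI : Infinite K := IsAlgClosed.instInfinite
  let Λ : (ν → K) →ₗ[K] T.cur L := ∑ i, (LinearMap.proj i).smulRight (F i)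
  have hΛ : ∀ c, Λ c = ∑ i, c i • F i := by
    intro c
    simp only [Λ, LinearMap.sum_apply, LinearMap.smulRight_apply, LinearMap.proj_apply]
  have hΛs : ∀ i, Λ (Pi.single i 1) = F i := by
    intro i
    rw [hΛ, Finset.sum_eq_single i]
    · rw [Pi.single_eq_same, one_smul]
    · intro k _ hk
      rw [Pi.single_eq_of_ne hk, zero_smul]
    · intro h
      exact absurd (Finset.mem_univ i) h
  let U : Finset (Pl K (A.FC j) L) := Finset.univ.biUnion fun i => (T.div (F i)).support
  let p : Option (U × ν) → Submodule K (ν → K) := fun o =>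
    match o with
    | none => (⊥ : Submodule K (T.cur L)).comap Λ
    | some q => if T.div (F q.2) q.1 < 0 then (ordGt T q.1.1 (T.div (F q.2) q.1)).comap Λ else ⊥
  have hp : ∀ o, p o ≠ ⊤ := by
    intro o htop
    cases o with
    | none =>
      obtain ⟨i⟩ := (inferInstance : Nonempty ν)
      have h1 : (Pi.single i 1 : ν → K) ∈ p none := htop ▸ Submodule.mem_top
      change Λ _ ∈ (⊥ : Submodule K (T.cur L)) at h1
      rw [Submodule.mem_bot, hΛs] at h1
      exact hF i h1
    | some q =>
      have h1 : (Pi.single q.2 1 : ν → K) ∈ p (some q) := htop ▸ Submodule.mem_top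
      change _ ∈ (if T.div (F q.2) q.1 < 0 then (ordGt T q.1.1 (T.div (F q.2) q.1)).comap Λ
        else ⊥) at h1
      split_ifs at h1 with h2
      · change Λ _ = 0 ∨ _ < T.div (Λ _) _ at h1
        rw [hΛs] at h1
        rcases h1 with h1 | h1
        · exact hF _ h1
        · exact lt_irrefl _ h1
      · rw [Submodule.mem_bot] at h1
        have := congrFun h1 q.2
        rw [Pi.single_eq_same, Pi.zero_apply] at this
        exact one_ne_zero this
  have hne : ⋃ o, (p o : Set (ν → K)) ≠ Set.univ := by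
    intro h
    obtain ⟨o, ho⟩ := Subspace.exists_eq_top_of_iUnion_eq_univ h
    exact hp o ho
  obtain ⟨c, hc⟩ := (Set.ne_univ_iff_exists_notMem _).1 hne
  rw [Set.mem_iUnion] at hc
  push Not at hc
  refine ⟨c, ?_, fun i => .inr fun t => ?_⟩
  · rw [← hΛ]
    exact fun h => hc none (show Λ c ∈ (⊥ : Submodule K (T.cur L)) from h)
  · rw [← hΛ]
    simp only [Finsupp.coe_neg, Pi.neg_apply, Finsupp.sup_apply, Finsupp.coe_zero, Pi.zero_apply]
    by_cases hneg : T.div (F i) t < 0
    · have htU : t ∈ U := by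
        rw [Finset.mem_biUnion]
        exact ⟨i, Finset.mem_univ i, Finsupp.mem_support_iff.2 hneg.ne⟩
      have h1 := hc (some (⟨t, htU⟩, i))
      change c ∉ (if T.div (F i) t < 0 then (ordGt T t (T.div (F i) t)).comap Λ else ⊥) at h1
      rw [if_pos hneg] at h1
      have h2 : ¬ (Λ c = 0 ∨ T.div (F i) t < T.div (Λ c) t) := h1
      push Not at h2
      exact le_sup_of_le_left (neg_le_neg h2.2)
    · push Not at hneg
      exact le_sup_of_le_right (by linarith)

/-- values at a point of the curve -/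
theorem at_hat_wc {w : A.P L} (hw : A.Gen (wc T w 1)) (t : Pl K (A.FC j) L)
    (hv : A.Gen (w + A.pl t (A.ι j))) (f : A.F) :
    (T.hat t).At (A.val (wc T w 1) hw f) (A.val (w + A.pl t (A.ι j)) hv f) := by
  have h1 : A.pl (T.hat t) (wc T w 1) = w + A.pl t (A.ι j) := by
    rw [pl_hat_wc, one_smul]
  have h2 : f ∈ A.O (A.pl (T.hat t) (wc T w 1)) := by
    rw [h1, show A.O (w + A.pl t (A.ι j)) = ⊤ from hv]
    exact Algebra.mem_top
  obtain ⟨h3, h4⟩ := A.pl_at (T.hat t) (wc T w 1) h2
  have h5 : A.ev (A.pl (T.hat t) (wc T w 1)) ⟨f, h2⟩ = A.val (w + A.pl t (A.ι j)) hv f :=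
    A.ev_congr h1 f h2 (by
      rw [show A.O (w + A.pl t (A.ι j)) = ⊤ from hv]
      exact Algebra.mem_top)
  rw [← h5]
  exact h4

/-- **the zero test**: a combination of the `f i` with coefficients in `L` vanishing at more than
`e` points of the curve vanishes -/
theorem zero_test {w : A.P L} (hw : A.Gen w) (f : ν → A.F) (hf : LinearIndependent K f) (e : ℕ)
    (he : ∀ c : ν → K, ∑ i, c i • f i ≠ 0 → dg (Zd T w 1 (∑ i, c i • f i)) ≤ e)
    (p : Fin (e + 1) → Pl K (A.FC j) K) (hp : Function.Injective p)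
    (hg : ∀ k, A.Gen (w + A.kst L (A.pl (p k) (A.ι j)))) (a : ν → L)
    (hz : ∀ k, ∑ i, a i * A.val _ (hg k) (f i) = 0) :
    ∑ i, T.iL L (a i) * A.val (wc T w 1) (gen_wc T hw 1) (f i) = 0 := by
  classical
  by_contra h0
  rcases isEmpty_or_nonempty ν with hν | hν
  · exact h0 (by rw [Finset.univ_eq_empty, Finset.sum_empty])
  set φ := A.val (wc T w 1) (gen_wc T hw 1) with hφ
  obtain ⟨c, hc0, hc⟩ := exists_comb (T := T) (fun i => φ (f i)) fun i h => by
    have h1 : f i = 0 := (map_eq_zero φ).1 h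
    exact hf.ne_zero i h1
  have hφc : ∑ i, c i • φ (f i) = φ (∑ i, c i • f i) := by
    rw [map_sum]
    exact Finset.sum_congr rfl fun i _ => (map_smul φ (c i) (f i)).symm
  rw [hφc] at hc0 hc
  set fc := ∑ i, c i • f i with hfc
  have hfc0 : fc ≠ 0 := fun h => hc0 (by rw [h, map_zero])
  set D := (-(T.div (φ fc))) ⊔ 0 with hD
  have hD0 : 0 ≤ D := le_sup_right
  have hPd : Pd T w 1 fc = D := Pd_eq (gen_wc T hw 1) fc
  have hdg : dg D ≤ e := by
    rw [← hPd, dg_Pd (gen_wc T hw 1)]
    exact he c hfc0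
  set h := ∑ i, T.iL L (a i) * φ (f i) with hh
  have hb : Bdd T D h := by
    refine bdd_sum _ fun i _ => ?_
    have := (bdd_const (T := T) (le_refl 0) (a i)).mul (hc i)
    rwa [zero_add] at this
  have hb' := hb.resolve_left h0
  let t : Fin (e + 1) → Pl K (A.FC j) L := fun k => (Pl.ofHom (Algebra.ofId K L)).comp (p k)
  have ht : Function.Injective t := fun k k' hk => hp (Pl.comp_ofHom_inj _ hk)
  have hpt : ∀ k, A.pl (t k) (A.ι j) = A.kst L (A.pl (p k) (A.ι j)) := fun k =>
    A.pl_comp _ _ _
  have hgt : ∀ k, A.Gen (w + A.pl (t k) (A.ι j)) := fun k => by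
    rw [hpt]
    exact hg k
  have hAt : ∀ k f', (T.hat (t k)).At (φ f') (A.val _ (hgt k) f') := fun k f' =>
    at_hat_wc (gen_wc T hw 1) (t k) (hgt k) f'
  have hAtL : ∀ k (a' : L), (T.hat (t k)).At (T.iL L a') a' := by
    intro k a'
    have h8 : ((T.hat (t k)).comp (Pl.ofHom (T.iL L))).At a' a' := by
      rw [T.hat_iL]
      exact Pl.ofHom_at _ _
    obtain ⟨b, hb, hb'⟩ := Pl.comp_at_iff.1 h8
    rwa [hb.uniq (Pl.ofHom_at _ _)] at hb'
  have hDt : ∀ k, D (t k) = 0 := by
    intro k
    have h1 : 0 ≤ T.div (φ fc) (t k) := (T.div_nonneg (t k) _ hc0).2 ⟨_, hAt k fc⟩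
    simp only [hD, Finsupp.sup_apply, Finsupp.coe_neg, Pi.neg_apply, Finsupp.coe_zero,
      Pi.zero_apply]
    rw [sup_eq_right]
    linarith
  have hpos : ∀ k, 0 < T.div h (t k) := by
    intro k
    rw [T.div_pos (t k) h h0]
    have h1 : (T.hat (t k)).At h (∑ i, a i * A.val _ (hgt k) (f i)) := by
      rw [hh]
      have key : ∀ s : Finset ν, (T.hat (t k)).At (∑ i ∈ s, T.iL L (a i) * φ (f i))
          (∑ i ∈ s, a i * A.val _ (hgt k) (f i)) := by
        intro s
        induction s using Finset.induction_on with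
        | empty =>
          rw [Finset.sum_empty, Finset.sum_empty]
          exact Pl.at_zero _
        | insert i s hi ih =>
          rw [Finset.sum_insert hi, Finset.sum_insert hi]
          exact ((hAtL k (a i)).mul (hAt k (f i))).add ih
      exact key _
    have h2 : ∑ i, a i * A.val _ (hgt k) (f i) = 0 := by
      rw [← hz k]
      refine Finset.sum_congr rfl fun i _ => ?_
      congr 1
      exact congrArg (fun ψ : A.F →ₐ[K] L => ψ (f i)) (A.val_congr (by rw [hpt]) _ _)
    rwa [h2] at h1
  have hle : ∑ k, Finsupp.single (t k) (1 : ℤ) ≤ T.div h + D := by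
    intro s
    rw [Finsupp.finsetSum_apply, Finsupp.add_apply]
    have hbs := hb' s
    rw [Finsupp.coe_neg, Pi.neg_apply] at hbs
    by_cases hs : ∃ k, t k = s
    · obtain ⟨k, rfl⟩ := hs
      rw [Finset.sum_eq_single k]
      · rw [Finsupp.single_eq_same, hDt k]
        have := hpos k
        omega
      · intro k' _ hk
        rw [Finsupp.single_eq_of_ne]
        intro h
        exact hk (ht h.symm)
      · intro h
        exact absurd (Finset.mem_univ k) h
    · have e2 : ∑ k', (Finsupp.single (t k') (1 : ℤ)) s = 0 := by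
        apply Finset.sum_eq_zero
        intro k _
        rw [Finsupp.single_eq_of_ne]
        intro h
        exact hs ⟨k, h.symm⟩
      rw [e2]
      linarith
  have h1 := dg_mono hle
  rw [dg_add7, show dg (T.div h) = 0 from T.deg_div h, dg_sum] at h1
  have h2 : ∑ k : Fin (e + 1), dg (Finsupp.single (t k) (1 : ℤ)) = e + 1 := by
    have h3 : ∀ k, dg (Finsupp.single (t k) (1 : ℤ)) = 1 := by
      intro k
      rw [dg, Finsupp.sum_single_index rfl]
    simp only [h3]
    simp
  rw [h2] at h1
  linarith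

end AVar

end Fermat.Agent.S26A
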